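import Fermat.Agent.S55.G.Rec.Reciprocity
import Fermat.Agent.S55.G.Rec.HP.Main
import Fermat.Agent.S55.G.AllH604

/-!
# S55 / layer G / block REC : THE RECIPROCITY LAW, unconditional in layer G  (helper1)

* `hassePrincipleFull p hp : HassePrincipleSpec p` : the Hasse principle for the `p`-primary part
  of `Br(K)`, `K` any number field inside `ℚ̄`, `p` odd  (adapter HP of helper473 + the closed
  layer G of helper604: first and second inequality, `PClassUpperSpec`).
* **`reciprocityFull I p hp : ReciprocitySpec I p`** : for EVERY local invariant system `I`
  (`Rec/Spec.lean`), every odd prime `p`, every number field `K = ℚ̄^U` and every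
  `x ∈ Br(K)` of `p`-power order: almost all `inv_v (x_v)` vanish and `∑_v inv_v (x_v) = 0`.

The only remaining input of block REC is the existence of a `LocalInvSystem` (adapter `Rec/Loc`).
-/

set_option autoImplicit false

namespace Fermat.Agent.S55.G.Rec

/-- **Hasse principle**, `p` odd. -/
theorem hassePrincipleFull (p : ℕ) [Fact p.Prime] (hp : p ≠ 2) : HassePrincipleSpec p :=
  HP.hassePrinciple p hp G.AllH604.pClassUpper G.AllH604.classShortExact G.AllH604.shapiroJ

/-- **Reciprocity law**, `p` odd, for every local invariant system. -/
theorem reciprocityFull (I : LocalInvSystem) (p : ℕ) [Fact p.Prime] (hp : p ≠ 2) :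
    ReciprocitySpec I p :=
  reciprocity I p hp (hassePrincipleFull p hp)

end Fermat.Agent.S55.G.Rec
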