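import Fermat.Agent.S55.G.Rec.Defs2

/-!
# S55 / layer G / block REC : leaf statements of the NORM ROUTE  (blueprint §N of coord/S55-G-REC.md)

Goal of the block:  `theorem reciprocity_of (hHP : HassePrincipleSpec p) (I : LocalInvSystem) :
ReciprocitySpec I p`  (p odd).  Every `def XxxSpec : Prop` below is a leaf: prove
`theorem xxx : XxxSpec` in `Fermat/Agent/S55/G/Rec/<Leaf>H<seat>.lean`.

Blocks:  KEY (cup classes),  LOC (local arithmetic in `PadicAlgCl q`),  GLOB (orbits, norms),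
STEP (assembly A, B, C).
-/

set_option autoImplicit false

noncomputable section

namespace Fermat.Agent.S55.G.Rec

open groupCohomology

local notation "Qb" => AlgebraicClosure ℚ
local notation "GQ" => (AlgebraicClosure ℚ ≃ₐ[ℚ] AlgebraicClosure ℚ)

/-! ## Block KEY : cup classes -/

/-- (K1) localisation of a global cup class is the local cup class. -/
def CupLocSpec : Prop :=
  ∀ (q : ℕ) [Fact q.Prime] (g : GQ) (U : Subgroup GQ) (n : ℕ)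
    (χ : ↥U →* Multiplicative (ZMod n)) (a : Qbˣ),
    n ≠ 0 → IsLevelConstant₁ U.subtype χ → GFixed U a →
    (IsLevelConstant₁ (lHom q (locSub q g U)) (χ.comp (locHom q g U)) ∧
      LFixed q (locSub q g U) (locPushMul q g a)) ∧
    locBr q g U (gcc U n χ a) =
      lcc q (locSub q g U) n (χ.comp (locHom q g U)) (locPushMul q g a)

/-- (K2) additivity of cup classes in the element and in the character (global and local). -/
def CupAddSpec : Prop :=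
  (∀ (U : Subgroup GQ) (n : ℕ) (χ χ' : ↥U →* Multiplicative (ZMod n)) (a b : Qbˣ),
    n ≠ 0 → IsLevelConstant₁ U.subtype χ → IsLevelConstant₁ U.subtype χ' →
    GFixed U a → GFixed U b →
      gcc U n χ (a * b) = gcc U n χ a + gcc U n χ b ∧
      gcc U n (χ * χ') a = gcc U n χ a + gcc U n χ' a) ∧
  (∀ (q : ℕ) [Fact q.Prime] (V : Subgroup (PadicAlgCl q ≃ₐ[ℚ_[q]] PadicAlgCl q)) (n : ℕ)
    (χ χ' : ↥V →* Multiplicative (ZMod n)) (a b : (PadicAlgCl q)ˣ),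
    n ≠ 0 → IsLevelConstant₁ (lHom q V) χ → IsLevelConstant₁ (lHom q V) χ' →
    LFixed q V a → LFixed q V b →
      lcc q V n χ (a * b) = lcc q V n χ a + lcc q V n χ b ∧
      lcc q V n (χ * χ') a = lcc q V n χ a + lcc q V n χ' a)

/-- (K4) GLOBAL CYCLIC SPLITTING (inflation–restriction + Hilbert 90 + cyclic periodicity):
a class of `Br(K)` which dies in `Br(L)`, `L/K` cyclic, is a cup class `a ∪ δχ`, where `χ` is
ANY prescribed surjective character with kernel `Gal(ℚ̄/L)`. -/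
def CyclicSplitSpec : Prop :=
  ∀ (U : Subgroup GQ), IsOpenQ U → ∀ (n : ℕ) [NeZero n] (χ : ↥U →* Multiplicative (ZMod n)),
    IsLevelConstant₁ U.subtype χ → Function.Surjective χ →
    ∀ x : gBr U, gRes (U := U) (U' := χ.ker.map U.subtype) (Subgroup.map_subtype_le _) x = 0 →
      ∃ a : Qbˣ, GFixed U a ∧ x = gcc U n χ a

/-- (K5) LOCAL NORM CRITERION (hard direction): if the local cup class `a ∪ δχ` vanishes then `a`
is a norm from the fixed field of `ker χ` (`χ` need not be surjective). -/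
def LocalNormSpec : Prop :=
  ∀ (q : ℕ) [Fact q.Prime] (V : Subgroup (PadicAlgCl q ≃ₐ[ℚ_[q]] PadicAlgCl q)),
    IsOpenL q V → ∀ (n : ℕ) [NeZero n] (χ : ↥V →* Multiplicative (ZMod n)),
    IsLevelConstant₁ (lHom q V) χ → ∀ a : (PadicAlgCl q)ˣ, LFixed q V a →
    lcc q V n χ a = 0 →
      ∃ b : (PadicAlgCl q)ˣ, LFixed q (χ.ker.map V.subtype) b ∧
        a = relNorm (G := ↥V) χ.ker b

/-! ## Block LOC : local arithmetic -/

/-- (L1) `‖a‖ ^ [G_{ℚ_q} : V] = q ^ (- vdeg)` for `a` in the fixed field of an open `V`. -/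
def VdegSpec : Prop :=
  ∀ (q : ℕ) [Fact q.Prime] (V : Subgroup (PadicAlgCl q ≃ₐ[ℚ_[q]] PadicAlgCl q)),
    IsOpenL q V → ∀ a : (PadicAlgCl q)ˣ, LFixed q V a →
      ‖(a : PadicAlgCl q)‖ ^ V.index = (q : ℝ) ^ (- vdeg q V a)

/-- (L2) local structure: Frobenius elements and uniformizers exist; `vdeg = f · ord`. -/
def LocalStructureSpec : Prop :=
  ∀ (q : ℕ) [Fact q.Prime] (V : Subgroup (PadicAlgCl q ≃ₐ[ℚ_[q]] PadicAlgCl q)),
    IsOpenL q V →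
      ∃ (f : ℕ) (φ : PadicAlgCl q ≃ₐ[ℚ_[q]] PadicAlgCl q) (π : (PadicAlgCl q)ˣ),
        IsResidueDegree q V f ∧ φ ∈ V ∧
        (∀ x : PadicAlgCl q, ‖x‖ ≤ 1 → ‖φ x - x ^ (q ^ f)‖ < 1) ∧
        IsUniformizer q V (π : PadicAlgCl q) ∧ vdeg q V π = f ∧
        ∀ a : (PadicAlgCl q)ˣ, LFixed q V a →
          ∃ (k : ℤ) (u : (PadicAlgCl q)ˣ), LFixed q V u ∧ ‖(u : PadicAlgCl q)‖ = 1 ∧
            a = π ^ k * u ∧ vdeg q V a = f * k

/-- (L3) UNRAMIFIED FORMULA: for an unramified continuous character `χ` of `V`, a Frobenius `φ`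
with residue degree `f` and `a ∈ K_vˣ`:  `inv (a ∪ δχ) = ord_v(a) · χ(φ) / n`, `vdeg a = f · ord_v a`. -/
def UnramCupSpec (I : LocalInvSystem) : Prop :=
  ∀ (q : ℕ) [Fact q.Prime] (V : Subgroup (PadicAlgCl q ≃ₐ[ℚ_[q]] PadicAlgCl q)),
    IsOpenL q V → ∀ (n : ℕ) [NeZero n] (χ : ↥V →* Multiplicative (ZMod n)),
    IsLevelConstant₁ (lHom q V) χ →
    (∀ τ : ↥V, IsInertial q (τ : PadicAlgCl q ≃ₐ[ℚ_[q]] PadicAlgCl q) → χ τ = 1) →
    ∀ (f : ℕ), IsResidueDegree q V f →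
    ∀ (φ : ↥V), (∀ x : PadicAlgCl q, ‖x‖ ≤ 1 →
      ‖(φ : PadicAlgCl q ≃ₐ[ℚ_[q]] PadicAlgCl q) x - x ^ (q ^ f)‖ < 1) →
    ∀ (a : (PadicAlgCl q)ˣ), LFixed q V a → ∀ k : ℤ, vdeg q V a = f * k →
      I.inv q V (lcc q V n χ a) =
        ((((k : ℚ) * ((chiAdd χ φ).val : ℚ) / (n : ℚ) : ℚ)) : AddCircle (1 : ℚ))

/-- (L4) cyclotomic characters away from `q`: inertial elements act trivially on `μ_m` and a
Frobenius with residue degree `f` acts by `ζ ↦ ζ ^ (q ^ f)`  (`q ∤ m`). -/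
def CycloFrobSpec : Prop :=
  ∀ (q : ℕ) [Fact q.Prime] (m : ℕ), ¬ q ∣ m →
    (∀ τ : PadicAlgCl q ≃ₐ[ℚ_[q]] PadicAlgCl q, IsInertial q τ →
      ∀ ζ : PadicAlgCl q, ζ ^ m = 1 → τ ζ = ζ) ∧
    (∀ (τ : PadicAlgCl q ≃ₐ[ℚ_[q]] PadicAlgCl q) (f : ℕ),
      (∀ x : PadicAlgCl q, ‖x‖ ≤ 1 → ‖τ x - x ^ (q ^ f)‖ < 1) →
      ∀ ζ : PadicAlgCl q, ζ ^ m = 1 → τ ζ = ζ ^ (q ^ f))

/-- (L5) NORMS FROM LOCAL CYCLOTOMIC FIELDS: `ℓ` an odd prime, `m = ℓ ^ e`, `W ≤ G_{ℚ_ℓ}` a subgroup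
containing the group of `ℚ̄_ℓ/ℚ_ℓ(μ_m)`, `b` in the fixed field `E` of `W`.  Then
`N_{E/ℚ_ℓ}(b) = ± ℓ^k · u` with `u ≡ t mod m`, where `t` is the cyclotomic value of some `τ ∈ W`
(`τ ζ = ζ ^ t` on `μ_m`). -/
def LocalCycloNormSpec : Prop :=
  ∀ (ℓ : ℕ) [Fact ℓ.Prime], ℓ ≠ 2 → ∀ (e : ℕ), 0 < e →
    ∀ W : Subgroup (PadicAlgCl ℓ ≃ₐ[ℚ_[ℓ]] PadicAlgCl ℓ),
    (∀ τ : PadicAlgCl ℓ ≃ₐ[ℚ_[ℓ]] PadicAlgCl ℓ,
      (∀ ζ : PadicAlgCl ℓ, ζ ^ (ℓ ^ e) = 1 → τ ζ = ζ) → τ ∈ W) →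
    ∀ b : (PadicAlgCl ℓ)ˣ, LFixed ℓ W b →
      ∃ (k : ℤ) (s : ℤˣ) (t : ℕ) (τ : PadicAlgCl ℓ ≃ₐ[ℚ_[ℓ]] PadicAlgCl ℓ), τ ∈ W ∧
        (∀ ζ : PadicAlgCl ℓ, ζ ^ (ℓ ^ e) = 1 → τ ζ = ζ ^ t) ∧
        ‖((relNorm W b : (PadicAlgCl ℓ)ˣ) : PadicAlgCl ℓ) -
            ((s : ℤ) : PadicAlgCl ℓ) * (ℓ : PadicAlgCl ℓ) ^ k * (t : PadicAlgCl ℓ)‖
          ≤ ‖(ℓ : PadicAlgCl ℓ)‖ ^ (k + e)

/-- (L6) roots of elements close to `1`: `‖a - 1‖ < 1`, `q ∤ n` ⇒ `a` is an `n`-th power in `K_v`. -/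
def LocalRootSpec : Prop :=
  ∀ (q : ℕ) [Fact q.Prime] (V : Subgroup (PadicAlgCl q ≃ₐ[ℚ_[q]] PadicAlgCl q))
    (n : ℕ), ¬ q ∣ n → ∀ a : (PadicAlgCl q)ˣ, LFixed q V a → ‖(a : PadicAlgCl q) - 1‖ < 1 →
      ∃ b : (PadicAlgCl q)ˣ, LFixed q V b ∧ b ^ n = a

/-! ## Block GLOB : orbits, norms, approximation, support -/

/-- (G1) the global norm is rational and is the product of the local norms:
`ι_q (N_{K/ℚ} a) = ∏_{v | q} N_{K_v/ℚ_q} (a_v)`. -/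
def OrbitNormSpec : Prop :=
  ∀ (U : Subgroup GQ), IsOpenQ U → ∀ a : Qbˣ, GFixed U a →
    (∃ y : ℚˣ, ((relNorm U a : Qbˣ) : Qb) = algebraMap ℚ Qb (y : ℚ)) ∧
    ∀ (q : ℕ) [Fact q.Prime] (R : Finset GQ),
      IsDoubleCosetReps U (localGaloisToGlobal q).range R →
        locPushMul q 1 (relNorm U a) = ∏ r ∈ R, relNorm (locSub q r U) (locPushMul q r a)

/-- (G1') product formula in degree-valuation form: `v_q (N_{K/ℚ} a) = ∑_{v | q} vdeg_v (a)`. -/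
def ProductFormulaSpec : Prop :=
  ∀ (U : Subgroup GQ), IsOpenQ U → ∀ a : Qbˣ, GFixed U a →
    ∀ y : ℚˣ, ((relNorm U a : Qbˣ) : Qb) = algebraMap ℚ Qb (y : ℚ) →
    ∀ (q : ℕ) [Fact q.Prime] (R : Finset GQ),
      IsDoubleCosetReps U (localGaloisToGlobal q).range R →
        padicValRat q (y : ℚ) = ∑ r ∈ R, vdeg q (locSub q r U) (locPushMul q r a)

/-- (G3) weak approximation in `K = ℚ̄^U`: prescribed valuations at the places above `p` and
closeness to `1` at the places above another prime `r`. -/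
def WeakApproxSpec : Prop :=
  ∀ (U : Subgroup GQ), IsOpenQ U → ∀ (p r : ℕ) [Fact p.Prime] [Fact r.Prime], p ≠ r →
    ∀ (Rp : Finset GQ), IsDoubleCosetReps U (localGaloisToGlobal p).range Rp →
    ∀ (j : GQ → ℤ), ∃ a : Qbˣ, GFixed U a ∧
      (∀ g ∈ Rp, ∃ (π : (PadicAlgCl p)ˣ) (u : (PadicAlgCl p)ˣ),
        IsUniformizer p (locSub p g U) (π : PadicAlgCl p) ∧ ‖(u : PadicAlgCl p)‖ = 1 ∧
        locPushMul p g a = π ^ (j g) * u) ∧
      (∀ g : GQ, ‖((locPushMul r g a : (PadicAlgCl r)ˣ) : PadicAlgCl r) - 1‖ < 1)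

/-- (G4) finiteness of the support (uses only `inv_unram`, `inv_injective`). -/
def SupportFiniteSpec : Prop :=
  LocalInvSystem → ∀ (U : Subgroup GQ), IsOpenQ U → ∀ x : gBr U,
    {q : Nat.Primes | ∃ g : GQ,
      haveI : Fact (q : ℕ).Prime := ⟨q.2⟩
      locBr (q : ℕ) g U x ≠ 0}.Finite

/-- (G5) localisation commutes with restriction. -/
def LocResSpec : Prop :=
  ∀ (q : ℕ) [Fact q.Prime] (g : GQ) (U U' : Subgroup GQ) (h : U' ≤ U) (x : gBr U),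
    locBr q g U' (gRes h x) =
      lRes q (V := locSub q g U) (V' := locSub q g U')
        (fun _ hτ => h hτ) (locBr q g U x)

/-! ## Block STEP : assembly -/

/-- The sum of all local invariants of a global class, for a choice `R` of representatives. -/
def LocalInvSystem.sumInv (I : LocalInvSystem) (U : Subgroup GQ) (R : Nat.Primes → Finset GQ)
    (x : gBr U) : AddCircle (1 : ℚ) :=
  ∑ᶠ q : Nat.Primes, ∑ r ∈ R q, I.invAt q r U x

/-- `R` is a system of representatives of the places of `ℚ̄^U`. -/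
def IsPlaceReps (U : Subgroup GQ) (R : Nat.Primes → Finset GQ) : Prop :=
  ∀ q : Nat.Primes,
    haveI : Fact (q : ℕ).Prime := ⟨q.2⟩
    IsDoubleCosetReps U (localGaloisToGlobal (q : ℕ)).range (R q)

/-- (STEP A) cyclotomic sum formula: for a cup class with a character of odd order `n` which is
cyclotomic mod `m = ℓ ^ e`, locally trivial at all places above `ℓ`, the sum of the local
invariants vanishes. -/
def CycloSumSpec (I : LocalInvSystem) : Prop :=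
  ∀ (U : Subgroup GQ), IsOpenQ U → ∀ (ℓ : ℕ) [Fact ℓ.Prime], ℓ ≠ 2 → ∀ (e : ℕ), 0 < e →
    ∀ (n : ℕ), Odd n → ∀ (χ : ↥U →* Multiplicative (ZMod n)),
    IsLevelConstant₁ U.subtype χ → IsCycloChar U (ℓ ^ e) χ →
    ∀ a : Qbˣ, GFixed U a →
    (∀ g : GQ, locBr ℓ g U (gcc U n χ a) = 0) →
    ∀ R : Nat.Primes → Finset GQ, IsPlaceReps U R → I.sumInv U R (gcc U n χ a) = 0

/-- (STEP B) classes of `p`-power order which are trivial at the places above `p`. -/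
def TrivAbovePSpec (I : LocalInvSystem) (p : ℕ) [Fact p.Prime] : Prop :=
  ∀ (U : Subgroup GQ), IsOpenQ U → ∀ x : gBr U, (∃ k : ℕ, p ^ k • x = 0) →
    (∀ g : GQ, locBr p g U x = 0) →
    ∀ R : Nat.Primes → Finset GQ, IsPlaceReps U R → I.sumInv U R x = 0

/-- (STEP C) killing the components above `p` by a cup class with vanishing sum. -/
def KillAbovePSpec (I : LocalInvSystem) (p : ℕ) [Fact p.Prime] : Prop :=
  ∀ (U : Subgroup GQ), IsOpenQ U → ∀ x : gBr U, (∃ k : ℕ, p ^ k • x = 0) →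
    ∃ y : gBr U, (∃ k : ℕ, p ^ k • y = 0) ∧ (∀ g : GQ, locBr p g U (x - y) = 0) ∧
      ∀ R : Nat.Primes → Finset GQ, IsPlaceReps U R → I.sumInv U R y = 0

end Fermat.Agent.S55.G.Rec
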