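import Fermat.Agent.S55.G.Rec.Spec2

/-!
# S55 / layer G / block REC : final assembly (leaf FIN)

`reciprocity_of : TrivAbovePSpec I p → KillAbovePSpec I p → SupportFiniteSpec → ReciprocitySpec I p`.
-/

set_option autoImplicit false

noncomputable section

namespace Fermat.Agent.S55.G.Rec

open groupCohomology

local notation "Qb" => AlgebraicClosure ℚ
local notation "GQ" => (AlgebraicClosure ℚ ≃ₐ[ℚ] AlgebraicClosure ℚ)

lemma LocalInvSystem.invAt_add (I : LocalInvSystem) (q : Nat.Primes) (g : GQ) (U : Subgroup GQ)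
    (x y : gBr U) : I.invAt q g U (x + y) = I.invAt q g U x + I.invAt q g U y := by
  unfold LocalInvSystem.invAt
  rw [map_add, map_add]

lemma LocalInvSystem.invAt_eq_zero (I : LocalInvSystem) (q : Nat.Primes) (g : GQ)
    (U : Subgroup GQ) (x : gBr U)
    (h : haveI : Fact (q : ℕ).Prime := ⟨q.2⟩; locBr (q : ℕ) g U x = 0) :
    I.invAt q g U x = 0 := by
  unfold LocalInvSystem.invAt
  rw [h, map_zero]

/-- The local sums have finite support. -/
lemma LocalInvSystem.support_finite (I : LocalInvSystem) (hS : SupportFiniteSpec)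
    (U : Subgroup GQ) (hU : IsOpenQ U) (R : Nat.Primes → Finset GQ) (x : gBr U) :
    (Function.support fun q : Nat.Primes => ∑ r ∈ R q, I.invAt q r U x).Finite := by
  refine (hS I U hU x).subset ?_
  intro q hq
  rw [Function.mem_support] at hq
  by_contra hcon
  apply hq
  apply Finset.sum_eq_zero
  intro r _
  apply I.invAt_eq_zero
  by_contra h0
  exact hcon ⟨r, h0⟩

lemma LocalInvSystem.sumInv_add (I : LocalInvSystem) (hS : SupportFiniteSpec)
    (U : Subgroup GQ) (hU : IsOpenQ U) (R : Nat.Primes → Finset GQ) (x y : gBr U) :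
    I.sumInv U R (x + y) = I.sumInv U R x + I.sumInv U R y := by
  unfold LocalInvSystem.sumInv
  rw [← finsum_add_distrib (I.support_finite hS U hU R x) (I.support_finite hS U hU R y)]
  congr 1
  funext q
  rw [← Finset.sum_add_distrib]
  exact Finset.sum_congr rfl fun r _ => I.invAt_add q r U x y

/-- **FIN**: the reciprocity law from STEP B, STEP C and finiteness of supports. -/
theorem reciprocity_of (I : LocalInvSystem) (p : ℕ) [Fact p.Prime]
    (hB : TrivAbovePSpec I p) (hC : KillAbovePSpec I p) (hS : SupportFiniteSpec) :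
    ReciprocitySpec I p := by
  intro U hU x hx R hR
  refine ⟨I.support_finite hS U hU R x, ?_⟩
  obtain ⟨y, hy, hloc, hsum⟩ := hC U hU x hx
  have hR' : IsPlaceReps U R := hR
  have hxy : ∃ k : ℕ, p ^ k • (x - y) = 0 := by
    obtain ⟨k, hk⟩ := hx
    obtain ⟨k', hk'⟩ := hy
    refine ⟨k + k', ?_⟩
    have e1 : p ^ (k + k') • x = p ^ k' • (p ^ k • x) := by
      rw [← mul_smul, pow_add, mul_comm]
    have e2 : p ^ (k + k') • y = p ^ k • (p ^ k' • y) := by
      rw [← mul_smul, pow_add]
    rw [smul_sub, e1, e2, hk, hk', smul_zero, smul_zero, sub_zero]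
  have h1 : I.sumInv U R (x - y) = 0 := hB U hU (x - y) hxy hloc R hR'
  have h2 : I.sumInv U R y = 0 := hsum R hR'
  have h3 : I.sumInv U R x = I.sumInv U R (x - y) + I.sumInv U R y := by
    rw [← I.sumInv_add hS U hU R, sub_add_cancel]
  show I.sumInv U R x = 0
  rw [h3, h1, h2, add_zero]

end Fermat.Agent.S55.G.Rec
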