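import Mathlib

/-!
# S55 / layer G / block REC, leaf A1 (arithmetic part): the carry function of a character

For a character `χ : G →* Multiplicative (ZMod n)` (`n ≠ 0`) we define the canonical lift
`lift χ g ∈ {0, …, n-1}` and the carry `carry χ g h = (lift χ g + lift χ h) / n ∈ {0, 1}`,
so that `lift χ g + lift χ h = lift χ (g * h) + n * carry χ g h`.

Main facts: the cocycle identity `carry_cocycle`, the coboundary identity `carry_mul`
for a product of two characters, and compatibility with composition.
-/

set_option autoImplicit false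

namespace Fermat.Agent.S55.G.Rec

variable {G : Type*} [Monoid G] {n : ℕ} [NeZero n]

/-- The canonical lift `χ̃(g) ∈ {0, …, n-1}` of the value of a character. -/
def lift (χ : G →* Multiplicative (ZMod n)) (g : G) : ℕ :=
  (Multiplicative.toAdd (χ g)).val

/-- The carry `ε_χ(g,h) = (χ̃ g + χ̃ h - χ̃ (g h)) / n ∈ {0, 1}`. -/
def carry (χ : G →* Multiplicative (ZMod n)) (g h : G) : ℕ :=
  (lift χ g + lift χ h) / n

theorem lift_lt (χ : G →* Multiplicative (ZMod n)) (g : G) : lift χ g < n :=
  ZMod.val_lt _

omit [NeZero n] in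
@[simp] theorem lift_one_char (g : G) : lift (1 : G →* Multiplicative (ZMod n)) g = 0 := by
  simp [lift]

omit [NeZero n] in
@[simp] theorem lift_map_one (χ : G →* Multiplicative (ZMod n)) : lift χ 1 = 0 := by
  simp [lift]

theorem lift_mul (χ : G →* Multiplicative (ZMod n)) (g h : G) :
    lift χ (g * h) = (lift χ g + lift χ h) % n := by
  simp only [lift, map_mul, toAdd_mul]
  exact ZMod.val_add _ _

theorem lift_mul_char (χ χ' : G →* Multiplicative (ZMod n)) (g : G) :
    lift (χ * χ') g = (lift χ g + lift χ' g) % n := by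
  simp only [lift, MonoidHom.mul_apply, toAdd_mul]
  exact ZMod.val_add _ _

/-- The defining relation of the carry. -/
theorem lift_add_lift (χ : G →* Multiplicative (ZMod n)) (g h : G) :
    lift χ g + lift χ h = lift χ (g * h) + n * carry χ g h := by
  rw [lift_mul, carry]
  exact (Nat.mod_add_div _ _).symm

theorem carry_le_one (χ : G →* Multiplicative (ZMod n)) (g h : G) : carry χ g h ≤ 1 := by
  have h1 := lift_lt χ g
  have h2 := lift_lt χ h
  have hn : 0 < n := Nat.pos_of_ne_zero (NeZero.ne n)
  rw [carry]
  have : (lift χ g + lift χ h) / n < 2 := by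
    rw [Nat.div_lt_iff_lt_mul hn]
    omega
  omega

theorem carry_eq_ite (χ : G →* Multiplicative (ZMod n)) (g h : G) :
    carry χ g h = if n ≤ lift χ g + lift χ h then 1 else 0 := by
  have h1 := lift_lt χ g
  have h2 := lift_lt χ h
  have hn : 0 < n := Nat.pos_of_ne_zero (NeZero.ne n)
  split_ifs with hle
  · have h3 : 0 < carry χ g h := Nat.div_pos hle hn
    have := carry_le_one χ g h
    omega
  · rw [carry]
    exact Nat.div_eq_of_lt (not_le.mp hle)

omit [NeZero n] in
@[simp] theorem carry_one_char (g h : G) : carry (1 : G →* Multiplicative (ZMod n)) g h = 0 := by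
  simp [carry]

@[simp] theorem carry_one_left (χ : G →* Multiplicative (ZMod n)) (h : G) : carry χ 1 h = 0 := by
  rw [carry, lift_map_one, zero_add]
  exact Nat.div_eq_of_lt (lift_lt χ h)

@[simp] theorem carry_one_right (χ : G →* Multiplicative (ZMod n)) (g : G) : carry χ g 1 = 0 := by
  rw [carry, lift_map_one, add_zero]
  exact Nat.div_eq_of_lt (lift_lt χ g)

/-- The cocycle identity for the carry. -/
theorem carry_cocycle (χ : G →* Multiplicative (ZMod n)) (g h j : G) :
    carry χ (g * h) j + carry χ g h = carry χ h j + carry χ g (h * j) := by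
  have hn : 0 < n := Nat.pos_of_ne_zero (NeZero.ne n)
  have e1 := lift_add_lift χ g h
  have e2 := lift_add_lift χ (g * h) j
  have e3 := lift_add_lift χ h j
  have e4 := lift_add_lift χ g (h * j)
  rw [mul_assoc] at e2
  have key : n * (carry χ (g * h) j + carry χ g h) = n * (carry χ h j + carry χ g (h * j)) := by
    rw [mul_add, mul_add]
    omega
  exact Nat.eq_of_mul_eq_mul_left hn key

/-- The correction term `η(g) = (χ̃ g + χ̃' g) / n ∈ {0,1}` for the product of two characters. -/
def carryChar (χ χ' : G →* Multiplicative (ZMod n)) (g : G) : ℕ :=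
  (lift χ g + lift χ' g) / n

theorem lift_add_lift_char (χ χ' : G →* Multiplicative (ZMod n)) (g : G) :
    lift χ g + lift χ' g = lift (χ * χ') g + n * carryChar χ χ' g := by
  rw [lift_mul_char, carryChar]
  exact (Nat.mod_add_div _ _).symm

/-- The coboundary identity: `ε_χ + ε_χ' - ε_{χχ'} = dη`. -/
theorem carry_mul (χ χ' : G →* Multiplicative (ZMod n)) (g h : G) :
    carry χ g h + carry χ' g h + carryChar χ χ' (g * h) =
      carry (χ * χ') g h + carryChar χ χ' g + carryChar χ χ' h := by
  have hn : 0 < n := Nat.pos_of_ne_zero (NeZero.ne n)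
  have e1 := lift_add_lift χ g h
  have e2 := lift_add_lift χ' g h
  have e3 := lift_add_lift (χ * χ') g h
  have e4 := lift_add_lift_char χ χ' g
  have e5 := lift_add_lift_char χ χ' h
  have e6 := lift_add_lift_char χ χ' (g * h)
  have key : n * (carry χ g h + carry χ' g h + carryChar χ χ' (g * h)) =
      n * (carry (χ * χ') g h + carryChar χ χ' g + carryChar χ χ' h) := by
    rw [mul_add, mul_add, mul_add, mul_add]
    omega
  exact Nat.eq_of_mul_eq_mul_left hn key

omit [NeZero n] in
/-- Compatibility with composition. -/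
@[simp] theorem lift_comp {G' : Type*} [Monoid G'] (χ : G →* Multiplicative (ZMod n))
    (f : G' →* G) (g : G') : lift (χ.comp f) g = lift χ (f g) := rfl

omit [NeZero n] in
@[simp] theorem carry_comp {G' : Type*} [Monoid G'] (χ : G →* Multiplicative (ZMod n))
    (f : G' →* G) (g h : G') : carry (χ.comp f) g h = carry χ (f g) (f h) := rfl

end Fermat.Agent.S55.G.Rec
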