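import Mathlib
import Fermat.Agent.S55.G.Rec.H473Carry

/-!
# S55 / layer G / block REC, leaves A1–A3: the cocycle `cupChar a χ`

`G` a group, `n ≠ 0`, `χ : G →* Multiplicative (ZMod n)` a character, `A : Rep k G`,
`a ∈ A^G`.  The function `(g, h) ↦ ε_χ(g,h) • a` (`ε_χ = carry χ ∈ {0,1}`) is a 2-cocycle
(`cupChar`), whose class `cc A χ a ∈ H²(G, A)` is

* `k`-linear in `a` (`cc A χ` is a linear map `A^G →ₗ[k] H²(G,A)`),
* additive in `χ` (`cc_mul`, `cc_one`, packaged as `ccHom`), killed by `n`,
* functorial in `(G, A)` (`map_cc`; special cases: restriction `map_cc_subtype`,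
  coefficient maps `map_cc_id`).

Everything is generic in the coefficient ring `k` (consumers use `k = ℤ`).
-/

set_option autoImplicit false

open CategoryTheory groupCohomology

namespace Fermat.Agent.S55.G.Rec

variable {k G : Type} [CommRing k] [Group G] {n : ℕ} [NeZero n]

section Cocycle

variable (A : Rep.{0} k G) (χ χ' : G →* Multiplicative (ZMod n))

/-- The function `(g, h) ↦ ε_χ(g, h) • a`. -/
def cupCharFun (a : A.V) : G × G → A.V :=
  fun p => carry χ p.1 p.2 • a

omit [NeZero n] in
@[simp] theorem cupCharFun_apply (a : A.V) (g h : G) :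
    cupCharFun A χ a (g, h) = carry χ g h • a := rfl

theorem cupCharFun_mem_cocycles₂ {a : A.V} (ha : a ∈ A.ρ.invariants) :
    cupCharFun A χ a ∈ cocycles₂ A := by
  rw [mem_cocycles₂_iff]
  intro g h j
  simp only [cupCharFun_apply, map_nsmul, ha g, ← add_nsmul]
  rw [carry_cocycle]

/-- **A1.** The 2-cocycle `cupChar a χ`, as a `k`-linear map in `a ∈ A^G`. -/
def cupChar : A.ρ.invariants →ₗ[k] cocycles₂ A where
  toFun a := ⟨cupCharFun A χ a, cupCharFun_mem_cocycles₂ A χ a.2⟩
  map_add' a b := by
    apply cocycles₂_ext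
    intro g h
    change carry χ g h • ((a : A.V) + b) = carry χ g h • (a : A.V) + carry χ g h • (b : A.V)
    exact nsmul_add _ _ _
  map_smul' c a := by
    apply cocycles₂_ext
    intro g h
    change carry χ g h • (c • (a : A.V)) = c • (carry χ g h • (a : A.V))
    exact (smul_comm c (carry χ g h) (a : A.V)).symm

@[simp] theorem cupChar_apply (a : A.ρ.invariants) (g h : G) :
    cupChar A χ a (g, h) = carry χ g h • (a : A.V) := rfl

/-- The class `cc a χ ∈ H²(G, A)` of `cupChar a χ`, as a `k`-linear map in `a ∈ A^G`. -/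
noncomputable def cc : A.ρ.invariants →ₗ[k] H2 A :=
  (H2π A).hom ∘ₗ cupChar A χ

theorem cc_apply (a : A.ρ.invariants) : cc A χ a = H2π A (cupChar A χ a) := rfl

/-- `cupChar a 1 = 0`. -/
theorem cupChar_one (a : A.ρ.invariants) :
    cupChar A (1 : G →* Multiplicative (ZMod n)) a = 0 := by
  apply cocycles₂_ext
  intro g h
  rw [cupChar_apply, carry_one_char, zero_smul]
  rfl

theorem cc_one (a : A.ρ.invariants) : cc A (1 : G →* Multiplicative (ZMod n)) a = 0 := by
  rw [cc_apply, cupChar_one, map_zero]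

/-- **A2** (cochain level): `cupChar a χ + cupChar a χ' - cupChar a (χχ') = d (g ↦ η(g) • a)`. -/
theorem cupChar_mul_eq (a : A.ρ.invariants) :
    (cupChar A χ a : G × G → A.V) + cupChar A χ' a - cupChar A (χ * χ') a =
      (d₁₂ A).hom (fun g => carryChar χ χ' g • (a : A.V)) := by
  funext ⟨g, h⟩
  have ha : ∀ g : G, A.ρ g (a : A.V) = a := a.2
  have key := carry_mul χ χ' g h
  have key' : carry χ g h • (a : A.V) + carry χ' g h • (a : A.V) +
      carryChar χ χ' (g * h) • (a : A.V) =
      carry (χ * χ') g h • (a : A.V) + carryChar χ χ' g • (a : A.V) +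
        carryChar χ χ' h • (a : A.V) := by
    rw [← add_nsmul, ← add_nsmul, ← add_nsmul, ← add_nsmul, key]
  simp only [Pi.add_apply, Pi.sub_apply, cupChar_apply, d₁₂_hom_apply, map_nsmul, ha]
  rw [eq_sub_of_add_eq key']
  abel

/-- **A2.** `cc a (χ χ') = cc a χ + cc a χ'`. -/
theorem cc_mul (a : A.ρ.invariants) : cc A (χ * χ') a = cc A χ a + cc A χ' a := by
  rw [cc_apply, cc_apply, cc_apply, ← map_add, eq_comm, H2π_eq_iff]
  change (cupChar A χ a : G × G → A.V) + cupChar A χ' a - cupChar A (χ * χ') a ∈ coboundaries₂ A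
  rw [cupChar_mul_eq]
  exact LinearMap.mem_range_self _ _

variable (n) in
/-- `cc a · ` as a homomorphism from the character group. -/
noncomputable def ccHom (a : A.ρ.invariants) :
    Additive (G →* Multiplicative (ZMod n)) →+ H2 A where
  toFun χ := cc A (Additive.toMul χ) a
  map_zero' := cc_one A a
  map_add' χ χ' := cc_mul A (Additive.toMul χ) (Additive.toMul χ') a

@[simp] theorem ccHom_apply (a : A.ρ.invariants) (χ : G →* Multiplicative (ZMod n)) :
    ccHom n A a (Additive.ofMul χ) = cc A χ a := rfl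

theorem cc_pow (a : A.ρ.invariants) (m : ℕ) : cc A (χ ^ m) a = m • cc A χ a := by
  exact map_nsmul (ccHom n A a) m (Additive.ofMul χ)

theorem cc_inv (a : A.ρ.invariants) : cc A χ⁻¹ a = - cc A χ a := by
  exact map_neg (ccHom n A a) (Additive.ofMul χ)

/-- `n` kills `cc a χ`. -/
theorem nsmul_cc (a : A.ρ.invariants) : n • cc A χ a = 0 := by
  rw [← cc_pow]
  have : χ ^ n = 1 := by
    ext g
    rw [MonoidHom.pow_apply, MonoidHom.one_apply]
    apply Multiplicative.toAdd.injective
    rw [toAdd_pow, toAdd_one]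
    simp
  rw [this, cc_one]

end Cocycle

section Functoriality

variable {G' : Type} [Group G'] (A : Rep.{0} k G) (B : Rep.{0} k G')
  (f : G' →* G) (φ : Rep.res f A ⟶ B) (χ : G →* Multiplicative (ZMod n))

/-- The image of an invariant under an equivariant map is invariant. -/
theorem map_mem_invariants {a : A.V} (ha : a ∈ A.ρ.invariants) :
    φ.hom a ∈ B.ρ.invariants := by
  intro g'
  have := Rep.hom_comm_apply φ g' a
  rw [← this]
  congr 1
  exact ha (f g')

/-- The map `A^G → B^{G'}` induced by `(f, φ)`. -/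
def mapInvariants : A.ρ.invariants →ₗ[k] B.ρ.invariants where
  toFun a := ⟨φ.hom (a : A.V), map_mem_invariants A B f φ a.2⟩
  map_add' a b := Subtype.ext (map_add φ.hom (a : A.V) b)
  map_smul' c a := Subtype.ext (map_smul φ.hom c (a : A.V))

@[simp] theorem coe_mapInvariants (a : A.ρ.invariants) :
    (mapInvariants A B f φ a : B.V) = φ.hom (a : A.V) := rfl

/-- **A3** (cocycle level). -/
theorem mapCocycles₂_cupChar (a : A.ρ.invariants) :
    mapCocycles₂ f φ (cupChar A χ a) = cupChar B (χ.comp f) (mapInvariants A B f φ a) := by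
  apply cocycles₂_ext
  intro g h
  rw [coe_mapCocycles₂]
  change φ.hom (carry χ (f g) (f h) • (a : A.V)) = carry (χ.comp f) g h • φ.hom (a : A.V)
  rw [map_nsmul, carry_comp]

/-- **A3.** Functoriality of `cc`: `(f, φ)_* (cc a χ) = cc (φ a) (χ ∘ f)`. -/
theorem map_cc (a : A.ρ.invariants) :
    (groupCohomology.map f φ 2).hom (cc A χ a) =
      cc B (χ.comp f) (mapInvariants A B f φ a) := by
  rw [cc_apply, cc_apply, ← mapCocycles₂_cupChar]
  exact congr($(H2π_comp_map f φ) (cupChar A χ a))

/-- **A3**, coefficient maps: `f_* (cc a χ) = cc (f a) χ` for `f : A ⟶ B`. -/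
theorem map_cc_id {A B : Rep.{0} k G} (f : A ⟶ B) (χ : G →* Multiplicative (ZMod n))
    (a : A.ρ.invariants) :
    (groupCohomology.map (MonoidHom.id G) f 2).hom (cc A χ a) =
      cc B χ (mapInvariants A B (MonoidHom.id G) f a) :=
  map_cc A B (MonoidHom.id G) f χ a

/-- **A3**, restriction to a subgroup: `res_H (cc a χ) = cc a (χ|_H)`. -/
theorem map_cc_subtype (H : Subgroup G) (a : A.ρ.invariants) :
    (groupCohomology.map H.subtype (𝟙 (Rep.res H.subtype A)) 2).hom (cc A χ a) =
      cc (Rep.res H.subtype A) (χ.comp H.subtype)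
        (mapInvariants A (Rep.res H.subtype A) H.subtype (𝟙 _) a) :=
  map_cc A (Rep.res H.subtype A) H.subtype (𝟙 _) χ a

/-- **A3**, inflation from a quotient: `inf (cc ā χ̄) = cc a (χ̄ ∘ π)`. -/
theorem map_cc_quotient (S : Subgroup G) [S.Normal] (χbar : G ⧸ S →* Multiplicative (ZMod n))
    (a : (A.quotientToInvariants S).ρ.invariants) :
    (groupCohomology.map (QuotientGroup.mk' S)
        (Rep.ofHom <| A.ρ.quotientToInvariants_lift S) 2).hom
        (cc (A.quotientToInvariants S) χbar a) =
      cc A (χbar.comp (QuotientGroup.mk' S))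
        (mapInvariants (A.quotientToInvariants S) A (QuotientGroup.mk' S)
          (Rep.ofHom <| A.ρ.quotientToInvariants_lift S) a) :=
  map_cc (A.quotientToInvariants S) A (QuotientGroup.mk' S) _ χbar a

end Functoriality

section Multiplicative

variable {M : Type} [CommGroup M] [MulDistribMulAction G M]

/-- A `G`-fixed element of a multiplicative `G`-module, as an invariant of
`Rep.ofMulDistribMulAction G M`. -/
def invariantOfFixed (a : M) (ha : ∀ g : G, g • a = a) :
    (Rep.ofMulDistribMulAction G M).ρ.invariants :=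
  ⟨Additive.ofMul a, fun g => congrArg Additive.ofMul (ha g)⟩

/-- In multiplicative notation `cupChar a χ (g, h) = a ^ ε_χ(g, h)`. -/
theorem cupChar_invariantOfFixed (χ : G →* Multiplicative (ZMod n)) (a : M)
    (ha : ∀ g : G, g • a = a) (g h : G) :
    cupChar (Rep.ofMulDistribMulAction G M) χ (invariantOfFixed a ha) (g, h) =
      Additive.ofMul (a ^ carry χ g h) := rfl

end Multiplicative

end Fermat.Agent.S55.G.Rec
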