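import Fermat.Agent.S55.G.Rec.Spec2
import Fermat.Agent.S55.G.Rec.H473CupChar

/-!
# S55 / layer G / block REC, leaf K2 (helper496): additivity of cup classes
-/

set_option autoImplicit false

noncomputable section

namespace Fermat.Agent.S55.G.Rec.H496

open groupCohomology Fermat.Agent.S55.G.Rec

local notation "Qb" => AlgebraicClosure ℚ
local notation "GQ" => (AlgebraicClosure ℚ ≃ₐ[ℚ] AlgebraicClosure ℚ)

section General

variable {k G : Type} [CommRing k] [Group G] (r : G →* GQ) (A : Rep.{0} k G) {n : ℕ} [NeZero n]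

/-- Product of level-constant characters is level-constant. -/
theorem isLevelConstant₁_mul_char {r : G →* GQ} {n : ℕ} {χ χ' : G →* Multiplicative (ZMod n)}
    (hχ : IsLevelConstant₁ r χ) (hχ' : IsLevelConstant₁ r χ') :
    IsLevelConstant₁ r (χ * χ' : G →* Multiplicative (ZMod n)) := by
  obtain ⟨F, hF, h⟩ := hχ
  obtain ⟨F', hF', h'⟩ := hχ'
  haveI := hF; haveI := hF'
  refine ⟨F ⊔ F', inferInstance, fun g s hs => ?_⟩
  rw [MonoidHom.mul_apply, MonoidHom.mul_apply]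
  rw [h g s (IntermediateField.fixingSubgroup_antitone le_sup_left hs),
    h' g s (IntermediateField.fixingSubgroup_antitone le_sup_right hs)]

omit [NeZero n] in
/-- The correcting 1-cochain is level-constant. -/
theorem isLevelConstant₁_carryChar {r : G →* GQ} {χ χ' : G →* Multiplicative (ZMod n)}
    (hχ : IsLevelConstant₁ r χ) (hχ' : IsLevelConstant₁ r χ') (a : A.V) :
    IsLevelConstant₁ r (fun g => carryChar χ χ' g • a) := by
  obtain ⟨F, hF, h⟩ := hχ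
  obtain ⟨F', hF', h'⟩ := hχ'
  haveI := hF; haveI := hF'
  refine ⟨F ⊔ F', inferInstance, fun g s hs => ?_⟩
  simp only [carryChar, lift]
  rw [h g s (IntermediateField.fixingSubgroup_antitone le_sup_left hs),
    h' g s (IntermediateField.fixingSubgroup_antitone le_sup_right hs)]

omit [NeZero n] in
/-- Additivity in the element, at the level of classes. -/
theorem class_add_elt (χ : G → ZMod n) (a b : A.V)
    (hab : H379.cupChar n χ (a + b) ∈ levelCocycles₂ r A)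
    (ha : H379.cupChar n χ a ∈ levelCocycles₂ r A)
    (hb : H379.cupChar n χ b ∈ levelCocycles₂ r A) :
    continuousH2π r A ⟨_, hab⟩ = continuousH2π r A ⟨_, ha⟩ + continuousH2π r A ⟨_, hb⟩ := by
  rw [← map_add]
  congr 1
  exact Subtype.ext (H379.cupChar_add n χ a b)

/-- Additivity in the character, at the level of classes. -/
theorem class_add_char (χ χ' : G →* Multiplicative (ZMod n))
    (hχ : IsLevelConstant₁ r χ) (hχ' : IsLevelConstant₁ r χ') (a : A.V)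
    (hinv : ∀ g : G, A.ρ g a = a)
    (h12 : H379.cupChar n (chiAdd (χ * χ')) a ∈ levelCocycles₂ r A)
    (h1 : H379.cupChar n (chiAdd χ) a ∈ levelCocycles₂ r A)
    (h2 : H379.cupChar n (chiAdd χ') a ∈ levelCocycles₂ r A) :
    continuousH2π r A ⟨_, h12⟩ = continuousH2π r A ⟨_, h1⟩ + continuousH2π r A ⟨_, h2⟩ := by
  rw [← map_add, eq_comm, ← sub_eq_zero, ← map_sub, continuousH2π_eq_zero_iff,
    mem_levelCoboundaries₂_iff]
  refine ⟨fun g => carryChar χ χ' g • a, isLevelConstant₁_carryChar A hχ hχ' a, ?_⟩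
  exact (cupChar_mul_eq A χ χ' ⟨a, hinv⟩).symm

end General

theorem gcc_mul_elt (U : Subgroup GQ) (n : ℕ) (χ : ↥U →* Multiplicative (ZMod n)) (a b : Qbˣ)
    (hn : n ≠ 0) (hχ : IsLevelConstant₁ U.subtype χ) (ha : GFixed U a) (hb : GFixed U b) :
    gcc U n χ (a * b) = gcc U n χ a + gcc U n χ b := by
  haveI : NeZero n := ⟨hn⟩
  have hab : GFixed U (a * b) := fun u hu => by rw [smul_mul', ha u hu, hb u hu]
  have key1 := class_add_elt (k := ℤ) U.subtype (gModOn U) (chiAdd χ) (toGMod U a)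
    (toGMod U b) (gcupChar_mem U n χ (a * b) ⟨hn, hχ, hab⟩)
    (gcupChar_mem U n χ a ⟨hn, hχ, ha⟩) (gcupChar_mem U n χ b ⟨hn, hχ, hb⟩)
  rw [gcc_eq U n χ (a * b) ⟨hn, hχ, hab⟩, gcc_eq U n χ a ⟨hn, hχ, ha⟩,
    gcc_eq U n χ b ⟨hn, hχ, hb⟩]
  exact key1

theorem gcc_mul_char (U : Subgroup GQ) (n : ℕ) (χ χ' : ↥U →* Multiplicative (ZMod n)) (a : Qbˣ)
    (hn : n ≠ 0) (hχ : IsLevelConstant₁ U.subtype χ) (hχ' : IsLevelConstant₁ U.subtype χ')
    (ha : GFixed U a) :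
    gcc U n (χ * χ') a = gcc U n χ a + gcc U n χ' a := by
  haveI : NeZero n := ⟨hn⟩
  have hχχ' : IsLevelConstant₁ U.subtype (χ * χ' : ↥U →* Multiplicative (ZMod n)) :=
    isLevelConstant₁_mul_char hχ hχ'
  have hinv : ∀ u : ↥U, (gModOn U).ρ u (toGMod U a) = toGMod U a :=
    fun u => toGMod_mem_invariants ha u
  have key2 := class_add_char (k := ℤ) U.subtype (gModOn U) χ χ' hχ hχ' (toGMod U a) hinv
    (gcupChar_mem U n (χ * χ') a ⟨hn, hχχ', ha⟩)
    (gcupChar_mem U n χ a ⟨hn, hχ, ha⟩) (gcupChar_mem U n χ' a ⟨hn, hχ', ha⟩)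
  rw [gcc_eq U n (χ * χ') a ⟨hn, hχχ', ha⟩, gcc_eq U n χ a ⟨hn, hχ, ha⟩,
    gcc_eq U n χ' a ⟨hn, hχ', ha⟩]
  exact key2

theorem lcc_mul_elt (q : ℕ) [Fact q.Prime] (V : Subgroup (PadicAlgCl q ≃ₐ[ℚ_[q]] PadicAlgCl q))
    (n : ℕ) (χ : ↥V →* Multiplicative (ZMod n)) (a b : (PadicAlgCl q)ˣ)
    (hn : n ≠ 0) (hχ : IsLevelConstant₁ (lHom q V) χ) (ha : LFixed q V a) (hb : LFixed q V b) :
    lcc q V n χ (a * b) = lcc q V n χ a + lcc q V n χ b := by
  haveI : NeZero n := ⟨hn⟩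
  have hab : LFixed q V (a * b) := fun u hu => by rw [smul_mul', ha u hu, hb u hu]
  have key1 := class_add_elt (k := ℤ) (lHom q V) (lModOn q V) (chiAdd χ) (toLMod q V a)
    (toLMod q V b) (lcupChar_mem q V n χ (a * b) ⟨hn, hχ, hab⟩)
    (lcupChar_mem q V n χ a ⟨hn, hχ, ha⟩) (lcupChar_mem q V n χ b ⟨hn, hχ, hb⟩)
  rw [lcc_eq q V n χ (a * b) ⟨hn, hχ, hab⟩, lcc_eq q V n χ a ⟨hn, hχ, ha⟩,
    lcc_eq q V n χ b ⟨hn, hχ, hb⟩]
  exact key1

theorem lcc_mul_char (q : ℕ) [Fact q.Prime] (V : Subgroup (PadicAlgCl q ≃ₐ[ℚ_[q]] PadicAlgCl q))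
    (n : ℕ) (χ χ' : ↥V →* Multiplicative (ZMod n)) (a : (PadicAlgCl q)ˣ)
    (hn : n ≠ 0) (hχ : IsLevelConstant₁ (lHom q V) χ) (hχ' : IsLevelConstant₁ (lHom q V) χ')
    (ha : LFixed q V a) :
    lcc q V n (χ * χ') a = lcc q V n χ a + lcc q V n χ' a := by
  haveI : NeZero n := ⟨hn⟩
  have hχχ' : IsLevelConstant₁ (lHom q V) (χ * χ' : ↥V →* Multiplicative (ZMod n)) :=
    isLevelConstant₁_mul_char hχ hχ'
  have hinv : ∀ τ : ↥V, (lModOn q V).ρ τ (toLMod q V a) = toLMod q V a :=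
    fun τ => toLMod_mem_invariants ha τ
  have key2 := class_add_char (k := ℤ) (lHom q V) (lModOn q V) χ χ' hχ hχ' (toLMod q V a) hinv
    (lcupChar_mem q V n (χ * χ') a ⟨hn, hχχ', ha⟩)
    (lcupChar_mem q V n χ a ⟨hn, hχ, ha⟩) (lcupChar_mem q V n χ' a ⟨hn, hχ', ha⟩)
  rw [lcc_eq q V n (χ * χ') a ⟨hn, hχχ', ha⟩, lcc_eq q V n χ a ⟨hn, hχ, ha⟩,
    lcc_eq q V n χ' a ⟨hn, hχ', ha⟩]
  exact key2

/-- **(K2)** additivity of cup classes in the element and in the character. -/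
theorem cupAdd : CupAddSpec :=
  ⟨fun U n χ χ' a b hn hχ hχ' ha hb =>
      ⟨gcc_mul_elt U n χ a b hn hχ ha hb, gcc_mul_char U n χ χ' a hn hχ hχ' ha⟩,
    fun q _ V n χ χ' a b hn hχ hχ' ha hb =>
      ⟨lcc_mul_elt q V n χ a b hn hχ ha hb, lcc_mul_char q V n χ χ' a hn hχ hχ' ha⟩⟩

end Fermat.Agent.S55.G.Rec.H496
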