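import Fermat.Agent.S55.G.Rec.Defs2

/-!
# S55 / layer G / block REC : generic lemmas on `relNorm` (helper511)

`relNorm H b = ∏ᶠ t : G ⧸ H, out t • b`.  For `b` fixed by `H` (and `H` of finite index):
* `H511.out_smul_eq`       : `out (g H) • b = g • b`;
* `H511.relNorm_eq_prod`   : `relNorm H b = ∏ t, out t • b` (Fintype product);
* `H511.smul_relNorm`      : the norm is fixed by all of `G`;
* `H511.relNorm_trans`     : transitivity `N_{G/H} (N_{H/H'} b) = N_{G/H'} b`;
* `H511.relNorm_mul`       : multiplicativity in `b`.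
-/

set_option autoImplicit false
set_option linter.style.haveILetI false

noncomputable section

namespace Fermat.Agent.S55.G.Rec.H511

open Fermat.Agent.S55.G.Rec

variable {G M : Type*} [Group G] [CommGroup M] [MulDistribMulAction G M]

/-- Independence of the representative: `out (g H) • b = g • b` for `b` fixed by `H`. -/
lemma out_smul_eq (H : Subgroup G) {b : M} (hb : ∀ h ∈ H, h • b = b) (g : G) :
    (Quotient.out (g : G ⧸ H) : G) • b = g • b := by
  have h1 : (Quotient.out (g : G ⧸ H) : G)⁻¹ * g ∈ H :=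
    QuotientGroup.eq.mp (QuotientGroup.out_eq' (g : G ⧸ H))
  have h2 : g • b =
      (Quotient.out (g : G ⧸ H) : G) • (((Quotient.out (g : G ⧸ H) : G)⁻¹ * g) • b) := by
    rw [smul_smul, mul_inv_cancel_left]
  rw [h2, hb _ h1]

lemma relNorm_eq_prod (H : Subgroup G) [Fintype (G ⧸ H)] (b : M) :
    relNorm H b = ∏ t : G ⧸ H, (Quotient.out t : G) • b := by
  unfold relNorm
  exact finprod_eq_prod_of_fintype _

/-- The norm is fixed by the whole group. -/
lemma smul_relNorm (H : Subgroup G) [Finite (G ⧸ H)] {b : M} (hb : ∀ h ∈ H, h • b = b)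
    (g : G) : g • relNorm H b = relNorm H b := by
  classical
  haveI := Fintype.ofFinite (G ⧸ H)
  rw [relNorm_eq_prod, Finset.smul_prod']
  have h1 : ∀ t : G ⧸ H, g • ((Quotient.out t : G) • b) =
      (Quotient.out (g • t) : G) • b := by
    intro t
    rw [smul_smul]
    have : g • t = ((g * (Quotient.out t : G) : G) : G ⧸ H) := by
      conv_lhs => rw [← QuotientGroup.out_eq' t]
      rfl
    rw [this, out_smul_eq H hb]
  simp_rw [h1]
  exact Equiv.prod_comp (MulAction.toPerm g : Equiv.Perm (G ⧸ H))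
    (fun t => (Quotient.out t : G) • b)

/-- Multiplicativity of the norm. -/
lemma relNorm_mul (H : Subgroup G) [Finite (G ⧸ H)] (b b' : M) :
    relNorm H (b * b') = relNorm H b * relNorm H b' := by
  classical
  haveI := Fintype.ofFinite (G ⧸ H)
  simp only [relNorm_eq_prod, smul_mul', Finset.prod_mul_distrib]

/-- Transitivity of the norm. -/
lemma relNorm_trans {H' H : Subgroup G} (hle : H' ≤ H) [Finite (G ⧸ H')] {b : M}
    (hb : ∀ h ∈ H', h • b = b) :
    relNorm H (relNorm (G := ↥H) (H'.subgroupOf H) b) = relNorm H' b := by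
  classical
  let e := Subgroup.quotientEquivProdOfLE hle
  haveI : Finite ((G ⧸ H) × ↥H ⧸ H'.subgroupOf H) := Finite.of_equiv _ e
  haveI : Nonempty (G ⧸ H) := ⟨((1 : G) : G ⧸ H)⟩
  haveI : Nonempty (↥H ⧸ H'.subgroupOf H) := ⟨((1 : ↥H) : ↥H ⧸ H'.subgroupOf H)⟩
  haveI : Finite (G ⧸ H) := Finite.prod_left (↥H ⧸ H'.subgroupOf H)
  haveI : Finite (↥H ⧸ H'.subgroupOf H) := Finite.prod_right (G ⧸ H)
  haveI := Fintype.ofFinite (G ⧸ H)
  haveI := Fintype.ofFinite (G ⧸ H')
  haveI := Fintype.ofFinite (↥H ⧸ H'.subgroupOf H)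
  have hb' : ∀ h ∈ H'.subgroupOf H, h • b = b := fun h hh => hb (h : G) hh
  rw [relNorm_eq_prod H, relNorm_eq_prod (H'.subgroupOf H), relNorm_eq_prod H']
  simp_rw [Finset.smul_prod']
  rw [← Fintype.prod_prod_type' (f := fun (t : G ⧸ H) (u : ↥H ⧸ H'.subgroupOf H) =>
    (Quotient.out t : G) • ((Quotient.out u : ↥H) • b))]
  refine (Fintype.prod_equiv e.symm _ _ ?_)
  rintro ⟨t, u⟩
  obtain ⟨h, rfl⟩ := QuotientGroup.mk_surjective u
  have h1 : e.symm (t, (h : ↥H ⧸ H'.subgroupOf H)) =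
      (((Quotient.out t : G) * (h : G) : G) : G ⧸ H') := rfl
  rw [h1, out_smul_eq H' hb, out_smul_eq (H'.subgroupOf H) hb', mul_smul]
  rfl

end Fermat.Agent.S55.G.Rec.H511
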