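import Fermat.Agent.S55.G.Rec.Spec2
import Fermat.Agent.S55.G.Rec.RelNormH511

/-!
# S55 / layer G / block REC / STEP A : toolkit (helper511)

* `H511.cyc m : G_ℚ →* (ℤ/m)ˣ` : the cyclotomic character mod `m`, with `cyc_spec`, `cyc_coe_eq_of_acts`,
  `cyc_eq_one_iff`;
* `H511.loc_acts_of_acts` : local action on `μ_m(ℚ̄_q)` ⟹ global action of `localGaloisToGlobal τ`;
* `H511.isOpenL_locSub` : `locSub q g U` is open if `U` is;
* `H511.index_ne_zero_of_isOpenL` : open subgroups of `G_{ℚ_q}` have finite index.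
-/

set_option autoImplicit false
set_option linter.style.haveILetI false

noncomputable section

namespace Fermat.Agent.S55.G.Rec.H511

open Fermat.Agent.S55.G.Rec

local notation "Qb" => AlgebraicClosure ℚ
local notation "GQ" => (AlgebraicClosure ℚ ≃ₐ[ℚ] AlgebraicClosure ℚ)

/-! ## The cyclotomic character mod `m` -/

section Cyc

variable (m : ℕ) [NeZero m]

lemma exists_primitiveRoot_Qb : ∃ μ : Qb, IsPrimitiveRoot μ m :=
  HasEnoughRootsOfUnity.exists_primitiveRoot Qb m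

/-- A chosen primitive `m`-th root of unity in `ℚ̄`. -/
def muQb : Qb := (exists_primitiveRoot_Qb m).choose

lemma muQb_spec : IsPrimitiveRoot (muQb m) m := (exists_primitiveRoot_Qb m).choose_spec

/-- The cyclotomic character mod `m`. -/
def cyc : GQ →* (ZMod m)ˣ := (muQb_spec m).autToPow ℚ

lemma cyc_spec (σ : GQ) {ζ : Qb} (hζ : ζ ^ m = 1) :
    σ ζ = ζ ^ ((cyc m σ : (ZMod m)ˣ) : ZMod m).val := by
  obtain ⟨i, -, rfl⟩ := (muQb_spec m).eq_pow_of_pow_eq_one hζ
  have h : muQb m ^ ((cyc m σ : (ZMod m)ˣ) : ZMod m).val = σ (muQb m) :=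
    (muQb_spec m).autToPow_spec ℚ σ
  rw [map_pow, ← h, ← pow_mul, ← pow_mul, mul_comm]

lemma cyc_coe_eq_of_acts (σ : GQ) (N : ℕ) (h : ∀ ζ : Qb, ζ ^ m = 1 → σ ζ = ζ ^ N) :
    ((cyc m σ : (ZMod m)ˣ) : ZMod m) = (N : ZMod m) := by
  have h1 := cyc_spec m σ (muQb_spec m).pow_eq_one
  rw [h _ (muQb_spec m).pow_eq_one] at h1
  have hfin : IsOfFinOrder (muQb m) :=
    isOfFinOrder_iff_pow_eq_one.mpr ⟨m, Nat.pos_of_ne_zero (NeZero.ne m), (muQb_spec m).pow_eq_one⟩
  have h2 := hfin.pow_eq_pow_iff_modEq.mp h1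
  rw [← (muQb_spec m).eq_orderOf] at h2
  have h3 := (ZMod.natCast_eq_natCast_iff _ _ _).mpr h2
  rw [h3, ZMod.natCast_val, ZMod.cast_id', id]

lemma cyc_eq_one_of_fixes (σ : GQ) (h : ∀ ζ : Qb, ζ ^ m = 1 → σ ζ = ζ) : cyc m σ = 1 := by
  apply Units.ext
  rw [cyc_coe_eq_of_acts m σ 1 (fun ζ hζ => by rw [h ζ hζ, pow_one])]
  simp

lemma fixes_of_cyc_eq_one (σ : GQ) (h : cyc m σ = 1) {ζ : Qb} (hζ : ζ ^ m = 1) : σ ζ = ζ := by
  rw [cyc_spec m σ hζ, h, Units.val_one]
  by_cases hm : m = 1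
  · subst hm
    rw [pow_one] at hζ
    rw [hζ, one_pow]
  · haveI : Fact (1 < m) := ⟨lt_of_le_of_ne (Nat.pos_of_ne_zero (NeZero.ne m)) (Ne.symm hm)⟩
    rw [ZMod.val_one, pow_one]

lemma cyc_conj (g x : GQ) : cyc m (g * x * g⁻¹) = cyc m x := by
  rw [map_mul, map_mul, map_inv, mul_comm, inv_mul_cancel_left]

end Cyc

/-! ## From local to global roots of unity -/

section LocGlob

variable (q : ℕ) [Fact q.Prime]

local notation "Gq" => (PadicAlgCl q ≃ₐ[ℚ_[q]] PadicAlgCl q)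

lemma padicEmbedding_injective : Function.Injective (padicEmbedding q) :=
  (padicEmbedding q).toRingHom.injective

/-- If `τ` acts on the local `m`-th roots of unity by `ζ ↦ ζ ^ N`, then so does its global
image on the global ones. -/
lemma loc_acts_of_acts (m N : ℕ) (τ : Gq)
    (h : ∀ ζ : PadicAlgCl q, ζ ^ m = 1 → τ ζ = ζ ^ N) (ζ : Qb) (hζ : ζ ^ m = 1) :
    localGaloisToGlobal q τ ζ = ζ ^ N := by
  apply padicEmbedding_injective q
  rw [padicEmbedding_localGaloisToGlobal, map_pow]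
  exact h _ (by rw [← map_pow, hζ, map_one])

lemma cyc_loc_coe (m : ℕ) [NeZero m] (N : ℕ) (τ : Gq)
    (h : ∀ ζ : PadicAlgCl q, ζ ^ m = 1 → τ ζ = ζ ^ N) :
    ((cyc m (localGaloisToGlobal q τ) : (ZMod m)ˣ) : ZMod m) = (N : ZMod m) :=
  cyc_coe_eq_of_acts m _ N (loc_acts_of_acts q m N τ h)

lemma cyc_loc_eq_one (m : ℕ) [NeZero m] (τ : Gq)
    (h : ∀ ζ : PadicAlgCl q, ζ ^ m = 1 → τ ζ = ζ) :
    cyc m (localGaloisToGlobal q τ) = 1 := by
  apply cyc_eq_one_of_fixes
  intro ζ hζ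
  have := loc_acts_of_acts q m 1 τ (fun ζ hζ => by rw [h ζ hζ, pow_one]) ζ hζ
  rwa [pow_one] at this

/-! ## Openness -/

lemma isOpenL_locSub (g : GQ) (U : Subgroup GQ) (hU : IsOpenQ U) : IsOpenL q (locSub q g U) := by
  classical
  obtain ⟨F, hF, hFU⟩ := hU
  haveI := hF
  set F' : IntermediateField ℚ Qb := F.map (g⁻¹ : GQ).toAlgHom with hF'
  haveI : FiniteDimensional ℚ F' := finiteDimensional_map_inv F g
  let b := Module.finBasis ℚ F'
  let s : Finset (PadicAlgCl q) := Finset.univ.image fun i => padicEmbedding q ((b i : F') : Qb)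
  refine ⟨IntermediateField.adjoin ℚ_[q] (s : Set (PadicAlgCl q)), ?_, ?_⟩
  · exact IntermediateField.finiteDimensional_adjoin
      (fun x _ => (Algebra.IsAlgebraic.isAlgebraic x).isIntegral)
  · intro τ hτ
    rw [mem_locSub]
    apply hFU
    rw [← mem_fixingSubgroup_map_inv]
    rw [IntermediateField.mem_fixingSubgroup_iff] at hτ ⊢
    have hb : ∀ i, localGaloisToGlobal q τ ((b i : F') : Qb) = ((b i : F') : Qb) := by
      intro i
      apply padicEmbedding_injective q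
      rw [padicEmbedding_localGaloisToGlobal]
      apply hτ
      apply IntermediateField.subset_adjoin
      exact Finset.mem_coe.mpr (Finset.mem_image.mpr ⟨i, Finset.mem_univ _, rfl⟩)
    intro x hx
    have hx' : (⟨x, hx⟩ : F') = ∑ i, (b.repr ⟨x, hx⟩ i) • b i := (b.sum_repr ⟨x, hx⟩).symm
    have hx'' : x = ∑ i, (b.repr ⟨x, hx⟩ i) • ((b i : F') : Qb) := by
      have h1 := congrArg (fun y : F' => (y : Qb)) hx'
      have h2 : ((∑ i, (b.repr ⟨x, hx⟩ i) • b i : F') : Qb) =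
          ∑ i, (b.repr ⟨x, hx⟩ i) • ((b i : F') : Qb) := by
        rw [IntermediateField.coe_sum]
        rfl
      exact h1.trans h2
    rw [hx'', map_sum]
    refine Finset.sum_congr rfl fun i _ => ?_
    rw [Algebra.smul_def, map_mul, AlgEquiv.commutes, hb i]

lemma index_ne_zero_of_isOpenL (V : Subgroup Gq) (hV : IsOpenL q V) : V.index ≠ 0 := by
  obtain ⟨E, hE, hEV⟩ := hV
  haveI := hE
  have h1 : E.fixingSubgroup.index ≠ 0 := by
    rw [← IntermediateField.finrank_eq_fixingSubgroup_index]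
    exact Module.finrank_pos.ne'
  exact fun h0 => h1 (Nat.eq_zero_of_zero_dvd (h0 ▸ Subgroup.index_dvd_of_le hEV))

lemma finite_quotient_of_isOpenL (V : Subgroup Gq) (hV : IsOpenL q V) : Finite (Gq ⧸ V) :=
  haveI : V.FiniteIndex := ⟨index_ne_zero_of_isOpenL q V hV⟩
  Subgroup.finite_quotient_of_finiteIndex

end LocGlob

end Fermat.Agent.S55.G.Rec.H511
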