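import Mathlib
import Fermat.Prelude.Def_GaloisRep_CompletionBridge
import Fermat.Agent.S54.FrobExists
import Fermat.Agent.S13.H175.InertiaLift
import Fermat.Agent.S55.H175.LocalDecomp
import Fermat.Agent.S55.Bridge.H175.DecompLevel
import Fermat.Agent.S55.G.Rec.Spec2

/-!
# S55 / layer G / block REC, leaf G3 (weak approximation), part 1 : places and double cosets

* `isClosed_of_isOpenQ` : an open subgroup (in the sense `IsOpenQ`) is closed.
* `exists_mem_doubleCoset` : if the places of `K = ℚ̄^U` induced by `ι_p ∘ g⁻¹` and `ι_p ∘ g'⁻¹`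
  have the same prime of `𝓞_K`, then `g' ∈ U g D_p`.
-/

set_option autoImplicit false
set_option linter.style.haveILetI false

noncomputable section

open scoped Pointwise

namespace Fermat.Agent.S55.G.Rec.H904

local notation "Qb" => AlgebraicClosure ℚ
local notation "GQ" => (AlgebraicClosure ℚ ≃ₐ[ℚ] AlgebraicClosure ℚ)

section Abstract

universe u

variable {B : Type*} [CommRing B]
variable {G : Type u} [Group G] [MulSemiringAction G B]
variable [TopologicalSpace G] [CompactSpace G] [TotallyDisconnectedSpace G]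
variable [IsTopologicalGroup G] [TopologicalSpace B] [DiscreteTopology B] [ContinuousSMul G B]

/-- `G` profinite acting continuously on a discrete ring `B`, `N` a closed subgroup.  Two primes
of `B` with the same trace on the `N`-invariants are conjugate under `N`. -/
theorem exists_smul_eq_of_forall_fixed (N : Subgroup G) (hN : IsClosed (N : Set G))
    (P Q : Ideal B) [hP : P.IsPrime] [hQ : Q.IsPrime]
    (h : ∀ x : B, (∀ n ∈ N, n • x = x) → (x ∈ P ↔ x ∈ Q)) :
    ∃ n ∈ N, Q = n • P := by
  have : CompactSpace N := isCompact_iff_compactSpace.mp hN.isCompact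
  have := Fermat.Agent.S13.H175.isInvariant_fixedPoints (B := B) N
  have hunder : P.under (FixedPoints.subalgebra ℤ B N) =
      Q.under (FixedPoints.subalgebra ℤ B N) := by
    ext ⟨x, hx⟩
    have hx' : ∀ n ∈ N, n • x = x := fun n hn' => hx ⟨n, hn'⟩
    simp only [Ideal.mem_comap]
    exact h x hx'
  obtain ⟨n, hn1⟩ := Algebra.IsInvariant.exists_smul_of_under_eq_of_profinite
    (A := FixedPoints.subalgebra ℤ B N) (G := N) P Q hunder
  exact ⟨n, n.2, hn1⟩

end Abstract

/-- An open subgroup (`IsOpenQ`) is open in the Krull topology. -/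
theorem isOpen_of_isOpenQ {U : Subgroup GQ} (hU : IsOpenQ U) : IsOpen (U : Set GQ) := by
  obtain ⟨F, hF, hFU⟩ := hU
  haveI := hF
  exact Subgroup.isOpen_mono hFU F.fixingSubgroup_isOpen

/-- An open subgroup (`IsOpenQ`) is closed in the Krull topology. -/
theorem isClosed_of_isOpenQ {U : Subgroup GQ} (hU : IsOpenQ U) : IsClosed (U : Set GQ) :=
  Subgroup.isClosed_of_isOpen U (isOpen_of_isOpenQ hU)

/-- The fixing subgroup of the fixed field of an open subgroup `U` is `U`. -/
theorem fixingSubgroup_fixedField_of_isOpenQ {U : Subgroup GQ} (hU : IsOpenQ U) :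
    (IntermediateField.fixedField U).fixingSubgroup = U := by
  haveI := Fermat.Agent.S54.isGalois_algebraicClosure_rat
  exact InfiniteGalois.fixingSubgroup_fixedField ⟨U, isClosed_of_isOpenQ hU⟩

/-- The fixed field of an open subgroup is a number field. -/
theorem finiteDimensional_fixedField_of_isOpenQ {U : Subgroup GQ} (hU : IsOpenQ U) :
    FiniteDimensional ℚ (IntermediateField.fixedField U) := by
  haveI := Fermat.Agent.S54.isGalois_algebraicClosure_rat
  obtain ⟨F, hF, hFU⟩ := hU
  haveI := hF
  have h1 : IntermediateField.fixedField U ≤ F := by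
    have := IntermediateField.fixedField_antitone (F := ℚ) (E := Qb) hFU
    rwa [InfiniteGalois.fixedField_fixingSubgroup] at this
  exact FiniteDimensional.of_injective (IntermediateField.inclusion h1).toLinearMap
    (IntermediateField.inclusion h1).injective

variable (p : ℕ) [Fact p.Prime]

/-- Nonunits of the `p`-adic place of `ℚ̄` are the elements of norm `< 1`. -/
theorem mem_nonunits_padicPlace_iff (x : Qb) :
    x ∈ (padicPlace p).nonunits ↔ ‖padicEmbedding p x‖ < 1 := by
  rw [ValuationSubring.mem_nonunits_iff_or]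
  by_cases hx : x = 0
  · subst hx
    simp
  · have hne : padicEmbedding p x ≠ 0 := (map_ne_zero (padicEmbedding p)).mpr hx
    have hpos : 0 < ‖padicEmbedding p x‖ := norm_pos_iff.mpr hne
    rw [Fermat.Agent.S55.H175.mem_padicPlace_iff_norm, map_inv₀, norm_inv]
    constructor
    · rintro (h | h)
      · exact absurd h hx
      · rw [not_le] at h
        exact (one_lt_inv₀ hpos).mp h
    · intro h
      right
      rw [not_le]
      exact (one_lt_inv₀ hpos).mpr h

/-- The prime of `ℤ̄` induced by `ι_p ∘ g⁻¹`. -/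
theorem mem_smul_primeBelow_iff (g : GQ) (b : integralClosure ℤ Qb) :
    b ∈ g • Fermat.Agent.S54.primeBelow (padicPlace p) ↔
      ‖padicEmbedding p (g⁻¹ (b : Qb))‖ < 1 := by
  rw [Ideal.mem_pointwise_smul_iff_inv_smul_mem, Fermat.Agent.S54.mem_primeBelow,
    mem_nonunits_padicPlace_iff]
  rfl

/-- **Places and double cosets.**  If the places of `K = ℚ̄^U` induced by `ι_p ∘ g⁻¹` and
`ι_p ∘ g'⁻¹` define the same prime of the ring of integers of `K`, then `g' ∈ U g D_p`. -/
theorem exists_mem_doubleCoset {U : Subgroup GQ} (hU : IsOpenQ U) (g g' : GQ)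
    (h : ∀ x : Qb, IsIntegral ℤ x → (∀ u ∈ U, u x = x) →
      (‖padicEmbedding p (g⁻¹ x)‖ < 1 ↔ ‖padicEmbedding p (g'⁻¹ x)‖ < 1)) :
    ∃ u ∈ U, ∃ d ∈ (localGaloisToGlobal p).range, g' = u * g * d := by
  classical
  have hgal := Fermat.Agent.S54.isGalois_algebraicClosure_rat
  letI : TopologicalSpace (integralClosure ℤ Qb) := ⊥
  haveI : DiscreteTopology (integralClosure ℤ Qb) := ⟨rfl⟩
  haveI := Fermat.Agent.S54.continuousSMul_integralClosure
  have hclosed := isClosed_of_isOpenQ hU
  haveI hQ0 := Fermat.Agent.S54.primeBelow_isPrime (padicPlace p)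
  obtain ⟨u, huU, hu⟩ := exists_smul_eq_of_forall_fixed (G := GQ) U hclosed
    (g • Fermat.Agent.S54.primeBelow (padicPlace p))
    (g' • Fermat.Agent.S54.primeBelow (padicPlace p)) (by
      intro x hx
      rw [mem_smul_primeBelow_iff, mem_smul_primeBelow_iff]
      exact h x x.2 (fun u hu => congrArg Subtype.val (hx u hu)))
  have hu' : g' • Fermat.Agent.S54.primeBelow (padicPlace p) =
      (u * g) • Fermat.Agent.S54.primeBelow (padicPlace p) := by
    rw [hu, mul_smul]
  have hd : (g⁻¹ * u⁻¹ * g') • Fermat.Agent.S54.primeBelow (padicPlace p) =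
      Fermat.Agent.S54.primeBelow (padicPlace p) := by
    rw [mul_smul, hu', ← mul_smul]
    have : g⁻¹ * u⁻¹ * (u * g) = 1 := by group
    rw [this, one_smul]
  refine ⟨u, huU, g⁻¹ * u⁻¹ * g', ?_, by group⟩
  rw [Fermat.Agent.S55.H175.range_localGaloisToGlobal, ValuationSubring.decompositionSubgroup,
    MulAction.mem_stabilizer_iff]
  apply Fermat.Agent.S55.Bridge.H175.smul_valuationSubring_eq (padicPlace p) p Fact.out
    (Fermat.Agent.S55.Bridge.H175.padicPlace_liesOverPrime p)
  intro b hb
  have h1 : (g⁻¹ * u⁻¹ * g') • (⟨b, hb⟩ : integralClosure ℤ Qb) ∈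
      (g⁻¹ * u⁻¹ * g') • Fermat.Agent.S54.primeBelow (padicPlace p) ↔
      (⟨b, hb⟩ : integralClosure ℤ Qb) ∈ Fermat.Agent.S54.primeBelow (padicPlace p) :=
    Ideal.smul_mem_pointwise_smul_iff
  rw [hd] at h1
  exact h1

end Fermat.Agent.S55.G.Rec.H904
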