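import Fermat.Agent.S55.G.Rec.L2H931.Arith

/-!
# S55 / layer G / block REC : leaf (L2) `LocalStructureSpec`  (helper931)

For an open subgroup `V ≤ G_{ℚ_q}` with fixed field `E`: the residue degree `f`, a Frobenius lift
`φ ∈ V`, a uniformizer `π` with `vdeg π = f`, and the decomposition `a = π ^ k * u` with
`vdeg a = f * k`.

* Frobenius lift: `L2H931/Frob.lean` (profinite surjectivity of the stabiliser map);
* arithmetic of `E`: `L2H931/Arith.lean` (unit ball is a complete DVR with finite residue field,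
  fundamental identity `e f = n` from helper355's `card_residue_pow_eq`).
-/

set_option autoImplicit false
set_option linter.style.haveILetI false

noncomputable section

namespace Fermat.Agent.S55.G.Rec.H931

open Fermat.Agent.S55 Fermat.Agent.S55.G.Rec

/-- **Leaf (L2)**: local structure of the fixed field of an open subgroup of `G_{ℚ_q}`. -/
theorem localStructure : LocalStructureSpec := by
  intro q _ V hV
  have hq : q.Prime := Fact.out
  haveI : FiniteDimensional ℚ_[q] (L2_E q V) := L2_finiteDimensional hV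
  obtain ⟨f, e, ϖ, hfpos, hef, hϖ0, hϖlt, hnorme, hmax, hdec, hres, hmin⟩ :=
    L2_structure (L2_E q V)
  have hfix_iff : ∀ x : PadicAlgCl q, IsFixedBy q V x ↔ x ∈ L2_E q V :=
    fun x => (L2_mem_E_iff x).symm
  -- residue degree
  have hRD : IsResidueDegree q V f := by
    refine ⟨hfpos, ?_, ?_⟩
    · intro x hx hx1
      exact hres ⟨x, (hfix_iff x).1 hx⟩ hx1
    · intro m hm hall
      exact hmin m hm (fun x hx1 => hall x ((hfix_iff x).2 x.2) hx1)
  obtain ⟨φ, hφV, hφ⟩ := L2_exists_frob hV f hRD.2.1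
  -- the uniformizer as a unit
  have hϖ0' : (ϖ : PadicAlgCl q) ≠ 0 := fun h => hϖ0 (Subtype.ext h)
  set π : (PadicAlgCl q)ˣ := Units.mk0 (ϖ : PadicAlgCl q) hϖ0' with hπ
  have hπval : (π : PadicAlgCl q) = ϖ := rfl
  have hπfix : IsFixedBy q V (π : PadicAlgCl q) := (hfix_iff _).2 ϖ.2
  have hUnif : IsUniformizer q V (π : PadicAlgCl q) := by
    refine ⟨hπfix, hϖ0', hϖlt, ?_⟩
    intro x hx hx1
    exact hmax ⟨x, (hfix_iff x).1 hx⟩ hx1
  -- index and norms
  have hidx : V.index = e * f := by rw [L2_index hV, hef]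
  have hnormπ : ‖(π : PadicAlgCl q)‖ ^ V.index = (q : ℝ) ^ (-(f : ℤ)) := by
    rw [hidx, pow_mul, hπval, hnorme, zpow_neg, zpow_natCast, inv_pow]
  have hvπ : vdeg q V π = f := by
    unfold vdeg
    rw [hnormπ, Int.log_zpow hq.one_lt, neg_neg]
  refine ⟨f, φ, π, hRD, hφV, hφ, hUnif, hvπ, ?_⟩
  intro a ha
  have ha' : IsFixedBy q V (a : PadicAlgCl q) := by
    intro τ hτ
    have := congrArg (fun u : (PadicAlgCl q)ˣ => (u : PadicAlgCl q)) (ha τ hτ)
    exact this
  have haE : (a : PadicAlgCl q) ∈ L2_E q V := (hfix_iff _).1 ha'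
  have ha0 : (⟨a, haE⟩ : L2_E q V) ≠ 0 := by
    intro h
    exact a.ne_zero (congrArg Subtype.val h)
  obtain ⟨k, u, hu1, hau⟩ := hdec ⟨a, haE⟩ ha0
  have hu0 : (u : PadicAlgCl q) ≠ 0 := by
    intro h
    rw [h, norm_zero] at hu1
    exact zero_ne_one hu1
  have hau' : (a : PadicAlgCl q) = (ϖ : PadicAlgCl q) ^ k * (u : PadicAlgCl q) := by
    have hz : ((ϖ ^ k : L2_E q V) : PadicAlgCl q) = (ϖ : PadicAlgCl q) ^ k :=
      map_zpow₀ (L2_E q V).val ϖ k
    have := congrArg (fun z : L2_E q V => (z : PadicAlgCl q)) hau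
    simp only [MulMemClass.coe_mul, hz] at this
    exact this
  have hnorma : ‖(a : PadicAlgCl q)‖ = ‖(π : PadicAlgCl q)‖ ^ k := by
    rw [hau', norm_mul, norm_zpow, hu1, mul_one, hπval]
  refine ⟨k, Units.mk0 (u : PadicAlgCl q) hu0, ?_, hu1, ?_, ?_⟩
  · intro τ hτ
    apply Units.ext
    exact (hfix_iff _).2 u.2 τ hτ
  · apply Units.ext
    rw [Units.val_mul, Units.val_zpow_eq_zpow_val, Units.val_mk0]
    exact hau'
  · have h1 : ‖(a : PadicAlgCl q)‖ ^ V.index = (q : ℝ) ^ (-((f : ℤ) * k)) := by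
      rw [hnorma, ← zpow_natCast, ← zpow_mul, mul_comm k, zpow_mul, zpow_natCast, hnormπ,
        ← zpow_mul, neg_mul]
    unfold vdeg
    rw [h1, Int.log_zpow hq.one_lt, neg_neg]

end Fermat.Agent.S55.G.Rec.H931
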