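import Fermat.Agent.S55.G.Rec.Spec2

/-!
# S55 / layer G / block REC : leaves L4 (`CycloFrobSpec`) and L6 (`LocalRootSpec`)   (helper854)

Key lemma: in an ultrametric normed field, if `‖(m : K)‖ = 1` then two `m`-th roots of unity
which are congruent modulo the maximal ideal (`‖ζ - ζ'‖ < 1`) are equal.

* `cycloFrob : CycloFrobSpec`
* `localRoot : LocalRootSpec`
-/

set_option autoImplicit false

noncomputable section

namespace Fermat.Agent.S55.G.Rec.H854

open Fermat.Agent.S55.G.Rec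

section Ultra

variable {K : Type*} [NormedField K] [IsUltrametricDist K]

lemma norm_sub_le_max_h854 (x y : K) : ‖x - y‖ ≤ max ‖x‖ ‖y‖ := by
  have h := IsUltrametricDist.norm_add_le_max x (-y)
  rwa [norm_neg, ← sub_eq_add_neg] at h

lemma norm_geom_sum_le_one (u : K) (hu : ‖u‖ ≤ 1) (i : ℕ) :
    ‖∑ j ∈ Finset.range i, u ^ j‖ ≤ 1 := by
  apply IsUltrametricDist.norm_sum_le_of_forall_le_of_nonneg zero_le_one
  intro j _
  rw [norm_pow]
  exact pow_le_one₀ (norm_nonneg _) hu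

lemma norm_pow_sub_one_le (u : K) (hu : ‖u‖ ≤ 1) (i : ℕ) : ‖u ^ i - 1‖ ≤ ‖u - 1‖ := by
  have h : u ^ i - 1 = (∑ j ∈ Finset.range i, u ^ j) * (u - 1) := (geom_sum_mul u i).symm
  rw [h, norm_mul]
  calc ‖∑ j ∈ Finset.range i, u ^ j‖ * ‖u - 1‖ ≤ 1 * ‖u - 1‖ := by
        gcongr
        exact norm_geom_sum_le_one u hu i
    _ = ‖u - 1‖ := one_mul _

omit [IsUltrametricDist K] in
lemma norm_eq_one_of_pow_eq_one {m : ℕ} (hm0 : m ≠ 0) (u : K) (hu : u ^ m = 1) : ‖u‖ = 1 := by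
  have h : ‖u‖ ^ m = 1 := by rw [← norm_pow, hu, norm_one]
  exact (pow_eq_one_iff_of_nonneg (norm_nonneg _) hm0).mp h

/-- A root of unity of order prime to the residue characteristic which is `≡ 1` is `1`. -/
lemma eq_one_of_pow_eq_one_of_norm_lt (m : ℕ) (hm : ‖(m : K)‖ = 1) (u : K) (hu : u ^ m = 1)
    (h1 : ‖u - 1‖ < 1) : u = 1 := by
  by_contra hne
  have hm0 : m ≠ 0 := by
    rintro rfl
    simp at hm
  have hnorm : ‖u‖ = 1 := norm_eq_one_of_pow_eq_one hm0 u hu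
  have hsum : ∑ j ∈ Finset.range m, u ^ j = 0 := by
    have h := geom_sum_mul u m
    rw [hu, sub_self] at h
    exact (mul_eq_zero.mp h).resolve_right (sub_ne_zero.mpr hne)
  have hmK : (m : K) = - ∑ j ∈ Finset.range m, (u ^ j - 1) := by
    rw [Finset.sum_sub_distrib, hsum]
    simp
  have hlt : ‖(m : K)‖ < 1 := by
    rw [hmK, norm_neg]
    exact lt_of_le_of_lt
      (IsUltrametricDist.norm_sum_le_of_forall_le_of_nonneg (norm_nonneg _)
        (fun j _ => norm_pow_sub_one_le u hnorm.le j)) h1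
  rw [hm] at hlt
  exact lt_irrefl _ hlt

/-- Two `m`-th roots of unity which are congruent are equal (`m` a unit of the valuation ring). -/
lemma eq_of_pow_eq_one_of_norm_sub_lt (m : ℕ) (hm : ‖(m : K)‖ = 1) (ζ ζ' : K) (hζ : ζ ^ m = 1)
    (hζ' : ζ' ^ m = 1) (h1 : ‖ζ' - ζ‖ < 1) : ζ' = ζ := by
  have hm0 : m ≠ 0 := by
    rintro rfl
    simp at hm
  have hn : ‖ζ‖ = 1 := norm_eq_one_of_pow_eq_one hm0 ζ hζ
  have hζ0 : ζ ≠ 0 := by
    rintro rfl
    simp at hn
  have hu : (ζ' / ζ) ^ m = 1 := by rw [div_pow, hζ, hζ', div_one]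
  have h2 : ‖ζ' / ζ - 1‖ < 1 := by
    have : ζ' / ζ - 1 = (ζ' - ζ) / ζ := by field_simp
    rw [this, norm_div, hn, div_one]
    exact h1
  have := eq_one_of_pow_eq_one_of_norm_lt m hm (ζ' / ζ) hu h2
  rwa [div_eq_one_iff_eq hζ0] at this

/-- Two elements of norm `1` with the same `m`-th power which are congruent are equal. -/
lemma eq_of_pow_eq_pow_of_norm_sub_lt (m : ℕ) (hm : ‖(m : K)‖ = 1) (x y : K) (hy : ‖y‖ = 1)
    (h : x ^ m = y ^ m) (h1 : ‖x - y‖ < 1) : x = y := by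
  have hy0 : y ≠ 0 := by
    rintro rfl
    simp at hy
  have hu : (x / y) ^ m = 1 := by
    rw [div_pow, h]
    exact div_self (pow_ne_zero _ hy0)
  have h2 : ‖x / y - 1‖ < 1 := by
    have : x / y - 1 = (x - y) / y := by field_simp
    rw [this, norm_div, hy, div_one]
    exact h1
  have := eq_one_of_pow_eq_one_of_norm_lt m hm (x / y) hu h2
  rwa [div_eq_one_iff_eq hy0] at this

lemma norm_eq_one_of_norm_one_sub_lt (b : K) (h : ‖1 - b‖ < 1) : ‖b‖ = 1 := by
  apply le_antisymm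
  · have h1 : ‖b‖ = ‖1 - (1 - b)‖ := by congr 1; ring
    rw [h1]
    refine (norm_sub_le_max_h854 _ _).trans ?_
    rw [norm_one]
    exact max_le le_rfl h.le
  · by_contra hlt
    replace hlt := not_le.mp hlt
    have h1 : ‖(1 : K)‖ = ‖b + (1 - b)‖ := by congr 1; ring
    have h2 : ‖(1 : K)‖ < 1 := by
      rw [h1]
      exact lt_of_le_of_lt (IsUltrametricDist.norm_add_le_max _ _) (max_lt hlt h)
    rw [norm_one] at h2
    exact lt_irrefl _ h2

omit [IsUltrametricDist K] in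
lemma exists_norm_lt_one_of_norm_prod_lt_one (s : Multiset K) (h : ‖s.prod‖ < 1) :
    ∃ x ∈ s, ‖x‖ < 1 := by
  induction s using Multiset.induction_on with
  | empty => simp at h
  | cons a t ih =>
    rw [Multiset.prod_cons, norm_mul] at h
    by_cases ha : ‖a‖ < 1
    · exact ⟨a, Multiset.mem_cons_self a t, ha⟩
    · replace ha := not_lt.mp ha
      have ht : ‖t.prod‖ < 1 := by
        by_contra hge
        replace hge := not_lt.mp hge
        have : (1 : ℝ) ≤ ‖a‖ * ‖t.prod‖ := one_le_mul_of_one_le_of_one_le ha hge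
        exact absurd h (not_lt.mpr this)
      obtain ⟨x, hx, hx1⟩ := ih ht
      exact ⟨x, Multiset.mem_cons_of_mem hx, hx1⟩

end Ultra

section Padic

variable (q : ℕ) [Fact q.Prime]

lemma norm_natCast_padicAlgCl_eq_one {m : ℕ} (hm : ¬ q ∣ m) : ‖(m : PadicAlgCl q)‖ = 1 := by
  have h : (m : PadicAlgCl q) = algebraMap ℚ_[q] (PadicAlgCl q) (m : ℚ_[q]) := by
    simp
  rw [h]
  have := PadicAlgCl.norm_extends q (m : ℚ_[q])
  rw [this, Padic.norm_natCast_eq_one_iff]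
  exact (Nat.Prime.coprime_iff_not_dvd (Fact.out : q.Prime)).mpr hm

lemma norm_algEquiv_padicAlgCl (τ : PadicAlgCl q ≃ₐ[ℚ_[q]] PadicAlgCl q) (y : PadicAlgCl q) :
    ‖τ y‖ = ‖y‖ := by
  have := nnnorm_padicAlgCl_algEquiv q τ y
  exact congrArg NNReal.toReal this

/-- (L4) -/
theorem cycloFrob : CycloFrobSpec := by
  intro q _ m hqm
  have hm : ‖(m : PadicAlgCl q)‖ = 1 := norm_natCast_padicAlgCl_eq_one q hqm
  have hm0 : m ≠ 0 := by
    rintro rfl
    exact hqm (dvd_zero q)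
  refine ⟨?_, ?_⟩
  · intro τ hτ ζ hζ
    have hn : ‖ζ‖ = 1 := norm_eq_one_of_pow_eq_one hm0 ζ hζ
    have hτζ : (τ ζ) ^ m = 1 := by rw [← map_pow, hζ, map_one]
    exact eq_of_pow_eq_one_of_norm_sub_lt m hm ζ (τ ζ) hζ hτζ (hτ ζ hn.le)
  · intro τ f hτ ζ hζ
    have hn : ‖ζ‖ = 1 := norm_eq_one_of_pow_eq_one hm0 ζ hζ
    have hτζ : (τ ζ) ^ m = 1 := by rw [← map_pow, hζ, map_one]
    have hζq : (ζ ^ (q ^ f)) ^ m = 1 := by rw [← pow_mul, mul_comm, pow_mul, hζ, one_pow]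
    exact eq_of_pow_eq_one_of_norm_sub_lt m hm (ζ ^ (q ^ f)) (τ ζ) hζq hτζ (hτ ζ hn.le)

/-- (L6) -/
theorem localRoot : LocalRootSpec := by
  intro q _ V n hqn a haV ha1
  have hn0 : n ≠ 0 := by
    rintro rfl
    exact hqn (dvd_zero q)
  have hn : ‖(n : PadicAlgCl q)‖ = 1 := norm_natCast_padicAlgCl_eq_one q hqn
  have hmonic : (Polynomial.X ^ n - Polynomial.C (a : PadicAlgCl q)).Monic :=
    Polynomial.monic_X_pow_sub_C _ hn0
  have hsplits : (Polynomial.X ^ n - Polynomial.C (a : PadicAlgCl q)).Splits :=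
    IsAlgClosed.splits _
  have heval := hsplits.eval_eq_prod_roots_of_monic hmonic 1
  have he : (Polynomial.X ^ n - Polynomial.C (a : PadicAlgCl q)).eval 1
      = 1 - (a : PadicAlgCl q) := by simp
  have hlt : ‖((Polynomial.X ^ n - Polynomial.C (a : PadicAlgCl q)).roots.map (1 - ·)).prod‖
      < 1 := by
    rw [← heval, he, norm_sub_rev]
    exact ha1
  obtain ⟨y, hy, hylt⟩ := exists_norm_lt_one_of_norm_prod_lt_one _ hlt
  obtain ⟨b, hb, rfl⟩ := Multiset.mem_map.mp hy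
  have hbroot : b ^ n = (a : PadicAlgCl q) := by
    have := (Polynomial.mem_roots hmonic.ne_zero).mp hb
    simpa [Polynomial.IsRoot, sub_eq_zero] using this
  have hbn : ‖b‖ = 1 := norm_eq_one_of_norm_one_sub_lt b hylt
  have hb0 : b ≠ 0 := by
    rintro rfl
    simp at hbn
  refine ⟨Units.mk0 b hb0, ?_, ?_⟩
  · intro τ hτ
    apply Units.ext
    show τ b = b
    have ha' : τ (a : PadicAlgCl q) = (a : PadicAlgCl q) := congrArg Units.val (haV τ hτ)
    have h1 : (τ b) ^ n = b ^ n := by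
      rw [← map_pow, hbroot, ha']
    have h2 : ‖τ b - b‖ < 1 := by
      have h3 : τ b - b = (1 - b) - τ (1 - b) := by
        rw [map_sub, map_one]
        ring
      rw [h3]
      refine lt_of_le_of_lt (norm_sub_le_max_h854 _ _) (max_lt hylt ?_)
      rw [norm_algEquiv_padicAlgCl]
      exact hylt
    exact eq_of_pow_eq_pow_of_norm_sub_lt n hn (τ b) b hbn h1 h2
  · apply Units.ext
    rw [Units.val_pow_eq_pow_val]
    exact hbroot

end Padic

end Fermat.Agent.S55.G.Rec.H854
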