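import Fermat.Agent.S55.G.Rec.Spec2

/-!
# S55 / layer G / block REC : leaf G1 = `OrbitNormSpec`   (helper934)

`theorem Fermat.Agent.S55.G.Rec.H934.orbitNorm : OrbitNormSpec`

For `U ≤ G_ℚ` open and `a ∈ Kˣ`, `K = ℚ̄^U`:
* `N_{K/ℚ}(a) = relNorm U a` is rational;
* `ι_q (N_{K/ℚ} a) = ∏_{r ∈ R} N_{K_r/ℚ_q}(ι_q (r⁻¹ a))` for every system `R` of representatives of
  the double cosets `U \ G_ℚ / D_q`.

Proof: pure orbit combinatorics.  The map
`(r, τ V_r) ↦ loc(τ) r⁻¹ U`,  `Σ_{r ∈ R} G_q / V_r → G_ℚ / U`  (`V_r = locSub q r U`) is a bijection.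
-/

set_option autoImplicit false

noncomputable section

namespace Fermat.Agent.S55.G.Rec.H934

open Fermat.Agent.S55.G.Rec

local notation "Qb" => AlgebraicClosure ℚ
local notation "GQ" => (AlgebraicClosure ℚ ≃ₐ[ℚ] AlgebraicClosure ℚ)

/-! ## Generic facts on `relNorm` -/

section Generic

variable {G M : Type*} [Group G] [CommGroup M] [MulDistribMulAction G M]

/-- For `b` fixed by `H`, `out (gH) • b = g • b`. -/
lemma out_smul_of_fixed (H : Subgroup G) {b : M} (hb : ∀ h ∈ H, h • b = b) (g : G) :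
    (Quotient.out (QuotientGroup.mk g : G ⧸ H) : G) • b = g • b := by
  obtain ⟨h, hh⟩ := QuotientGroup.mk_out_eq_mul H g
  rw [hh, mul_smul, hb h h.2]

/-- `relNorm` as a `Fintype` product. -/
lemma relNorm_eq_prod (H : Subgroup G) [Fintype (G ⧸ H)] (b : M) :
    relNorm H b = ∏ t : G ⧸ H, (Quotient.out t : G) • b := by
  unfold relNorm
  exact finprod_eq_prod_of_fintype _

/-- The norm is invariant under the whole group. -/
lemma smul_relNorm (H : Subgroup G) [Finite (G ⧸ H)] {b : M} (hb : ∀ h ∈ H, h • b = b) (σ : G) :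
    σ • relNorm H b = relNorm H b := by
  classical
  haveI : Fintype (G ⧸ H) := Fintype.ofFinite _
  rw [relNorm_eq_prod, Finset.smul_prod']
  -- reindex by `t ↦ σ • t`
  have hbij : Function.Bijective (fun t : G ⧸ H => σ • t) := MulAction.bijective σ
  rw [← Function.Bijective.prod_comp hbij (fun t : G ⧸ H => (Quotient.out t : G) • b)]
  refine Finset.prod_congr rfl fun t _ => ?_
  rw [← mul_smul]
  have h1 : (σ • t : G ⧸ H) = QuotientGroup.mk (σ * Quotient.out t) := by
    conv_lhs => rw [← QuotientGroup.out_eq' t]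
    rfl
  rw [h1, out_smul_of_fixed H hb]

end Generic

/-! ## Finite index and rationality -/

/-- `ℚ̄/ℚ` is Galois. -/
theorem isGalois_Qb : IsGalois ℚ Qb := by
  haveI : Algebra.IsAlgebraic ℚ Qb := AlgebraicClosure.isAlgebraic ℚ
  haveI : IsAlgClosure ℚ Qb := ⟨inferInstance, inferInstance⟩
  haveI : Normal ℚ Qb := IsAlgClosure.normal ℚ Qb
  exact isGalois_iff.mpr ⟨inferInstance, inferInstance⟩

attribute [local instance] isGalois_Qb

lemma finite_quotient_of_isOpenQ {U : Subgroup GQ} (hU : IsOpenQ U) : Finite (GQ ⧸ U) := by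
  obtain ⟨F, hF, hle⟩ := hU
  have h1 : F.fixingSubgroup.index ≠ 0 := by
    rw [← IntermediateField.finrank_eq_fixingSubgroup_index]
    exact Module.finrank_pos.ne'
  haveI : F.fixingSubgroup.FiniteIndex := ⟨h1⟩
  haveI : U.FiniteIndex := Subgroup.finiteIndex_of_le hle
  exact Subgroup.finite_quotient_of_finiteIndex

lemma relNorm_rational {U : Subgroup GQ} (hU : IsOpenQ U) {a : Qbˣ} (ha : GFixed U a) :
    ∃ y : ℚˣ, ((relNorm U a : Qbˣ) : Qb) = algebraMap ℚ Qb (y : ℚ) := by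
  haveI := finite_quotient_of_isOpenQ hU
  have hfix : ∀ σ : GQ, σ ((relNorm U a : Qbˣ) : Qb) = ((relNorm U a : Qbˣ) : Qb) := by
    intro σ
    have h2 := congrArg (fun x : Qbˣ => (x : Qb)) (smul_relNorm U ha σ)
    exact h2
  obtain ⟨y0, hy0⟩ := (InfiniteGalois.mem_range_algebraMap_iff_fixed _).2 hfix
  have hy0ne : y0 ≠ 0 := by
    rintro rfl
    rw [map_zero] at hy0
    exact (Units.ne_zero _) hy0.symm
  exact ⟨Units.mk0 y0 hy0ne, hy0.symm⟩

/-! ## The orbit decomposition -/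

section Orbit

variable (q : ℕ) [Fact q.Prime]

local notation "Gq" => (PadicAlgCl q ≃ₐ[ℚ_[q]] PadicAlgCl q)

/-- `τ V_r ↦ loc(τ) r⁻¹ U`. -/
def orbMap (U : Subgroup GQ) (r : GQ) : Gq ⧸ locSub q r U → GQ ⧸ U :=
  Quotient.map' (s₁ := QuotientGroup.leftRel (locSub q r U)) (s₂ := QuotientGroup.leftRel U)
    (fun τ => localGaloisToGlobal q τ * r⁻¹) (by
      intro τ τ' h
      rw [QuotientGroup.leftRel_apply] at h ⊢
      have h' : r * localGaloisToGlobal q (τ⁻¹ * τ') * r⁻¹ ∈ U := mem_locSub.1 h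
      have e : (localGaloisToGlobal q τ * r⁻¹)⁻¹ * (localGaloisToGlobal q τ' * r⁻¹) =
          r * localGaloisToGlobal q (τ⁻¹ * τ') * r⁻¹ := by
        simp only [map_mul, map_inv, mul_inv_rev, inv_inv, mul_assoc]
      rw [e]
      exact h')

lemma orbMap_mk (U : Subgroup GQ) (r : GQ) (τ : Gq) :
    orbMap q U r (QuotientGroup.mk τ) = QuotientGroup.mk (localGaloisToGlobal q τ * r⁻¹) := rfl

lemma orbMap_injective (U : Subgroup GQ) (r : GQ) : Function.Injective (orbMap q U r) := by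
  intro s s' h
  induction s using QuotientGroup.induction_on with | _ τ => ?_
  induction s' using QuotientGroup.induction_on with | _ τ' => ?_
  rw [orbMap_mk, orbMap_mk, QuotientGroup.eq] at h
  rw [QuotientGroup.eq]
  apply mem_locSub.2
  have e : (localGaloisToGlobal q τ * r⁻¹)⁻¹ * (localGaloisToGlobal q τ' * r⁻¹) =
      r * localGaloisToGlobal q (τ⁻¹ * τ') * r⁻¹ := by
    simp only [map_mul, map_inv, mul_inv_rev, inv_inv, mul_assoc]
  rw [← e]
  exact h

lemma finite_quotient_locSub {U : Subgroup GQ} (hU : IsOpenQ U) (r : GQ) :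
    Finite (Gq ⧸ locSub q r U) := by
  haveI := finite_quotient_of_isOpenQ hU
  exact Finite.of_injective _ (orbMap_injective q U r)

/-- The total orbit map `Σ_{r ∈ R} G_q / V_r → G_ℚ / U`. -/
def orbSigma (U : Subgroup GQ) (R : Finset GQ) :
    (Σ r : ↥R, Gq ⧸ locSub q (r : GQ) U) → GQ ⧸ U :=
  fun x => orbMap q U (x.1 : GQ) x.2

lemma orbSigma_bijective (U : Subgroup GQ) (R : Finset GQ)
    (hR : IsDoubleCosetReps U (localGaloisToGlobal q).range R) :
    Function.Bijective (orbSigma q U R) := by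
  constructor
  · rintro ⟨r, s⟩ ⟨r', s'⟩ h
    induction s using QuotientGroup.induction_on with | _ τ => ?_
    induction s' using QuotientGroup.induction_on with | _ τ' => ?_
    have h0 : (QuotientGroup.mk (localGaloisToGlobal q τ * (r : GQ)⁻¹) : GQ ⧸ U) =
        QuotientGroup.mk (localGaloisToGlobal q τ' * (r' : GQ)⁻¹) := h
    rw [QuotientGroup.eq] at h0
    -- `u := r loc(τ)⁻¹ loc(τ') r'⁻¹ ∈ U`, so `r = u r' loc(τ'⁻¹ τ)`
    have hrr : (r : GQ) = (r' : GQ) := by
      obtain ⟨r₀, -, huniq⟩ := hR (r : GQ)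
      have e1 : (r : GQ) = r₀ :=
        huniq r ⟨r.2, 1, U.one_mem, 1, Subgroup.one_mem _, by simp⟩
      have e2 : (r' : GQ) = r₀ := by
        refine huniq r' ⟨r'.2, _, h0, localGaloisToGlobal q (τ'⁻¹ * τ), ⟨_, rfl⟩, ?_⟩
        simp only [map_mul, map_inv]
        group
      rw [e1, e2]
    obtain rfl : r = r' := Subtype.ext hrr
    have : (QuotientGroup.mk τ : Gq ⧸ locSub q (r : GQ) U) = QuotientGroup.mk τ' :=
      orbMap_injective q U (r : GQ) h
    rw [this]
  · intro t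
    induction t using QuotientGroup.induction_on with | _ g => ?_
    obtain ⟨r, ⟨hrR, u, hu, d, ⟨τ0, rfl⟩, hg⟩, -⟩ := hR g⁻¹
    refine ⟨⟨⟨r, hrR⟩, QuotientGroup.mk τ0⁻¹⟩, ?_⟩
    show (QuotientGroup.mk (localGaloisToGlobal q τ0⁻¹ * r⁻¹) : GQ ⧸ U) = QuotientGroup.mk g
    rw [QuotientGroup.eq]
    have e : (localGaloisToGlobal q τ0⁻¹ * r⁻¹)⁻¹ * g = u⁻¹ := by
      have hg' : g = (u * r * localGaloisToGlobal q τ0)⁻¹ := by rw [← hg, inv_inv]
      rw [hg']
      simp only [map_inv, mul_inv_rev, inv_inv, mul_assoc, mul_inv_cancel_left]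
    rw [e]
    exact U.inv_mem hu

/-- `ι_q ((loc τ · r⁻¹) • a) = τ • ι_q (r⁻¹ • a)`. -/
lemma locPushMul_one_smul (r : GQ) (τ : Gq) (a : Qbˣ) :
    locPushMul q 1 ((localGaloisToGlobal q τ * r⁻¹) • a) = τ • locPushMul q r a := by
  apply Units.ext
  show padicEmbedding q ((1 : GQ)⁻¹ ((localGaloisToGlobal q τ * r⁻¹) (a : Qb))) =
    τ (padicEmbedding q (r⁻¹ (a : Qb)))
  rw [← padicEmbedding_localGaloisToGlobal]
  rfl

lemma lFixed_locPushMul {U : Subgroup GQ} {a : Qbˣ} (ha : GFixed U a) (r : GQ) :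
    LFixed q (locSub q r U) (locPushMul q r a) := by
  intro τ hτ
  have h := mem_locSub.1 hτ
  apply Units.ext
  show τ (padicEmbedding q (r⁻¹ (a : Qb))) = padicEmbedding q (r⁻¹ (a : Qb))
  rw [← padicEmbedding_localGaloisToGlobal]
  congr 1
  have h2 : ((r * localGaloisToGlobal q τ * r⁻¹) • a : Qbˣ) = a := ha _ h
  have h3 : (r * localGaloisToGlobal q τ * r⁻¹) (a : Qb) = (a : Qb) :=
    congrArg (fun x : Qbˣ => (x : Qb)) h2
  have h4 := congrArg (r⁻¹ : GQ) h3
  simpa [AlgEquiv.mul_apply] using h4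

end Orbit

/-- **Leaf G1** of the norm route: the global norm is rational and is the product of the local
norms over the places above `q`. -/
theorem orbitNorm : OrbitNormSpec := by
  intro U hU a ha
  refine ⟨relNorm_rational hU ha, ?_⟩
  intro q _ R hR
  classical
  haveI := finite_quotient_of_isOpenQ hU
  haveI : Fintype (GQ ⧸ U) := Fintype.ofFinite _
  haveI hfin : ∀ r : GQ, Finite ((PadicAlgCl q ≃ₐ[ℚ_[q]] PadicAlgCl q) ⧸ locSub q r U) :=
    fun r => finite_quotient_locSub q hU r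
  haveI : ∀ r : GQ, Fintype ((PadicAlgCl q ≃ₐ[ℚ_[q]] PadicAlgCl q) ⧸ locSub q r U) :=
    fun r => Fintype.ofFinite _
  rw [relNorm_eq_prod, map_prod]
  rw [← Function.Bijective.prod_comp (orbSigma_bijective q U R hR)
    (fun t : GQ ⧸ U => locPushMul q 1 ((Quotient.out t : GQ) • a))]
  rw [Fintype.prod_sigma, ← Finset.prod_coe_sort R]
  refine Finset.prod_congr rfl fun r _ => ?_
  rw [relNorm_eq_prod]
  refine Finset.prod_congr rfl fun s _ => ?_
  have hs : orbSigma q U R ⟨r, s⟩ =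
      QuotientGroup.mk (localGaloisToGlobal q (Quotient.out s) * (r : GQ)⁻¹) := by
    conv_lhs => rw [← QuotientGroup.out_eq' s]
    rfl
  rw [hs, out_smul_of_fixed U ha, locPushMul_one_smul]

end Fermat.Agent.S55.G.Rec.H934
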