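import Mathlib

/-!
# S55 / layer G / block REC / STEP A : Mathlib-only algebra (helper511)

* `H511.chi_eq_one_of_mem_range` : a character `χ` (odd order) which is trivial on `ker c` is trivial
  on every element whose `c`-value is `± c κ`, `κ ∈ ker χ`.
* `H511.addCircle_sum_eq_zero` : `∑ kᵢ • xᵢ = 0` in `ℤ/n` ⟹ `∑ kᵢ · val xᵢ / n = 0` in `ℚ/ℤ`.
* `H511.norm_prod_sub_prod_le` : ultrametric estimate for products.
* `H511.unit_prod_eq_pm` : `y ∈ ℚˣ` with `y ≡ ± ℓ^K · P mod ℓ^(K+e)` ⟹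
  `∏_{q ≠ ℓ} q ^ v_q(y) = ± P` in `(ℤ/ℓ^e)ˣ`.
-/

set_option autoImplicit false
set_option linter.style.haveILetI false

namespace Fermat.Agent.S55.G.Rec.H511

/-! ## Characters -/

lemma zmod_eq_zero_of_add_self {n : ℕ} (hn : Odd n) (x : ZMod n) (h : x + x = 0) : x = 0 := by
  obtain ⟨j, hj⟩ := hn
  have h1 : (n : ℕ) • x = 0 := by
    rw [nsmul_eq_mul, ZMod.natCast_self, zero_mul]
  have h2 : ∀ k : ℕ, k = 2 * j + 1 → k • x = j • (x + x) + x := by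
    intro k hk
    rw [hk, add_smul, one_smul, mul_comm, mul_smul, two_smul]
  rw [h2 n hj, h, smul_zero, zero_add] at h1
  exact h1

theorem chi_eq_one_of_mem_range {U C : Type*} [Group U] [CommGroup C] {n : ℕ} (hn : Odd n)
    (c : U →* C) (χ : U →* Multiplicative (ZMod n)) (hcyc : ∀ σ, c σ = 1 → χ σ = 1)
    {t : C} {w : Multiplicative (ZMod n)} (hmem : (t, w) ∈ (c.prod χ).range)
    (ε : C) (hε : ε * ε = 1) (κ : U) (hκ : χ κ = 1) (ht : t = c κ ∨ t = ε * c κ) : w = 1 := by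
  obtain ⟨σ, hσ⟩ := hmem
  have h1 : c σ = t := congrArg Prod.fst hσ
  have h2 : χ σ = w := congrArg Prod.snd hσ
  have h3 : c (σ * σ * (κ⁻¹ * κ⁻¹)) = 1 := by
    simp only [map_mul, map_inv, h1]
    rcases ht with ht | ht
    · rw [ht]; group
    · rw [ht]
      calc ε * c κ * (ε * c κ) * ((c κ)⁻¹ * (c κ)⁻¹) = (ε * ε) * (c κ * (c κ)⁻¹) * (c κ * (c κ)⁻¹) := by
            simp only [mul_comm, mul_left_comm, mul_assoc]
        _ = 1 := by rw [hε, mul_inv_cancel, one_mul, one_mul]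
  have h4 := hcyc _ h3
  simp only [map_mul, map_inv, h2, hκ, inv_one, mul_one] at h4
  have h5 : Multiplicative.toAdd w + Multiplicative.toAdd w = 0 := by
    have := congrArg Multiplicative.toAdd h4
    simpa using this
  have h6 := zmod_eq_zero_of_add_self hn _ h5
  exact Multiplicative.toAdd.injective h6

/-! ## Sums in `ℚ/ℤ` -/

lemma addCircle_sum_eq_zero {ι : Type*} (s : Finset ι) (n : ℕ) [NeZero n] (k : ι → ℤ)
    (x : ι → ZMod n) (h : ∑ i ∈ s, k i • x i = 0) :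
    ∑ i ∈ s, ((((k i : ℚ) * (((x i).val : ℕ) : ℚ) / (n : ℚ) : ℚ)) : AddCircle (1 : ℚ)) = 0 := by
  have hn : (n : ℚ) ≠ 0 := Nat.cast_ne_zero.mpr (NeZero.ne n)
  set J : ℤ := ∑ i ∈ s, k i * ((x i).val : ℤ) with hJ
  have hJ0 : ((J : ℤ) : ZMod n) = 0 := by
    rw [hJ, Int.cast_sum, ← h]
    refine Finset.sum_congr rfl fun i _ => ?_
    rw [Int.cast_mul, Int.cast_natCast, ZMod.natCast_val, ZMod.cast_id', id, zsmul_eq_mul]
  obtain ⟨t, ht⟩ := (ZMod.intCast_zmod_eq_zero_iff_dvd J n).mp hJ0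
  have hsum : ∑ i ∈ s, ((k i : ℚ) * (((x i).val : ℕ) : ℚ) / (n : ℚ) : ℚ) = (t : ℚ) := by
    rw [← Finset.sum_div]
    have : (∑ i ∈ s, (k i : ℚ) * (((x i).val : ℕ) : ℚ)) = ((J : ℤ) : ℚ) := by
      rw [hJ]; push_cast; rfl
    rw [this, ht]
    push_cast
    field_simp
  have hcoe : ∑ i ∈ s, ((((k i : ℚ) * (((x i).val : ℕ) : ℚ) / (n : ℚ) : ℚ)) : AddCircle (1 : ℚ))
      = ((∑ i ∈ s, ((k i : ℚ) * (((x i).val : ℕ) : ℚ) / (n : ℚ) : ℚ) : ℚ) : AddCircle (1 : ℚ)) :=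
    (map_sum (QuotientAddGroup.mk' (AddSubgroup.zmultiples (1 : ℚ))) _ s).symm
  rw [hcoe, hsum]
  exact (AddCircle.coe_eq_zero_iff (p := (1 : ℚ))).mpr ⟨t, by simp⟩

/-! ## Ultrametric product estimate -/

lemma norm_prod_sub_prod_le {𝕜 ι : Type*} [NormedField 𝕜] [IsUltrametricDist 𝕜]
    (s : Finset ι) (x y : ι → 𝕜) (ε : ℝ) (hε0 : 0 ≤ ε) (hε : ε ≤ 1)
    (h : ∀ i ∈ s, ‖x i - y i‖ ≤ ε * ‖y i‖) :
    ‖∏ i ∈ s, x i‖ ≤ ∏ i ∈ s, ‖y i‖ ∧
      ‖∏ i ∈ s, x i - ∏ i ∈ s, y i‖ ≤ ε * ∏ i ∈ s, ‖y i‖ := by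
  classical
  induction s using Finset.induction_on with
  | empty => simp [hε0]
  | insert a s ha ih =>
    obtain ⟨ih1, ih2⟩ := ih fun i hi => h i (Finset.mem_insert_of_mem hi)
    have hxa : ‖x a‖ ≤ ‖y a‖ := by
      have h1 : x a = (x a - y a) + y a := by ring
      rw [h1]
      refine (IsUltrametricDist.norm_add_le_max _ _).trans (max_le ?_ le_rfl)
      refine (h a (Finset.mem_insert_self a s)).trans ?_
      exact mul_le_of_le_one_left (norm_nonneg _) hε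
    have hY : 0 ≤ ∏ i ∈ s, ‖y i‖ := Finset.prod_nonneg fun i _ => norm_nonneg _
    rw [Finset.prod_insert ha, Finset.prod_insert ha, Finset.prod_insert ha]
    refine ⟨?_, ?_⟩
    · rw [norm_mul]
      exact mul_le_mul hxa ih1 (norm_nonneg _) (norm_nonneg _)
    · have h1 : x a * ∏ i ∈ s, x i - y a * ∏ i ∈ s, y i =
          (x a - y a) * ∏ i ∈ s, x i + y a * (∏ i ∈ s, x i - ∏ i ∈ s, y i) := by ring
      rw [h1]
      refine (IsUltrametricDist.norm_add_le_max _ _).trans (max_le ?_ ?_)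
      · rw [norm_mul]
        calc ‖x a - y a‖ * ‖∏ i ∈ s, x i‖ ≤ (ε * ‖y a‖) * ∏ i ∈ s, ‖y i‖ :=
              mul_le_mul (h a (Finset.mem_insert_self a s)) ih1 (norm_nonneg _)
                (mul_nonneg hε0 (norm_nonneg _))
          _ = ε * (‖y a‖ * ∏ i ∈ s, ‖y i‖) := by ring
      · rw [norm_mul]
        calc ‖y a‖ * ‖∏ i ∈ s, x i - ∏ i ∈ s, y i‖ ≤ ‖y a‖ * (ε * ∏ i ∈ s, ‖y i‖) :=
              mul_le_mul_of_nonneg_left ih2 (norm_nonneg _)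
          _ = ε * (‖y a‖ * ∏ i ∈ s, ‖y i‖) := by ring

/-! ## Rational numbers modulo `ℓ ^ e` -/

lemma coe_prod_pow_padicValNat {m : ℕ} (u : ℕ → (ZMod m)ˣ) (T : Finset ℕ)
    (hTp : ∀ q ∈ T, q.Prime)
    (hu : ∀ q ∈ T, ((u q : (ZMod m)ˣ) : ZMod m) = (q : ZMod m))
    (A : ℕ) (hA : A ≠ 0) (hprimes : ∀ q, q.Prime → q ∣ A → q ∈ T) :
    ((∏ q ∈ T, u q ^ padicValNat q A : (ZMod m)ˣ) : ZMod m) = (A : ZMod m) := by
  have h1 : ∏ q ∈ T, q ^ padicValNat q A = A := by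
    have h2 : ∏ q ∈ A.primeFactors, q ^ A.factorization q = A := by
      rw [← Nat.prod_factorization_eq_prod_primeFactors (fun p k => p ^ k)]
      exact Nat.factorization_prod_pow_eq_self hA
    have hsub : A.primeFactors ⊆ T := fun q hq =>
      hprimes q (Nat.prime_of_mem_primeFactors hq) (Nat.dvd_of_mem_primeFactors hq)
    have h3 : ∏ q ∈ T, q ^ padicValNat q A = ∏ q ∈ A.primeFactors, q ^ A.factorization q := by
      symm
      refine Finset.prod_subset_one_on_sdiff hsub ?_ ?_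
      · intro q hq
        rw [Finset.mem_sdiff] at hq
        have hq' : ¬ q ∣ A := fun hd =>
          hq.2 (Nat.mem_primeFactors.mpr ⟨hTp q hq.1, hd, hA⟩)
        haveI : Fact q.Prime := ⟨hTp q hq.1⟩
        rw [padicValNat.eq_zero_of_not_dvd hq', pow_zero]
      · intro q hq
        rw [Nat.factorization_def A (Nat.prime_of_mem_primeFactors hq)]
    rw [h3, h2]
  rw [Units.coe_prod]
  calc ∏ q ∈ T, ((u q ^ padicValNat q A : (ZMod m)ˣ) : ZMod m)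
      = ∏ q ∈ T, ((q : ZMod m)) ^ padicValNat q A := by
        refine Finset.prod_congr rfl fun q hq => ?_
        rw [Units.val_pow_eq_pow_val, hu q hq]
    _ = ((∏ q ∈ T, q ^ padicValNat q A : ℕ) : ZMod m) := by
        rw [Nat.cast_prod]
        exact Finset.prod_congr rfl fun q _ => (Nat.cast_pow _ _).symm
    _ = (A : ZMod m) := by rw [h1]

theorem unit_prod_eq_pm (ℓ : ℕ) [Fact ℓ.Prime] (e : ℕ) (y : ℚ) (hy : y ≠ 0)
    (s : ℤˣ) (K : ℤ) (P : ℕ) (hP : ¬ ℓ ∣ P)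
    (hest : ‖(y : ℚ_[ℓ]) - ((s : ℤ) : ℚ_[ℓ]) * (ℓ : ℚ_[ℓ]) ^ K * (P : ℚ_[ℓ])‖
      ≤ ‖(ℓ : ℚ_[ℓ])‖ ^ (K + e))
    (he : 0 < e)
    (u : ℕ → (ZMod (ℓ ^ e))ˣ) (T : Finset ℕ) (hT : ∀ q ∈ T, q.Prime ∧ q ≠ ℓ)
    (hu : ∀ q ∈ T, ((u q : (ZMod (ℓ ^ e))ˣ) : ZMod (ℓ ^ e)) = (q : ZMod (ℓ ^ e)))
    (hsupp : ∀ q : ℕ, q.Prime → q ≠ ℓ → padicValRat q y ≠ 0 → q ∈ T)
    (uP : (ZMod (ℓ ^ e))ˣ) (huP : (uP : ZMod (ℓ ^ e)) = (P : ZMod (ℓ ^ e))) :
    ∏ q ∈ T, u q ^ padicValRat q y = uP ∨ ∏ q ∈ T, u q ^ padicValRat q y = -uP := by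
  have hℓ : ℓ.Prime := Fact.out
  have hℓ0 : (ℓ : ℚ) ≠ 0 := Nat.cast_ne_zero.mpr hℓ.ne_zero
  have hℓ0' : (ℓ : ℚ_[ℓ]) ≠ 0 := Nat.cast_ne_zero.mpr hℓ.ne_zero
  have hs : ((s : ℤ) : ℚ) ≠ 0 := by
    rcases Int.units_eq_one_or s with h | h <;> simp [h]
  set w : ℚ := ((s : ℤ) : ℚ) * (ℓ : ℚ) ^ K with hw
  have hw0 : w ≠ 0 := mul_ne_zero hs (zpow_ne_zero _ hℓ0)
  set z : ℚ := y / w with hz
  have hz0 : z ≠ 0 := div_ne_zero hy hw0
  have hyz : y = w * z := by rw [hz]; field_simp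
  -- the estimate for `z`
  have hwcast : (w : ℚ_[ℓ]) = ((s : ℤ) : ℚ_[ℓ]) * (ℓ : ℚ_[ℓ]) ^ K := by
    rw [hw]; push_cast; rfl
  have hsnorm : ‖((s : ℤ) : ℚ_[ℓ])‖ = 1 := by
    rcases Int.units_eq_one_or s with h | h <;> simp [h]
  have hwnorm : ‖(w : ℚ_[ℓ])‖ = ‖(ℓ : ℚ_[ℓ])‖ ^ K := by
    rw [hwcast, norm_mul, hsnorm, one_mul, norm_zpow]
  have hℓnorm : 0 < ‖(ℓ : ℚ_[ℓ])‖ := norm_pos_iff.mpr hℓ0'
  have hzest : ‖(z : ℚ_[ℓ]) - (P : ℚ_[ℓ])‖ ≤ ‖(ℓ : ℚ_[ℓ])‖ ^ e := by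
    have h1 : (y : ℚ_[ℓ]) - ((s : ℤ) : ℚ_[ℓ]) * (ℓ : ℚ_[ℓ]) ^ K * (P : ℚ_[ℓ]) =
        (w : ℚ_[ℓ]) * ((z : ℚ_[ℓ]) - (P : ℚ_[ℓ])) := by
      rw [hyz, Rat.cast_mul, ← hwcast]; ring
    rw [h1, norm_mul, hwnorm, zpow_add₀ hℓnorm.ne', zpow_natCast] at hest
    exact le_of_mul_le_mul_left hest (zpow_pos hℓnorm K)
  -- numerator and denominator
  set a : ℤ := z.num with ha
  set b : ℕ := z.den with hb
  have hb0 : b ≠ 0 := z.den_ne_zero
  have ha0 : a ≠ 0 := Rat.num_ne_zero.mpr hz0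
  have hzab : (z : ℚ_[ℓ]) = (a : ℚ_[ℓ]) / (b : ℚ_[ℓ]) := by
    conv_lhs => rw [← Rat.num_div_den z]
    push_cast; rfl
  have hbℓ0 : (b : ℚ_[ℓ]) ≠ 0 := Nat.cast_ne_zero.mpr hb0
  have hdiv : ((ℓ ^ e : ℕ) : ℤ) ∣ a - (P : ℤ) * (b : ℤ) := by
    have h1 : ((a - (P : ℤ) * (b : ℤ) : ℤ) : ℚ_[ℓ]) =
        (b : ℚ_[ℓ]) * ((z : ℚ_[ℓ]) - (P : ℚ_[ℓ])) := by
      rw [hzab]; push_cast; field_simp
    have h2 : ‖((a - (P : ℤ) * (b : ℤ) : ℤ) : ℚ_[ℓ])‖ ≤ (ℓ : ℝ) ^ (-(e : ℤ)) := by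
      rw [h1, norm_mul]
      have hb1 : ‖(b : ℚ_[ℓ])‖ ≤ 1 := by
        have := Padic.norm_int_le_one (p := ℓ) (b : ℤ)
        simpa using this
      calc ‖(b : ℚ_[ℓ])‖ * ‖(z : ℚ_[ℓ]) - (P : ℚ_[ℓ])‖
          ≤ 1 * ‖(ℓ : ℚ_[ℓ])‖ ^ e :=
            mul_le_mul hb1 hzest (norm_nonneg _) zero_le_one
        _ = (ℓ : ℝ) ^ (-(e : ℤ)) := by
            rw [one_mul, Padic.norm_p, inv_pow, zpow_neg, zpow_natCast]
    have h3 := (Padic.norm_int_le_pow_iff_dvd (p := ℓ) (a - (P : ℤ) * (b : ℤ)) e).mp h2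
    simpa using h3
  have hcop : Nat.Coprime a.natAbs b := z.reduced
  have hℓdvd : ((ℓ : ℕ) : ℤ) ∣ a - (P : ℤ) * (b : ℤ) := by
    refine dvd_trans ?_ hdiv
    exact_mod_cast dvd_pow_self ℓ he.ne'
  have hℓb : ¬ ℓ ∣ b := by
    intro hbd
    have h1 : ((ℓ : ℕ) : ℤ) ∣ a := by
      have h2 : ((ℓ : ℕ) : ℤ) ∣ (P : ℤ) * (b : ℤ) :=
        Dvd.dvd.mul_left (Int.natCast_dvd_natCast.mpr hbd) _
      have := dvd_add hℓdvd h2
      simpa using this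
    have h3 : ℓ ∣ a.natAbs := Int.natCast_dvd.mp h1
    have := Nat.eq_one_of_dvd_coprimes hcop h3 hbd
    exact hℓ.one_lt.ne' this
  have hℓa : ¬ ℓ ∣ a.natAbs := by
    intro had
    have h1 : ((ℓ : ℕ) : ℤ) ∣ a := Int.natCast_dvd.mpr had
    have h2 : ((ℓ : ℕ) : ℤ) ∣ (P : ℤ) * (b : ℤ) := by
      have := dvd_sub h1 hℓdvd
      simpa using this
    have h3 : ℓ ∣ P * b := by exact_mod_cast h2
    rcases hℓ.dvd_mul.mp h3 with h | h
    · exact hP h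
    · exact hℓb h
  set A : ℕ := a.natAbs with hA
  have hA0 : A ≠ 0 := Int.natAbs_ne_zero.mpr ha0
  -- valuations
  have hval : ∀ q ∈ T, padicValRat q y = (padicValNat q A : ℤ) - (padicValNat q b : ℤ) := by
    intro q hq
    haveI : Fact q.Prime := ⟨(hT q hq).1⟩
    have hqℓ : ¬ q ∣ ℓ := fun h =>
      (hT q hq).2 ((Nat.prime_dvd_prime_iff_eq (hT q hq).1 hℓ).mp h)
    have h1 : padicValRat q w = 0 := by
      rw [hw, padicValRat.mul hs (zpow_ne_zero _ hℓ0), padicValRat.zpow, padicValRat.of_nat,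
        padicValNat.eq_zero_of_not_dvd hqℓ]
      rcases Int.units_eq_one_or s with h | h
      · simp [h]
      · rw [h]
        have : (((-1 : ℤˣ) : ℤ) : ℚ) = -1 := by simp
        rw [this, padicValRat.neg, padicValRat.one]
        simp
    rw [hyz, padicValRat.mul hw0 hz0, h1, zero_add]
    rfl
  have hprA : ∀ q, q.Prime → q ∣ A → q ∈ T := by
    intro q hq hqA
    haveI : Fact q.Prime := ⟨hq⟩
    have hqℓ : q ≠ ℓ := fun h => hℓa (h ▸ hqA)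
    have hqb : ¬ q ∣ b := fun hqb =>
      hq.one_lt.ne' (Nat.eq_one_of_dvd_coprimes hcop hqA hqb)
    refine hsupp q hq hqℓ ?_
    have hqw : padicValRat q w = 0 := by
      have hqℓ' : ¬ q ∣ ℓ := fun h => hqℓ ((Nat.prime_dvd_prime_iff_eq hq hℓ).mp h)
      rw [hw, padicValRat.mul hs (zpow_ne_zero _ hℓ0), padicValRat.zpow, padicValRat.of_nat,
        padicValNat.eq_zero_of_not_dvd hqℓ']
      rcases Int.units_eq_one_or s with h | h
      · simp [h]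
      · rw [h]
        have : (((-1 : ℤˣ) : ℤ) : ℚ) = -1 := by simp
        rw [this, padicValRat.neg, padicValRat.one]
        simp
    rw [hyz, padicValRat.mul hw0 hz0, hqw, zero_add]
    show (padicValInt q z.num : ℤ) - (padicValNat q z.den : ℤ) ≠ 0
    have h1 : padicValNat q b = 0 := padicValNat.eq_zero_of_not_dvd hqb
    have h2 : 1 ≤ padicValNat q A := one_le_padicValNat_of_dvd hA0 hqA
    have h3 : padicValInt q z.num = padicValNat q A := rfl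
    rw [h3, ← hb, h1]
    omega
  have hprB : ∀ q, q.Prime → q ∣ b → q ∈ T := by
    intro q hq hqb
    haveI : Fact q.Prime := ⟨hq⟩
    have hqℓ : q ≠ ℓ := fun h => hℓb (h ▸ hqb)
    have hqA : ¬ q ∣ A := fun hqA =>
      hq.one_lt.ne' (Nat.eq_one_of_dvd_coprimes hcop hqA hqb)
    refine hsupp q hq hqℓ ?_
    have hqw : padicValRat q w = 0 := by
      have hqℓ' : ¬ q ∣ ℓ := fun h => hqℓ ((Nat.prime_dvd_prime_iff_eq hq hℓ).mp h)
      rw [hw, padicValRat.mul hs (zpow_ne_zero _ hℓ0), padicValRat.zpow, padicValRat.of_nat,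
        padicValNat.eq_zero_of_not_dvd hqℓ']
      rcases Int.units_eq_one_or s with h | h
      · simp [h]
      · rw [h]
        have : (((-1 : ℤˣ) : ℤ) : ℚ) = -1 := by simp
        rw [this, padicValRat.neg, padicValRat.one]
        simp
    rw [hyz, padicValRat.mul hw0 hz0, hqw, zero_add]
    show (padicValInt q z.num : ℤ) - (padicValNat q z.den : ℤ) ≠ 0
    have h1 : padicValNat q A = 0 := padicValNat.eq_zero_of_not_dvd hqA
    have h2 : 1 ≤ padicValNat q b := one_le_padicValNat_of_dvd hb0 hqb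
    have h3 : padicValInt q z.num = padicValNat q A := rfl
    rw [h3, ← hb, h1]
    omega
  -- the two unit products
  set UA : (ZMod (ℓ ^ e))ˣ := ∏ q ∈ T, u q ^ padicValNat q A with hUA
  set UB : (ZMod (ℓ ^ e))ˣ := ∏ q ∈ T, u q ^ padicValNat q b with hUB
  have hUAc : ((UA : (ZMod (ℓ ^ e))ˣ) : ZMod (ℓ ^ e)) = (A : ZMod (ℓ ^ e)) :=
    coe_prod_pow_padicValNat u T (fun q hq => (hT q hq).1) hu A hA0 hprA
  have hUBc : ((UB : (ZMod (ℓ ^ e))ˣ) : ZMod (ℓ ^ e)) = (b : ZMod (ℓ ^ e)) :=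
    coe_prod_pow_padicValNat u T (fun q hq => (hT q hq).1) hu b hb0 hprB
  have hprod : ∏ q ∈ T, u q ^ padicValRat q y = UA * UB⁻¹ := by
    rw [hUA, hUB, ← Finset.prod_inv_distrib, ← Finset.prod_mul_distrib]
    refine Finset.prod_congr rfl fun q hq => ?_
    rw [hval q hq, zpow_sub, zpow_natCast, zpow_natCast]
  have hcong : ((a : ℤ) : ZMod (ℓ ^ e)) = (P : ZMod (ℓ ^ e)) * (b : ZMod (ℓ ^ e)) := by
    have h1 := (ZMod.intCast_zmod_eq_zero_iff_dvd (a - (P : ℤ) * (b : ℤ)) (ℓ ^ e)).mpr hdiv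
    push_cast at h1
    exact sub_eq_zero.mp h1
  rw [hprod]
  rcases Int.natAbs_eq a with h | h
  · left
    rw [mul_inv_eq_iff_eq_mul]
    apply Units.ext
    rw [Units.val_mul, hUAc, hUBc, huP, ← hcong, hA]
    conv_rhs => rw [h]
    simp
  · right
    rw [mul_inv_eq_iff_eq_mul]
    apply Units.ext
    rw [Units.val_mul, Units.val_neg, hUAc, hUBc, huP, neg_mul, ← hcong, hA]
    conv_rhs => rw [h]
    simp

end Fermat.Agent.S55.G.Rec.H511
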