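import Fermat.Agent.S55.G.Rec.StepALocH511
import Fermat.Agent.S55.G.Rec.StepAAlgH511

/-!
# S55 / layer G / block REC / STEP A : the cyclotomic sum formula (helper511)

`H511.cycloSum_of` : `CycloSumSpec I` from the leaves `K1` (`CupLocSpec`), `K5` (`LocalNormSpec`),
`L2` (`LocalStructureSpec`), `L3` (`UnramCupSpec I`), `L4` (`CycloFrobSpec`),
`L5` (`LocalCycloNormSpec`), `G1` (`OrbitNormSpec`), `G1'` (`ProductFormulaSpec`) and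
`G4` (`SupportFiniteSpec`).

Proof (blueprint §1, STEP A).  Let `x = a ∪ δχ`, `y = N_{K/ℚ}(a) ∈ ℚˣ`, `m = ℓ^e`, `c` the cyclotomic
character mod `m`.
* `v ∤ ℓ` : `inv_v(x_v) = k_v · χ(σ_v)/n`, `σ_v ∈ U` with `c(σ_v) = q^{f_v}`, `vdeg_v(a) = f_v k_v`.
  So `∑_{v ∤ ℓ} inv_v(x_v) = χ(Σ)/n` with `c(Σ) = ∏_{q ≠ ℓ} q^{v_q(y)}` (product formula).
* `v ∣ ℓ` : `x_v = 0` ⟹ `N_{K_v/ℚ_ℓ}(a_v) ≡ ± ℓ^k t_v mod ℓ^{k+e}`, `t_v = c(κ_v)`, `κ_v ∈ ker χ`.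
  So `y ≡ ± ℓ^K ∏ t_v`, hence `∏_{q ≠ ℓ} q^{v_q(y)} = ± c(κ)`, `κ ∈ ker χ`.
* `χ` is trivial on `ker c` and of odd order ⟹ `χ(Σ) = 0`.
-/

set_option autoImplicit false
set_option linter.style.haveILetI false

noncomputable section

namespace Fermat.Agent.S55.G.Rec.H511

open Fermat.Agent.S55.G.Rec groupCohomology

local notation "Qb" => AlgebraicClosure ℚ
local notation "GQ" => (AlgebraicClosure ℚ ≃ₐ[ℚ] AlgebraicClosure ℚ)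

/-! ## Small auxiliary lemmas -/

lemma prod_zpow_const {G ι : Type*} [CommGroup G] (s : Finset ι) (g : G) (f : ι → ℤ) :
    ∏ i ∈ s, g ^ f i = g ^ ∑ i ∈ s, f i := by
  classical
  induction s using Finset.induction_on with
  | empty => simp
  | insert a s ha ih => rw [Finset.prod_insert ha, Finset.sum_insert ha, ih, zpow_add]

lemma prod_zpow_const₀ {K ι : Type*} [Field K] (s : Finset ι) {g : K} (hg : g ≠ 0) (f : ι → ℤ) :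
    ∏ i ∈ s, g ^ f i = g ^ ∑ i ∈ s, f i := by
  classical
  induction s using Finset.induction_on with
  | empty => simp
  | insert a s ha ih => rw [Finset.prod_insert ha, Finset.sum_insert ha, ih, zpow_add₀ hg]

/-- The unit `q mod m` (junk `1` if `q` is not prime to `m`). -/
def uq (m : ℕ) (q : ℕ) : (ZMod m)ˣ :=
  if h : Nat.Coprime q m then ZMod.unitOfCoprime q h else 1

lemma uq_coe {m q : ℕ} (h : Nat.Coprime q m) : ((uq m q : (ZMod m)ˣ) : ZMod m) = (q : ZMod m) := by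
  rw [uq, dif_pos h, ZMod.coe_unitOfCoprime]

/-- The degree-valuation of `a` at the place `(q, r)` of `ℚ̄^U`. -/
def vdAt (U : Subgroup GQ) (a : Qbˣ) (q : Nat.Primes) (r : GQ) : ℤ :=
  haveI : Fact (q : ℕ).Prime := ⟨q.2⟩
  vdeg (q : ℕ) (locSub (q : ℕ) r U) (locPushMul (q : ℕ) r a)

/-! ## The places away from `ℓ` -/

theorem key_away (hK1 : CupLocSpec) (hL2 : LocalStructureSpec) (hL4 : CycloFrobSpec)
    (I : LocalInvSystem) (hL3 : UnramCupSpec I)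
    (U : Subgroup GQ) (hU : IsOpenQ U) (m : ℕ) [NeZero m] (n : ℕ) [NeZero n]
    (χ : ↥U →* Multiplicative (ZMod n)) (hχ : IsLevelConstant₁ U.subtype χ)
    (hcyc : IsCycloChar U m χ) (a : Qbˣ) (ha : GFixed U a)
    (q : Nat.Primes) (r : GQ) :
    ∃ (σ : ↥U) (k : ℤ), Nat.Coprime (q : ℕ) m →
      (I.invAt q r U (gcc U n χ a) =
        ((((k : ℚ) * ((chiAdd χ σ).val : ℚ) / (n : ℚ) : ℚ)) : AddCircle (1 : ℚ)) ∧
      cyc m (σ : GQ) ^ k = uq m (q : ℕ) ^ vdAt U a q r) := by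
  by_cases hq : Nat.Coprime (q : ℕ) m
  · haveI : Fact (q : ℕ).Prime := ⟨q.2⟩
    obtain ⟨σ, k, f, h1, h2, h3⟩ :=
      exists_inv_eq hK1 hL2 hL4 I hL3 U hU m n χ hχ hcyc a ha (q : ℕ) hq r
    refine ⟨σ, k, fun _ => ⟨h1, ?_⟩⟩
    rw [h2, vdAt, h3, uq, dif_pos hq, ← zpow_natCast, ← zpow_mul]
  · exact ⟨1, 0, fun h => absurd h hq⟩

/-! ## The places above `ℓ` -/

theorem key_above (hK1 : CupLocSpec) (hK5 : LocalNormSpec) (hL5 : LocalCycloNormSpec)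
    (hG1 : OrbitNormSpec)
    (U : Subgroup GQ) (hU : IsOpenQ U) (ℓ : ℕ) [Fact ℓ.Prime] (hℓ2 : ℓ ≠ 2) (e : ℕ) (he : 0 < e)
    [NeZero (ℓ ^ e)]
    (n : ℕ) [NeZero n] (χ : ↥U →* Multiplicative (ZMod n)) (hχ : IsLevelConstant₁ U.subtype χ)
    (a : Qbˣ) (ha : GFixed U a)
    (hloc : ∀ r : GQ, locBr ℓ r U (gcc U n χ a) = 0)
    (Rℓ : Finset GQ) (hRℓ : IsDoubleCosetReps U (localGaloisToGlobal ℓ).range Rℓ)
    (y : ℚˣ) (hy : ((relNorm U a : Qbˣ) : Qb) = algebraMap ℚ Qb (y : ℚ)) :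
    ∃ (K : ℤ) (S : ℤˣ) (P : ℕ) (κ : ↥U), χ κ = 1 ∧
      ((cyc (ℓ ^ e) (κ : GQ) : (ZMod (ℓ ^ e))ˣ) : ZMod (ℓ ^ e)) = (P : ZMod (ℓ ^ e)) ∧
      ‖((y : ℚ) : ℚ_[ℓ]) - ((S : ℤ) : ℚ_[ℓ]) * (ℓ : ℚ_[ℓ]) ^ K * (P : ℚ_[ℓ])‖
        ≤ ‖(ℓ : ℚ_[ℓ])‖ ^ (K + e) := by
  classical
  have hℓ : ℓ.Prime := Fact.out
  choose k s t κ hκ hκt hest using fun r : GQ =>
    exists_norm_approx hK1 hK5 hL5 U hU ℓ hℓ2 e he n χ hχ a ha r (hloc r)
  -- the product of the `κ r`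
  set c : ↥U →* (ZMod (ℓ ^ e))ˣ := (cyc (ℓ ^ e)).comp U.subtype with hc
  have hmem : ∏ r ∈ Rℓ, c (κ r) ∈ χ.ker.map c :=
    Subgroup.prod_mem _ fun r _ => Subgroup.mem_map_of_mem c (MonoidHom.mem_ker.mpr (hκ r))
  obtain ⟨κ₀, hκ₀, hκ₀c⟩ := hmem
  have hcoe : ∀ r, ((c (κ r) : (ZMod (ℓ ^ e))ˣ) : ZMod (ℓ ^ e)) = (t r : ZMod (ℓ ^ e)) := hκt
  have htcop : ∀ r, Nat.Coprime ℓ (t r) := by
    intro r
    have h1 : IsUnit ((t r : ℕ) : ZMod (ℓ ^ e)) := by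
      rw [← hcoe r]; exact Units.isUnit _
    have h2 : Nat.Coprime (t r) (ℓ ^ e) := (ZMod.isUnit_iff_coprime _ _).mp h1
    exact ((Nat.coprime_pow_right_iff he _ _).mp h2).symm
  have hℓ0 : (ℓ : PadicAlgCl ℓ) ≠ 0 := Nat.cast_ne_zero.mpr hℓ.ne_zero
  have hnormℓ : ‖(ℓ : PadicAlgCl ℓ)‖ = ‖(ℓ : ℚ_[ℓ])‖ := by
    rw [← PadicAlgCl.norm_extends, map_natCast]
  have hnormℓ_pos : 0 < ‖(ℓ : PadicAlgCl ℓ)‖ := norm_pos_iff.mpr hℓ0
  have hnormℓ_le : ‖(ℓ : PadicAlgCl ℓ)‖ ≤ 1 := by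
    rw [hnormℓ]; exact (Padic.norm_p_lt_one).le
  have hnormt : ∀ r, ‖(t r : PadicAlgCl ℓ)‖ = 1 := by
    intro r
    have h1 : ‖((t r : ℕ) : ℚ_[ℓ])‖ = 1 := Padic.norm_natCast_eq_one_iff.mpr (htcop r)
    rw [← h1, ← PadicAlgCl.norm_extends, map_natCast]
  have hnorms : ∀ r, ‖(((s r : ℤˣ) : ℤ) : PadicAlgCl ℓ)‖ = 1 := by
    intro r
    rcases Int.units_eq_one_or (s r) with h | h <;> simp [h]
  -- the product estimate
  set xs : GQ → PadicAlgCl ℓ := fun r =>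
    ((relNorm (locSub ℓ r U) (locPushMul ℓ r a) : (PadicAlgCl ℓ)ˣ) : PadicAlgCl ℓ) with hxs
  set ys : GQ → PadicAlgCl ℓ := fun r =>
    (((s r : ℤˣ) : ℤ) : PadicAlgCl ℓ) * (ℓ : PadicAlgCl ℓ) ^ (k r) * (t r : PadicAlgCl ℓ) with hys
  have hysnorm : ∀ r, ‖ys r‖ = ‖(ℓ : PadicAlgCl ℓ)‖ ^ (k r) := by
    intro r
    simp only [hys, norm_mul, hnorms r, hnormt r, one_mul, mul_one, norm_zpow]
  have hε : ∀ r ∈ Rℓ, ‖xs r - ys r‖ ≤ ‖(ℓ : PadicAlgCl ℓ)‖ ^ e * ‖ys r‖ := by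
    intro r _
    rw [hysnorm r, ← zpow_natCast, ← zpow_add₀ hnormℓ_pos.ne', add_comm]
    exact hest r
  have hprodest := (norm_prod_sub_prod_le Rℓ xs ys (‖(ℓ : PadicAlgCl ℓ)‖ ^ e)
    (pow_nonneg (norm_nonneg _) e) (pow_le_one₀ (norm_nonneg _) hnormℓ_le) hε).2
  -- the product of the `xs`
  have hxprod : ∏ r ∈ Rℓ, xs r = algebraMap ℚ_[ℓ] (PadicAlgCl ℓ) ((y : ℚ) : ℚ_[ℓ]) := by
    have h1 := (hG1 U hU a ha).2 ℓ Rℓ hRℓ
    have h2 : ∏ r ∈ Rℓ, xs r = ((locPushMul ℓ 1 (relNorm U a) : (PadicAlgCl ℓ)ˣ) : PadicAlgCl ℓ) := by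
      rw [h1, Units.coe_prod]
    rw [h2, locPushMul_coe, inv_one, AlgEquiv.one_apply, hy, AlgHom.commutes, map_ratCast,
      eq_ratCast]
  -- the product of the `ys`
  set K : ℤ := ∑ r ∈ Rℓ, k r with hK
  set S : ℤˣ := ∏ r ∈ Rℓ, s r with hS
  set P : ℕ := ∏ r ∈ Rℓ, t r with hP
  have hyprod : ∏ r ∈ Rℓ, ys r = algebraMap ℚ_[ℓ] (PadicAlgCl ℓ)
      (((S : ℤ) : ℚ_[ℓ]) * (ℓ : ℚ_[ℓ]) ^ K * (P : ℚ_[ℓ])) := by
    simp only [hys, Finset.prod_mul_distrib]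
    rw [prod_zpow_const₀ Rℓ hℓ0, map_mul, map_mul, map_zpow₀, map_natCast, map_natCast,
      map_intCast, hS, hP, Units.coe_prod, Int.cast_prod, Nat.cast_prod]
  have hynorm : ∏ r ∈ Rℓ, ‖ys r‖ = ‖(ℓ : PadicAlgCl ℓ)‖ ^ K := by
    simp_rw [hysnorm]
    exact prod_zpow_const₀ Rℓ hnormℓ_pos.ne' _
  refine ⟨K, S, P, κ₀, MonoidHom.mem_ker.mp hκ₀, ?_, ?_⟩
  · show ((c κ₀ : (ZMod (ℓ ^ e))ˣ) : ZMod (ℓ ^ e)) = _
    rw [hκ₀c, Units.coe_prod, hP, Nat.cast_prod]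
    exact Finset.prod_congr rfl fun r _ => hcoe r
  · rw [hxprod, hyprod, ← map_sub, hynorm] at hprodest
    have h3 := hprodest
    rw [show ‖algebraMap ℚ_[ℓ] (PadicAlgCl ℓ) (((y : ℚ) : ℚ_[ℓ]) -
        ((S : ℤ) : ℚ_[ℓ]) * (ℓ : ℚ_[ℓ]) ^ K * (P : ℚ_[ℓ]))‖ = ‖((y : ℚ) : ℚ_[ℓ]) -
        ((S : ℤ) : ℚ_[ℓ]) * (ℓ : ℚ_[ℓ]) ^ K * (P : ℚ_[ℓ])‖ from PadicAlgCl.norm_extends _ _,
      hnormℓ, ← zpow_natCast, ← zpow_add₀ (norm_pos_iff.mpr (Nat.cast_ne_zero.mpr hℓ.ne_zero)).ne',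
      add_comm] at h3
    exact h3

/-! ## STEP A -/

/-- **STEP A** of the norm route: the cyclotomic sum formula, from the leaves. -/
theorem cycloSum_of (hK1 : CupLocSpec) (hK5 : LocalNormSpec) (hL2 : LocalStructureSpec)
    (hL4 : CycloFrobSpec) (hL5 : LocalCycloNormSpec) (hG1 : OrbitNormSpec)
    (hG1b : ProductFormulaSpec) (hG4 : SupportFiniteSpec) (I : LocalInvSystem)
    (hL3 : UnramCupSpec I) : CycloSumSpec I := by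
  classical
  intro U hU ℓ _ hℓ2 e he n hn χ hχ hcyc a ha hloc R hR
  have hℓ : ℓ.Prime := Fact.out
  haveI : NeZero (ℓ ^ e) := ⟨pow_ne_zero e hℓ.ne_zero⟩
  haveI : NeZero n := ⟨hn.pos.ne'⟩
  obtain ⟨y, hy⟩ := (hG1 U hU a ha).1
  set ℓp : Nat.Primes := ⟨ℓ, hℓ⟩ with hℓp
  -- data away from `ℓ`
  choose σ k hσk using fun (p : Nat.Primes × GQ) =>
    key_away hK1 hL2 hL4 I hL3 U hU (ℓ ^ e) n χ hχ hcyc a ha p.1 p.2
  -- data above `ℓ`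
  obtain ⟨K, S, P, κ, hκ, hκP, hest⟩ := key_above hK1 hK5 hL5 hG1 U hU ℓ hℓ2 e he n χ hχ a ha
    hloc (R ℓp) (hR ℓp) y hy
  have hcop : ∀ q : Nat.Primes, q ≠ ℓp → Nat.Coprime (q : ℕ) (ℓ ^ e) := by
    intro q hq
    apply Nat.Coprime.pow_right
    exact (Nat.coprime_primes q.2 hℓ).mpr (fun h => hq (Subtype.ext h))
  -- the finite sets of primes
  have hfin := hG4 I U hU (gcc U n χ a)
  set Sy : Finset Nat.Primes :=
    Finset.subtype Nat.Prime ((y : ℚ).num.natAbs * (y : ℚ).den).primeFactors with hSy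
  set S0 : Finset Nat.Primes := hfin.toFinset ∪ Sy with hS0
  set S' : Finset Nat.Primes := S0.erase ℓp with hS'
  have hsupp : Function.support
      (fun q : Nat.Primes => ∑ r ∈ R q, I.invAt q r U (gcc U n χ a)) ⊆ ↑S0 := by
    intro q hq
    rw [Function.mem_support] at hq
    obtain ⟨r, hr, hne⟩ := Finset.exists_ne_zero_of_sum_ne_zero hq
    rw [Finset.mem_coe, hS0, Finset.mem_union]
    left
    rw [Set.Finite.mem_toFinset]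
    refine ⟨r, fun h0 => hne ?_⟩
    unfold LocalInvSystem.invAt
    rw [h0, map_zero]
  show I.sumInv U R (gcc U n χ a) = 0
  unfold LocalInvSystem.sumInv
  rw [finsum_eq_sum_of_support_subset _ hsupp]
  have hℓterm : ∑ r ∈ R ℓp, I.invAt ℓp r U (gcc U n χ a) = 0 := by
    refine Finset.sum_eq_zero fun r _ => ?_
    unfold LocalInvSystem.invAt
    have := hloc r
    rw [this, map_zero]
  rw [← Finset.sum_erase S0 hℓterm]
  have hterm : ∀ q ∈ S', ∀ r ∈ R q, I.invAt q r U (gcc U n χ a) =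
      ((((k (q, r) : ℚ) * ((chiAdd χ (σ (q, r))).val : ℚ) / (n : ℚ) : ℚ)) :
        AddCircle (1 : ℚ)) := by
    intro q hq r _
    exact (hσk (q, r) (hcop q (Finset.ne_of_mem_erase hq))).1
  rw [Finset.sum_congr rfl (fun q hq => Finset.sum_congr rfl (hterm q hq))]
  rw [Finset.sum_sigma' S' R (fun q r =>
    ((((k (q, r) : ℚ) * ((chiAdd χ (σ (q, r))).val : ℚ) / (n : ℚ) : ℚ)) : AddCircle (1 : ℚ)))]
  refine addCircle_sum_eq_zero (S'.sigma R) n (fun p => k (p.1, p.2))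
    (fun p => chiAdd χ (σ (p.1, p.2))) ?_
  -- the group-theoretic heart
  set c : ↥U →* (ZMod (ℓ ^ e))ˣ := (cyc (ℓ ^ e)).comp U.subtype with hc
  set θ : ↥U →* (ZMod (ℓ ^ e))ˣ × Multiplicative (ZMod n) := c.prod χ with hθ
  set tw : (ZMod (ℓ ^ e))ˣ × Multiplicative (ZMod n) :=
    ∏ p ∈ S'.sigma R, θ (σ (p.1, p.2)) ^ k (p.1, p.2) with htw
  have hmem : (tw.1, tw.2) ∈ θ.range :=
    Subgroup.prod_mem _ fun p _ => Subgroup.zpow_mem _ (MonoidHom.mem_range.mpr ⟨_, rfl⟩) _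
  have htw2 : tw.2 = ∏ p ∈ S'.sigma R, χ (σ (p.1, p.2)) ^ k (p.1, p.2) := by
    rw [htw]
    rw [show (∏ p ∈ S'.sigma R, θ (σ (p.1, p.2)) ^ k (p.1, p.2)).2 =
      MonoidHom.snd _ _ (∏ p ∈ S'.sigma R, θ (σ (p.1, p.2)) ^ k (p.1, p.2)) from rfl, map_prod]
    refine Finset.prod_congr rfl fun p _ => ?_
    rw [map_zpow]
    rfl
  have htw1 : tw.1 = ∏ q ∈ S', uq (ℓ ^ e) (q : ℕ) ^ padicValRat (q : ℕ) (y : ℚ) := by
    rw [htw]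
    rw [show (∏ p ∈ S'.sigma R, θ (σ (p.1, p.2)) ^ k (p.1, p.2)).1 =
      MonoidHom.fst _ _ (∏ p ∈ S'.sigma R, θ (σ (p.1, p.2)) ^ k (p.1, p.2)) from rfl, map_prod]
    rw [← Finset.prod_sigma' S' R (fun q r =>
      (MonoidHom.fst _ _) (θ (σ (q, r)) ^ k (q, r)))]
    refine Finset.prod_congr rfl fun q hq => ?_
    have h1 : ∀ r ∈ R q, (MonoidHom.fst _ _) (θ (σ (q, r)) ^ k (q, r)) =
        uq (ℓ ^ e) (q : ℕ) ^ vdAt U a q r := by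
      intro r _
      rw [map_zpow]
      exact (hσk (q, r) (hcop q (Finset.ne_of_mem_erase hq))).2
    rw [Finset.prod_congr rfl h1, prod_zpow_const]
    congr 1
    haveI : Fact (q : ℕ).Prime := ⟨q.2⟩
    exact (hG1b U hU a ha y hy (q : ℕ) (R q) (hR q)).symm
  -- the congruence
  have hPunit : IsUnit ((P : ℕ) : ZMod (ℓ ^ e)) := by
    rw [← hκP]; exact Units.isUnit _
  have hPℓ : ¬ ℓ ∣ P := by
    have h2 : Nat.Coprime P (ℓ ^ e) := (ZMod.isUnit_iff_coprime _ _).mp hPunit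
    have h3 : Nat.Coprime P ℓ := (Nat.coprime_pow_right_iff he _ _).mp h2
    exact fun h => hℓ.one_lt.ne' (Nat.eq_one_of_dvd_coprimes h3 h (dvd_refl ℓ))
  have hy0 : (y : ℚ) ≠ 0 := y.ne_zero
  let emb : Nat.Primes ↪ ℕ := ⟨fun q => (q : ℕ), fun a b h => Subtype.ext h⟩
  set T : Finset ℕ := S'.map emb with hT
  have hTmem : ∀ q ∈ T, q.Prime ∧ q ≠ ℓ := by
    intro q hq
    obtain ⟨q', hq', rfl⟩ := Finset.mem_map.mp hq
    exact ⟨q'.2, fun h => (Finset.ne_of_mem_erase hq') (Subtype.ext h)⟩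
  have hTu : ∀ q ∈ T, ((uq (ℓ ^ e) q : (ZMod (ℓ ^ e))ˣ) : ZMod (ℓ ^ e)) = (q : ZMod (ℓ ^ e)) := by
    intro q hq
    obtain ⟨q', hq', rfl⟩ := Finset.mem_map.mp hq
    exact uq_coe (hcop q' (Finset.ne_of_mem_erase hq'))
  have hTsupp : ∀ q : ℕ, q.Prime → q ≠ ℓ → padicValRat q (y : ℚ) ≠ 0 → q ∈ T := by
    intro q hq hqℓ hval
    haveI : Fact q.Prime := ⟨hq⟩
    refine Finset.mem_map.mpr ⟨(⟨q, hq⟩ : Nat.Primes), ?_, rfl⟩
    refine Finset.mem_erase.mpr ⟨fun h => hqℓ (congrArg Subtype.val h), ?_⟩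
    refine Finset.mem_union.mpr (Or.inr ?_)
    refine Finset.mem_subtype.mpr ?_
    show q ∈ ((y : ℚ).num.natAbs * (y : ℚ).den).primeFactors
    have hnum : (y : ℚ).num.natAbs ≠ 0 := Int.natAbs_ne_zero.mpr (Rat.num_ne_zero.mpr hy0)
    have hden : (y : ℚ).den ≠ 0 := (y : ℚ).den_ne_zero
    rw [Nat.mem_primeFactors]
    refine ⟨hq, ?_, mul_ne_zero hnum hden⟩
    by_contra hnd
    have h1 : ¬ q ∣ (y : ℚ).num.natAbs := fun h => hnd (Dvd.dvd.mul_right h _)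
    have h2 : ¬ q ∣ (y : ℚ).den := fun h => hnd (Dvd.dvd.mul_left h _)
    apply hval
    show (padicValInt q (y : ℚ).num : ℤ) - (padicValNat q (y : ℚ).den : ℤ) = 0
    have h3 : padicValInt q (y : ℚ).num = padicValNat q (y : ℚ).num.natAbs := rfl
    rw [h3, padicValNat.eq_zero_of_not_dvd h1, padicValNat.eq_zero_of_not_dvd h2]
    simp
  have hpm := unit_prod_eq_pm ℓ e (y : ℚ) hy0 S K P hPℓ hest he (uq (ℓ ^ e)) T hTmem hTu hTsupp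
    (c κ) hκP
  rw [hT, Finset.prod_map] at hpm
  have hpm' : tw.1 = c κ ∨ tw.1 = (-1 : (ZMod (ℓ ^ e))ˣ) * c κ := by
    rw [htw1, neg_one_mul]
    exact hpm
  have hcyc' : ∀ τ : ↥U, c τ = 1 → χ τ = 1 := fun τ h =>
    hcyc τ (fun ζ hζ => fixes_of_cyc_eq_one (ℓ ^ e) _ h hζ)
  have hw : tw.2 = 1 := chi_eq_one_of_mem_range hn c χ hcyc' hmem (-1) (by simp) κ hκ hpm'
  rw [htw2] at hw
  have := congrArg Multiplicative.toAdd hw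
  rw [toAdd_prod, toAdd_one] at this
  rw [← this]
  refine Finset.sum_congr rfl fun p _ => ?_
  rw [toAdd_zpow]
  rfl

end Fermat.Agent.S55.G.Rec.H511
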