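import Fermat.Agent.S55.G.Rec.Spec2

/-!
# S55 / layer G / block REC : leaf (L1) `VdegSpec`  (helper707)

`‖a‖ ^ [G_{ℚ_q} : V] = q ^ (- vdeg q V a)` for every `a` fixed by `V`
(the openness hypothesis is not needed: for infinite index both sides are `1`).

Proof: the norm `N = ∏_{t ∈ G/V} t a` is fixed by `G_{ℚ_q}`, hence lies in `ℚ_q`; its absolute value
is `‖a‖ ^ [G : V]` (Galois invariance of the norm) and an integral power of `q`.
-/

set_option autoImplicit false
set_option linter.style.haveILetI false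

noncomputable section

namespace Fermat.Agent.S55.G.Rec.VdegH707

open Fermat.Agent.S55.G.Rec

variable (q : ℕ) [Fact q.Prime]

local notation "Gq" => (PadicAlgCl q ≃ₐ[ℚ_[q]] PadicAlgCl q)

/-- the norm is Galois invariant -/
lemma norm_algEquiv (τ : Gq) (y : PadicAlgCl q) : ‖τ y‖ = ‖y‖ :=
  (spectralNorm_eq_of_equiv τ y).symm

/-- an element fixed by the whole Galois group is rational -/
lemma mem_range_of_fixed (x : PadicAlgCl q) (hx : ∀ τ : Gq, τ x = x) :
    ∃ y : ℚ_[q], algebraMap ℚ_[q] (PadicAlgCl q) y = x := by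
  haveI : IsAlgClosure ℚ_[q] (PadicAlgCl q) := ⟨inferInstance, inferInstance⟩
  haveI : Normal ℚ_[q] (PadicAlgCl q) := IsAlgClosure.normal ℚ_[q] (PadicAlgCl q)
  haveI : IsGalois ℚ_[q] (PadicAlgCl q) := isGalois_iff.mpr ⟨inferInstance, inferInstance⟩
  have hfix : x ∈ IntermediateField.fixedField (⊤ : Subgroup Gq) := by
    rintro ⟨τ, -⟩
    exact hx τ
  rw [InfiniteGalois.fixedField_bot, IntermediateField.mem_bot] at hfix
  exact hfix

/-- the value of `τ a` only depends on the coset `τ V` -/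
lemma apply_eq_of_coset (V : Subgroup Gq) (a : PadicAlgCl q) (ha : ∀ τ ∈ V, τ a = a)
    (σ τ : Gq) (h : (σ : Gq ⧸ V) = (τ : Gq ⧸ V)) : σ a = τ a := by
  have h1 : σ⁻¹ * τ ∈ V := QuotientGroup.eq.mp h
  have h2 := ha _ h1
  have h3 : (σ⁻¹ * τ) a = σ⁻¹ (τ a) := rfl
  rw [h3] at h2
  have h4 := congrArg σ h2
  have h5 : σ (σ⁻¹ (τ a)) = τ a := AlgEquiv.apply_symm_apply σ (τ a)
  rw [h5] at h4
  exact h4.symm

/-- the key fact: `‖a‖ ^ [G : V]` is an integral power of `q` -/
theorem exists_zpow (V : Subgroup Gq) (a : (PadicAlgCl q)ˣ) (ha : LFixed q V a) :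
    ∃ k : ℤ, ‖(a : PadicAlgCl q)‖ ^ V.index = (q : ℝ) ^ k := by
  by_cases hidx : V.index = 0
  · exact ⟨0, by rw [hidx, pow_zero, zpow_zero]⟩
  haveI : V.FiniteIndex := ⟨hidx⟩
  letI : Fintype (Gq ⧸ V) := Subgroup.fintypeQuotientOfFiniteIndex
  have ha' : ∀ τ ∈ V, τ (a : PadicAlgCl q) = a := by
    intro τ hτ
    have := congrArg (fun u : (PadicAlgCl q)ˣ => (u : PadicAlgCl q)) (ha τ hτ)
    exact this
  -- the norm
  set N : PadicAlgCl q := ∏ t : Gq ⧸ V, (Quotient.out t : Gq) (a : PadicAlgCl q) with hN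
  have hfix : ∀ σ : Gq, σ N = N := by
    intro σ
    rw [hN, map_prod]
    have hperm : ∀ t : Gq ⧸ V,
        σ ((Quotient.out t : Gq) (a : PadicAlgCl q)) =
          (Quotient.out (σ • t) : Gq) (a : PadicAlgCl q) := by
      intro t
      have h1 : σ ((Quotient.out t : Gq) (a : PadicAlgCl q)) =
          (σ * Quotient.out t) (a : PadicAlgCl q) := rfl
      rw [h1]
      apply apply_eq_of_coset q V _ ha'
      have h2 : ((Quotient.out (σ • t) : Gq) : Gq ⧸ V) = σ • t := Quotient.out_eq' _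
      have h3 : ((σ * Quotient.out t : Gq) : Gq ⧸ V) = σ • ((Quotient.out t : Gq) : Gq ⧸ V) :=
        rfl
      rw [h2, h3]
      congr 1
      exact Quotient.out_eq' t
    rw [Finset.prod_congr rfl (fun t _ => hperm t)]
    exact Fintype.prod_equiv (MulAction.toPerm σ) _ _ (fun t => rfl)
  obtain ⟨y, hy⟩ := mem_range_of_fixed q N hfix
  have hnorm : ‖N‖ = ‖(a : PadicAlgCl q)‖ ^ V.index := by
    rw [hN, norm_prod]
    simp only [norm_algEquiv]
    rw [Finset.prod_const, Finset.card_univ, Subgroup.index_eq_card, Nat.card_eq_fintype_card]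
  have hNne : N ≠ 0 := by
    rw [hN]
    refine Finset.prod_ne_zero_iff.mpr fun t _ => ?_
    rw [ne_eq, EmbeddingLike.map_eq_zero_iff]
    exact a.ne_zero
  have hyne : y ≠ 0 := by
    rintro rfl
    rw [map_zero] at hy
    exact hNne hy.symm
  refine ⟨-y.valuation, ?_⟩
  rw [← hnorm, ← hy, PadicAlgCl.norm_extends, Padic.norm_eq_zpow_neg_valuation hyne]

/-- **Leaf (L1)**. -/
theorem vdegSpec : VdegSpec := by
  intro q _ V _ a ha
  obtain ⟨k, hk⟩ := exists_zpow q V a ha
  have hq : 1 < q := (Fact.out : q.Prime).one_lt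
  unfold vdeg
  rw [neg_neg, hk, Int.log_zpow hq]

end Fermat.Agent.S55.G.Rec.VdegH707
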