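import Fermat.Agent.S55.G.Rec.Spec2

/-!
# S55 / layer G / block REC : library for `relNorm`  (helper707)

`relNorm H b = ∏ᶠ t : G ⧸ H, (Quotient.out t) • b`  (Defs2).  For `H` of finite index and `b` fixed
by `H`:

* `out_smul`            : `(Quotient.out (g : G ⧸ H)) • b = g • b`;
* `relNorm_eq_prod`     : `relNorm H b = ∏ t : G ⧸ H, (Quotient.out t) • b` (Fintype product);
* `smul_relNorm`        : `σ • relNorm H b = relNorm H b` for all `σ : G`;
* `relNorm_mul`, `relNorm_one`, `relNorm_inv`, `relNorm_pow`, `relNorm_zpow`;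
* `relNorm_of_fixed`    : `relNorm H b = b ^ H.index` if `b` is fixed by `G`;
* `relNorm_trans`       : **(SA1) transitivity** `relNorm V (relNorm K b) = relNorm (K.map V.subtype) b`
                          for `K ≤ ↥V ≤ G`;
* local:  `finiteIndex_of_isOpenL`, `relNorm_rational_local` (`relNorm V a ∈ ℚ_qˣ`),
          `norm_relNorm_local` (`‖relNorm V a‖ = ‖a‖ ^ V.index`), `vdeg_eq_valuation`;
* global: `finiteIndex_of_isOpenQ`, `relNorm_rational_global` (first half of `OrbitNormSpec`).
-/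

set_option autoImplicit false
set_option linter.style.haveILetI false

noncomputable section

namespace Fermat.Agent.S55.G.Rec.RelNormH707

open Fermat.Agent.S55.G.Rec

section General

variable {G M : Type*} [Group G] [CommGroup M] [MulDistribMulAction G M]

/-- `b` is fixed by the subgroup `H`. -/
def FixedBy (H : Subgroup G) (b : M) : Prop := ∀ h ∈ H, h • b = b

lemma smul_eq_of_coset {H : Subgroup G} {b : M} (hb : FixedBy H b) {σ τ : G}
    (h : (σ : G ⧸ H) = (τ : G ⧸ H)) : σ • b = τ • b := by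
  have h1 : σ⁻¹ * τ ∈ H := QuotientGroup.eq.mp h
  have h2 : (σ⁻¹ * τ) • b = b := hb _ h1
  calc σ • b = σ • ((σ⁻¹ * τ) • b) := by rw [h2]
    _ = τ • b := by rw [smul_smul, mul_inv_cancel_left]

lemma out_smul {H : Subgroup G} {b : M} (hb : FixedBy H b) (g : G) :
    (Quotient.out (g : G ⧸ H) : G) • b = g • b :=
  smul_eq_of_coset hb (Quotient.out_eq' _)

lemma relNorm_eq_prod (H : Subgroup G) [Fintype (G ⧸ H)] (b : M) :
    relNorm H b = ∏ t : G ⧸ H, (Quotient.out t : G) • b :=
  finprod_eq_prod_of_fintype _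

lemma smul_relNorm {H : Subgroup G} [H.FiniteIndex] {b : M} (hb : FixedBy H b) (σ : G) :
    σ • relNorm H b = relNorm H b := by
  letI : Fintype (G ⧸ H) := Subgroup.fintypeQuotientOfFiniteIndex
  rw [relNorm_eq_prod, Finset.smul_prod']
  have hperm : ∀ t : G ⧸ H, σ • ((Quotient.out t : G) • b) = (Quotient.out (σ • t) : G) • b := by
    intro t
    rw [smul_smul]
    refine smul_eq_of_coset hb ?_
    have h2 : ((Quotient.out (σ • t) : G) : G ⧸ H) = σ • t := Quotient.out_eq' _
    have h3 : ((σ * Quotient.out t : G) : G ⧸ H) = σ • ((Quotient.out t : G) : G ⧸ H) := rfl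
    rw [h2, h3]
    congr 1
    exact Quotient.out_eq' t
  rw [Finset.prod_congr rfl (fun t _ => hperm t)]
  exact Fintype.prod_equiv (MulAction.toPerm σ) _ _ (fun t => rfl)

lemma relNorm_mul (H : Subgroup G) [H.FiniteIndex] (a b : M) :
    relNorm H (a * b) = relNorm H a * relNorm H b := by
  letI : Fintype (G ⧸ H) := Subgroup.fintypeQuotientOfFiniteIndex
  simp only [relNorm_eq_prod, smul_mul', Finset.prod_mul_distrib]

lemma relNorm_one (H : Subgroup G) : relNorm H (1 : M) = 1 := by
  unfold relNorm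
  simp only [smul_one, finprod_one]

/-- `relNorm H` as a monoid homomorphism. -/
def relNormHom (H : Subgroup G) [H.FiniteIndex] : M →* M where
  toFun := relNorm H
  map_one' := relNorm_one H
  map_mul' := relNorm_mul H

@[simp] lemma relNormHom_apply (H : Subgroup G) [H.FiniteIndex] (b : M) :
    relNormHom H b = relNorm H b := rfl

lemma relNorm_inv (H : Subgroup G) [H.FiniteIndex] (b : M) :
    relNorm H b⁻¹ = (relNorm H b)⁻¹ := map_inv (relNormHom H) b

lemma relNorm_pow (H : Subgroup G) [H.FiniteIndex] (b : M) (n : ℕ) :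
    relNorm H (b ^ n) = relNorm H b ^ n := map_pow (relNormHom H) b n

lemma relNorm_zpow (H : Subgroup G) [H.FiniteIndex] (b : M) (n : ℤ) :
    relNorm H (b ^ n) = relNorm H b ^ n := map_zpow (relNormHom H) b n

lemma relNorm_prod (H : Subgroup G) [H.FiniteIndex] {ι : Type*} (s : Finset ι) (f : ι → M) :
    relNorm H (∏ i ∈ s, f i) = ∏ i ∈ s, relNorm H (f i) := map_prod (relNormHom H) f s

lemma relNorm_of_fixed (H : Subgroup G) [H.FiniteIndex] {b : M} (hb : ∀ g : G, g • b = b) :
    relNorm H b = b ^ H.index := by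
  letI : Fintype (G ⧸ H) := Subgroup.fintypeQuotientOfFiniteIndex
  rw [relNorm_eq_prod]
  simp only [hb]
  rw [Finset.prod_const, Finset.card_univ, Subgroup.index_eq_card, Nat.card_eq_fintype_card]

/-- the norm of an `H`-fixed element over any system of representatives -/
lemma relNorm_eq_prod_of_bijective {H : Subgroup G} [H.FiniteIndex] {b : M} (hb : FixedBy H b)
    {ι : Type*} [Fintype ι] (r : ι → G)
    (hr : Function.Bijective fun i => ((r i : G) : G ⧸ H)) :
    relNorm H b = ∏ i, r i • b := by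
  letI : Fintype (G ⧸ H) := Subgroup.fintypeQuotientOfFiniteIndex
  rw [relNorm_eq_prod]
  symm
  refine Fintype.prod_bijective _ hr _ _ fun i => ?_
  exact (out_smul hb (r i)).symm

/-! ### Transitivity -/

variable (V : Subgroup G) (K : Subgroup ↥V)

lemma fixedBy_relNorm_sub {b : M} [K.FiniteIndex]
    (hb : FixedBy (K.map V.subtype) b) : FixedBy V (relNorm K b) := by
  intro v hv
  have hb' : FixedBy K b := fun k hk => hb (k : G) ⟨k, hk, rfl⟩
  exact smul_relNorm (G := ↥V) hb' ⟨v, hv⟩

/-- the map `(t, s) ↦ (out t) (out s) K'` -/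
def pairMap : (G ⧸ V) × (↥V ⧸ K) → G ⧸ (K.map V.subtype) :=
  fun p => (((Quotient.out p.1 : G) * ((Quotient.out p.2 : ↥V) : G) : G) : G ⧸ (K.map V.subtype))

lemma map_subtype_le_self : K.map V.subtype ≤ V := by
  rintro _ ⟨k, -, rfl⟩
  exact k.2

lemma pairMap_injective : Function.Injective (pairMap V K) := by
  rintro ⟨t, s⟩ ⟨t', s'⟩ h
  have h1 : ((Quotient.out t : G) * ((Quotient.out s : ↥V) : G))⁻¹ *
      ((Quotient.out t' : G) * ((Quotient.out s' : ↥V) : G)) ∈ K.map V.subtype :=
    QuotientGroup.eq.mp h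
  have h2 := map_subtype_le_self V K h1
  -- first components agree
  have h3 : (Quotient.out t : G)⁻¹ * (Quotient.out t' : G) ∈ V := by
    have e : (Quotient.out t : G)⁻¹ * (Quotient.out t' : G) =
        ((Quotient.out s : ↥V) : G) *
          (((Quotient.out t : G) * ((Quotient.out s : ↥V) : G))⁻¹ *
            ((Quotient.out t' : G) * ((Quotient.out s' : ↥V) : G))) *
          ((Quotient.out s' : ↥V) : G)⁻¹ := by group
    rw [e]
    exact V.mul_mem (V.mul_mem (Quotient.out s).2 h2) (V.inv_mem (Quotient.out s').2)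
  have ht : t = t' := by
    have := (QuotientGroup.eq (s := V)).mpr h3
    exact (QuotientGroup.out_eq' t).symm.trans (this.trans (QuotientGroup.out_eq' t'))
  subst ht
  have h4 : ((Quotient.out s : ↥V) : G)⁻¹ * ((Quotient.out s' : ↥V) : G) ∈ K.map V.subtype := by
    have e : ((Quotient.out s : ↥V) : G)⁻¹ * ((Quotient.out s' : ↥V) : G) =
        ((Quotient.out t : G) * ((Quotient.out s : ↥V) : G))⁻¹ *
            ((Quotient.out t : G) * ((Quotient.out s' : ↥V) : G)) := by group
    rw [e]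
    exact h1
  obtain ⟨k, hk, hk'⟩ := h4
  have h5 : (Quotient.out s : ↥V)⁻¹ * (Quotient.out s' : ↥V) = k := by
    apply Subtype.ext
    exact hk'.symm
  have hs : s = s' := by
    have := (QuotientGroup.eq (s := K)).mpr (h5 ▸ hk)
    exact (QuotientGroup.out_eq' s).symm.trans (this.trans (QuotientGroup.out_eq' s'))
  rw [hs]

lemma pairMap_surjective : Function.Surjective (pairMap V K) := by
  intro x
  induction x using QuotientGroup.induction_on with
  | H g =>
    set t : G ⧸ V := (g : G ⧸ V) with ht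
    have h1 : (Quotient.out t : G)⁻¹ * g ∈ V := by
      apply QuotientGroup.eq.mp
      rw [ht]
      exact Quotient.out_eq' _
    set v : ↥V := ⟨(Quotient.out t : G)⁻¹ * g, h1⟩ with hv
    set s : ↥V ⧸ K := (v : ↥V ⧸ K) with hs
    refine ⟨(t, s), ?_⟩
    unfold pairMap
    apply QuotientGroup.eq.mpr
    have h2 : (Quotient.out s : ↥V)⁻¹ * v ∈ K := by
      apply QuotientGroup.eq.mp
      rw [hs]
      exact Quotient.out_eq' _
    refine ⟨(Quotient.out s : ↥V)⁻¹ * v, h2, ?_⟩
    simp only [Subgroup.coe_subtype, Subgroup.coe_mul, Subgroup.coe_inv, hv]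
    group

lemma pairMap_bijective : Function.Bijective (pairMap V K) :=
  ⟨pairMap_injective V K, pairMap_surjective V K⟩

theorem finiteIndex_map [V.FiniteIndex] [K.FiniteIndex] : (K.map V.subtype).FiniteIndex := by
  haveI : Finite ((G ⧸ V) × (↥V ⧸ K)) := inferInstance
  haveI : Finite (G ⧸ (K.map V.subtype)) :=
    Finite.of_surjective _ (pairMap_surjective V K)
  exact Subgroup.finiteIndex_of_finite_quotient

/-- **(SA1) transitivity of the norm**: for `K ≤ ↥V ≤ G` of finite indices and `b` fixed by `K`,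
`N_{G/V} (N_{V/K} b) = N_{G/K} b`. -/
theorem relNorm_trans [V.FiniteIndex] [K.FiniteIndex] {b : M}
    (hb : FixedBy (K.map V.subtype) b) :
    relNorm V (relNorm (G := ↥V) K b) = relNorm (K.map V.subtype) b := by
  haveI := finiteIndex_map V K
  letI : Fintype (G ⧸ V) := Subgroup.fintypeQuotientOfFiniteIndex
  letI : Fintype (↥V ⧸ K) := Subgroup.fintypeQuotientOfFiniteIndex
  rw [relNorm_eq_prod_of_bijective hb
    (fun p : (G ⧸ V) × (↥V ⧸ K) => (Quotient.out p.1 : G) * ((Quotient.out p.2 : ↥V) : G))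
    (pairMap_bijective V K)]
  rw [relNorm_eq_prod V, relNorm_eq_prod K, Fintype.prod_prod_type]
  refine Finset.prod_congr rfl fun t _ => ?_
  rw [Finset.smul_prod']
  refine Finset.prod_congr rfl fun s _ => ?_
  rw [← smul_smul]
  rfl

end General

/-! ## Local norms -/

section Local

variable (q : ℕ) [Fact q.Prime]

local notation "Gq" => (PadicAlgCl q ≃ₐ[ℚ_[q]] PadicAlgCl q)

lemma isGalois_local : IsGalois ℚ_[q] (PadicAlgCl q) := by
  haveI : IsAlgClosure ℚ_[q] (PadicAlgCl q) := ⟨inferInstance, inferInstance⟩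
  haveI : Normal ℚ_[q] (PadicAlgCl q) := IsAlgClosure.normal ℚ_[q] (PadicAlgCl q)
  exact isGalois_iff.mpr ⟨inferInstance, inferInstance⟩

lemma finiteIndex_of_isOpenL {V : Subgroup Gq} (hV : IsOpenL q V) : V.FiniteIndex := by
  obtain ⟨E, hE, hle⟩ := hV
  haveI := isGalois_local q
  haveI : E.fixingSubgroup.FiniteIndex := by
    refine ⟨?_⟩
    rw [← IntermediateField.finrank_eq_fixingSubgroup_index]
    exact Module.finrank_pos.ne'
  exact Subgroup.finiteIndex_of_le hle

lemma lFixed_iff_fixedBy {V : Subgroup Gq} {a : (PadicAlgCl q)ˣ} :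
    LFixed q V a ↔ FixedBy V a := Iff.rfl

/-- the local norm is rational -/
theorem relNorm_rational_local {V : Subgroup Gq} [V.FiniteIndex] {a : (PadicAlgCl q)ˣ}
    (ha : LFixed q V a) :
    ∃ y : ℚ_[q], y ≠ 0 ∧ ((relNorm V a : (PadicAlgCl q)ˣ) : PadicAlgCl q) =
      algebraMap ℚ_[q] (PadicAlgCl q) y := by
  haveI := isGalois_local q
  have hfix : ((relNorm V a : (PadicAlgCl q)ˣ) : PadicAlgCl q) ∈
      IntermediateField.fixedField (⊤ : Subgroup Gq) := by
    rintro ⟨τ, -⟩
    have := congrArg (fun u : (PadicAlgCl q)ˣ => (u : PadicAlgCl q)) (smul_relNorm (H := V) ha τ)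
    exact this
  rw [InfiniteGalois.fixedField_bot, IntermediateField.mem_bot] at hfix
  obtain ⟨y, hy⟩ := hfix
  refine ⟨y, ?_, hy.symm⟩
  rintro rfl
  rw [map_zero] at hy
  exact (relNorm V a).ne_zero hy.symm

/-- absolute value of the local norm -/
theorem norm_relNorm_local (V : Subgroup Gq) [V.FiniteIndex] (a : (PadicAlgCl q)ˣ) :
    ‖((relNorm V a : (PadicAlgCl q)ˣ) : PadicAlgCl q)‖ = ‖(a : PadicAlgCl q)‖ ^ V.index := by
  letI : Fintype (Gq ⧸ V) := Subgroup.fintypeQuotientOfFiniteIndex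
  rw [relNorm_eq_prod, Units.coe_prod, norm_prod]
  have h : ∀ t : Gq ⧸ V, ‖(((Quotient.out t : Gq) • a : (PadicAlgCl q)ˣ) : PadicAlgCl q)‖ =
      ‖(a : PadicAlgCl q)‖ := fun t =>
    (spectralNorm_eq_of_equiv (Quotient.out t : Gq) (a : PadicAlgCl q)).symm
  simp only [h]
  rw [Finset.prod_const, Finset.card_univ, Subgroup.index_eq_card, Nat.card_eq_fintype_card]

/-- `vdeg` is the valuation of the norm -/
theorem vdeg_eq_valuation {V : Subgroup Gq} [V.FiniteIndex] {a : (PadicAlgCl q)ˣ} {y : ℚ_[q]}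
    (hy0 : y ≠ 0)
    (hy : ((relNorm V a : (PadicAlgCl q)ˣ) : PadicAlgCl q) = algebraMap ℚ_[q] (PadicAlgCl q) y) :
    vdeg q V a = y.valuation := by
  have hq : 1 < q := (Fact.out : q.Prime).one_lt
  unfold vdeg
  rw [← norm_relNorm_local, hy, PadicAlgCl.norm_extends, Padic.norm_eq_zpow_neg_valuation hy0,
    Int.log_zpow hq, neg_neg]

/-- `vdeg` is additive -/
theorem vdeg_mul {V : Subgroup Gq} [V.FiniteIndex] {a b : (PadicAlgCl q)ˣ}
    (ha : LFixed q V a) (hb : LFixed q V b) :
    vdeg q V (a * b) = vdeg q V a + vdeg q V b := by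
  obtain ⟨y, hy0, hy⟩ := relNorm_rational_local q ha
  obtain ⟨z, hz0, hz⟩ := relNorm_rational_local q hb
  have hyz : ((relNorm V (a * b) : (PadicAlgCl q)ˣ) : PadicAlgCl q) =
      algebraMap ℚ_[q] (PadicAlgCl q) (y * z) := by
    rw [relNorm_mul, Units.val_mul, hy, hz, map_mul]
  rw [vdeg_eq_valuation q hy0 hy, vdeg_eq_valuation q hz0 hz,
    vdeg_eq_valuation q (mul_ne_zero hy0 hz0) hyz, Padic.valuation_mul hy0 hz0]

end Local

/-! ## Global norms -/

section Global

local notation "Qb" => AlgebraicClosure ℚ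
local notation "GQ" => (AlgebraicClosure ℚ ≃ₐ[ℚ] AlgebraicClosure ℚ)

lemma isGalois_global : IsGalois ℚ Qb := by
  haveI : IsAlgClosure ℚ Qb := ⟨inferInstance, AlgebraicClosure.isAlgebraic ℚ⟩
  haveI : Normal ℚ Qb := IsAlgClosure.normal ℚ Qb
  exact isGalois_iff.mpr ⟨inferInstance, inferInstance⟩

lemma finiteIndex_of_isOpenQ {U : Subgroup GQ} (hU : IsOpenQ U) : U.FiniteIndex := by
  obtain ⟨F, hF, hle⟩ := hU
  haveI := isGalois_global
  haveI : F.fixingSubgroup.FiniteIndex := by
    refine ⟨?_⟩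
    rw [← IntermediateField.finrank_eq_fixingSubgroup_index]
    exact Module.finrank_pos.ne'
  exact Subgroup.finiteIndex_of_le hle

/-- the global norm is rational (first half of `OrbitNormSpec`) -/
theorem relNorm_rational_global {U : Subgroup GQ} [U.FiniteIndex] {a : Qbˣ} (ha : GFixed U a) :
    ∃ y : ℚˣ, ((relNorm U a : Qbˣ) : Qb) = algebraMap ℚ Qb (y : ℚ) := by
  haveI := isGalois_global
  have hfix : ((relNorm U a : Qbˣ) : Qb) ∈
      IntermediateField.fixedField (⊤ : Subgroup GQ) := by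
    rintro ⟨τ, -⟩
    have := congrArg (fun u : Qbˣ => (u : Qb)) (smul_relNorm (H := U) ha τ)
    exact this
  rw [InfiniteGalois.fixedField_bot, IntermediateField.mem_bot] at hfix
  obtain ⟨y, hy⟩ := hfix
  have hy0 : y ≠ 0 := by
    rintro rfl
    rw [map_zero] at hy
    exact (relNorm U a).ne_zero hy.symm
  exact ⟨Units.mk0 y hy0, hy.symm⟩

end Global

end Fermat.Agent.S55.G.Rec.RelNormH707
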