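import Fermat.Agent.S55.G.Rec.WeakApproxAbsH904
import Fermat.Agent.S55.G.Rec.VdegH707
import Fermat.Agent.S55.G.Rec.H124.ProductFormula

/-!
# S55 / layer G / block REC, leaf G3 (weak approximation), part 3 : local input

* `exists_isUniformizer` : the fixed field of a subgroup of finite index of `G_{ℚ_q}` has a
  uniformizer (discreteness of the value group, from `VdegH707.exists_zpow`).
* `exists_global_norm_eq` : `K = ℚ̄^U` is dense in its completion `ℚ̄_p^{V}`, `V = locSub p g U`: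
  every nonzero `y` fixed by `V` has the norm of some `ι_p (g⁻¹ x)`, `x ∈ K`.
-/

set_option autoImplicit false
set_option linter.style.haveILetI false

noncomputable section

open scoped Pointwise

namespace Fermat.Agent.S55.G.Rec.H904

local notation "Qb" => AlgebraicClosure ℚ
local notation "GQ" => (AlgebraicClosure ℚ ≃ₐ[ℚ] AlgebraicClosure ℚ)

variable (q : ℕ) [Fact q.Prime]

local notation "Gq" => (PadicAlgCl q ≃ₐ[ℚ_[q]] PadicAlgCl q)

theorem norm_natCast_self_padicAlgCl : ‖(q : PadicAlgCl q)‖ = (q : ℝ)⁻¹ := by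
  have h1 : ((q : ℚ_[q]) : PadicAlgCl q) = (q : PadicAlgCl q) := map_natCast _ q
  rw [← h1, PadicAlgCl.norm_extends, Padic.norm_p]

/-- The fixed field of a subgroup of finite index has a uniformizer. -/
theorem exists_isUniformizer (V : Subgroup Gq) (hV : V.index ≠ 0) :
    ∃ π : PadicAlgCl q, IsUniformizer q V π := by
  classical
  have hq1 : (1 : ℝ) < q := by exact_mod_cast (Fact.out : q.Prime).one_lt
  have key : ∀ x : PadicAlgCl q, IsFixedBy q V x → x ≠ 0 → ‖x‖ < 1 →
      ∃ m : ℕ, 0 < m ∧ ‖x‖ ^ V.index = (q : ℝ) ^ (-(m : ℤ)) := by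
    intro x hx hx0 hx1
    obtain ⟨k, hk⟩ := VdegH707.exists_zpow q V (Units.mk0 x hx0)
      (by intro τ hτ; apply Units.ext; exact hx τ hτ)
    have hk' : ‖x‖ ^ V.index = (q : ℝ) ^ k := hk
    have hlt : (q : ℝ) ^ k < 1 := by
      rw [← hk']
      exact pow_lt_one₀ (norm_nonneg _) hx1 hV
    have hk0 : k < 0 := by
      by_contra hcon
      rw [not_lt] at hcon
      have : (1 : ℝ) ≤ (q : ℝ) ^ k := one_le_zpow₀ hq1.le hcon
      linarith
    refine ⟨k.natAbs, by omega, ?_⟩
    rw [hk']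
    congr 1
    omega
  let P : ℕ → Prop := fun m => 0 < m ∧ ∃ x : PadicAlgCl q, IsFixedBy q V x ∧ x ≠ 0 ∧
    ‖x‖ ^ V.index = (q : ℝ) ^ (-(m : ℤ))
  have hP : ∃ m, P m := by
    have hqfix : IsFixedBy q V (q : PadicAlgCl q) := fun τ _ => map_natCast τ q
    have hq0 : (q : PadicAlgCl q) ≠ 0 := Nat.cast_ne_zero.mpr (Fact.out : q.Prime).ne_zero
    have hqlt : ‖(q : PadicAlgCl q)‖ < 1 := by
      rw [norm_natCast_self_padicAlgCl]
      exact inv_lt_one_of_one_lt₀ hq1
    obtain ⟨m, hm, hmeq⟩ := key _ hqfix hq0 hqlt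
    exact ⟨m, hm, _, hqfix, hq0, hmeq⟩
  obtain ⟨hm0, π, hπfix, hπ0, hπeq⟩ := Nat.find_spec hP
  refine ⟨π, hπfix, hπ0, ?_, ?_⟩
  · by_contra hcon
    rw [not_lt] at hcon
    have h1 : 1 ≤ ‖π‖ ^ V.index := one_le_pow₀ hcon
    rw [hπeq] at h1
    have h2 : (q : ℝ) ^ (-(Nat.find hP : ℤ)) < 1 := zpow_lt_one_of_neg₀ hq1 (by omega)
    linarith
  · intro x hx hx1
    by_cases hx0 : x = 0
    · rw [hx0, norm_zero]
      exact norm_nonneg _
    obtain ⟨m, hm, hmeq⟩ := key x hx hx0 hx1
    have hle : Nat.find hP ≤ m := Nat.find_min' hP ⟨hm, x, hx, hx0, hmeq⟩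
    have h3 : ‖x‖ ^ V.index ≤ ‖π‖ ^ V.index := by
      rw [hmeq, hπeq]
      exact zpow_le_zpow_right₀ hq1.le (by omega)
    exact le_of_pow_le_pow_left₀ hV (norm_nonneg _) h3

theorem isGalois_padicAlgCl904 : IsGalois ℚ_[q] (PadicAlgCl q) := by
  haveI : IsAlgClosure ℚ_[q] (PadicAlgCl q) := ⟨inferInstance, inferInstance⟩
  haveI : Normal ℚ_[q] (PadicAlgCl q) := IsAlgClosure.normal _ _
  exact isGalois_iff.mpr ⟨inferInstance, inferInstance⟩

/-- The embedding `x ↦ ι_q (g⁻¹ x)` of the fixed field of `U` into `ℚ̄_q`. -/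
def locEmb (U : Subgroup GQ) (g : GQ) :
    IntermediateField.fixedField U →+* PadicAlgCl q :=
  (((padicEmbedding q).comp ((g⁻¹ : GQ) : Qb →ₐ[ℚ] Qb)).comp
    (IntermediateField.fixedField U).val : IntermediateField.fixedField U →ₐ[ℚ] PadicAlgCl q)

theorem locEmb_apply (U : Subgroup GQ) (g : GQ) (x : IntermediateField.fixedField U) :
    locEmb q U g x = padicEmbedding q (g⁻¹ (x : Qb)) := rfl

/-- `ℚ_q` lies in the closure of the image of `K`. -/
theorem algebraMap_mem_closure_range (U : Subgroup GQ) (g : GQ) (c : ℚ_[q]) :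
    algebraMap ℚ_[q] (PadicAlgCl q) c ∈ (locEmb q U g).range.topologicalClosure := by
  have hc : c ∈ closure (Set.range ((↑) : ℚ → ℚ_[q])) := (Padic.denseRange_ratCast q) c
  have hcont : Continuous (algebraMap ℚ_[q] (PadicAlgCl q)) :=
    continuous_algebraMap ℚ_[q] (PadicAlgCl q)
  refine map_mem_closure hcont hc ?_
  rintro _ ⟨r, rfl⟩
  refine ⟨(r : IntermediateField.fixedField U), ?_⟩
  rw [map_ratCast, map_ratCast]

/-- The closure of the image of `K`, as a `ℚ_q`-subalgebra. -/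
def closureAlg (U : Subgroup GQ) (g : GQ) : Subalgebra ℚ_[q] (PadicAlgCl q) :=
  { (locEmb q U g).range.topologicalClosure with
    algebraMap_mem' := algebraMap_mem_closure_range q U g }

theorem mem_closureAlg_iff (U : Subgroup GQ) (g : GQ) (y : PadicAlgCl q) :
    y ∈ closureAlg q U g ↔ y ∈ closure (Set.range (locEmb q U g)) := Iff.rfl

/-- Elements fixed by `locSub q g U` lie in the closure of the image of `K = ℚ̄^U`. -/
theorem mem_closure_of_isFixedBy {U : Subgroup GQ} (hU : IsOpenQ U) (g : GQ) (y : PadicAlgCl q)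
    (hy : IsFixedBy q (locSub q g U) y) : y ∈ closure (Set.range (locEmb q U g)) := by
  haveI := isGalois_padicAlgCl904 q
  have h1 : (IntermediateField.adjoin ℚ_[q] (Set.range (locEmb q U g))).fixingSubgroup ≤
      locSub q g U := by
    intro τ hτ
    rw [mem_locSub, ← fixingSubgroup_fixedField_of_isOpenQ hU,
      IntermediateField.mem_fixingSubgroup_iff]
    intro x hx
    have h2 : τ (locEmb q U g ⟨x, hx⟩) = locEmb q U g ⟨x, hx⟩ :=
      (IntermediateField.mem_fixingSubgroup_iff _ _).1 hτ _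
        (IntermediateField.subset_adjoin _ _ ⟨_, rfl⟩)
    rw [locEmb_apply, ← padicEmbedding_localGaloisToGlobal] at h2
    have h3 : localGaloisToGlobal q τ ((g⁻¹ : GQ) x) = (g⁻¹ : GQ) x :=
      (padicEmbedding q).toRingHom.injective h2
    show g (localGaloisToGlobal q τ ((g⁻¹ : GQ) x)) = x
    rw [h3]
    exact AlgEquiv.apply_symm_apply g x
  have h4 : y ∈ IntermediateField.adjoin ℚ_[q] (Set.range (locEmb q U g)) := by
    have : y ∈ IntermediateField.fixedField
        (IntermediateField.adjoin ℚ_[q] (Set.range (locEmb q U g))).fixingSubgroup := by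
      rw [IntermediateField.mem_fixedField_iff]
      intro τ hτ
      exact hy τ (h1 hτ)
    rwa [InfiniteGalois.fixedField_fixingSubgroup] at this
  have h5 : (IntermediateField.adjoin ℚ_[q] (Set.range (locEmb q U g))).toSubalgebra ≤
      closureAlg q U g := by
    rw [IntermediateField.adjoin_toSubalgebra]
    exact Algebra.adjoin_le (fun m hm => subset_closure hm)
  exact h5 h4

/-- Density in norm form: every nonzero element fixed by `locSub q g U` has the norm of the image
of some element of `K = ℚ̄^U`. -/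
theorem exists_global_norm_eq {U : Subgroup GQ} (hU : IsOpenQ U) (g : GQ) (y : PadicAlgCl q)
    (hy : IsFixedBy q (locSub q g U) y) (hy0 : y ≠ 0) :
    ∃ x : IntermediateField.fixedField U, ‖padicEmbedding q (g⁻¹ (x : Qb))‖ = ‖y‖ := by
  have hmem := mem_closure_of_isFixedBy q hU g y hy
  rw [Metric.mem_closure_iff] at hmem
  obtain ⟨_, ⟨x, rfl⟩, hx⟩ := hmem ‖y‖ (norm_pos_iff.mpr hy0)
  refine ⟨x, ?_⟩
  rw [dist_eq_norm, ← norm_neg, neg_sub] at hx
  have h1 : padicEmbedding q (g⁻¹ (x : Qb)) = y + (locEmb q U g x - y) := by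
    rw [locEmb_apply]
    ring
  rw [h1]
  exact IsUltrametricDist.norm_add_eq_max_of_norm_ne_norm (ne_of_gt hx) ▸ max_eq_left hx.le

end Fermat.Agent.S55.G.Rec.H904
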