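import Fermat.Agent.S55.G.Rec.Spec2

/-!
# S55 / layer G / block REC, leaf K1 (helper496): localisation of a global cup class
-/

set_option autoImplicit false

noncomputable section

namespace Fermat.Agent.S55.G.Rec.H496

open groupCohomology Fermat.Agent.S55.G.Rec

local notation "Qb" => AlgebraicClosure ℚ
local notation "GQ" => (AlgebraicClosure ℚ ≃ₐ[ℚ] AlgebraicClosure ℚ)

/-- Localisation preserves fixed elements. -/
theorem lFixed_locPushMul (q : ℕ) [Fact q.Prime] (g : GQ) (U : Subgroup GQ) (a : Qbˣ)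
    (ha : GFixed U a) : LFixed q (locSub q g U) (locPushMul q g a) := by
  intro τ hτ
  have h1 := locPush_equivariant q g U ⟨τ, hτ⟩ (toGMod U a)
  have h2 : (gModOn U).ρ (locHom q g U ⟨τ, hτ⟩) (toGMod U a) = toGMod U a :=
    toGMod_mem_invariants ha _
  rw [h2] at h1
  exact (congrArg Additive.toMul h1).symm

/-- **(K1)** localisation of a global cup class is the local cup class. -/
theorem cupLoc : CupLocSpec := by
  intro q _ g U n χ a hn hχ ha
  have h1 : IsLevelConstant₁ (lHom q (locSub q g U)) (χ.comp (locHom q g U)) :=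
    isLevelConstant₁_loc q g U hχ
  have h2 : LFixed q (locSub q g U) (locPushMul q g a) := lFixed_locPushMul q g U a ha
  refine ⟨⟨h1, h2⟩, ?_⟩
  rw [gcc_eq U n χ a ⟨hn, hχ, ha⟩, lcc_eq q _ n _ _ ⟨hn, h1, h2⟩, locBr_mk]
  congr 1
  apply Subtype.ext
  funext ⟨τ₁, τ₂⟩
  show locPush q g U (H379.carry n _ _ • toGMod U a) = H379.carry n _ _ • _
  rw [map_nsmul]
  rfl

end Fermat.Agent.S55.G.Rec.H496
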