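import Mathlib

/-!
# S55 / G / REC, leaf K5 (helper844): Hilbert 90 for level-constant cocycles

Abstract (Mathlib-only) statement.  Let a group `H` act on a field `Ω` by automorphisms, let
`N ≤ H` be a subgroup of finite index and `ι : T →* Ω` a multiplicative map whose image is fixed
pointwise by exactly the elements of `N` (think: `T = E`, a finite extension, `N = Gal(Ω/E) ∩ H`).
Then every 1-cocycle `X : H → Ωˣ` which is constant on the cosets `g N` is a coboundary:
there is `β ∈ Ωˣ` with `g • β * X g = β`.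

The proof is the classical one: the Poincaré series `∑_{t ∈ H/N} X(t) · t(θ)` does not vanish for
a suitable `θ ∈ T` by Dedekind's independence of characters.
-/

set_option autoImplicit false
set_option linter.unusedSectionVars false
set_option linter.style.haveILetI false

namespace Fermat.Agent.S55.G.Rec.H844

theorem exists_unit_of_levelCocycle844 {H Ω T : Type*} [Group H] [Field Ω]
    [MulSemiringAction H Ω] [Monoid T] (ι : T →* Ω) (N : Subgroup H) [Finite (H ⧸ N)]
    (hN : ∀ g : H, (∀ θ : T, g • ι θ = ι θ) → g ∈ N)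
    (hN' : ∀ g ∈ N, ∀ θ : T, g • ι θ = ι θ)
    (X : H → Ωˣ) (hX : ∀ g h, (X (g * h) : Ω) = g • (X h : Ω) * X g)
    (hXN : ∀ g, ∀ s ∈ N, X (g * s) = X g) :
    ∃ β : Ωˣ, ∀ g : H, g • (β : Ω) * X g = β := by
  classical
  haveI : Fintype (H ⧸ N) := Fintype.ofFinite _
  -- the characters `ψ_g : T →* Ω`, `θ ↦ g • ι θ`
  obtain ⟨ψ, hψ_apply⟩ : ∃ ψ : H → (T →* Ω), ∀ g θ, ψ g θ = g • ι θ :=
    ⟨fun g => ((MulSemiringAction.toRingHom H Ω g : Ω →+* Ω) : Ω →* Ω).comp ι, fun g θ => rfl⟩
  have hψ : ∀ g, ∀ s ∈ N, ψ (g * s) = ψ g := by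
    intro g s hs
    ext θ
    rw [hψ_apply, hψ_apply, mul_smul, hN' s hs θ]
  have hψinj : ∀ g g', ψ g = ψ g' → g⁻¹ * g' ∈ N := by
    intro g g' h
    apply hN
    intro θ
    have := DFunLike.congr_fun h θ
    rw [hψ_apply, hψ_apply] at this
    rw [mul_smul, ← this, inv_smul_smul]
  have hinj : Function.Injective (fun t : H ⧸ N => ψ (Quotient.out t)) := by
    intro t t' h
    have := hψinj _ _ h
    rw [← QuotientGroup.eq, QuotientGroup.out_eq', QuotientGroup.out_eq'] at this
    exact this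
  have hli' : LinearIndependent Ω (fun t : H ⧸ N => (ψ (Quotient.out t) : T → Ω)) :=
    (linearIndependent_monoidHom T Ω).comp _ hinj
  -- nonvanishing of the Poincaré series
  have hex : ∃ θ : T, ∑ t : H ⧸ N, (X (Quotient.out t) : Ω) * ψ (Quotient.out t) θ ≠ 0 := by
    by_contra hcon
    push Not at hcon
    have h0 : ∑ t : H ⧸ N, (X (Quotient.out t) : Ω) • (ψ (Quotient.out t) : T → Ω) = 0 := by
      ext θ
      rw [Finset.sum_apply]
      simpa using hcon θ
    have := Fintype.linearIndependent_iff.mp hli' _ h0 ((1 : H) : H ⧸ N)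
    exact (X _).ne_zero this
  obtain ⟨θ, hθ⟩ := hex
  -- `F g = X g * g • ι θ` is constant on cosets
  obtain ⟨F, hF⟩ : ∃ F : H → Ω, ∀ g, F g = (X g : Ω) * ψ g θ := ⟨_, fun _ => rfl⟩
  have hFN : ∀ g, ∀ s ∈ N, F (g * s) = F g := by
    intro g s hs
    rw [hF, hF, hXN g s hs, hψ g s hs]
  have hFbar : ∀ g : H, F g = F (Quotient.out (g : H ⧸ N)) := by
    intro g
    have hmem : g⁻¹ * Quotient.out (g : H ⧸ N) ∈ N := by
      rw [← QuotientGroup.eq, QuotientGroup.out_eq']
    have := hFN g _ hmem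
    rw [← this]
    congr 1
    group
  refine ⟨Units.mk0 _ hθ, fun g => ?_⟩
  rw [Units.val_mk0, Finset.smul_sum, Finset.sum_mul]
  calc ∑ t : H ⧸ N, g • ((X (Quotient.out t) : Ω) * ψ (Quotient.out t) θ) * (X g : Ω)
      = ∑ t : H ⧸ N, F (Quotient.out (g • t)) := by
        refine Finset.sum_congr rfl fun t _ => ?_
        have h1 : g • ((X (Quotient.out t) : Ω) * ψ (Quotient.out t) θ) * (X g : Ω) =
            F (g * Quotient.out t) := by
          rw [hF, hψ_apply, hψ_apply, smul_mul', hX, mul_smul]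
          ring
        rw [h1, hFbar (g * Quotient.out t)]
        congr 2
        conv_rhs => rw [← QuotientGroup.out_eq' t]
        rfl
    _ = ∑ t : H ⧸ N, F (Quotient.out t) :=
        Fintype.sum_equiv (MulAction.toPerm g) _ _ (fun t => rfl)
    _ = ∑ t : H ⧸ N, (X (Quotient.out t) : Ω) * ψ (Quotient.out t) θ :=
        Finset.sum_congr rfl fun t _ => hF _

end Fermat.Agent.S55.G.Rec.H844
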