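import Mathlib

/-!
# S55 / G / REC, leaf (A4): `H²` of a finite cyclic group via the explicit cocycles `cupChar`

Plain-level (no category theory) statements, in the vocabulary of Mathlib's
`groupCohomology.IsCocycle₂` / `IsCoboundary₂`.

* `carry n x y = (x.val + y.val) / n` : the carry of the addition in `ZMod n`.
* `cupChar n χ a (g, h) = carry n (χ g) (χ h) • a`.
* `isCocycle₂_cupChar` : (A1) `cupChar n χ a` is a 2-cocycle if `χ` is additive and `a` invariant.
* `exists_cupChar_cohomologous` : (A4, surjectivity) if `χ` is injective and `χ σ = 1`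
  (i.e. `G = ⟨σ⟩` is cyclic of order `n`), every 2-cocycle is cohomologous to some
  `cupChar n χ a`, `a` invariant.
* `isCoboundary₂_cupChar_iff` : (A4, injectivity) for invariant `a`, `cupChar n χ a` is a
  coboundary iff `a` is a norm `∑ k < n, σ ^ k • b` (`= ∑ g : G, g • b`).
-/

set_option autoImplicit false
set_option linter.unusedSectionVars false
set_option linter.style.haveILetI false

namespace Fermat.Agent.S55.G.Rec.H379

open groupCohomology Finset

/-! ## The carry -/

/-- The carry of the addition of `x` and `y` in `ZMod n` (it is `0` or `1` when `n ≠ 0`). -/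
def carry (n : ℕ) (x y : ZMod n) : ℕ := (x.val + y.val) / n

lemma div_add_mod_add_div (a c n : ℕ) : a / n + (a % n + c) / n = (a + c) / n := by
  rcases Nat.eq_zero_or_pos n with rfl | hn
  · simp
  · conv_rhs => rw [← Nat.div_add_mod a n]
    rw [add_assoc, Nat.mul_add_div hn, ]

lemma carry_assoc (n : ℕ) [NeZero n] (x y z : ZMod n) :
    carry n (x + y) z + carry n x y = carry n y z + carry n x (y + z) := by
  unfold carry
  rw [ZMod.val_add x y, ZMod.val_add y z]
  rw [add_comm (((x.val + y.val) % n + z.val) / n), div_add_mod_add_div,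
    add_comm x.val ((y.val + z.val) % n), div_add_mod_add_div]
  congr 1
  ring

lemma carry_le_one (n : ℕ) [NeZero n] (x y : ZMod n) : carry n x y ≤ 1 := by
  unfold carry
  have hx := ZMod.val_lt x
  have hy := ZMod.val_lt y
  have hn : 0 < n := Nat.pos_of_ne_zero (NeZero.ne n)
  rw [← Nat.lt_succ_iff, Nat.div_lt_iff_lt_mul hn]
  omega

lemma carry_comm (n : ℕ) (x y : ZMod n) : carry n x y = carry n y x := by
  unfold carry; rw [add_comm]

@[simp] lemma carry_zero_left (n : ℕ) [NeZero n] (y : ZMod n) : carry n 0 y = 0 := by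
  unfold carry
  rw [ZMod.val_zero, zero_add]
  exact Nat.div_eq_of_lt (ZMod.val_lt y)

@[simp] lemma carry_zero_right (n : ℕ) [NeZero n] (x : ZMod n) : carry n x 0 = 0 := by
  rw [carry_comm, carry_zero_left]

/-! ## The cocycle `cupChar` -/

section CupChar

variable {G : Type*} {A : Type*}

/-- The explicit 2-cochain `(g, h) ↦ ε_χ(g, h) • a`, where `ε_χ(g, h) ∈ {0, 1}` is the carry of
`χ g + χ h` in `ZMod n`. -/
def cupChar [AddMonoid A] (n : ℕ) (χ : G → ZMod n) (a : A) : G × G → A :=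
  fun p => carry n (χ p.1) (χ p.2) • a

@[simp] lemma cupChar_apply [AddMonoid A] (n : ℕ) (χ : G → ZMod n) (a : A) (g h : G) :
    cupChar n χ a (g, h) = carry n (χ g) (χ h) • a := rfl

lemma cupChar_add [AddCommMonoid A] (n : ℕ) (χ : G → ZMod n) (a b : A) :
    cupChar n χ (a + b) = cupChar n χ a + cupChar n χ b := by
  funext p; simp [cupChar, smul_add]

lemma cupChar_zero [AddMonoid A] (n : ℕ) (χ : G → ZMod n) :
    cupChar n χ (0 : A) = 0 := by
  funext p; simp [cupChar]

lemma cupChar_neg [AddCommGroup A] (n : ℕ) (χ : G → ZMod n) (a : A) :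
    cupChar n χ (-a) = -cupChar n χ a := by
  funext p; simp [cupChar]

lemma cupChar_sub [AddCommGroup A] (n : ℕ) (χ : G → ZMod n) (a b : A) :
    cupChar n χ (a - b) = cupChar n χ a - cupChar n χ b := by
  funext p; simp [cupChar, smul_sub]

variable [Group G] [AddCommGroup A] [DistribMulAction G A]

/-- **(A1)** `cupChar n χ a` is a 2-cocycle when `χ` is additive and `a` is `G`-invariant. -/
theorem isCocycle₂_cupChar {n : ℕ} [NeZero n] {χ : G → ZMod n}
    (hχ : ∀ g h, χ (g * h) = χ g + χ h) {a : A} (ha : ∀ g : G, g • a = a) :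
    IsCocycle₂ (cupChar n χ a) := by
  intro g h j
  simp only [cupChar_apply, hχ, smul_comm g, ha]
  rw [← add_smul, ← add_smul, carry_assoc]

end CupChar


/-! ## Generalities on 2-cocycles and 2-coboundaries (plain level) -/

section General

variable {G : Type*} {A : Type*} [Group G] [AddCommGroup A] [DistribMulAction G A]

/-- The coboundary of a 1-cochain. -/
def dOne (u : G → A) : G × G → A := fun p => p.1 • u p.2 - u (p.1 * p.2) + u p.1

@[simp] lemma dOne_apply (u : G → A) (g h : G) : dOne u (g, h) = g • u h - u (g * h) + u g := rfl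

lemma isCoboundary₂_iff {f : G × G → A} : IsCoboundary₂ f ↔ ∃ u : G → A, f = dOne u := by
  constructor
  · rintro ⟨u, hu⟩
    exact ⟨u, funext fun p => (hu p.1 p.2).symm⟩
  · rintro ⟨u, rfl⟩
    exact ⟨u, fun g h => rfl⟩

lemma isCocycle₂_dOne (u : G → A) : IsCocycle₂ (dOne u) := by
  intro g h j
  simp only [dOne_apply, smul_add, smul_sub, mul_smul, mul_assoc]
  abel

lemma IsCoboundary₂.isCocycle₂' {f : G × G → A} (hf : IsCoboundary₂ f) : IsCocycle₂ f := by
  obtain ⟨u, rfl⟩ := isCoboundary₂_iff.1 hf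
  exact isCocycle₂_dOne u

lemma isCocycle₂_sub {f f' : G × G → A} (hf : IsCocycle₂ f) (hf' : IsCocycle₂ f') :
    IsCocycle₂ (f - f') := by
  intro g h j
  have h1 := hf g h j
  have h2 := hf' g h j
  simp only [Pi.sub_apply, smul_sub]
  rw [sub_add_sub_comm, h1, h2, sub_add_sub_comm]

lemma isCocycle₂_add {f f' : G × G → A} (hf : IsCocycle₂ f) (hf' : IsCocycle₂ f') :
    IsCocycle₂ (f + f') := by
  intro g h j
  have h1 := hf g h j
  have h2 := hf' g h j
  simp only [Pi.add_apply, smul_add]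
  rw [add_add_add_comm, h1, h2, add_add_add_comm]

lemma dOne_add (u v : G → A) : dOne (u + v) = dOne u + dOne v := by
  funext p
  simp only [dOne, Pi.add_apply, smul_add]
  abel

lemma dOne_sub (u v : G → A) : dOne (u - v) = dOne u - dOne v := by
  funext p
  simp only [dOne, Pi.sub_apply, smul_sub]
  abel

lemma isCoboundary₂_add {f f' : G × G → A} (hf : IsCoboundary₂ f) (hf' : IsCoboundary₂ f') :
    IsCoboundary₂ (f + f') := by
  obtain ⟨u, rfl⟩ := isCoboundary₂_iff.1 hf
  obtain ⟨v, rfl⟩ := isCoboundary₂_iff.1 hf'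
  exact isCoboundary₂_iff.2 ⟨u + v, (dOne_add u v).symm⟩

lemma isCoboundary₂_sub {f f' : G × G → A} (hf : IsCoboundary₂ f) (hf' : IsCoboundary₂ f') :
    IsCoboundary₂ (f - f') := by
  obtain ⟨u, rfl⟩ := isCoboundary₂_iff.1 hf
  obtain ⟨v, rfl⟩ := isCoboundary₂_iff.1 hf'
  exact isCoboundary₂_iff.2 ⟨u - v, (dOne_sub u v).symm⟩

/-- **Vanishing lemma.**  If every element of `G` is a power of `σ`, a 2-cocycle vanishing on
all pairs `(g, σ)` is zero. -/
theorem eq_zero_of_isCocycle₂_of_forall_snd {σ : G} (hσ : ∀ g : G, ∃ k : ℕ, g = σ ^ k)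
    {f : G × G → A} (hf : IsCocycle₂ f) (h0 : ∀ g : G, f (g, σ) = 0) : f = 0 := by
  have step : ∀ (g : G) (j : ℕ), f (g, σ ^ (j + 1)) = f (g, σ ^ j) := by
    intro g j
    have := hf g (σ ^ j) σ
    rw [h0, h0, smul_zero, zero_add, zero_add, ← pow_succ] at this
    exact this.symm
  have all : ∀ (g : G) (j : ℕ), f (g, σ ^ j) = 0 := by
    intro g j
    induction j with
    | zero => rw [← step g 0, zero_add, pow_one, h0]
    | succ j ih => rw [step, ih]
  funext ⟨g, h⟩
  obtain ⟨k, rfl⟩ := hσ h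
  exact all g k

end General

/-! ## Cyclic groups: a character `χ : G → ZMod n`, additive and injective, with `χ σ = 1` -/

section Cyclic

variable {G : Type*} {A : Type*} [Group G] [AddCommGroup A] [DistribMulAction G A]
variable {n : ℕ} [NeZero n] {χ : G → ZMod n} {σ : G}

lemma chi_one (hχ : ∀ g h, χ (g * h) = χ g + χ h) : χ 1 = 0 := by
  have := hχ 1 1
  rw [mul_one] at this
  exact left_eq_add.1 this

lemma chi_pow (hχ : ∀ g h, χ (g * h) = χ g + χ h) (hσ : χ σ = 1) (k : ℕ) :
    χ (σ ^ k) = (k : ZMod n) := by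
  induction k with
  | zero => rw [pow_zero, chi_one hχ, Nat.cast_zero]
  | succ k ih => rw [pow_succ, hχ, ih, hσ, Nat.cast_succ]

lemma eq_pow_val (hχ : ∀ g h, χ (g * h) = χ g + χ h) (hinj : Function.Injective χ)
    (hσ : χ σ = 1) (g : G) : g = σ ^ (χ g).val := by
  apply hinj
  rw [chi_pow hχ hσ, ZMod.natCast_zmod_val]

lemma exists_eq_pow (hχ : ∀ g h, χ (g * h) = χ g + χ h) (hinj : Function.Injective χ)
    (hσ : χ σ = 1) (g : G) : ∃ k : ℕ, g = σ ^ k :=
  ⟨_, eq_pow_val hχ hinj hσ g⟩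

lemma pow_card_eq_one (hχ : ∀ g h, χ (g * h) = χ g + χ h) (hinj : Function.Injective χ)
    (hσ : χ σ = 1) : σ ^ n = 1 := by
  apply hinj
  rw [chi_pow hχ hσ, chi_one hχ, ZMod.natCast_self]

lemma val_chi_pow (hχ : ∀ g h, χ (g * h) = χ g + χ h) (hσ : χ σ = 1) {k : ℕ} (hk : k < n) :
    (χ (σ ^ k)).val = k := by
  rw [chi_pow hχ hσ, ZMod.val_natCast, Nat.mod_eq_of_lt hk]

omit [DistribMulAction G A] in
/-- Shift invariance of sums over a full period. -/
lemma sum_range_pow_succ (hχ : ∀ g h, χ (g * h) = χ g + χ h) (hinj : Function.Injective χ)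
    (hσ : χ σ = 1) (F : G → A) :
    ∑ k ∈ range n, F (σ ^ (k + 1)) = ∑ k ∈ range n, F (σ ^ k) := by
  have h1 := Finset.sum_range_succ (fun k => F (σ ^ k)) n
  have h2 := Finset.sum_range_succ' (fun k => F (σ ^ k)) n
  rw [h1] at h2
  simp only [pow_card_eq_one hχ hinj hσ, pow_zero] at h2
  exact (add_right_cancel h2).symm

omit [DistribMulAction G A] in
/-- The sum over the group equals the sum over the powers of the generator. -/
lemma sum_univ_eq_sum_range (hχ : ∀ g h, χ (g * h) = χ g + χ h) (hinj : Function.Injective χ)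
    (hσ : χ σ = 1) [Fintype G] (F : G → A) :
    ∑ g : G, F g = ∑ k ∈ range n, F (σ ^ k) := by
  symm
  refine Finset.sum_bij (fun k _ => σ ^ k) (fun _ _ => mem_univ _) ?_ ?_ (fun _ _ => rfl)
  · intro k hk l hl h
    have := congrArg (fun g => (χ g).val) h
    simp only [val_chi_pow hχ hσ (mem_range.1 hk), val_chi_pow hχ hσ (mem_range.1 hl)] at this
    exact this
  · intro g _
    exact ⟨(χ g).val, mem_range.2 (ZMod.val_lt _), (eq_pow_val hχ hinj hσ g).symm⟩

/-- Invariance under the generator implies invariance under the group. -/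
lemma smul_eq_of_generator (hχ : ∀ g h, χ (g * h) = χ g + χ h) (hinj : Function.Injective χ)
    (hσ : χ σ = 1) {a : A} (ha : σ • a = a) (g : G) : g • a = a := by
  obtain ⟨k, rfl⟩ := exists_eq_pow hχ hinj hσ g
  induction k with
  | zero => rw [pow_zero, one_smul]
  | succ k ih => rw [pow_succ, mul_smul, ha, ih]

/-- The norm `∑_{k<n} σ^k • b` is invariant. -/
lemma smul_norm_eq (hχ : ∀ g h, χ (g * h) = χ g + χ h) (hinj : Function.Injective χ)
    (hσ : χ σ = 1) (b : A) (g : G) :
    g • (∑ k ∈ range n, σ ^ k • b) = ∑ k ∈ range n, σ ^ k • b := by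
  refine smul_eq_of_generator hχ hinj hσ ?_ g
  rw [Finset.smul_sum]
  simp only [← mul_smul, ← pow_succ']
  exact sum_range_pow_succ hχ hinj hσ (fun g => g • b)

/-- For a 2-cocycle `f`, the element `∑_{k<n} f (σ^k, σ)` is invariant. -/
lemma smul_sum_cocycle_eq (hχ : ∀ g h, χ (g * h) = χ g + χ h) (hinj : Function.Injective χ)
    (hσ : χ σ = 1) {f : G × G → A} (hf : IsCocycle₂ f) (g : G) :
    g • (∑ k ∈ range n, f (σ ^ k, σ)) = ∑ k ∈ range n, f (σ ^ k, σ) := by
  refine smul_eq_of_generator hχ hinj hσ ?_ g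
  have key : ∀ k : ℕ, f (σ ^ (k + 1), σ) + f (σ, σ ^ k) =
      σ • f (σ ^ k, σ) + f (σ, σ ^ (k + 1)) := by
    intro k
    have := hf σ (σ ^ k) σ
    rwa [← pow_succ', ← pow_succ] at this
  have hsum := congrArg (fun F : ℕ → A => ∑ k ∈ range n, F k) (funext key)
  simp only [Finset.sum_add_distrib] at hsum
  rw [sum_range_pow_succ hχ hinj hσ (fun g => f (g, σ)),
    sum_range_pow_succ hχ hinj hσ (fun g => f (σ, g)), ← Finset.smul_sum] at hsum
  exact (add_right_cancel hsum).symm


lemma subsingleton_of_card_one (hinj : Function.Injective χ) (hn : n = 1) : Subsingleton G := by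
  haveI : Subsingleton (ZMod n) := by
    subst hn
    infer_instance
  exact hinj.subsingleton

lemma val_chi_gen (hσ : χ σ = 1) (hn : 1 < n) : (χ σ).val = 1 := by
  rw [hσ, ZMod.val_one_eq_one_mod, Nat.mod_eq_of_lt hn]

lemma val_chi_mul_gen (hχ : ∀ g h, χ (g * h) = χ g + χ h) (hσ : χ σ = 1) (hn : 1 < n) (g : G) :
    (χ (g * σ)).val = ((χ g).val + 1) % n := by
  rw [hχ, ZMod.val_add, val_chi_gen hσ hn]

lemma carry_chi_gen (hσ : χ σ = 1) (hn : 1 < n) (g : G) :
    carry n (χ g) (χ σ) = ((χ g).val + 1) / n := by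
  unfold carry
  rw [val_chi_gen hσ hn]

omit [NeZero n] in
lemma carry_split (t : ℕ → A) (ht0 : t 0 = 0) {i : ℕ} (hi : i < n) :
    ((i + 1) / n) • t n + t ((i + 1) % n) = t (i + 1) := by
  rcases Nat.lt_or_ge (i + 1) n with h | h
  · rw [Nat.div_eq_of_lt h, Nat.mod_eq_of_lt h, zero_smul, zero_add]
  · have h' : i + 1 = n := by omega
    rw [h', Nat.div_self (by omega), Nat.mod_self, one_smul, ht0, add_zero]

omit [NeZero n] in
lemma sum_carry_smul (a : A) (hn : 0 < n) : ∑ k ∈ range n, ((k + 1) / n) • a = a := by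
  obtain ⟨m, rfl⟩ : ∃ m, n = m + 1 := ⟨n - 1, by omega⟩
  rw [Finset.sum_range_succ, Nat.div_self (by omega), one_smul]
  rw [Finset.sum_eq_zero, zero_add]
  intro k hk
  rw [Nat.div_eq_of_lt (by have := mem_range.1 hk; omega), zero_smul]

/-- **(A4), surjectivity.**  If `χ : G → ZMod n` is additive and injective and `χ σ = 1`
(so `G = ⟨σ⟩` is cyclic of order `n`), every 2-cocycle is cohomologous to `cupChar n χ a` for
some invariant `a` (namely `a = ∑_{k<n} f (σ^k, σ)`). -/
theorem exists_cupChar_cohomologous (hχ : ∀ g h, χ (g * h) = χ g + χ h)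
    (hinj : Function.Injective χ) (hσ : χ σ = 1) {f : G × G → A} (hf : IsCocycle₂ f) :
    ∃ a : A, (∀ g : G, g • a = a) ∧ IsCoboundary₂ (f - cupChar n χ a) := by
  by_cases hn1 : n = 1
  · haveI := subsingleton_of_card_one hinj hn1
    refine ⟨0, fun g => smul_zero g, ?_⟩
    rw [cupChar_zero, sub_zero]
    refine ⟨fun _ => f (1, 1), fun g h => ?_⟩
    rw [Subsingleton.elim g 1, Subsingleton.elim h 1, one_smul, sub_add_cancel]
  · have hn : 1 < n := by
      have := NeZero.ne n
      omega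
    set t : ℕ → A := fun i => ∑ k ∈ range i, f (σ ^ k, σ) with ht
    set u : G → A := fun g => f (1, σ) - t (χ g).val with hu
    refine ⟨t n, smul_sum_cocycle_eq hχ hinj hσ hf, isCoboundary₂_iff.2 ⟨u, ?_⟩⟩
    have hcoc : IsCocycle₂ (f - cupChar n χ (t n) - dOne u) :=
      isCocycle₂_sub (isCocycle₂_sub hf
        (isCocycle₂_cupChar hχ (smul_sum_cocycle_eq hχ hinj hσ hf))) (isCocycle₂_dOne u)
    have hzero := eq_zero_of_isCocycle₂_of_forall_snd (exists_eq_pow hχ hinj hσ) hcoc ?_
    · exact sub_eq_zero.1 hzero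
    intro g
    have huσ : u σ = 0 := by
      simp only [hu, ht, val_chi_gen hσ hn, Finset.sum_range_one, pow_zero, sub_self]
    have hug : u g = f (1, σ) - t (χ g).val := rfl
    have hugσ : u (g * σ) = f (1, σ) - t (((χ g).val + 1) % n) := by
      simp only [hu, val_chi_mul_gen hχ hσ hn]
    have hsplit := carry_split t (by simp [ht]) (ZMod.val_lt (χ g))
    have hsucc : t ((χ g).val + 1) = t (χ g).val + f (g, σ) := by
      simp only [ht]
      rw [Finset.sum_range_succ, ← eq_pow_val hχ hinj hσ g]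
    rw [← hsplit] at hsucc
    have e1 : f (g, σ) = (((χ g).val + 1) / n) • t n + t (((χ g).val + 1) % n) - t (χ g).val :=
      eq_sub_of_add_eq' hsucc.symm
    show f (g, σ) - carry n (χ g) (χ σ) • t n - (g • u σ - u (g * σ) + u g) = 0
    rw [carry_chi_gen hσ hn, huσ, hugσ, hug, smul_zero, e1]
    abel

/-- **(A4), injectivity.**  `cupChar n χ a` is a coboundary iff `a` is a norm. -/
theorem isCoboundary₂_cupChar_iff (hχ : ∀ g h, χ (g * h) = χ g + χ h)
    (hinj : Function.Injective χ) (hσ : χ σ = 1) {a : A} :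
    IsCoboundary₂ (cupChar n χ a) ↔ ∃ b : A, a = ∑ k ∈ range n, σ ^ k • b := by
  by_cases hn1 : n = 1
  · haveI := subsingleton_of_card_one hinj hn1
    constructor
    · intro _
      refine ⟨a, ?_⟩
      subst hn1
      rw [Finset.sum_range_one, pow_zero, one_smul]
    · intro _
      refine ⟨fun _ => 0, fun g h => ?_⟩
      have : carry n (χ g) (χ h) = 0 := by
        rw [Subsingleton.elim g 1, chi_one hχ, carry_zero_left]
      simp [cupChar_apply, this]
  have hn : 1 < n := by
    have := NeZero.ne n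
    omega
  constructor
  · rintro ⟨u, hu⟩
    refine ⟨u σ, ?_⟩
    have key : ∀ k ∈ range n, σ ^ k • u σ - u (σ ^ (k + 1)) + u (σ ^ k) = ((k + 1) / n) • a := by
      intro k hk
      have := hu (σ ^ k) σ
      rw [cupChar_apply, carry_chi_gen hσ hn, val_chi_pow hχ hσ (mem_range.1 hk),
        ← pow_succ] at this
      exact this
    have hsum := Finset.sum_congr rfl key
    rw [sum_carry_smul a (by omega), Finset.sum_add_distrib, Finset.sum_sub_distrib,
      sum_range_pow_succ hχ hinj hσ u, sub_add_cancel] at hsum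
    exact hsum.symm
  · rintro ⟨b, rfl⟩
    set s : ℕ → A := fun i => ∑ k ∈ range i, σ ^ k • b with hs
    set u : G → A := fun g => s (χ g).val with hu
    refine isCoboundary₂_iff.2 ⟨u, ?_⟩
    have hcoc : IsCocycle₂ (cupChar n χ (s n) - dOne u) :=
      isCocycle₂_sub (isCocycle₂_cupChar hχ (smul_norm_eq hχ hinj hσ b)) (isCocycle₂_dOne u)
    have hzero := eq_zero_of_isCocycle₂_of_forall_snd (exists_eq_pow hχ hinj hσ) hcoc ?_
    · exact sub_eq_zero.1 hzero
    intro g
    have huσ : u σ = b := by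
      simp only [hu, hs, val_chi_gen hσ hn, Finset.sum_range_one, pow_zero, one_smul]
    have hug : u g = s (χ g).val := rfl
    have hugσ : u (g * σ) = s (((χ g).val + 1) % n) := by
      simp only [hu, val_chi_mul_gen hχ hσ hn]
    have hsplit := carry_split s (by simp [hs]) (ZMod.val_lt (χ g))
    have hsucc : s ((χ g).val + 1) = s (χ g).val + g • b := by
      simp only [hs]
      rw [Finset.sum_range_succ, ← eq_pow_val hχ hinj hσ g]
    rw [← hsplit] at hsucc
    have e1 : g • b = (((χ g).val + 1) / n) • s n + s (((χ g).val + 1) % n) - s (χ g).val :=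
      eq_sub_of_add_eq' hsucc.symm
    show carry n (χ g) (χ σ) • s n - (g • u σ - u (g * σ) + u g) = 0
    rw [carry_chi_gen hσ hn, huσ, hugσ, hug, e1]
    abel

/-- Variant of `isCoboundary₂_cupChar_iff` with the norm written as a sum over the group. -/
theorem isCoboundary₂_cupChar_iff' (hχ : ∀ g h, χ (g * h) = χ g + χ h)
    (hinj : Function.Injective χ) (hσ : χ σ = 1) [Fintype G] {a : A} :
    IsCoboundary₂ (cupChar n χ a) ↔ ∃ b : A, a = ∑ g : G, g • b := by
  rw [isCoboundary₂_cupChar_iff hχ hinj hσ]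
  simp only [sum_univ_eq_sum_range hχ hinj hσ]

end Cyclic

/-! ## Norms from the kernel of `χ` (no injectivity needed)

If `χ : G → ZMod n` is additive with `χ σ = 1` and `b` is fixed by `ker χ`, then
`a = ∑_{k<n} σ^k • b` (the norm of `b` for the cyclic quotient `G / ker χ`) is `G`-invariant and
`cupChar n χ a` is a coboundary.  This is "inflation of (A4)" at the level of cochains. -/

section Norm

variable {G : Type*} {A : Type*} [Group G] [AddCommGroup A] [DistribMulAction G A]
variable {n : ℕ} [NeZero n] {χ : G → ZMod n} {σ : G}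

lemma chi_inv (hχ : ∀ g h, χ (g * h) = χ g + χ h) (g : G) : χ g⁻¹ = -χ g := by
  have := hχ g⁻¹ g
  rw [inv_mul_cancel, chi_one hχ] at this
  exact eq_neg_of_add_eq_zero_left this.symm

/-- `g • σ^k • b = σ^(χ̃ g + k) • b` when `b` is fixed by the kernel of `χ`. -/
lemma smul_pow_smul_eq (hχ : ∀ g h, χ (g * h) = χ g + χ h) (hσ : χ σ = 1) {b : A}
    (hb : ∀ g : G, χ g = 0 → g • b = b) (g : G) (k : ℕ) :
    g • σ ^ k • b = σ ^ ((χ g).val + k) • b := by
  have h0 : χ ((σ ^ ((χ g).val + k))⁻¹ * (g * σ ^ k)) = 0 := by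
    rw [hχ, chi_inv hχ, hχ, chi_pow hχ hσ, chi_pow hχ hσ, Nat.cast_add, ZMod.natCast_zmod_val]
    abel
  have := hb _ h0
  rw [mul_smul, inv_smul_eq_iff, mul_smul] at this
  exact this

lemma pow_card_smul_eq (hχ : ∀ g h, χ (g * h) = χ g + χ h) (hσ : χ σ = 1) {b : A}
    (hb : ∀ g : G, χ g = 0 → g • b = b) : σ ^ n • b = b :=
  hb _ (by rw [chi_pow hχ hσ, ZMod.natCast_self])

lemma pow_add_card_smul_eq (hχ : ∀ g h, χ (g * h) = χ g + χ h) (hσ : χ σ = 1) {b : A}
    (hb : ∀ g : G, χ g = 0 → g • b = b) (l : ℕ) : σ ^ (l + n) • b = σ ^ l • b := by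
  rw [pow_add, mul_smul, pow_card_smul_eq hχ hσ hb]

/-- partial norms: `s (l + n) = s l + s n`. -/
lemma partialNorm_add_card (hχ : ∀ g h, χ (g * h) = χ g + χ h) (hσ : χ σ = 1) {b : A}
    (hb : ∀ g : G, χ g = 0 → g • b = b) (l : ℕ) :
    ∑ k ∈ range (l + n), σ ^ k • b = ∑ k ∈ range l, σ ^ k • b + ∑ k ∈ range n, σ ^ k • b := by
  induction l with
  | zero => simp
  | succ l ih =>
    rw [Nat.succ_add, Finset.sum_range_succ, ih, Finset.sum_range_succ,
      pow_add_card_smul_eq hχ hσ hb]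
    abel

lemma partialNorm_add_mul (hχ : ∀ g h, χ (g * h) = χ g + χ h) (hσ : χ σ = 1) {b : A}
    (hb : ∀ g : G, χ g = 0 → g • b = b) (m c : ℕ) :
    ∑ k ∈ range (m + n * c), σ ^ k • b =
      ∑ k ∈ range m, σ ^ k • b + c • ∑ k ∈ range n, σ ^ k • b := by
  induction c with
  | zero => simp
  | succ c ih =>
    rw [Nat.mul_succ, ← add_assoc, partialNorm_add_card hχ hσ hb, ih, succ_nsmul, add_assoc]

lemma partialNorm_mod_add_div (hχ : ∀ g h, χ (g * h) = χ g + χ h) (hσ : χ σ = 1) {b : A}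
    (hb : ∀ g : G, χ g = 0 → g • b = b) (l : ℕ) :
    ∑ k ∈ range l, σ ^ k • b =
      ∑ k ∈ range (l % n), σ ^ k • b + (l / n) • ∑ k ∈ range n, σ ^ k • b := by
  have := partialNorm_add_mul hχ hσ hb (l % n) (l / n)
  rwa [Nat.mod_add_div] at this

/-- `g • s j = s (χ̃ g + j) - s (χ̃ g)` for the partial norms `s`. -/
lemma smul_partialNorm (hχ : ∀ g h, χ (g * h) = χ g + χ h) (hσ : χ σ = 1) {b : A}
    (hb : ∀ g : G, χ g = 0 → g • b = b) (g : G) (j : ℕ) :
    g • (∑ k ∈ range j, σ ^ k • b) =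
      ∑ k ∈ range ((χ g).val + j), σ ^ k • b - ∑ k ∈ range (χ g).val, σ ^ k • b := by
  rw [Finset.sum_range_add, add_sub_cancel_left, Finset.smul_sum]
  exact Finset.sum_congr rfl (fun k _ => smul_pow_smul_eq hχ hσ hb g k)

/-- The norm `∑_{k<n} σ^k • b` of an element fixed by `ker χ` is `G`-invariant. -/
theorem smul_norm_eq_of_ker (hχ : ∀ g h, χ (g * h) = χ g + χ h) (hσ : χ σ = 1) {b : A}
    (hb : ∀ g : G, χ g = 0 → g • b = b) (g : G) :
    g • (∑ k ∈ range n, σ ^ k • b) = ∑ k ∈ range n, σ ^ k • b := by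
  rw [smul_partialNorm hχ hσ hb, partialNorm_add_card hχ hσ hb, add_sub_cancel_left]

/-- **(A4) + inflation, cochain level.**  If `b` is fixed by `ker χ` and `χ σ = 1`, then
`cupChar n χ (∑_{k<n} σ^k • b)` is the coboundary of `g ↦ ∑_{k<χ̃ g} σ^k • b`. -/
theorem isCoboundary₂_cupChar_of_norm (hχ : ∀ g h, χ (g * h) = χ g + χ h) (hσ : χ σ = 1)
    {b : A} (hb : ∀ g : G, χ g = 0 → g • b = b) :
    IsCoboundary₂ (cupChar n χ (∑ k ∈ range n, σ ^ k • b)) := by
  refine ⟨fun g => ∑ k ∈ range (χ g).val, σ ^ k • b, fun g h => ?_⟩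
  show g • (∑ k ∈ range (χ h).val, σ ^ k • b) - ∑ k ∈ range (χ (g * h)).val, σ ^ k • b +
      ∑ k ∈ range (χ g).val, σ ^ k • b = carry n (χ g) (χ h) • ∑ k ∈ range n, σ ^ k • b
  rw [smul_partialNorm hχ hσ hb, hχ, ZMod.val_add,
    partialNorm_mod_add_div hχ hσ hb ((χ g).val + (χ h).val)]
  show _ = (((χ g).val + (χ h).val) / n) • ∑ k ∈ range n, σ ^ k • b
  abel

end Norm

/-! ## Characters of a cyclic group with a chosen generator -/

section Generator

variable {G : Type*} [Group G] {n : ℕ} [NeZero n] {χ : G → ZMod n} {σ : G}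

lemma exists_nat_pow_of_mem_zpowers [Finite G] (hgen : ∀ g : G, g ∈ Subgroup.zpowers σ)
    (g : G) : ∃ k : ℕ, σ ^ k = g := by
  have := (isOfFinOrder_of_finite σ).mem_powers_iff_mem_zpowers.2 (hgen g)
  exact (Submonoid.mem_powers_iff _ _).1 this

/-- An additive `χ : G → ZMod n` with `χ σ = 1` is injective as soon as `σ` generates `G` and
`G` has order `n`. -/
theorem injective_of_generator [Finite G] (hχ : ∀ g h, χ (g * h) = χ g + χ h) (hσ : χ σ = 1)
    (hgen : ∀ g : G, g ∈ Subgroup.zpowers σ) (hcard : Nat.card G = n) :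
    Function.Injective χ := by
  intro g h hgh
  obtain ⟨k, rfl⟩ := exists_nat_pow_of_mem_zpowers hgen g
  obtain ⟨l, rfl⟩ := exists_nat_pow_of_mem_zpowers hgen h
  rw [chi_pow hχ hσ, chi_pow hχ hσ, ZMod.natCast_eq_natCast_iff] at hgh
  rw [pow_eq_pow_iff_modEq, orderOf_eq_card_of_forall_mem_zpowers hgen, hcard]
  exact hgh

/-- For a finite cyclic group `G` of order `n` with a chosen generator `σ` there is an additive,
injective `χ : G → ZMod n` with `χ σ = 1`. -/
theorem exists_character_of_generator [Finite G] (hgen : ∀ g : G, g ∈ Subgroup.zpowers σ)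
    (hcard : Nat.card G = n) :
    ∃ χ : G → ZMod n, (∀ g h, χ (g * h) = χ g + χ h) ∧ Function.Injective χ ∧ χ σ = 1 := by
  classical
  have hord : orderOf σ = n := by rw [orderOf_eq_card_of_forall_mem_zpowers hgen, hcard]
  let e : G → ℕ := fun g => (exists_nat_pow_of_mem_zpowers hgen g).choose
  have he : ∀ g, σ ^ e g = g := fun g => (exists_nat_pow_of_mem_zpowers hgen g).choose_spec
  have key : ∀ (g : G) (k : ℕ), σ ^ k = g → ((e g : ℕ) : ZMod n) = (k : ZMod n) := by
    intro g k hk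
    rw [ZMod.natCast_eq_natCast_iff, ← hord, ← pow_eq_pow_iff_modEq, he, hk]
  have hadd : ∀ g h, ((e (g * h) : ℕ) : ZMod n) = (e g : ZMod n) + (e h : ZMod n) := by
    intro g h
    rw [key (g * h) (e g + e h) (by rw [pow_add, he, he]), Nat.cast_add]
  have hone : ((e σ : ℕ) : ZMod n) = 1 := by
    rw [key σ 1 (pow_one σ), Nat.cast_one]
  exact ⟨fun g => (e g : ZMod n), hadd, injective_of_generator hadd hone hgen hcard, hone⟩

end Generator

end Fermat.Agent.S55.G.Rec.H379
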