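import Mathlib
import Fermat.Agent.S55.G.Rec.H379Core

/-!
# S55 / G / REC, leaf K5 (helper844): norm extraction from a trivialised cup cocycle

Abstract (Mathlib-only + `H379.carry`) statement.  Let `G` act on a commutative group `M`, let
`χ : G →* ℤ/n` be a character (not necessarily surjective), `a ∈ M^G`, and let `X : G → M` be a
1-cochain with

  `g • X h * X g = X (g * h) * a ^ carry n (χ g) (χ h)`      (i.e. `d X = a ∪ δχ`)

which is trivial on `ker χ`.  Then `a` is the norm of an element `b` fixed by `ker χ`: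
`a = ∏_{t ∈ G / ker χ} t • b`.
-/

set_option autoImplicit false
set_option linter.unusedSectionVars false
set_option linter.style.haveILetI false

namespace Fermat.Agent.S55.G.Rec.H844

open Fermat.Agent.S55.G.Rec.H379

section NormExtract

variable {G M : Type*} [Group G] [CommGroup M] [MulDistribMulAction G M]
variable {n : ℕ} [NeZero n] (χ : G →* Multiplicative (ZMod n))

/-- the value of `χ` as a natural number `< n`. -/
def chiVal844 (g : G) : ℕ := (Multiplicative.toAdd (χ g)).val

lemma chiVal844_lt (g : G) : chiVal844 χ g < n := ZMod.val_lt _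

lemma chiVal844_mul (g h : G) : chiVal844 χ (g * h) = (chiVal844 χ g + chiVal844 χ h) % n := by
  unfold chiVal844
  rw [map_mul, toAdd_mul, ZMod.val_add]

lemma chiVal844_eq_zero_iff (g : G) : chiVal844 χ g = 0 ↔ g ∈ χ.ker := by
  unfold chiVal844
  rw [ZMod.val_eq_zero, MonoidHom.mem_ker]
  constructor
  · intro h
    exact Multiplicative.toAdd.injective h
  · intro h
    rw [h]; rfl

lemma chiVal844_congr {g h : G} (hgh : g⁻¹ * h ∈ χ.ker) : chiVal844 χ g = chiVal844 χ h := by
  unfold chiVal844
  rw [MonoidHom.mem_ker, map_mul, map_inv, inv_mul_eq_one] at hgh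
  rw [hgh]

variable {χ}

/-- Fact A: `X` is constant on the cosets `g * ker χ`. -/
lemma X_mul_ker844 {a : M} {X : G → M}
    (hR : ∀ g h, g • X h * X g =
      X (g * h) * a ^ carry n (Multiplicative.toAdd (χ g)) (Multiplicative.toAdd (χ h)))
    (h1 : ∀ h ∈ χ.ker, X h = 1) (g : G) {h : G} (hh : h ∈ χ.ker) : X (g * h) = X g := by
  have := hR g h
  rw [h1 h hh, smul_one, one_mul] at this
  have hc : carry n (Multiplicative.toAdd (χ g)) (Multiplicative.toAdd (χ h)) = 0 := by
    rw [MonoidHom.mem_ker] at hh
    rw [hh]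
    exact carry_zero_right n _
  rw [hc, pow_zero, mul_one] at this
  exact this.symm

/-- Fact B: the values of `X` are fixed by `ker χ`. -/
lemma ker_smul_X844 {a : M} {X : G → M}
    (hR : ∀ g h, g • X h * X g =
      X (g * h) * a ^ carry n (Multiplicative.toAdd (χ g)) (Multiplicative.toAdd (χ h)))
    (h1 : ∀ h ∈ χ.ker, X h = 1) (g : G) {h : G} (hh : h ∈ χ.ker) : h • X g = X g := by
  have := hR h g
  rw [h1 h hh, mul_one] at this
  have hc : carry n (Multiplicative.toAdd (χ h)) (Multiplicative.toAdd (χ g)) = 0 := by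
    rw [MonoidHom.mem_ker] at hh
    rw [hh]
    exact carry_zero_left n _
  rw [hc, pow_zero, mul_one] at this
  rw [this]
  have hconj : g⁻¹ * h * g ∈ χ.ker := by
    have := (inferInstance : χ.ker.Normal).conj_mem h hh g⁻¹
    simpa using this
  have := X_mul_ker844 hR h1 g hconj
  rw [← this]
  congr 1
  group

/-- **Norm extraction.**  If `d X = a ∪ δχ` and `X` is trivial on `ker χ`, then `a` is the norm
from the fixed points of `ker χ` of an element `b` (namely `b = X σ`, where `χ σ` is the minimal
positive value of `χ`). -/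
theorem exists_norm_of_trivialized844 {a : M} (ha : ∀ g : G, g • a = a) {X : G → M}
    (hR : ∀ g h, g • X h * X g =
      X (g * h) * a ^ carry n (Multiplicative.toAdd (χ g)) (Multiplicative.toAdd (χ h)))
    (h1 : ∀ h ∈ χ.ker, X h = 1) :
    ∃ b : M, (∀ h ∈ χ.ker, h • b = b) ∧
      a = ∏ᶠ t : G ⧸ χ.ker, (Quotient.out t : G) • b := by
  classical
  haveI : Finite (G ⧸ χ.ker) := Finite.of_injective _ (QuotientGroup.kerLift_injective χ)
  haveI : Fintype (G ⧸ χ.ker) := Fintype.ofFinite _
  by_cases htriv : ∀ g, chiVal844 χ g = 0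
  · -- trivial character
    refine ⟨a, fun h _ => ha h, ?_⟩
    rw [finprod_eq_prod_of_fintype]
    have hsub : Subsingleton (G ⧸ χ.ker) := by
      refine ⟨fun s t => ?_⟩
      induction s using QuotientGroup.induction_on with
      | H g =>
        induction t using QuotientGroup.induction_on with
        | H h =>
          rw [QuotientGroup.eq]
          rw [← chiVal844_eq_zero_iff]
          exact htriv _
    haveI : Unique (G ⧸ χ.ker) := ⟨⟨1⟩, fun t => Subsingleton.elim _ _⟩
    rw [Fintype.prod_unique, ha]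
  · push Not at htriv
    obtain ⟨g₀, hg₀⟩ := htriv
    have hex : ∃ m, 0 < m ∧ ∃ g, chiVal844 χ g = m := ⟨_, Nat.pos_of_ne_zero hg₀, g₀, rfl⟩
    obtain ⟨hm0, σ, hσ⟩ := Nat.find_spec hex
    have hmin : ∀ g, chiVal844 χ g ≠ 0 → Nat.find hex ≤ chiVal844 χ g := fun g hg =>
      Nat.find_min' hex ⟨Nat.pos_of_ne_zero hg, g, rfl⟩
    generalize Nat.find hex = m at hm0 hσ hmin
    have hmn : m < n := hσ ▸ chiVal844_lt χ σ
    -- carry characterisation
    have hcarry : ∀ g, carry n (Multiplicative.toAdd (χ g)) (Multiplicative.toAdd (χ σ)) =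
        if g * σ ∈ χ.ker then 1 else 0 := by
      intro g
      have hv := chiVal844_mul χ g σ
      have hg := chiVal844_lt χ g
      show (chiVal844 χ g + chiVal844 χ σ) / n = _
      rw [hσ] at hv ⊢
      split_ifs with hk
      · rw [← chiVal844_eq_zero_iff] at hk
        rw [hk] at hv
        obtain ⟨k, hk'⟩ := Nat.dvd_of_mod_eq_zero hv.symm
        rw [hk']
        have hn0 : 0 < n := by omega
        rw [Nat.mul_div_cancel_left _ hn0]
        have h1 : 0 < n * k := by omega
        have h2 : n * k < n * 2 := by omega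
        have h3 : 0 < k := Nat.pos_of_mul_pos_left h1
        have h4 : k < 2 := Nat.lt_of_mul_lt_mul_left h2
        omega
      · rw [← chiVal844_eq_zero_iff] at hk
        have := hmin _ hk
        rw [hv] at this
        rw [Nat.div_eq_zero_iff]
        right
        by_contra hlt
        push Not at hlt
        have h5 : (chiVal844 χ g + m) % n = chiVal844 χ g + m - n := by
          rw [Nat.mod_eq_sub_mod hlt, Nat.mod_eq_of_lt (by omega)]
        omega
    refine ⟨X σ, fun h hh => ker_smul_X844 hR h1 σ hh, ?_⟩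
    rw [finprod_eq_prod_of_fintype]
    have hprod : (∏ t : G ⧸ χ.ker, ((Quotient.out t : G) • X σ)) *
        ∏ t : G ⧸ χ.ker, X (Quotient.out t) =
        (∏ t : G ⧸ χ.ker, X (Quotient.out t * σ)) *
          a ^ (∑ t : G ⧸ χ.ker,
            carry n (Multiplicative.toAdd (χ (Quotient.out t))) (Multiplicative.toAdd (χ σ))) := by
      rw [← Finset.prod_mul_distrib, ← Finset.prod_pow_eq_pow_sum, ← Finset.prod_mul_distrib]
      exact Finset.prod_congr rfl fun t _ => hR _ _
    have hXbar : ∀ g : G, X g = X (Quotient.out (g : G ⧸ χ.ker)) := by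
      intro g
      have hmem : g⁻¹ * Quotient.out (g : G ⧸ χ.ker) ∈ χ.ker := by
        rw [← QuotientGroup.eq, QuotientGroup.out_eq']
      have := X_mul_ker844 hR h1 g hmem
      rw [← this]
      congr 1
      group
    have hreindex : ∏ t : G ⧸ χ.ker, X (Quotient.out t * σ) =
        ∏ t : G ⧸ χ.ker, X (Quotient.out t) := by
      calc ∏ t : G ⧸ χ.ker, X (Quotient.out t * σ)
          = ∏ t : G ⧸ χ.ker, X (Quotient.out (t * (σ : G ⧸ χ.ker))) := by
            refine Finset.prod_congr rfl fun t _ => ?_
            rw [hXbar (Quotient.out t * σ)]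
            congr 2
            rw [QuotientGroup.mk_mul, QuotientGroup.out_eq']
        _ = ∏ t : G ⧸ χ.ker, X (Quotient.out t) :=
            Equiv.prod_comp (Equiv.mulRight (σ : G ⧸ χ.ker)) (fun t => X (Quotient.out t))
    have hsum : ∑ t : G ⧸ χ.ker,
        carry n (Multiplicative.toAdd (χ (Quotient.out t))) (Multiplicative.toAdd (χ σ)) = 1 := by
      simp_rw [hcarry]
      have hiff : ∀ t : G ⧸ χ.ker, (Quotient.out t * σ ∈ χ.ker) ↔ t = (σ : G ⧸ χ.ker)⁻¹ := by
        intro t
        rw [← QuotientGroup.eq_one_iff, QuotientGroup.mk_mul, QuotientGroup.out_eq',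
          mul_eq_one_iff_eq_inv]
      simp_rw [hiff]
      simp
    rw [hreindex, hsum, pow_one, mul_comm] at hprod
    exact (mul_left_cancel hprod).symm

end NormExtract

end Fermat.Agent.S55.G.Rec.H844
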