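import Fermat.Agent.S55.G.Rec.Spec2
import Fermat.Agent.S55.Bridge.Krasner
import Fermat.Agent.S55.G.Rec.Hilbert90H844
import Fermat.Agent.S55.G.Rec.NormExtractH844

/-!
# S55 / G / REC, leaf K5 (helper844): the local norm criterion `LocalNormSpec`

If the local cup class `a ∪ δχ ∈ Br(K_v)` vanishes, then `a` is a norm from the fixed field of
`ker χ`.

Proof.  `lcc = 0` gives a level-constant 1-cochain `x : V → ℚ̄_qˣ` with `d x = a ∪ δχ`.  On
`H = ker χ` the cup cocycle is trivial, so `x|_H` is a level-constant 1-cocycle, hence a coboundary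
`h ↦ β / h β` by Hilbert 90 (`exists_unit_of_levelCocycle844`).  Correcting `x` by the coboundary
of `β` we may assume `x|_H = 1`, and then `a = N(x σ)` where `χ σ` is the minimal positive value of
`χ` (`exists_norm_of_trivialized844`).
-/

set_option autoImplicit false
set_option linter.unusedSectionVars false
set_option linter.style.haveILetI false

noncomputable section

namespace Fermat.Agent.S55.G.Rec.H844

open groupCohomology Fermat.Agent.S55.G.Rec

/-- The stabiliser of a finite extension has finite index, also after pulling back along any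
homomorphism into the Galois group. -/
lemma finite_quotient_comap_fixing844 {K Ω : Type*} [Field K] [Field Ω] [Algebra K Ω]
    (E : IntermediateField K Ω) [FiniteDimensional K E] {H : Type*} [Group H]
    (f : H →* (Ω ≃ₐ[K] Ω)) : Finite (H ⧸ (E.fixingSubgroup.comap f)) := by
  let φ : H → (E →ₐ[K] Ω) := fun g => ((f g : Ω ≃ₐ[K] Ω) : Ω →ₐ[K] Ω).comp E.val
  have hφ : ∀ g g' : H, φ g = φ g' → g⁻¹ * g' ∈ E.fixingSubgroup.comap f := by
    intro g g' h
    rw [Subgroup.mem_comap, IntermediateField.mem_fixingSubgroup_iff]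
    intro x hx
    have := DFunLike.congr_fun h ⟨x, hx⟩
    change f g x = f g' x at this
    rw [map_mul, map_inv, AlgEquiv.mul_apply, ← this]
    exact (f g).symm_apply_apply x
  have hinj : Function.Injective
      (fun t : H ⧸ (E.fixingSubgroup.comap f) => φ (Quotient.out t)) := by
    intro t t' h
    have := hφ _ _ h
    rw [← QuotientGroup.eq, QuotientGroup.out_eq', QuotientGroup.out_eq'] at this
    exact this
  exact Finite.of_injective _ hinj

variable (q : ℕ) [Fact q.Prime]

local notation "Gq" => (PadicAlgCl q ≃ₐ[ℚ_[q]] PadicAlgCl q)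

/-- Unpacking `lcc = 0`: a level-constant (in the local sense) multiplicative 1-cochain `X` with
`d X = a ∪ δχ`. -/
lemma exists_cochain_of_lcc_eq_zero844 (V : Subgroup Gq) (n : ℕ) [NeZero n]
    (χ : ↥V →* Multiplicative (ZMod n)) (hχ : IsLevelConstant₁ (lHom q V) χ)
    (a : (PadicAlgCl q)ˣ) (ha : LFixed q V a) (h0 : lcc q V n χ a = 0) :
    ∃ (X : ↥V → (PadicAlgCl q)ˣ) (E : IntermediateField ℚ_[q] (PadicAlgCl q)),
      FiniteDimensional ℚ_[q] E ∧
      (∀ g s : ↥V, (s : Gq) ∈ E.fixingSubgroup → X (g * s) = X g) ∧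
      ∀ g h : ↥V, g • X h * X g =
        X (g * h) * a ^ H379.carry n (Multiplicative.toAdd (χ g)) (Multiplicative.toAdd (χ h)) := by
  have hh : n ≠ 0 ∧ IsLevelConstant₁ (lHom q V) χ ∧ LFixed q V a := ⟨NeZero.ne n, hχ, ha⟩
  rw [lcc_eq q V n χ a hh] at h0
  have hmem : H379.cupChar n (chiAdd χ) (toLMod q V a) ∈
      levelCoboundaries₂ (lHom q V) (lModOn q V) := by
    have := (Submodule.Quotient.mk_eq_zero _).mp h0
    exact this
  obtain ⟨x, ⟨F, hF, hxF⟩, hdx⟩ := (mem_levelCoboundaries₂_iff _ _ _).mp hmem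
  obtain ⟨E, hE, hEF⟩ := Fermat.Agent.S55.Bridge.exists_local_level_of_global q F
  obtain ⟨X, hX⟩ : ∃ X : ↥V → (PadicAlgCl q)ˣ, ∀ g, X g = Additive.toMul (x g) :=
    ⟨fun g => Additive.toMul (x g), fun _ => rfl⟩
  refine ⟨X, E, hE, ?_, ?_⟩
  · intro g s hs
    rw [hX, hX, hxF g s (hEF _ hs)]
  · intro g h
    have := congrFun hdx (g, h)
    rw [d₁₂_hom_apply] at this
    have h2 : (g • X h) / X (g * h) * X g =
        a ^ H379.carry n (Multiplicative.toAdd (χ g)) (Multiplicative.toAdd (χ h)) := by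
      rw [hX, hX, hX]
      exact congrArg Additive.toMul this
    rw [← h2]
    rw [div_mul_eq_mul_div, mul_div_cancel]

/-- Hilbert 90 on `ker χ` for a cochain which is level-constant and a cocycle on `ker χ`. -/
lemma exists_beta844 (V : Subgroup Gq) {n : ℕ} (χ : ↥V →* Multiplicative (ZMod n))
    (X : ↥V → (PadicAlgCl q)ˣ) (E : IntermediateField ℚ_[q] (PadicAlgCl q))
    [FiniteDimensional ℚ_[q] E]
    (hXE : ∀ g s : ↥V, (s : Gq) ∈ E.fixingSubgroup → X (g * s) = X g)
    (hcoc : ∀ g h : ↥V, g ∈ χ.ker → h ∈ χ.ker → g • X h * X g = X (g * h)) :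
    ∃ β : (PadicAlgCl q)ˣ, ∀ g : ↥V, g ∈ χ.ker → g • β * X g = β := by
  let f : ↥χ.ker →* Gq := V.subtype.comp χ.ker.subtype
  haveI := finite_quotient_comap_fixing844 E f
  obtain ⟨β, hβ⟩ := exists_unit_of_levelCocycle844 (H := ↥χ.ker) (Ω := PadicAlgCl q) (T := ↥E)
    ((algebraMap E (PadicAlgCl q) : E →* PadicAlgCl q)) (E.fixingSubgroup.comap f)
    (by
      intro g hg
      rw [Subgroup.mem_comap, IntermediateField.mem_fixingSubgroup_iff]
      intro x hx
      exact hg ⟨x, hx⟩)
    (by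
      intro g hg θ
      rw [Subgroup.mem_comap, IntermediateField.mem_fixingSubgroup_iff] at hg
      exact hg θ θ.2)
    (fun h => X (h : ↥V))
    (by
      intro g h
      have := hcoc g h g.2 h.2
      have h2 := congrArg (fun u : (PadicAlgCl q)ˣ => (u : PadicAlgCl q)) this
      exact h2.symm)
    (by
      intro g s hs
      exact hXE g s hs)
  refine ⟨β, fun g hg => ?_⟩
  apply Units.ext
  exact hβ ⟨g, hg⟩

/-- **(K5)** the local norm criterion. -/
theorem localNorm : LocalNormSpec := by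
  intro q _ V _ n _ χ hχ a ha h0
  obtain ⟨X, E, hE, hXE, hR⟩ := exists_cochain_of_lcc_eq_zero844 q V n χ hχ a ha h0
  -- Hilbert 90 on `ker χ`
  have hcoc : ∀ g h : ↥V, g ∈ χ.ker → h ∈ χ.ker → g • X h * X g = X (g * h) := by
    intro g h hg hh
    rw [hR g h]
    rw [MonoidHom.mem_ker] at hg
    rw [hg]
    have : H379.carry n (Multiplicative.toAdd (1 : Multiplicative (ZMod n)))
        (Multiplicative.toAdd (χ h)) = 0 := H379.carry_zero_left n _
    rw [this, pow_zero, mul_one]
  obtain ⟨β, hβ⟩ := exists_beta844 q V χ X E hXE hcoc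
  -- the corrected cochain
  obtain ⟨X', hX'⟩ : ∃ X' : ↥V → (PadicAlgCl q)ˣ, ∀ g, X' g = X g * (g • β) / β :=
    ⟨fun g => X g * (g • β) / β, fun _ => rfl⟩
  have hR' : ∀ g h : ↥V, g • X' h * X' g =
      X' (g * h) * a ^ H379.carry n (Multiplicative.toAdd (χ g)) (Multiplicative.toAdd (χ h)) := by
    intro g h
    have := hR g h
    rw [hX', hX', hX', smul_div', smul_mul', mul_smul]
    calc g • X h * g • h • β / g • β * (X g * g • β / β)
        = (g • X h * X g) * (g • h • β) * β⁻¹ * (g • β * (g • β)⁻¹) := by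
          simp only [div_eq_mul_inv]
          ac_rfl
      _ = _ := by
          rw [this, mul_inv_cancel, mul_one]
          simp only [div_eq_mul_inv]
          ac_rfl
  have h1' : ∀ h ∈ χ.ker, X' h = 1 := by
    intro h hh
    rw [hX', mul_comm, hβ h hh, div_self']
  obtain ⟨b, hb, hab⟩ := exists_norm_of_trivialized844 (χ := χ) (a := a)
    (fun g => ha g g.2) hR' h1'
  refine ⟨b, ?_, hab⟩
  rintro τ ⟨h, hh, rfl⟩
  exact hb h hh

end Fermat.Agent.S55.G.Rec.H844
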