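import Fermat.Agent.S55.G.Rec.Spec2

/-!
# S55 / layer G / block REC : leaf L3 (`UnramCupSpec`)   (helper900)

`unramCup_of : LocalStructureSpec → CupAddSpec → ∀ I, UnramCupSpec I`.

For an unramified continuous character `χ` of `V`, a Frobenius `φ` with residue degree `f` and
`a ∈ K_vˣ` with `vdeg a = f · k`:  `inv (a ∪ δχ) = k · χ(φ) / n`.

Proof: `a = π ^ k · u` (L2), `lcc` is additive in the element (K2), `inv (π ∪ δχ) = χ(φ) / n`
(`inv_unif`) and `inv (u ∪ δχ) = 0` (`inv_unram`).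
-/

set_option autoImplicit false

noncomputable section

namespace Fermat.Agent.S55.G.Rec.H900

open groupCohomology Fermat.Agent.S55.G.Rec

section

variable (q : ℕ) [Fact q.Prime]

local notation "Gq" => (PadicAlgCl q ≃ₐ[ℚ_[q]] PadicAlgCl q)

/-- The residue degree is unique. -/
lemma isResidueDegree_unique {V : Subgroup Gq} {f f' : ℕ}
    (hf : IsResidueDegree q V f) (hf' : IsResidueDegree q V f') : f = f' :=
  le_antisymm (hf.2.2 f' hf'.1 hf'.2.1) (hf'.2.2 f hf.1 hf.2.1)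

variable {q}

lemma lFixed_one (V : Subgroup Gq) : LFixed q V 1 := fun τ _ => smul_one τ

lemma lFixed_mul {V : Subgroup Gq} {a b : (PadicAlgCl q)ˣ} (ha : LFixed q V a)
    (hb : LFixed q V b) : LFixed q V (a * b) := fun τ hτ => by
  rw [smul_mul', ha τ hτ, hb τ hτ]

lemma lFixed_inv {V : Subgroup Gq} {a : (PadicAlgCl q)ˣ} (ha : LFixed q V a) :
    LFixed q V a⁻¹ := fun τ hτ => by
  rw [smul_inv', ha τ hτ]

lemma lFixed_pow {V : Subgroup Gq} {a : (PadicAlgCl q)ˣ} (ha : LFixed q V a) (m : ℕ) :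
    LFixed q V (a ^ m) := fun τ hτ => by
  rw [smul_pow', ha τ hτ]

lemma lFixed_zpow {V : Subgroup Gq} {a : (PadicAlgCl q)ˣ} (ha : LFixed q V a) (m : ℤ) :
    LFixed q V (a ^ m) := by
  cases m with
  | ofNat m => simpa using lFixed_pow ha m
  | negSucc m => simpa using lFixed_inv (lFixed_pow ha (m + 1))

/-- Additivity of the local cup class in the element, extracted from `CupAddSpec`. -/
lemma lcc_mul (hadd : CupAddSpec) (V : Subgroup Gq) (n : ℕ) [NeZero n]
    (χ : ↥V →* Multiplicative (ZMod n)) (hχ : IsLevelConstant₁ (lHom q V) χ)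
    {a b : (PadicAlgCl q)ˣ} (ha : LFixed q V a) (hb : LFixed q V b) :
    lcc q V n χ (a * b) = lcc q V n χ a + lcc q V n χ b :=
  (hadd.2 q V n χ χ a b (NeZero.ne n) hχ hχ ha hb).1

lemma lcc_one (hadd : CupAddSpec) (V : Subgroup Gq) (n : ℕ) [NeZero n]
    (χ : ↥V →* Multiplicative (ZMod n)) (hχ : IsLevelConstant₁ (lHom q V) χ) :
    lcc q V n χ 1 = 0 := by
  have h := lcc_mul hadd V n χ hχ (lFixed_one V) (lFixed_one V)
  rw [mul_one] at h
  exact left_eq_add.mp h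

lemma lcc_inv (hadd : CupAddSpec) (V : Subgroup Gq) (n : ℕ) [NeZero n]
    (χ : ↥V →* Multiplicative (ZMod n)) (hχ : IsLevelConstant₁ (lHom q V) χ)
    {a : (PadicAlgCl q)ˣ} (ha : LFixed q V a) :
    lcc q V n χ a⁻¹ = - lcc q V n χ a := by
  have h := lcc_mul hadd V n χ hχ ha (lFixed_inv ha)
  rw [mul_inv_cancel, lcc_one hadd V n χ hχ] at h
  exact (neg_eq_of_add_eq_zero_right h.symm).symm

lemma lcc_pow (hadd : CupAddSpec) (V : Subgroup Gq) (n : ℕ) [NeZero n]
    (χ : ↥V →* Multiplicative (ZMod n)) (hχ : IsLevelConstant₁ (lHom q V) χ)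
    {a : (PadicAlgCl q)ˣ} (ha : LFixed q V a) (m : ℕ) :
    lcc q V n χ (a ^ m) = m • lcc q V n χ a := by
  induction m with
  | zero => simpa using lcc_one hadd V n χ hχ
  | succ m ih =>
    rw [pow_succ, lcc_mul hadd V n χ hχ (lFixed_pow ha m) ha, ih, succ_nsmul]

lemma lcc_zpow (hadd : CupAddSpec) (V : Subgroup Gq) (n : ℕ) [NeZero n]
    (χ : ↥V →* Multiplicative (ZMod n)) (hχ : IsLevelConstant₁ (lHom q V) χ)
    {a : (PadicAlgCl q)ˣ} (ha : LFixed q V a) (m : ℤ) :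
    lcc q V n χ (a ^ m) = m • lcc q V n χ a := by
  cases m with
  | ofNat m =>
    simp only [Int.ofNat_eq_natCast, zpow_natCast, natCast_zsmul]
    exact lcc_pow hadd V n χ hχ ha m
  | negSucc m =>
    rw [zpow_negSucc, lcc_inv hadd V n χ hχ (lFixed_pow ha (m + 1)),
      lcc_pow hadd V n χ hχ ha (m + 1), negSucc_zsmul]

/-- The cup class of a unit is killed by `inv` for an unramified character. -/
lemma inv_lcc_unit (I : LocalInvSystem) (V : Subgroup Gq) (hV : IsOpenL q V) (n : ℕ) [NeZero n]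
    (χ : ↥V →* Multiplicative (ZMod n)) (hχ : IsLevelConstant₁ (lHom q V) χ)
    (hur : ∀ τ : ↥V, IsInertial q (τ : Gq) → χ τ = 1)
    {u : (PadicAlgCl q)ˣ} (hu : LFixed q V u) (hu1 : ‖(u : PadicAlgCl q)‖ = 1) :
    I.inv q V (lcc q V n χ u) = 0 := by
  have h : n ≠ 0 ∧ IsLevelConstant₁ (lHom q V) χ ∧ LFixed q V u := ⟨NeZero.ne n, hχ, hu⟩
  rw [lcc_eq q V n χ u h]
  refine I.inv_unram q V hV _ ?_ ?_ ?_
  · intro g h'
    show ‖(((u ^ (H379.carry n (chiAdd χ g) (chiAdd χ h')) : (PadicAlgCl q)ˣ)) :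
      PadicAlgCl q)‖ = 1
    rw [Units.val_pow_eq_pow_val, norm_pow, hu1, one_pow]
  · intro g h' i j hi hj
    show H379.cupChar n (chiAdd χ) (toLMod q V u) (g * i, h' * j) =
      H379.cupChar n (chiAdd χ) (toLMod q V u) (g, h')
    rw [H379.cupChar_apply, H379.cupChar_apply, chiAdd_mul, chiAdd_mul]
    have hi0 : chiAdd χ i = 0 := by
      show Multiplicative.toAdd (χ i) = 0
      rw [hur i hi]; rfl
    have hj0 : chiAdd χ j = 0 := by
      show Multiplicative.toAdd (χ j) = 0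
      rw [hur j hj]; rfl
    rw [hi0, hj0, add_zero, add_zero]
  · intro g h' i _
    show (lModOn q V).ρ i (H379.cupChar n (chiAdd χ) (toLMod q V u) (g, h')) =
      H379.cupChar n (chiAdd χ) (toLMod q V u) (g, h')
    rw [H379.cupChar_apply, map_nsmul]
    congr 1
    exact toLMod_mem_invariants hu i

/-- The cup class of a uniformizer has invariant `χ(φ)/n` for an unramified character. -/
lemma inv_lcc_unif (I : LocalInvSystem) (V : Subgroup Gq) (hV : IsOpenL q V) (n : ℕ) [NeZero n]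
    (χ : ↥V →* Multiplicative (ZMod n)) (hχ : IsLevelConstant₁ (lHom q V) χ)
    (hur : ∀ τ : ↥V, IsInertial q (τ : Gq) → χ τ = 1)
    (φ : ↥V) (hφ : IsFrobenius q V (φ : Gq))
    {π : (PadicAlgCl q)ˣ} (hπ : IsUniformizer q V (π : PadicAlgCl q)) :
    I.inv q V (lcc q V n χ π) =
      (((((chiAdd χ φ).val : ℚ) / (n : ℚ) : ℚ)) : AddCircle (1 : ℚ)) := by
  have hπf : LFixed q V π := fun τ hτ => Units.ext (hπ.1 τ hτ)
  have h : n ≠ 0 ∧ IsLevelConstant₁ (lHom q V) χ ∧ LFixed q V π := ⟨NeZero.ne n, hχ, hπf⟩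
  rw [lcc_eq q V n χ π h]
  have := I.inv_unif q V hV n χ hur (φ : Gq) hφ π hπ
    ⟨_, lcupChar_mem q V n χ π h⟩ ((isCupChar_iff _ _ _).2 rfl)
  rw [this]
  rfl

end

/-- **L3** (`UnramCupSpec`) from L2 (`LocalStructureSpec`) and K2 (`CupAddSpec`). -/
theorem unramCup_of (h2 : LocalStructureSpec) (hadd : CupAddSpec) (I : LocalInvSystem) :
    UnramCupSpec I := by
  intro q _ V hV n _ χ hχ hur f hf φ hφ a ha k hk
  obtain ⟨f', -, π, hf', -, -, hπ, -, hdec⟩ := h2 q V hV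
  obtain ⟨k', u, hu, hu1, rfl, hk'⟩ := hdec a ha
  have hff : f' = f := isResidueDegree_unique q hf' hf
  subst hff
  have hkk : k' = k := by
    have h1 : (f' : ℤ) * k' = f' * k := hk'.symm.trans hk
    have hf0 : (f' : ℤ) ≠ 0 := by exact_mod_cast hf.1.ne'
    exact mul_left_cancel₀ hf0 h1
  subst hkk
  have hπf : LFixed q V π := fun τ hτ => Units.ext (hπ.1 τ hτ)
  rw [lcc_mul hadd V n χ hχ (lFixed_zpow hπf k') hu, lcc_zpow hadd V n χ hχ hπf, map_add,
    map_zsmul, inv_lcc_unit I V hV n χ hχ hur hu hu1,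
    inv_lcc_unif I V hV n χ hχ hur φ ⟨φ.2, f', hf, hφ⟩ hπ, add_zero]
  rw [← AddCircle.coe_zsmul]
  congr 1
  rw [zsmul_eq_mul, mul_div_assoc]

end Fermat.Agent.S55.G.Rec.H900

end
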