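import Fermat.Agent.S55.G.Rec.Spec2

/-!
# S55 / layer G / block REC, leaf G5 (helper496): localisation commutes with restriction
-/

set_option autoImplicit false

noncomputable section

namespace Fermat.Agent.S55.G.Rec.H496

open groupCohomology Fermat.Agent.S55.G.Rec

local notation "Qb" => AlgebraicClosure ℚ
local notation "GQ" => (AlgebraicClosure ℚ ≃ₐ[ℚ] AlgebraicClosure ℚ)

/-- **(G5)** localisation commutes with restriction. -/
theorem locRes : LocResSpec := by
  intro q _ g U U' h x
  obtain ⟨c, rfl⟩ := Submodule.mkQ_surjective _ x
  rfl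

end Fermat.Agent.S55.G.Rec.H496
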