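import Fermat.Agent.S55.G.Rec.OpenH415
import Fermat.Agent.S55.H414.CycloMain

/-!
# S55 / layer G / block REC, leaf SB (helper415): STEP B, `TrivAbovePSpec`

`trivAboveP_of : HassePrincipleSpec p → CyclicSplitSpec → SupportFiniteSpec → LocResSpec →
  CycloSumSpec I → TrivAbovePSpec I p`   (`p` odd).

Proof (blueprint §1 STEP B).  Let `x ∈ Br(K)`, `p ^ k • x = 0`, `x_v = 0` for `v | p`, `T` the
(finite) support of `x`.  For `N ≫ 0` the local degrees at the primes of `T` of `ℚ(ζ_{p^N})/ℚ` are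
divisible by `p ^ (k + D)`, `D = [G_ℚ : U]! · (p - 1)` (helper414, `CycloMain`).  Let `χ` be the
`p`-part of the cyclotomic character mod `p ^ N` restricted to `U`, viewed as a surjective character
onto `ℤ/p^j`.  Then all the local degrees of `ker χ` over `U` at the places above `T` are divisible
by `p ^ k`; hence `res x` is locally trivial everywhere, hence trivial by the Hasse principle,
hence `x = a ∪ δχ` by cyclic splitting, and STEP A applies.
-/

set_option autoImplicit false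

noncomputable section

namespace Fermat.Agent.S55.G.Rec.H415

open Fermat.Agent.S55.G.Rec groupCohomology Fermat.Agent.S55.H414 ExtCitation

local notation "Qb" => AlgebraicClosure ℚ
local notation "GQ" => (AlgebraicClosure ℚ ≃ₐ[ℚ] AlgebraicClosure ℚ)

/-- A homomorphism to a finite cyclic group whose values are killed by a power of `p` gives a
surjective character onto `ℤ/p^j` with the same kernel. -/
theorem exists_char_of_cyclic {G A : Type*} [Group G] [CommGroup A] [IsCyclic A] [Finite A]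
    (p : ℕ) [Fact p.Prime] (M : ℕ) (ψ : G →* A) (hψ : ∀ g, ψ g ^ (p ^ M) = 1) :
    ∃ (j : ℕ) (χ : G →* Multiplicative (ZMod (p ^ j))),
      Function.Surjective χ ∧ ∀ g, χ g = 1 ↔ ψ g = 1 := by
  have hP : IsPGroup p ψ.range := by
    rintro ⟨_, g, rfl⟩
    exact ⟨M, Subtype.ext (by simpa using hψ g)⟩
  obtain ⟨j, hj⟩ := IsPGroup.iff_card.1 hP
  have e := zmodCyclicMulEquiv (inferInstance : IsCyclic ψ.range)
  rw [hj] at e
  refine ⟨j, e.symm.toMonoidHom.comp ψ.rangeRestrict, ?_, fun g => ?_⟩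
  · exact e.symm.surjective.comp ψ.rangeRestrict_surjective
  · rw [MonoidHom.comp_apply]
    show e.symm (ψ.rangeRestrict g) = 1 ↔ _
    rw [MulEquiv.map_eq_one_iff, Subtype.ext_iff]
    rfl

/-- If `p ^ K` divides the local degree at `q` of `ℚ(ζ_{p^N})/ℚ`, some element of the local Galois
group has a cyclotomic value of order divisible by `p ^ K`. -/
theorem exists_local_elt (p : ℕ) [Fact p.Prime] (hp2 : p ≠ 2) (N K : ℕ) (Q : Nat.Primes)
    [hQ : Fact (Q : ℕ).Prime]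
    (h : p ^ K ∣ (cycloLevel (p ^ N)).fixingSubgroup.relIndex (primeLocalToGlobal Q).range) :
    ∃ τ : PadicAlgCl (Q : ℕ) ≃ₐ[ℚ_[(Q : ℕ)]] PadicAlgCl (Q : ℕ),
      p ^ K ∣ orderOf (cycloPow (p ^ N) (localGaloisToGlobal (Q : ℕ) τ)) := by
  haveI : IsCyclic (ZMod (p ^ N))ˣ := ZMod.isCyclic_units_of_prime_pow p Fact.out hp2 N
  have h' : p ^ K ∣
      (cycloLevel (p ^ N)).fixingSubgroup.relIndex (localGaloisToGlobal (Q : ℕ)).range := h
  rw [← ker_cycloPow, Subgroup.relIndex_ker, MonoidHom.map_range] at h'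
  obtain ⟨⟨w, τ, rfl⟩, hw⟩ := IsCyclic.exists_generator
    (α := ↥((cycloPow (p ^ N)).comp (localGaloisToGlobal (Q : ℕ))).range)
  refine ⟨τ, ?_⟩
  have h1 := orderOf_eq_card_of_forall_mem_zpowers hw
  rw [← Subgroup.orderOf_coe] at h1
  rw [← h1] at h'
  exact h'

/-- Localisation preserves `n`-torsion. -/
theorem nsmul_locBr_eq_zero (q : ℕ) [Fact q.Prime] (g : GQ) (U : Subgroup GQ) (x : gBr U) (n : ℕ)
    (hk : n • x = 0) : n • locBr q g U x = 0 := by
  have h1 := (locBr q g U).toAddMonoidHom.map_nsmul n x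
  have h2 := congrArg (locBr q g U) hk
  rw [map_zero] at h2
  rw [← h2]
  exact h1.symm

/-- Restriction preserves `n`-torsion. -/
theorem nsmul_gRes_eq_zero {U U' : Subgroup GQ} (h : U' ≤ U) (x : gBr U) (n : ℕ)
    (hk : n • x = 0) : n • gRes h x = 0 := by
  have h1 := (gRes h).toAddMonoidHom.map_nsmul n x
  have h2 := congrArg (gRes h) hk
  rw [map_zero] at h2
  rw [← h2]
  exact h1.symm

/-- A multiple of the order kills the invariant. -/
theorem nsmul_inv_eq_zero (I : LocalInvSystem) (q : ℕ) [Fact q.Prime]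
    (V : Subgroup (PadicAlgCl q ≃ₐ[ℚ_[q]] PadicAlgCl q)) (y : lBr q V) (n d : ℕ)
    (hk : n • y = 0) (hd : n ∣ d) : d • I.inv q V y = 0 := by
  obtain ⟨r, rfl⟩ := hd
  rw [mul_comm, mul_smul, ← map_nsmul, hk, map_zero, smul_zero]

/-- If the local degree is divisible by `n` and `n • x = 0`, then `res x` is locally trivial. -/
theorem lRes_locBr_eq_zero_of_dvd (I : LocalInvSystem) (q : ℕ) [Fact q.Prime] (g : GQ)
    {U U' : Subgroup GQ} (h : U' ≤ U) (hU' : IsOpenQ U') (x : gBr U) (n : ℕ) (hk : n • x = 0)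
    (hdiv : n ∣ (locSub q g U').relIndex (locSub q g U)) :
    lRes q (V := locSub q g U) (V' := locSub q g U') (fun _ hτ => h hτ) (locBr q g U x) = 0 := by
  have hV'open : IsOpenL q (locSub q g U') := isOpenL_locSub hU' q g
  apply I.inv_injective q _ hV'open
  refine ((I.inv_res q _ _ _ hV'open _).trans ?_).trans (map_zero _).symm
  exact nsmul_inv_eq_zero I q _ _ _ _ (nsmul_locBr_eq_zero q g U x n hk) hdiv

/-- The group-theoretic key: the local degrees of `ker χ` are divisible by `p ^ k`. -/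
theorem pow_dvd_relIndex_locSub_ker (p : ℕ) [Fact p.Prime] (q : ℕ) [Fact q.Prime] (g : GQ)
    (U : Subgroup GQ) (hidx : U.index ≠ 0) {C : Type*} [CommGroup C] (c : GQ →* C) (e : ℕ)
    (he : 0 < e) (j : ℕ) (χ : ↥U →* Multiplicative (ZMod (p ^ j)))
    (hχc : ∀ u : ↥U, χ u = 1 ↔ c (u : GQ) ^ e = 1)
    (τ : PadicAlgCl q ≃ₐ[ℚ_[q]] PadicAlgCl q) (k : ℕ)
    (hτ : p ^ (k + (U.index).factorial * e) ∣ orderOf (c (localGaloisToGlobal q τ))) :
    p ^ k ∣ (locSub q g (χ.ker.map U.subtype)).relIndex (locSub q g U) := by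
  have hp : p.Prime := Fact.out
  obtain ⟨D₀, hD₀⟩ : ∃ D₀ : ℕ, D₀ = (U.index).factorial := ⟨_, rfl⟩
  obtain ⟨D, hD⟩ : ∃ D : ℕ, D = D₀ * e := ⟨_, rfl⟩
  rw [← hD₀, ← hD] at hτ
  have hDpos : 0 < D := by
    rw [hD, hD₀]
    exact Nat.mul_pos (Nat.factorial_pos _) he
  have hcardB : Nat.card (Multiplicative (ZMod (p ^ j))) = p ^ j :=
    (Nat.card_congr Multiplicative.toAdd).trans (Nat.card_zmod _)
  rw [relIndex_locSub_ker]
  have hcard : Nat.card (χ.comp (locHom q g U)).range ∣ p ^ j := by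
    have := Subgroup.card_subgroup_dvd_card (χ.comp (locHom q g U)).range
    rwa [hcardB] at this
  obtain ⟨i, -, hi⟩ := (Nat.dvd_prime_pow hp).1 hcard
  rw [hi]
  apply pow_dvd_pow
  by_contra hlt
  rw [not_le] at hlt
  have hτV : τ ^ D₀ ∈ locSub q g U := by
    rw [mem_locSub, map_pow, ← conj_pow, hD₀]
    exact Subgroup.pow_mem_of_index_ne_zero_of_dvd hidx _
      (fun m hm hm' => Nat.dvd_factorial hm hm')
  have hw1 : (χ.comp (locHom q g U)) ⟨τ ^ D₀, hτV⟩ ^ (p ^ i) = 1 := by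
    have hwmem : (χ.comp (locHom q g U)) ⟨τ ^ D₀, hτV⟩ ∈ (χ.comp (locHom q g U)).range :=
      ⟨_, rfl⟩
    have h := pow_card_eq_one' (G := ↥(χ.comp (locHom q g U)).range)
      (x := ⟨_, hwmem⟩)
    rw [hi] at h
    exact congrArg Subtype.val h
  have h2 : χ ((locHom q g U ⟨τ ^ D₀, hτV⟩) ^ (p ^ i)) = 1 := by
    rw [map_pow]
    exact hw1
  rw [hχc, Subgroup.coe_pow, map_pow] at h2
  have h3 : c ((locHom q g U ⟨τ ^ D₀, hτV⟩ : ↥U) : GQ) = c (localGaloisToGlobal q τ) ^ D₀ := by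
    rw [locHom_coe]
    simp only [map_mul, map_inv, map_pow]
    rw [mul_comm, inv_mul_cancel_left]
  rw [h3, ← pow_mul, ← pow_mul] at h2
  have h4 : orderOf (c (localGaloisToGlobal q τ)) ∣ D₀ * (p ^ i * e) :=
    orderOf_dvd_of_pow_eq_one h2
  have h5 : p ^ (k + D) ∣ D * p ^ i := by
    have : D₀ * (p ^ i * e) = D * p ^ i := by rw [hD]; ring
    rw [← this]
    exact hτ.trans h4
  have h6 : p ^ i * p ^ (D + 1) ∣ p ^ i * D := by
    rw [← pow_add, mul_comm (p ^ i) D]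
    exact (pow_dvd_pow p (by omega)).trans h5
  have h7 : p ^ (D + 1) ∣ D := Nat.dvd_of_mul_dvd_mul_left (pow_pos hp.pos i) h6
  have h8 := Nat.le_of_dvd hDpos h7
  have h9 : D < p ^ (D + 1) :=
    (Nat.lt_pow_self hp.one_lt).trans_le (Nat.pow_le_pow_right hp.pos (Nat.le_succ _))
  omega

/-- **STEP B** of the norm route. -/
theorem trivAboveP_of (I : LocalInvSystem) (p : ℕ) [Fact p.Prime] (hp2 : p ≠ 2)
    (hHP : HassePrincipleSpec p) (hK4 : CyclicSplitSpec) (hG4 : SupportFiniteSpec)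
    (hG5 : LocResSpec) (hSA : CycloSumSpec I) : TrivAbovePSpec I p := by
  intro U hU x hx hloc R hR
  obtain ⟨k, hk⟩ := hx
  have hp : p.Prime := Fact.out
  have hTfin := hG4 I U hU x
  have hidx : U.index ≠ 0 := index_ne_zero_of_isOpenQ hU
  have hepos : 0 < p - 1 := Nat.sub_pos_of_lt hp.one_lt
  obtain ⟨n₀, hn₀⟩ := exists_forall_forall_pow_dvd_relIndex_primeLocal p hTfin.toFinset
    (k + (U.index).factorial * (p - 1))
  obtain ⟨N, hNdef⟩ : ∃ N : ℕ, N = n₀ + 1 := ⟨_, rfl⟩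
  have hN := hn₀ N (by omega)
  haveI : IsCyclic (ZMod (p ^ N))ˣ := ZMod.isCyclic_units_of_prime_pow p hp hp2 N
  -- the character
  obtain ⟨ψ, hψ_apply⟩ : ∃ ψ : ↥U →* (ZMod (p ^ N))ˣ,
      ∀ u : ↥U, ψ u = cycloPow (p ^ N) (u : GQ) ^ (p - 1) :=
    ⟨(powMonoidHom (p - 1)).comp ((cycloPow (p ^ N)).comp U.subtype), fun u => rfl⟩
  have hψ : ∀ u, ψ u ^ (p ^ n₀) = 1 := by
    intro u
    rw [hψ_apply, ← pow_mul, mul_comm]
    have h1 : p ^ n₀ * (p - 1) = Nat.totient (p ^ N) := by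
      rw [hNdef, Nat.totient_prime_pow_succ hp n₀]
    rw [h1]
    exact ZMod.pow_totient _
  obtain ⟨j, χ, hsurj, hχ1⟩ := exists_char_of_cyclic p n₀ ψ hψ
  have hχc : ∀ u : ↥U, χ u = 1 ↔ cycloPow (p ^ N) (u : GQ) ^ (p - 1) = 1 := by
    intro u
    rw [hχ1, hψ_apply]
  have hker : ∀ u : ↥U, (u : GQ) ∈ (cycloLevel (p ^ N)).fixingSubgroup → χ u = 1 := by
    intro u hu
    rw [hχc]
    rw [← ker_cycloPow, MonoidHom.mem_ker] at hu
    rw [hu, one_pow]
  have hlevel : IsLevelConstant₁ U.subtype χ :=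
    ⟨cycloLevel (p ^ N), inferInstance, fun g s hs => by rw [map_mul, hker s hs, mul_one]⟩
  have hcyc : IsCycloChar U (p ^ N) χ := by
    intro σ hσ
    apply hker
    rw [mem_fixingSubgroup_cycloLevel_iff]
    exact hσ _ (zetaBar_spec (p ^ N)).pow_eq_one
  haveI : NeZero (p ^ j) := ⟨pow_ne_zero _ hp.ne_zero⟩
  have hodd : Odd (p ^ j) := (hp.odd_of_ne_two hp2).pow
  -- the kernel is open
  have hU' : IsOpenQ (χ.ker.map U.subtype) := by
    refine isOpenQ_of_level hU (cycloLevel (p ^ N)) (fun σ hσU hσ => ?_)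
    exact ⟨⟨σ, hσU⟩, hker ⟨σ, hσU⟩ hσ, rfl⟩
  -- the restriction to the kernel is locally trivial, hence trivial
  have hres : gRes (U := U) (U' := χ.ker.map U.subtype) (Subgroup.map_subtype_le _) x = 0 := by
    refine hHP _ hU' _ ⟨k, nsmul_gRes_eq_zero _ x _ hk⟩ ?_
    intro q hq g
    obtain ⟨Q, rfl⟩ : ∃ Q : Nat.Primes, (Q : ℕ) = q := ⟨⟨q, hq.out⟩, rfl⟩
    rw [hG5 (Q : ℕ) g U _ (Subgroup.map_subtype_le _) x]
    by_cases hqT : Q ∈ hTfin.toFinset
    · -- the local degree is divisible by `p ^ k`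
      exact (exists_local_elt p hp2 N _ Q (hN Q hqT)).elim fun τ hτ =>
        lRes_locBr_eq_zero_of_dvd I (Q : ℕ) g (Subgroup.map_subtype_le _) hU' x (p ^ k) hk
          (pow_dvd_relIndex_locSub_ker p (Q : ℕ) g U hidx (cycloPow (p ^ N)) (p - 1) hepos j χ
            hχc τ k hτ)
    · have h0 : locBr (Q : ℕ) g U x = 0 := by
        by_contra h
        exact hqT (hTfin.mem_toFinset.2 ⟨g, h⟩)
      rw [h0, map_zero]
  obtain ⟨a, ha, hxa⟩ := hK4 U hU (p ^ j) χ hlevel hsurj x hres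
  rw [hxa]
  refine hSA U hU p hp2 N (by omega) (p ^ j) hodd χ hlevel hcyc a ha (fun g => ?_) R hR
  rw [← hxa]
  exact hloc g

end Fermat.Agent.S55.G.Rec.H415
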