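import Fermat.Agent.S55.G.Rec.Spec2
import Fermat.Agent.S55.Bridge.H175.LocalLevel

/-!
# S55 / layer G / block REC, leaf G4 (helper181): finiteness of the support

`supportFinite : SupportFiniteSpec` — a class `x ∈ Br(K)`, `K = ℚ̄^U`, has only finitely many
rational primes `q` above which some local component `locBr q g U x` is non-zero.

Ingredients (all reusable):
* `exists_normal_level` : a level cocycle on an open `U` has a finite NORMAL level `F` with
  `G_F ≤ U`;
* `rho_eq_of_level` : its values are fixed by `G_F`;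
* `finite_range_of_level` : it has finitely many values;
* `exists_bad_primes_norm` : for `a ∈ ℚ̄ˣ`, for almost all `q`, `‖ι_q (g a)‖ = 1` for ALL `g ∈ G_ℚ`;
* `exists_bad_primes_inertial` : for `F/ℚ` finite, for almost all `q`, the image in `G_ℚ` of
  every inertial element of `G_{ℚ_q}` fixes `F`;
* `isOpenL_locSub` : `locSub q g U` is open for `U` open.
-/

set_option autoImplicit false

noncomputable section

namespace Fermat.Agent.S55.G.Rec.H181

open groupCohomology Fermat.Agent.S55.G.Rec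

local notation "Qb" => AlgebraicClosure ℚ
local notation "GQ" => (AlgebraicClosure ℚ ≃ₐ[ℚ] AlgebraicClosure ℚ)

/-! ## Norms of algebraic numbers at almost all primes -/

section Norm

variable (q : ℕ) [Fact q.Prime]

/-- An element of `ℚ̄_q` which is integral over `ℤ` has norm `≤ 1`. -/
theorem norm_le_one_of_isIntegral {x : PadicAlgCl q} (hx : IsIntegral ℤ x) : ‖x‖ ≤ 1 := by
  have h1 : IsIntegral (padicIntegers q) x := hx.tower_top
  have h2 : x ∈ (Valued.v : Valuation (PadicAlgCl q) NNReal).integer :=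
    (Valuation.integer.integers (Valued.v : Valuation (PadicAlgCl q) NNReal)).mem_of_integral h1
  exact h2

theorem norm_intCast_eq_one (n : ℤ) (hn : ¬ (q : ℤ) ∣ n) : ‖(n : PadicAlgCl q)‖ = 1 := by
  have h1 : ((n : ℚ_[q]) : PadicAlgCl q) = (n : PadicAlgCl q) := map_intCast _ n
  rw [← h1, PadicAlgCl.norm_extends]
  have h2 : ‖(n : ℚ_[q])‖ ≤ 1 := Padic.norm_int_le_one n
  have h3 : ¬ ‖(n : ℚ_[q])‖ < 1 := by
    rw [Padic.norm_intCast_lt_one_iff]
    exact hn
  exact le_antisymm h2 (not_lt.1 h3)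

/-- The image in `ℚ̄_q` of an integral algebraic number has norm `≤ 1`. -/
theorem norm_padicEmbedding_le_one {a : Qb} (ha : IsIntegral ℤ a) :
    ‖padicEmbedding q a‖ ≤ 1 :=
  norm_le_one_of_isIntegral q (map_isIntegral_int (padicEmbedding q) ha)

/-- If `y • a` is integral, `q ∤ y`, then `‖ι_q (g a)‖ ≤ 1` for every `g ∈ G_ℚ`. -/
theorem norm_padicEmbedding_le_one_of_smul {a : Qb} {y : ℤ} (hy : IsIntegral ℤ (y • a))
    (hq : ¬ (q : ℤ) ∣ y) (g : GQ) : ‖padicEmbedding q (g a)‖ ≤ 1 := by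
  have h1 : IsIntegral ℤ (g (y • a)) := map_isIntegral_int g hy
  have h2 := norm_padicEmbedding_le_one q h1
  have h3 : padicEmbedding q (g (y • a)) = (y : PadicAlgCl q) * padicEmbedding q (g a) := by
    rw [zsmul_eq_mul, map_mul, map_mul, map_intCast, map_intCast]
  rw [h3, norm_mul, norm_intCast_eq_one q y hq, one_mul] at h2
  exact h2

end Norm

/-- For a non-zero algebraic number `a` there is a finite set `B` of primes such that for every
prime `q ∉ B` ALL conjugates of `a` are `q`-adic units. -/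
theorem exists_bad_primes_norm (a : Qb) (ha : a ≠ 0) :
    ∃ B : Finset ℕ, ∀ (q : ℕ) [Fact q.Prime], q ∉ B →
      ∀ g : GQ, ‖padicEmbedding q (g a)‖ = 1 := by
  haveI : Algebra.IsAlgebraic ℚ Qb := AlgebraicClosure.isAlgebraic ℚ
  have halg : ∀ b : Qb, IsAlgebraic ℤ b := fun b =>
    (IsFractionRing.isAlgebraic_iff ℤ ℚ Qb).2 (Algebra.IsAlgebraic.isAlgebraic b)
  obtain ⟨y, hy0, hy⟩ := (halg a).exists_integral_multiple
  obtain ⟨z, hz0, hz⟩ := (halg a⁻¹).exists_integral_multiple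
  refine ⟨(y.natAbs * z.natAbs).primeFactors, fun q _ hq g => ?_⟩
  have hqp : q.Prime := Fact.out
  have hyz : y.natAbs * z.natAbs ≠ 0 :=
    mul_ne_zero (Int.natAbs_ne_zero.2 hy0) (Int.natAbs_ne_zero.2 hz0)
  have hnd : ¬ q ∣ y.natAbs * z.natAbs := fun h =>
    hq (Nat.mem_primeFactors.2 ⟨hqp, h, hyz⟩)
  have hqy : ¬ (q : ℤ) ∣ y := fun h =>
    hnd (Dvd.dvd.mul_right (Int.natCast_dvd.1 h) _)
  have hqz : ¬ (q : ℤ) ∣ z := fun h =>
    hnd (Dvd.dvd.mul_left (Int.natCast_dvd.1 h) _)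
  have h1 := norm_padicEmbedding_le_one_of_smul q hy hqy g
  have h2 := norm_padicEmbedding_le_one_of_smul q hz hqz g
  have h3 : padicEmbedding q (g a) * padicEmbedding q (g a⁻¹) = 1 := by
    rw [← map_mul, ← map_mul, mul_inv_cancel₀ ha, map_one, map_one]
  have h4 : ‖padicEmbedding q (g a)‖ * ‖padicEmbedding q (g a⁻¹)‖ = 1 := by
    rw [← norm_mul, h3, norm_one]
  refine le_antisymm h1 ?_
  by_contra hlt
  rw [not_le] at hlt
  have h5 : ‖padicEmbedding q (g a)‖ * ‖padicEmbedding q (g a⁻¹)‖ < 1 := by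
    calc ‖padicEmbedding q (g a)‖ * ‖padicEmbedding q (g a⁻¹)‖
        ≤ ‖padicEmbedding q (g a)‖ * 1 :=
          mul_le_mul_of_nonneg_left h2 (norm_nonneg _)
      _ = ‖padicEmbedding q (g a)‖ := mul_one _
      _ < 1 := hlt
  rw [h4] at h5
  exact lt_irrefl _ h5

/-- Finite-set version of `exists_bad_primes_norm`. -/
theorem exists_bad_primes_norm_finite {A : Set Qb} (hA : A.Finite) (h0 : ∀ a ∈ A, a ≠ 0) :
    ∃ B : Finset ℕ, ∀ (q : ℕ) [Fact q.Prime], q ∉ B →
      ∀ a ∈ A, ∀ g : GQ, ‖padicEmbedding q (g a)‖ = 1 := by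
  classical
  induction A, hA using Set.Finite.induction_on with
  | empty => exact ⟨∅, fun q _ _ a ha => absurd ha (Set.notMem_empty a)⟩
  | @insert a s _ _ ih =>
    obtain ⟨B₁, hB₁⟩ := ih (fun b hb => h0 b (Set.mem_insert_of_mem _ hb))
    obtain ⟨B₂, hB₂⟩ := exists_bad_primes_norm a (h0 a (Set.mem_insert _ _))
    refine ⟨B₁ ∪ B₂, fun q _ hq b hb g => ?_⟩
    rw [Finset.mem_union, not_or] at hq
    rcases Set.mem_insert_iff.1 hb with rfl | hb
    · exact hB₂ q hq.2 g
    · exact hB₁ q hq.1 b hb g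

/-! ## Unramifiedness at almost all primes -/

/-- A finite extension of `ℚ` inside `ℚ̄` is generated by one integral element. -/
theorem exists_integral_generator (F : IntermediateField ℚ Qb) [FiniteDimensional ℚ F] :
    ∃ β : Qb, IsIntegral ℤ β ∧ F = IntermediateField.adjoin ℚ {β} := by
  haveI : Algebra.IsAlgebraic ℚ Qb := AlgebraicClosure.isAlgebraic ℚ
  obtain ⟨β, hβ⟩ := Field.exists_primitive_element ℚ F
  have hF : F = IntermediateField.adjoin ℚ {(β : Qb)} := by
    have h1 : IntermediateField.lift (IntermediateField.adjoin ℚ {β})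
        = IntermediateField.adjoin ℚ {(β : Qb)} := by
      rw [IntermediateField.lift_adjoin, Set.image_singleton]
    apply le_antisymm
    · intro y hy
      have hy' : (⟨y, hy⟩ : F) ∈ IntermediateField.adjoin ℚ {β} := by rw [hβ]; trivial
      rw [← h1]
      exact (IntermediateField.mem_lift (⟨y, hy⟩ : F)).2 hy'
    · rw [IntermediateField.adjoin_le_iff]
      intro y hy
      rw [Set.mem_singleton_iff] at hy
      subst hy
      exact β.2
  have halg : IsAlgebraic ℤ (β : Qb) :=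
    (IsFractionRing.isAlgebraic_iff ℤ ℚ Qb).2 (Algebra.IsAlgebraic.isAlgebraic _)
  obtain ⟨y, hy0, hy⟩ := halg.exists_integral_multiple
  refine ⟨y • (β : Qb), hy, ?_⟩
  refine hF.trans ?_
  have hyQ : algebraMap ℚ Qb (y : ℚ) ≠ 0 := by
    rw [Ne, map_intCast, Int.cast_eq_zero]
    exact hy0
  have e1 : y • (β : Qb) = algebraMap ℚ Qb (y : ℚ) * β := by
    rw [zsmul_eq_mul, map_intCast]
  apply le_antisymm
  · rw [IntermediateField.adjoin_le_iff]
    intro x hx
    rw [Set.mem_singleton_iff] at hx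
    subst hx
    have h2 : (β : Qb) = (algebraMap ℚ Qb (y : ℚ))⁻¹ * (y • (β : Qb)) := by
      rw [e1, ← mul_assoc, inv_mul_cancel₀ hyQ, one_mul]
    have h3 : (algebraMap ℚ Qb (y : ℚ))⁻¹ * (y • (β : Qb)) ∈
        IntermediateField.adjoin ℚ {y • (β : Qb)} :=
      mul_mem (inv_mem (IntermediateField.algebraMap_mem _ (y : ℚ)))
        (IntermediateField.mem_adjoin_simple_self ℚ _)
    rw [← h2] at h3
    exact h3
  · rw [IntermediateField.adjoin_le_iff]
    intro x hx
    rw [Set.mem_singleton_iff] at hx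
    subst hx
    rw [e1]
    exact mul_mem (IntermediateField.algebraMap_mem _ (y : ℚ))
      (IntermediateField.mem_adjoin_simple_self ℚ _)

/-- An automorphism fixing a generator fixes the field. -/
theorem mem_fixingSubgroup_adjoin_singleton {β : Qb} {σ : GQ} (h : σ β = β) :
    σ ∈ (IntermediateField.adjoin ℚ {β}).fixingSubgroup := by
  rw [IntermediateField.mem_fixingSubgroup_iff]
  have hle : IntermediateField.adjoin ℚ {β} ≤ IntermediateField.fixedField (Subgroup.zpowers σ) := by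
    rw [IntermediateField.adjoin_le_iff]
    intro x hx
    rw [Set.mem_singleton_iff] at hx
    subst hx
    rintro ⟨τ, hτ⟩
    obtain ⟨n, rfl⟩ := Subgroup.mem_zpowers_iff.1 hτ
    show (σ ^ n) x = x
    have hfix : σ ∈ MulAction.stabilizer GQ x := by
      rw [MulAction.mem_stabilizer_iff]
      exact h
    exact (Subgroup.zpow_mem _ hfix n : _)
  intro y hy
  exact hle hy ⟨σ, Subgroup.mem_zpowers σ⟩

/-- For a finite extension `F/ℚ`, for almost all primes `q` every inertial element of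
`G_{ℚ_q}` restricts to an element of `G_F`  (`F` is unramified at almost all primes). -/
theorem exists_bad_primes_inertial (F : IntermediateField ℚ Qb) [FiniteDimensional ℚ F] :
    ∃ B : Finset ℕ, ∀ (q : ℕ) [Fact q.Prime], q ∉ B →
      ∀ τ : PadicAlgCl q ≃ₐ[ℚ_[q]] PadicAlgCl q, IsInertial q τ →
        localGaloisToGlobal q τ ∈ F.fixingSubgroup := by
  haveI : Algebra.IsAlgebraic ℚ Qb := AlgebraicClosure.isAlgebraic ℚ
  obtain ⟨β, hβint, rfl⟩ := exists_integral_generator F
  -- the nonzero differences `β' - β`, `β'` a conjugate of `β`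
  let A : Set Qb := (fun r => r - β) '' ((minpoly ℚ β).rootSet Qb \ {β})
  have hA : A.Finite := ((Polynomial.rootSet_finite _ _).subset Set.sdiff_subset).image _
  have hA0 : ∀ a ∈ A, a ≠ 0 := by
    rintro _ ⟨r, ⟨-, hr⟩, rfl⟩
    exact sub_ne_zero.2 hr
  obtain ⟨B, hB⟩ := exists_bad_primes_norm_finite hA hA0
  refine ⟨B, fun q _ hq τ hτ => ?_⟩
  apply mem_fixingSubgroup_adjoin_singleton
  by_contra hne
  set σ := localGaloisToGlobal q τ with hσ
  have hroot : σ β ∈ (minpoly ℚ β).rootSet Qb := by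
    rw [Polynomial.mem_rootSet]
    refine ⟨minpoly.ne_zero (Algebra.IsIntegral.isIntegral β), ?_⟩
    have h := Polynomial.aeval_algHom_apply (σ : Qb →ₐ[ℚ] Qb) β (minpoly ℚ β)
    rw [minpoly.aeval, map_zero] at h
    exact h
  have hmem : σ β - β ∈ A := ⟨σ β, ⟨hroot, hne⟩, rfl⟩
  have h1 : ‖padicEmbedding q ((1 : GQ) (σ β - β))‖ = 1 := hB q hq _ hmem 1
  have h2 : padicEmbedding q ((1 : GQ) (σ β - β)) =
      τ (padicEmbedding q β) - padicEmbedding q β := by
    rw [AlgEquiv.one_apply, map_sub, hσ, padicEmbedding_localGaloisToGlobal]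
  rw [h2] at h1
  have h3 := hτ (padicEmbedding q β) (norm_padicEmbedding_le_one q hβint)
  rw [h1] at h3
  exact lt_irrefl _ h3

/-! ## Openness of the local subgroups -/

/-- `locSub q g U` is open if `U` is. -/
theorem isOpenL_locSub (q : ℕ) [Fact q.Prime] (g : GQ) {U : Subgroup GQ} (hU : IsOpenQ U) :
    IsOpenL q (locSub q g U) := by
  obtain ⟨F, hF, hle⟩ := hU
  haveI := hF
  haveI : FiniteDimensional ℚ (F.map (g⁻¹ : GQ).toAlgHom) := finiteDimensional_map_inv F g
  refine ⟨Bridge.H175.localLevel q (F.map (g⁻¹ : GQ).toAlgHom),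
    Bridge.H175.finiteDimensional_localLevel q _, fun τ hτ => ?_⟩
  rw [mem_locSub]
  apply hle
  rw [← mem_fixingSubgroup_map_inv]
  exact (Bridge.H175.mem_fixingSubgroup_localLevel_iff q _ τ).1 hτ

/-! ## Level cocycles on an open subgroup -/

/-- The fixing subgroup of a normal extension is stable under conjugation. -/
theorem conj_mem_fixingSubgroup (F : IntermediateField ℚ Qb) [Normal ℚ F] (g : GQ) {σ : GQ}
    (hσ : σ ∈ F.fixingSubgroup) : g * σ * g⁻¹ ∈ F.fixingSubgroup := by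
  rw [IntermediateField.mem_fixingSubgroup_iff] at hσ ⊢
  intro x hx
  have h1 : (g⁻¹ : GQ) x ∈ F := Bridge.H175.apply_mem_of_normal F _ hx
  show g (σ ((g⁻¹ : GQ) x)) = x
  rw [hσ _ h1]
  exact AlgEquiv.apply_symm_apply g x

/-- A level-constant `2`-cochain on an open subgroup `U` has a finite NORMAL level `F` with
`G_F ≤ U`. -/
theorem exists_normal_level {U : Subgroup GQ} (hU : IsOpenQ U) {X : Type*} {c : ↥U × ↥U → X}
    (hc : IsLevelConstant₂ U.subtype c) :
    ∃ F : IntermediateField ℚ Qb, FiniteDimensional ℚ F ∧ Normal ℚ F ∧ F.fixingSubgroup ≤ U ∧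
      ∀ g g' s s' : ↥U, (s : GQ) ∈ F.fixingSubgroup → (s' : GQ) ∈ F.fixingSubgroup →
        c (g * s, g' * s') = c (g, g') := by
  obtain ⟨F₀, hF₀, h₀⟩ := hc
  obtain ⟨F₁, hF₁, h₁⟩ := hU
  haveI := hF₀
  haveI := hF₁
  haveI : Algebra.IsAlgebraic ℚ Qb := AlgebraicClosure.isAlgebraic ℚ
  haveI : IsAlgClosure ℚ Qb := ⟨inferInstance, inferInstance⟩
  haveI : Normal ℚ Qb := IsAlgClosure.normal ℚ Qb
  have hle : F₀ ⊔ F₁ ≤ IntermediateField.normalClosure ℚ ↥(F₀ ⊔ F₁) Qb :=
    IntermediateField.le_normalClosure _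
  refine ⟨IntermediateField.normalClosure ℚ ↥(F₀ ⊔ F₁) Qb,
    normalClosure.is_finiteDimensional ℚ _ Qb, normalClosure.normal ℚ _ Qb, ?_, ?_⟩
  · exact (IntermediateField.fixingSubgroup_antitone (le_sup_right.trans hle)).trans h₁
  · intro g g' s s' hs hs'
    exact h₀ g g' s s'
      (IntermediateField.fixingSubgroup_antitone (le_sup_left.trans hle) hs)
      (IntermediateField.fixingSubgroup_antitone (le_sup_left.trans hle) hs')

/-- The values of a level cocycle of normal level `F` are fixed by `G_F`. -/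
theorem rho_eq_of_level {U : Subgroup GQ} (F : IntermediateField ℚ Qb) [Normal ℚ F]
    {c : ↥U × ↥U → gModOn U} (hc : c ∈ cocycles₂ (gModOn U))
    (hconst : ∀ g g' s s' : ↥U, (s : GQ) ∈ F.fixingSubgroup → (s' : GQ) ∈ F.fixingSubgroup →
      c (g * s, g' * s') = c (g, g'))
    (σ : ↥U) (hσ : (σ : GQ) ∈ F.fixingSubgroup) (g h : ↥U) :
    (gModOn U).ρ σ (c (g, h)) = c (g, h) := by
  have hcoc := (mem_cocycles₂_iff c).1 hc
  have h1 : ∀ k : ↥U, c (1, k) = c (1, 1) := by
    intro k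
    have := hcoc 1 1 k
    simp only [mul_one, one_mul, map_one, Module.End.one_apply] at this
    exact (add_left_cancel this).symm
  have hone : ((1 : ↥U) : GQ) ∈ F.fixingSubgroup := by
    rw [Subgroup.coe_one]
    exact one_mem _
  have h3 : ∀ k : ↥U, c (σ, k) = c (1, 1) := by
    intro k
    have := hconst 1 k σ 1 hσ hone
    rw [one_mul, mul_one] at this
    rw [this, h1]
  have h4 : c (σ * g, h) = c (g, h) := by
    have hs : ((g⁻¹ * σ * g : ↥U) : GQ) ∈ F.fixingSubgroup := by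
      have := conj_mem_fixingSubgroup F (g⁻¹ : GQ) hσ
      simpa using this
    have := hconst g h (g⁻¹ * σ * g) 1 hs hone
    rw [mul_one] at this
    rw [← this]
    congr 2
    group
  have h5 := hcoc σ g h
  rw [h4, h3, h3] at h5
  exact (add_right_cancel h5).symm

/-- A level-constant cochain on `U` of finite level `F` with `G_F ≤ U` has finitely many values. -/
theorem finite_range_of_level {U : Subgroup GQ} (F : IntermediateField ℚ Qb)
    [FiniteDimensional ℚ F] {X : Type*} {c : ↥U × ↥U → X}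
    (hconst : ∀ g g' s s' : ↥U, (s : GQ) ∈ F.fixingSubgroup → (s' : GQ) ∈ F.fixingSubgroup →
      c (g * s, g' * s') = c (g, g')) :
    (Set.range c).Finite := by
  let Φ : ↥U → (↥F →ₐ[ℚ] Qb) := fun g => ((g : GQ) : Qb →ₐ[ℚ] Qb).comp F.val
  have key : ∀ g g' : ↥U, Φ g = Φ g' → ((g⁻¹ * g' : ↥U) : GQ) ∈ F.fixingSubgroup := by
    intro g g' h
    rw [IntermediateField.mem_fixingSubgroup_iff]
    intro x hx
    have h1 : (g : GQ) x = (g' : GQ) x := DFunLike.congr_fun h ⟨x, hx⟩
    show ((g⁻¹ : ↥U) : GQ) ((g' : GQ) x) = x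
    rw [← h1]
    show ((g : GQ)⁻¹) ((g : GQ) x) = x
    exact AlgEquiv.symm_apply_apply (g : GQ) x
  let Ψ : ↥U × ↥U → (↥F →ₐ[ℚ] Qb) × (↥F →ₐ[ℚ] Qb) := Prod.map Φ Φ
  have hfac : Function.FactorsThrough c Ψ := by
    rintro ⟨g, h⟩ ⟨g', h'⟩ hΨ
    have hg : Φ g = Φ g' := congrArg Prod.fst hΨ
    have hh : Φ h = Φ h' := congrArg Prod.snd hΨ
    have := hconst g h (g⁻¹ * g') (h⁻¹ * h') (key g g' hg) (key h h' hh)
    rw [mul_inv_cancel_left, mul_inv_cancel_left] at this
    exact this.symm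
  haveI : Finite (↥F →ₐ[ℚ] Qb) := inferInstance
  refine (Set.finite_range (Function.extend Ψ c (fun _ => c (1, 1)))).subset ?_
  rintro _ ⟨a, rfl⟩
  exact ⟨Ψ a, hfac.extend_apply _ a⟩

/-! ## The main result -/

/-- The underlying algebraic number of an element of the module `ℚ̄ˣ`. -/
def gval (U : Subgroup GQ) (m : gModOn U) : Qb := ((Additive.toMul m : Qbˣ) : Qb)

/-- Local vanishing at a good prime. -/
theorem locBr_eq_zero_of_good (I : LocalInvSystem) {U : Subgroup GQ} (hU : IsOpenQ U)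
    (c : ↥(levelCocycles₂ U.subtype (gModOn U)))
    (F : IntermediateField ℚ Qb) [Normal ℚ F]
    (hconst : ∀ g g' s s' : ↥U, (s : GQ) ∈ F.fixingSubgroup → (s' : GQ) ∈ F.fixingSubgroup →
      (c : ↥U × ↥U → gModOn U) (g * s, g' * s') = (c : ↥U × ↥U → gModOn U) (g, g'))
    (q : ℕ) [Fact q.Prime]
    (h1 : ∀ (g₁ h₁ : ↥U) (g' : GQ),
      ‖padicEmbedding q (g' (gval U ((c : ↥U × ↥U → gModOn U) (g₁, h₁))))‖ = 1)
    (h2 : ∀ τ : PadicAlgCl q ≃ₐ[ℚ_[q]] PadicAlgCl q, IsInertial q τ →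
      localGaloisToGlobal q τ ∈ F.fixingSubgroup) (g : GQ) :
    locBr q g U (continuousH2π U.subtype (gModOn U) c) = 0 := by
  have hV := isOpenL_locSub q g hU
  have hin : ∀ i : ↥(locSub q g U),
      IsInertial q (i : PadicAlgCl q ≃ₐ[ℚ_[q]] PadicAlgCl q) →
      ((locHom q g U i : ↥U) : GQ) ∈ F.fixingSubgroup := by
    intro i hi
    rw [locHom_coe]
    exact conj_mem_fixingSubgroup F g (h2 _ hi)
  apply I.inv_injective q _ hV
  rw [map_zero, locBr_mk]
  apply I.inv_unram q _ hV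
  · intro g₁ h₁
    exact h1 (locHom q g U g₁) (locHom q g U h₁) (g⁻¹ : GQ)
  · intro g₁ h₁ i j hi hj
    show locPush q g U (c.1 (locHom q g U (g₁ * i), locHom q g U (h₁ * j))) =
      locPush q g U (c.1 (locHom q g U g₁, locHom q g U h₁))
    rw [map_mul, map_mul, hconst _ _ _ _ (hin i hi) (hin j hj)]
  · intro g₁ h₁ i hi
    show (lModOn q (locSub q g U)).ρ i
        (locPush q g U (c.1 (locHom q g U g₁, locHom q g U h₁))) =
      locPush q g U (c.1 (locHom q g U g₁, locHom q g U h₁))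
    rw [← locPush_equivariant, rho_eq_of_level F c.2.1 hconst _ (hin i hi)]

/-- **REC2-G4.**  Finiteness of the support of a global Brauer class. -/
theorem supportFinite : SupportFiniteSpec := by
  intro I U hU x
  obtain ⟨c, hc⟩ := Submodule.mkQ_surjective _ x
  obtain ⟨F, hFfin, hFn, -, hconst⟩ := exists_normal_level hU c.2.2
  haveI := hFfin
  haveI := hFn
  have hrange := finite_range_of_level F hconst
  have hA : (gval U '' Set.range (c : ↥U × ↥U → gModOn U)).Finite := hrange.image _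
  have hA0 : ∀ a ∈ gval U '' Set.range (c : ↥U × ↥U → gModOn U), a ≠ 0 := by
    rintro _ ⟨m, -, rfl⟩
    exact Units.ne_zero _
  obtain ⟨B₁, hB₁⟩ := exists_bad_primes_norm_finite hA hA0
  obtain ⟨B₂, hB₂⟩ := exists_bad_primes_inertial F
  have hfin : {q : Nat.Primes | (q : ℕ) ∈ B₁ ∪ B₂}.Finite :=
    Set.Finite.preimage (Subtype.val_injective.injOn) (B₁ ∪ B₂).finite_toSet
  have key : ∀ (q : Nat.Primes), (q : ℕ) ∉ B₁ ∪ B₂ → ∀ g : GQ,
      @locBr (q : ℕ) ⟨q.2⟩ g U x = 0 := by
    intro q hq g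
    haveI : Fact (q : ℕ).Prime := ⟨q.2⟩
    rw [Finset.mem_union, not_or] at hq
    rw [← hc]
    exact locBr_eq_zero_of_good I hU c F hconst (q : ℕ)
      (fun g₁ h₁ g' => hB₁ (q : ℕ) hq.1 _ ⟨_, ⟨(g₁, h₁), rfl⟩, rfl⟩ g')
      (fun τ hτ => hB₂ (q : ℕ) hq.2 τ hτ) g
  refine hfin.subset ?_
  intro q hq
  by_contra hq'
  obtain ⟨g, hne⟩ := hq
  exact hne (key q hq' g)

end Fermat.Agent.S55.G.Rec.H181
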