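import Fermat.Agent.S29.H872.Cyclo
import Fermat.Agent.S14.H894.Cyclo
import Fermat.Agent.S54.FrobLift
import Fermat.Prelude.Def_GroupCohomology_ContinuousUnramified

/-!
# S55 / G / REC, leaf N4 : the auxiliary cyclic fields `L(r, n) ⊂ ℚ(ζ_r)`

For a prime `r` and `n ∣ r - 1` we construct, inside `ℚ̄ = AlgebraicClosure ℚ`,

* the character `auxChar63 r n : G_ℚ →* (ℤ/r)ˣ ⧸ ((ℤ/r)ˣ)ⁿ` (the mod `r` cyclotomic character
  of the Prelude followed by the quotient map), and
* the field `auxField63 r n = ℚ̄ ^ ker (auxChar63 r n)`: the subfield of degree `n` of `ℚ(ζ_r)`.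

Main results (all in Prelude language: `ValuationSubring ℚ̄`, `LiesOverPrime`,
`inertiaSubgroupIn`, `IsFrobeniusAt`, `IntermediateField.IsUnramifiedOutside`):

* `cycloChar_surjective63`, `auxChar63_surjective`;
* `card_quotient_powSubgroup63`, `isCyclic_quotient_powSubgroup63` : the target is cyclic of
  order `n`;
* `fixingSubgroup_auxField63 : (auxField63 r n).fixingSubgroup = (auxChar63 r n).ker`;
* `finiteDimensional_auxField63`, `isGalois_auxField63`, `finrank_auxField63 : [L : ℚ] = n`;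
* `auxField63_isUnramifiedOutside` : `L` is unramified outside `{r}`;
* `auxChar63_frobenius` : a Frobenius element at `ℓ ≠ r` is mapped to the class of `ℓ`;
* `exists_inertia_cycloChar_eq63`, `exists_inertia_auxChar_eq63` : `L` is totally ramified at
  `r` (the inertia group of every place over `r` surjects onto `Gal(L/ℚ)`).
-/

set_option autoImplicit false
set_option linter.style.haveILetI false

namespace Fermat.Agent.S55.G.Rec

open ExtCitation Fermat.Agent.S55.Bridge

local notation "Qb" => AlgebraicClosure ℚ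
local notation "GQ" => (AlgebraicClosure ℚ ≃ₐ[ℚ] AlgebraicClosure ℚ)

section defs

variable (r : ℕ) [Fact r.Prime] (n : ℕ)

/-- The subgroup of `n`-th powers of `(ℤ/r)ˣ`. -/
def powSubgroup63 : Subgroup (ZMod r)ˣ := (powMonoidHom n : (ZMod r)ˣ →* (ZMod r)ˣ).range

lemma mem_powSubgroup63 (a : (ZMod r)ˣ) : a ∈ powSubgroup63 r n ↔ ∃ b : (ZMod r)ˣ, b ^ n = a :=
  Iff.rfl

/-- The character `G_ℚ → (ℤ/r)ˣ ⧸ ((ℤ/r)ˣ)ⁿ` cutting out `L(r, n)`. -/
noncomputable def auxChar63 : GQ →* (ZMod r)ˣ ⧸ powSubgroup63 r n :=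
  (QuotientGroup.mk' (powSubgroup63 r n)).comp (cycloChar r)

lemma auxChar63_apply (σ : GQ) :
    auxChar63 r n σ = QuotientGroup.mk' (powSubgroup63 r n) (cycloChar r σ) := rfl

lemma auxChar63_eq_one_iff (σ : GQ) :
    auxChar63 r n σ = 1 ↔ cycloChar r σ ∈ powSubgroup63 r n := by
  rw [auxChar63_apply, QuotientGroup.mk'_apply, QuotientGroup.eq_one_iff]

/-- The auxiliary field `L(r, n)`: the fixed field of the kernel of `auxChar63 r n`. -/
noncomputable def auxField63 : IntermediateField ℚ Qb :=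
  IntermediateField.fixedField (auxChar63 r n).ker

end defs

section surj

variable (r : ℕ) [Fact r.Prime]

/-- `ℚ̄` contains a primitive `r`-th root of unity. -/
theorem exists_primitiveRoot63 : ∃ ζ : Qb, IsPrimitiveRoot ζ r := by
  haveI : NeZero r := ⟨(Fact.out : r.Prime).ne_zero⟩
  exact HasEnoughRootsOfUnity.exists_primitiveRoot Qb r

/-- `cycloChar r σ` is characterised by its action on one primitive root. -/
theorem cycloChar_eq_of_apply63 {ζ : Qb} (hζ : IsPrimitiveRoot ζ r) (σ : GQ) (a : (ZMod r)ˣ)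
    (h : σ ζ = ζ ^ (a : ZMod r).val) : cycloChar r σ = a := by
  have hr : r.Prime := Fact.out
  haveI : NeZero r := ⟨hr.ne_zero⟩
  have h1 := cycloChar_spec r σ (t := (hζ.toRootsOfUnity : Qbˣ)) hζ.toRootsOfUnity.2
  have h2 : ((hζ.toRootsOfUnity : Qbˣ) : Qb) = ζ := rfl
  rw [h2, h] at h1
  have h3 := hζ.pow_inj (ZMod.val_lt _) (ZMod.val_lt _) h1
  apply Units.ext
  exact (ZMod.val_injective r h3).symm

/-- The mod `r` cyclotomic character of `G_ℚ` is surjective. -/
theorem cycloChar_surjective63 : Function.Surjective (cycloChar r) := by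
  intro a
  have hr : r.Prime := Fact.out
  haveI : NeZero r := ⟨hr.ne_zero⟩
  obtain ⟨ζ, hζ⟩ := exists_primitiveRoot63 r
  have hcop : (a : ZMod r).val.Coprime r := ZMod.val_coe_unit_coprime a
  have hζa : IsPrimitiveRoot (ζ ^ (a : ZMod r).val) r := hζ.pow_of_coprime _ hcop
  have hmin : minpoly ℚ (ζ ^ (a : ZMod r).val) = minpoly ℚ ζ := by
    rw [← Polynomial.cyclotomic_eq_minpoly_rat hζ hr.pos,
      ← Polynomial.cyclotomic_eq_minpoly_rat hζa hr.pos]
  haveI : Algebra.IsAlgebraic ℚ Qb := AlgebraicClosure.isAlgebraic ℚ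
  haveI : IsAlgClosure ℚ Qb := ⟨inferInstance, inferInstance⟩
  haveI : Normal ℚ Qb := IsAlgClosure.normal ℚ Qb
  have halg : IsAlgebraic ℚ (ζ ^ (a : ZMod r).val) :=
    (AlgebraicClosure.isAlgebraic ℚ).isAlgebraic _
  obtain ⟨σ, hσ⟩ := minpoly.exists_algEquiv_of_root (K := ℚ) (L := Qb) (x := ζ)
    (y := ζ ^ (a : ZMod r).val) halg (by rw [hmin]; exact minpoly.aeval ℚ ζ)
  exact ⟨σ, cycloChar_eq_of_apply63 r hζ σ a hσ⟩

theorem auxChar63_surjective (n : ℕ) : Function.Surjective (auxChar63 r n) :=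
  (QuotientGroup.mk'_surjective _).comp (cycloChar_surjective63 r)

end surj

section quotient

variable (r : ℕ) [Fact r.Prime] (n : ℕ)

/-- `(ℤ/r)ˣ ⧸ ((ℤ/r)ˣ)ⁿ` has `n` elements when `n ∣ r - 1`. -/
theorem card_quotient_powSubgroup63 (hn : n ∣ r - 1) :
    Nat.card ((ZMod r)ˣ ⧸ powSubgroup63 r n) = n := by
  have hr : r.Prime := Fact.out
  have h1 : Nat.card (ZMod r)ˣ = r - 1 := by
    rw [Nat.card_eq_fintype_card, ZMod.card_units]
  rw [← Subgroup.index_eq_card]
  unfold powSubgroup63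
  rw [IsCyclic.index_powMonoidHom_range, h1]
  exact Nat.gcd_eq_right hn

theorem isCyclic_quotient_powSubgroup63 : IsCyclic ((ZMod r)ˣ ⧸ powSubgroup63 r n) :=
  inferInstance

theorem finite_quotient_powSubgroup63 : Finite ((ZMod r)ˣ ⧸ powSubgroup63 r n) :=
  inferInstance

end quotient

/-- `ℚ(ζ)` is finite over `ℚ`. -/
theorem finiteDimensional_adjoin_root63 (ζ : Qb) :
    FiniteDimensional ℚ (IntermediateField.adjoin ℚ {ζ}) :=
  IntermediateField.adjoin.finiteDimensional
    ((AlgebraicClosure.isAlgebraic ℚ).isAlgebraic ζ).isIntegral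

section galois

variable (r : ℕ) [Fact r.Prime] (n : ℕ)

/-- The kernel of the cyclotomic character is the fixing subgroup of `ℚ(ζ)`. -/
theorem ker_cycloChar_eq63 {ζ : Qb} (hζ : IsPrimitiveRoot ζ r) :
    (cycloChar r).ker = (IntermediateField.adjoin ℚ {ζ}).fixingSubgroup := by
  have hr : r.Prime := Fact.out
  haveI : NeZero r := ⟨hr.ne_zero⟩
  ext σ
  rw [MonoidHom.mem_ker, IntermediateField.mem_fixingSubgroup_iff]
  constructor
  · intro h x hx
    have hfix : ∀ y ∈ ({ζ} : Set Qb), σ y = y := by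
      intro y hy
      rw [Set.mem_singleton_iff] at hy
      subst hy
      have := (cycloChar_eq_one_iff r σ).1 h hζ.toRootsOfUnity hζ.toRootsOfUnity.2
      exact this
    -- the fixed points of `σ` form an intermediate field containing `ζ`
    have hle : IntermediateField.adjoin ℚ {ζ} ≤
        IntermediateField.fixedField (Subgroup.zpowers σ) := by
      rw [IntermediateField.adjoin_le_iff]
      intro y hy
      rw [SetLike.mem_coe, IntermediateField.mem_fixedField_iff]
      intro τ hτ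
      obtain ⟨k, rfl⟩ := Subgroup.mem_zpowers_iff.1 hτ
      have h1 : σ • y = y := hfix y hy
      have : (σ ^ k) • y = y := by
        have hs : σ ∈ MulAction.stabilizer GQ y := h1
        exact (MulAction.stabilizer GQ y).zpow_mem hs k
      exact this
    have := hle hx
    rw [IntermediateField.mem_fixedField_iff] at this
    exact this σ (Subgroup.mem_zpowers σ)
  · intro h
    have hζfix : σ ζ = ζ := h ζ (IntermediateField.subset_adjoin ℚ _ rfl)
    apply cycloChar_eq_of_apply63 r hζ σ 1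
    rw [Units.val_one, ZMod.val_one'' (by exact hr.ne_one), pow_one, hζfix]

theorem isOpen_ker_cycloChar63 : IsOpen ((cycloChar r).ker : Set GQ) := by
  obtain ⟨ζ, hζ⟩ := exists_primitiveRoot63 r
  rw [ker_cycloChar_eq63 r hζ]
  haveI := finiteDimensional_adjoin_root63 ζ
  exact IntermediateField.fixingSubgroup_isOpen _

theorem ker_cycloChar_le_ker_auxChar63 : (cycloChar r).ker ≤ (auxChar63 r n).ker := by
  intro σ hσ
  rw [MonoidHom.mem_ker] at hσ ⊢
  rw [auxChar63_apply, hσ, map_one]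

theorem isOpen_ker_auxChar63 : IsOpen ((auxChar63 r n).ker : Set GQ) :=
  Subgroup.isOpen_mono (ker_cycloChar_le_ker_auxChar63 r n) (isOpen_ker_cycloChar63 r)

theorem isClosed_ker_auxChar63 : IsClosed ((auxChar63 r n).ker : Set GQ) :=
  Subgroup.isClosed_of_isOpen _ (isOpen_ker_auxChar63 r n)

/-- Galois correspondence for `L(r, n)`. -/
theorem fixingSubgroup_auxField63 : (auxField63 r n).fixingSubgroup = (auxChar63 r n).ker := by
  haveI := Fermat.Agent.S54.isGalois_algebraicClosure_rat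
  exact InfiniteGalois.fixingSubgroup_fixedField
    ⟨(auxChar63 r n).ker, isClosed_ker_auxChar63 r n⟩

theorem mem_fixingSubgroup_auxField63 (σ : GQ) :
    σ ∈ (auxField63 r n).fixingSubgroup ↔ cycloChar r σ ∈ powSubgroup63 r n := by
  rw [fixingSubgroup_auxField63, MonoidHom.mem_ker, auxChar63_eq_one_iff]

/-- `L(r, n) ⊆ ℚ(ζ_r)`. -/
theorem auxField63_le_adjoin {ζ : Qb} (hζ : IsPrimitiveRoot ζ r) :
    auxField63 r n ≤ IntermediateField.adjoin ℚ {ζ} := by
  haveI := Fermat.Agent.S54.isGalois_algebraicClosure_rat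
  rw [← InfiniteGalois.fixedField_fixingSubgroup (IntermediateField.adjoin ℚ {ζ}),
    ← ker_cycloChar_eq63 r hζ]
  intro x hx
  rw [IntermediateField.mem_fixedField_iff]
  intro σ hσ
  have hx' := (IntermediateField.mem_fixedField_iff _ x).1 hx
  exact hx' σ (ker_cycloChar_le_ker_auxChar63 r n hσ)

theorem finiteDimensional_auxField63 : FiniteDimensional ℚ (auxField63 r n) := by
  haveI := Fermat.Agent.S54.isGalois_algebraicClosure_rat
  rw [← InfiniteGalois.isOpen_iff_finite, fixingSubgroup_auxField63]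
  exact isOpen_ker_auxChar63 r n

theorem isGalois_auxField63 : IsGalois ℚ (auxField63 r n) := by
  haveI := Fermat.Agent.S54.isGalois_algebraicClosure_rat
  have h : @IsGalois ℚ _ (auxField63 r n) _ (IntermediateField.algebra' _) := by
    rw [← InfiniteGalois.normal_iff_isGalois, fixingSubgroup_auxField63]
    exact MonoidHom.normal_ker _
  convert h
  exact Subsingleton.elim _ _

/-- `[L(r, n) : ℚ] = n` when `n ∣ r - 1`. -/
theorem finrank_auxField63 (hn : n ∣ r - 1) : Module.finrank ℚ (auxField63 r n) = n := by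
  haveI := Fermat.Agent.S54.isGalois_algebraicClosure_rat
  rw [IntermediateField.finrank_eq_fixingSubgroup_index, fixingSubgroup_auxField63,
    Subgroup.index_ker, MonoidHom.range_eq_top.2 (auxChar63_surjective r n),
    Subgroup.card_top, card_quotient_powSubgroup63 r n hn]

end galois

section arithmetic

variable (r : ℕ) [Fact r.Prime] (n : ℕ)

/-- `L(r, n)` is unramified outside `r` (Prelude form). -/
theorem auxField63_isUnramifiedOutside (S : Finset Nat.Primes)
    (hS : (⟨r, Fact.out⟩ : Nat.Primes) ∈ S) : (auxField63 r n).IsUnramifiedOutside S := by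
  refine ⟨finiteDimensional_auxField63 r n, fun q hq A hA σ hσ => ?_⟩
  have hqr : (q : ℕ) ≠ r := by
    rintro h
    apply hq
    have : q = ⟨r, Fact.out⟩ := Subtype.ext h
    rw [this]
    exact hS
  rw [mem_fixingSubgroup_auxField63,
    cycloChar_eq_one_of_mem_inertia r q.2 hqr A hA σ hσ]
  exact one_mem _

/-- The inertia groups at primes `q ≠ r` act trivially on `L(r, n)`. -/
theorem inertia_le_fixingSubgroup_auxField63 {q : ℕ} (hq : q.Prime) (hqr : q ≠ r)
    (A : ValuationSubring Qb) (hA : A.LiesOverPrime q) :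
    A.inertiaSubgroupIn ℚ ≤ (auxField63 r n).fixingSubgroup := by
  intro σ hσ
  rw [mem_fixingSubgroup_auxField63, cycloChar_eq_one_of_mem_inertia r hq hqr A hA σ hσ]
  exact one_mem _

/-- A Frobenius element with exponent `N` at a place over `ℓ ≠ r` acts on `r`-th roots of unity
by `t ↦ t ^ N`. -/
theorem frob_root_eq_pow63 {ℓ : ℕ} (hℓ : ℓ.Prime) (hℓr : ℓ ≠ r)
    (A : ValuationSubring Qb) (hA : A.LiesOverPrime ℓ) (N : ℕ)
    (τ : GQ) (hτ : A.IsFrobeniusAt τ N) {t : Qb} (htr : t ^ r = 1) : τ t = t ^ N := by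
  have hr : r.Prime := Fact.out
  by_contra hne
  have hrv := val_prime_eq_one (A := A) hA hℓ hr hℓr
  have hσt : (τ t) ^ r = 1 := by rw [← map_pow, htr, map_one]
  have htl : (t ^ N) ^ r = 1 := by rw [← pow_mul, mul_comm, pow_mul, htr, one_pow]
  have h1 := val_sub_roots_eq_one (A := A) hr.ne_zero hrv hσt htl hne
  have hvt : A.valuation t ≤ 1 := by
    have h : (A.valuation t) ^ r = 1 := by rw [← map_pow, htr, map_one]
    exact ((pow_eq_one_iff.1 h).resolve_right hr.ne_zero).le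
  have h2 := Fermat.Agent.S29.H872.frob_val_sub_lt_one A hτ t hvt
  rw [h1] at h2
  exact lt_irrefl _ h2

/-- **Cyclotomic character at Frobenius (general exponent).** -/
theorem cycloChar_frobenius63 {ℓ : ℕ} (hℓ : ℓ.Prime) (hℓr : ℓ ≠ r)
    (A : ValuationSubring Qb) (hA : A.LiesOverPrime ℓ) (N : ℕ)
    (τ : GQ) (hτ : A.IsFrobeniusAt τ N) :
    ((cycloChar r τ : (ZMod r)ˣ) : ZMod r) = (N : ZMod r) := by
  have hr : r.Prime := Fact.out
  haveI : NeZero r := ⟨hr.ne_zero⟩
  obtain ⟨ζ, hζ⟩ := exists_primitiveRoot63 r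
  have h1 := cycloChar_spec r τ (t := (hζ.toRootsOfUnity : Qbˣ)) hζ.toRootsOfUnity.2
  have h2 : ((hζ.toRootsOfUnity : Qbˣ) : Qb) = ζ := rfl
  rw [h2, frob_root_eq_pow63 r hℓ hℓr A hA N τ hτ hζ.pow_eq_one] at h1
  have h3 : ζ ^ (N % r) = ζ ^ ((cycloChar r τ : (ZMod r)ˣ) : ZMod r).val := by
    rw [← h1]
    conv_rhs => rw [← Nat.div_add_mod N r, pow_add, pow_mul, hζ.pow_eq_one, one_pow, one_mul]
  have h4 := hζ.pow_inj (Nat.mod_lt _ hr.pos) (ZMod.val_lt _) h3
  rw [← ZMod.natCast_zmod_val ((cycloChar r τ : (ZMod r)ˣ) : ZMod r), ← h4]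
  exact (ZMod.natCast_mod N r)

/-- A Frobenius element at `ℓ ≠ r` is mapped by `auxChar63` to the class of `ℓ`. -/
theorem auxChar63_frobenius {ℓ : ℕ} (hℓ : ℓ.Prime) (hℓr : ℓ ≠ r)
    (A : ValuationSubring Qb) (hA : A.LiesOverPrime ℓ) (N : ℕ)
    (τ : GQ) (hτ : A.IsFrobeniusAt τ N) (u : (ZMod r)ˣ) (hu : (u : ZMod r) = (N : ZMod r)) :
    auxChar63 r n τ = QuotientGroup.mk' (powSubgroup63 r n) u := by
  rw [auxChar63_apply]
  congr 1
  apply Units.ext
  rw [cycloChar_frobenius63 r hℓ hℓr A hA N τ hτ, hu]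

/-- **Total ramification at `r`.** For every place `A` of `ℚ̄` over `r`, the inertia group of
`A` surjects onto `Gal(ℚ(ζ_r)/ℚ)`. -/
theorem exists_inertia_cycloChar_eq63 (A : ValuationSubring Qb) (hA : A.LiesOverPrime r)
    (g : GQ) : ∃ σ ∈ A.inertiaSubgroupIn ℚ, cycloChar r σ = cycloChar r g := by
  have hr : r.Prime := Fact.out
  haveI : NeZero r := ⟨hr.ne_zero⟩
  obtain ⟨ζ, hζ⟩ := exists_primitiveRoot63 r
  have hconj : ∀ τ : GQ, (∀ x ∈ (⊥ : IntermediateField ℚ Qb), τ x = x) →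
      A.valuation (τ (ζ - 1)) = A.valuation (ζ - 1) := by
    intro τ _
    have hτζ : IsPrimitiveRoot (τ ζ) r := hζ.map_of_injective τ.injective
    rw [map_sub, map_one]
    exact Fermat.Agent.S14.H894.valuation_sub_one_eq_of_mem_primitiveRoots A r hr ζ hζ
      ((mem_primitiveRoots hr.pos).2 hτζ)
  have hbot : ∀ x ∈ (⊥ : IntermediateField ℚ Qb), g x = x := by
    intro x hx
    obtain ⟨q, rfl⟩ := IntermediateField.mem_bot.1 hx
    exact g.commutes q
  obtain ⟨σ, hσ, -, hσγ⟩ := Fermat.Agent.S14.H894.exists_inertia_eq_on_adjoin A r hr hA ⊥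
    (ζ - 1) (Fermat.Agent.S14.H894.cycloShift r) (Fermat.Agent.S14.H894.cycloShift_monic r)
    (Fermat.Agent.S14.H894.cycloShift_aeval r hr ζ hζ)
    (Fermat.Agent.S14.H894.cyclo_indep A r hr hA ζ hζ) hconj g hbot
  refine ⟨σ, hσ, ?_⟩
  have hσζ : σ ζ = g ζ := by
    have := hσγ
    rw [map_sub, map_sub, map_one, map_one] at this
    exact sub_left_injective this
  apply cycloChar_eq_of_apply63 r hζ σ (cycloChar r g)
  rw [hσζ]
  exact cycloChar_spec r g (t := (hζ.toRootsOfUnity : Qbˣ)) hζ.toRootsOfUnity.2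

/-- `L(r, n)` is totally ramified at `r`: inertia at `r` surjects onto `Gal(L(r, n)/ℚ)`. -/
theorem exists_inertia_auxChar_eq63 (A : ValuationSubring Qb) (hA : A.LiesOverPrime r)
    (g : GQ) : ∃ σ ∈ A.inertiaSubgroupIn ℚ, auxChar63 r n σ = auxChar63 r n g := by
  obtain ⟨σ, hσ, h⟩ := exists_inertia_cycloChar_eq63 r A hA g
  exact ⟨σ, hσ, by rw [auxChar63_apply, auxChar63_apply, h]⟩

/-- Total ramification, coset form: `G_ℚ = I_A · Gal(ℚ̄ / L(r, n))`. -/
theorem exists_inertia_mul_mem_fixingSubgroup63 (A : ValuationSubring Qb)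
    (hA : A.LiesOverPrime r) (g : GQ) :
    ∃ σ ∈ A.inertiaSubgroupIn ℚ, σ⁻¹ * g ∈ (auxField63 r n).fixingSubgroup := by
  obtain ⟨σ, hσ, h⟩ := exists_inertia_auxChar_eq63 r n A hA g
  refine ⟨σ, hσ, ?_⟩
  rw [fixingSubgroup_auxField63, MonoidHom.mem_ker, map_mul, map_inv, h, inv_mul_cancel]

end arithmetic

end Fermat.Agent.S55.G.Rec
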