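import Fermat.Agent.S55.G.Rec.Reciprocity
import Fermat.Agent.S55.G.Rec.HP.Main
import Fermat.Agent.S55.G.AllH604
import Fermat.Agent.S55.G.Rec.Loc.Glue
import Fermat.Agent.S55.G.Rec.Loc.UnifH544
import Fermat.Agent.S55.G.Rec.Loc.H483.UnramClosed
import Fermat.Agent.S55.G.Rec.Loc.DownH363
import Fermat.Agent.S55.G.Rec.Loc.RefineH63
import Fermat.Agent.S55.G.Rec.Loc.ResH480
import Fermat.Agent.S55.L.InvClosed

/-!
# S55 / layer G / block REC : CLOSED (unconditional) forms  (helper904)

Pure assembly of theorems on main; no new mathematics.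

* `nonempty_localInvSystem : Nonempty LocalInvSystem`   (block REC-LOC closed);
* `hassePrinciple p (hp2) : HassePrincipleSpec p`        (adapter HP closed with layer G);
* `reciprocity p (hp2) I : ReciprocitySpec I p`          (for EVERY local invariant system);
* `exists_reciprocity : ∃ I, ∀ p odd prime, ReciprocitySpec I p`.
-/

set_option autoImplicit false

namespace Fermat.Agent.S55.G.Rec.H904

open Fermat.Agent.S55 Fermat.Agent.S55.G.Rec

/-- **REC-LOC, closed**: a system of local invariant maps exists. -/
theorem nonempty_localInvSystem : Nonempty LocalInvSystem :=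
  Loc.nonempty_localInvSystem_of L.Closed.inv Loc.H478.openSpec Loc.H894.descent Loc.H839.up
    Loc.H363.down Loc.H63.refine63 (Loc.H480.res_of Loc.H478.openSpec Loc.H894.descent)
    Loc.H483.unram Loc.H544.unif

/-- **Hasse principle, closed** (`p` odd). -/
theorem hassePrinciple (p : ℕ) [Fact p.Prime] (hp2 : p ≠ 2) : HassePrincipleSpec p :=
  HP.hassePrinciple p hp2 G.AllH604.pClassUpper G.AllH604.classShortExact G.AllH604.shapiroJ

/-- **Reciprocity law, closed** (`p` odd), for every local invariant system. -/
theorem reciprocity (I : LocalInvSystem) (p : ℕ) [Fact p.Prime] (hp2 : p ≠ 2) :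
    ReciprocitySpec I p :=
  Rec.reciprocity I p hp2 (hassePrinciple p hp2)

/-- **Reciprocity law, closed**: existence form. -/
theorem exists_reciprocity :
    ∃ I : LocalInvSystem, ∀ (p : ℕ) [Fact p.Prime], p ≠ 2 → ReciprocitySpec I p :=
  nonempty_localInvSystem.elim fun I => ⟨I, fun p _ hp2 => reciprocity I p hp2⟩

end Fermat.Agent.S55.G.Rec.H904
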