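import Fermat.Agent.S55.G.Rec.Defs

/-!
# S55 / layer G / block REC : FROZEN INTERFACE (cochain level, Prelude style)

Sub-architect: helper1.  Blueprint: `origin/helper1:coord/S55-G-REC.md`.

* `LocalInvSystem` : what REC consumes from the local layer (invariant maps on the Brauer groups
  `lBr q V` of ALL finite extensions of `ℚ_q` inside `PadicAlgCl q`: injective, restriction
  multiplies by the degree, vanishing on unramified unit cocycles, normalisation on unramified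
  cyclic classes).
* `HassePrincipleSpec p` : what REC consumes from the inequalities
  (`Br(K)(p) ↪ ∏_v Br(K_v)`, `K` any number field inside `ℚ̄`).
* `ReciprocitySpec I p` : the deliverable, `∑_v inv_v (x_v) = 0` for `x ∈ Br(K)(p)`.

All statements are about level-constant cochains on subgroups of `G_ℚ`, `G_{ℚ_q}` with values in
`ℚ̄ˣ`, `ℚ̄_qˣ` (see `Defs.lean`); inflation is invisible, restriction is restriction of functions.
-/

set_option autoImplicit false

noncomputable section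

namespace Fermat.Agent.S55.G.Rec

open groupCohomology

local notation "Qb" => AlgebraicClosure ℚ
local notation "GQ" => (AlgebraicClosure ℚ ≃ₐ[ℚ] AlgebraicClosure ℚ)

/-! ## Cyclic ("cup with a character") cocycles -/

/-- `c` is the 2-cochain `(g, h) ↦ ε_χ(g, h) • a`, where `ε_χ(g, h) = (χ̃ g + χ̃ h) / n ∈ {0, 1}`
is the carry of the canonical lifts `χ̃ ∈ {0, …, n-1}` of the character `χ : G → ℤ/n`.
(For `a` invariant this is the cup product of `a` with `δχ ∈ H²(G, ℤ)`.) -/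
def IsCupChar {G A : Type*} [Group G] [AddCommGroup A] {n : ℕ} (a : A)
    (χ : G →* Multiplicative (ZMod n)) (c : G × G → A) : Prop :=
  ∀ g h : G, c (g, h) =
    (((Multiplicative.toAdd (χ g)).val + (Multiplicative.toAdd (χ h)).val) / n) • a

/-! ## Local arithmetic vocabulary (inside `PadicAlgCl q`, norm = the `q`-adic norm) -/

section Local

variable (q : ℕ) [Fact q.Prime]

local notation "Gq" => (PadicAlgCl q ≃ₐ[ℚ_[q]] PadicAlgCl q)

/-- `τ` acts trivially on the residue field of `ℚ̄_q`. -/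
def IsInertial (τ : Gq) : Prop := ∀ x : PadicAlgCl q, ‖x‖ ≤ 1 → ‖τ x - x‖ < 1

/-- `x` lies in the fixed field `K_v` of `V`. -/
def IsFixedBy (V : Subgroup Gq) (x : PadicAlgCl q) : Prop := ∀ τ ∈ V, τ x = x

/-- `f` is the residue degree of the fixed field of `V`: its residue field is `𝔽_{q^f}`. -/
def IsResidueDegree (V : Subgroup Gq) (f : ℕ) : Prop :=
  0 < f ∧ (∀ x, IsFixedBy q V x → ‖x‖ ≤ 1 → ‖x ^ (q ^ f) - x‖ < 1) ∧
    ∀ m, 0 < m → (∀ x, IsFixedBy q V x → ‖x‖ ≤ 1 → ‖x ^ (q ^ m) - x‖ < 1) → f ≤ m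

/-- `φ ∈ V` is an (arithmetic) Frobenius element of the fixed field of `V`: it acts on the
residue field of `ℚ̄_q` by `x ↦ x ^ (q ^ f)`, `f` the residue degree. -/
def IsFrobenius (V : Subgroup Gq) (φ : Gq) : Prop :=
  φ ∈ V ∧ ∃ f, IsResidueDegree q V f ∧ ∀ x : PadicAlgCl q, ‖x‖ ≤ 1 → ‖φ x - x ^ (q ^ f)‖ < 1

/-- `π` is a uniformizer of the fixed field of `V`. -/
def IsUniformizer (V : Subgroup Gq) (π : PadicAlgCl q) : Prop :=
  IsFixedBy q V π ∧ π ≠ 0 ∧ ‖π‖ < 1 ∧ ∀ x, IsFixedBy q V x → ‖x‖ < 1 → ‖x‖ ≤ ‖π‖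

end Local

/-! ## The local interface -/

/-- A system of local invariant maps `inv_{K_v} : Br(K_v) → ℚ/ℤ` for all finite extensions
`K_v = ℚ̄_q^V` of `ℚ_q` (all primes `q`). -/
structure LocalInvSystem where
  /-- the invariant map -/
  inv : ∀ (q : ℕ) [Fact q.Prime] (V : Subgroup (PadicAlgCl q ≃ₐ[ℚ_[q]] PadicAlgCl q)),
    lBr q V →+ AddCircle (1 : ℚ)
  /-- `inv` is injective -/
  inv_injective : ∀ (q : ℕ) [Fact q.Prime] (V : Subgroup (PadicAlgCl q ≃ₐ[ℚ_[q]] PadicAlgCl q)),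
    IsOpenL q V → Function.Injective (inv q V)
  /-- restriction multiplies the invariant by the degree -/
  inv_res : ∀ (q : ℕ) [Fact q.Prime] (V V' : Subgroup (PadicAlgCl q ≃ₐ[ℚ_[q]] PadicAlgCl q))
    (h : V' ≤ V), IsOpenL q V' → ∀ x : lBr q V,
      inv q V' (lRes q h x) = V'.relIndex V • inv q V x
  /-- unramified cocycles with unit values are trivial (`H²(Gal(K^{ur}/K), 𝒪^×) = 0`):
  if `c` has values of norm `1`, is invariant under right translation by inertial elements and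
  its values are fixed by the inertial elements of `V`, then `inv c = 0`. -/
  inv_unram : ∀ (q : ℕ) [Fact q.Prime] (V : Subgroup (PadicAlgCl q ≃ₐ[ℚ_[q]] PadicAlgCl q)),
    IsOpenL q V → ∀ c : ↥(levelCocycles₂ (lHom q V) (lModOn q V)),
      (∀ g h : ↥V, ‖((Additive.toMul ((c : ↥V × ↥V → lModOn q V) (g, h)) :
        (PadicAlgCl q)ˣ) : PadicAlgCl q)‖ = 1) →
      (∀ g h i j : ↥V, IsInertial q (i : PadicAlgCl q ≃ₐ[ℚ_[q]] PadicAlgCl q) →
        IsInertial q (j : PadicAlgCl q ≃ₐ[ℚ_[q]] PadicAlgCl q) →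
        (c : ↥V × ↥V → lModOn q V) (g * i, h * j) = (c : ↥V × ↥V → lModOn q V) (g, h)) →
      (∀ g h i : ↥V, IsInertial q (i : PadicAlgCl q ≃ₐ[ℚ_[q]] PadicAlgCl q) →
        (lModOn q V).ρ i ((c : ↥V × ↥V → lModOn q V) (g, h)) =
          (c : ↥V × ↥V → lModOn q V) (g, h)) →
      inv q V (continuousH2π (lHom q V) (lModOn q V) c) = 0
  /-- normalisation: `inv (π ∪ δχ) = χ(Frob)` for unramified `χ` -/
  inv_unif : ∀ (q : ℕ) [Fact q.Prime] (V : Subgroup (PadicAlgCl q ≃ₐ[ℚ_[q]] PadicAlgCl q)),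
    IsOpenL q V → ∀ (n : ℕ) [NeZero n] (χ : ↥V →* Multiplicative (ZMod n)),
      (∀ τ : ↥V, IsInertial q (τ : PadicAlgCl q ≃ₐ[ℚ_[q]] PadicAlgCl q) → χ τ = 1) →
      ∀ (φ : PadicAlgCl q ≃ₐ[ℚ_[q]] PadicAlgCl q) (hφ : IsFrobenius q V φ),
      ∀ π : (PadicAlgCl q)ˣ, IsUniformizer q V (π : PadicAlgCl q) →
      ∀ c : ↥(levelCocycles₂ (lHom q V) (lModOn q V)),
        IsCupChar (toLMod q V π) χ
          (c : ↥V × ↥V → lModOn q V) →
        inv q V (continuousH2π (lHom q V) (lModOn q V) c) =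
          (((((Multiplicative.toAdd (χ ⟨φ, hφ.1⟩)).val : ℚ) / (n : ℚ) : ℚ)) : AddCircle (1 : ℚ))

/-! ## Global statements -/

/-- The local invariant of a global class at the place of `ℚ̄^U` induced by `ι_q ∘ g⁻¹`. -/
def LocalInvSystem.invAt (I : LocalInvSystem) (q : Nat.Primes) (g : GQ) (U : Subgroup GQ)
    (x : gBr U) : AddCircle (1 : ℚ) :=
  haveI : Fact (q : ℕ).Prime := ⟨q.2⟩
  I.inv (q : ℕ) (locSub (q : ℕ) g U) (locBr (q : ℕ) g U x)

/-- **Hasse principle** (`p`-primary part): a class of `p`-power order in `Br(K)` which is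
trivial at all finite places is trivial.  (`K = ℚ̄^U` any number field.) -/
def HassePrincipleSpec (p : ℕ) : Prop :=
  ∀ (U : Subgroup GQ), IsOpenQ U → ∀ x : gBr U, (∃ k : ℕ, p ^ k • x = 0) →
    (∀ (q : ℕ) [Fact q.Prime] (g : GQ), locBr q g U x = 0) → x = 0

/-- **Reciprocity law** (`p`-primary part): for `x ∈ Br(K)` of `p`-power order, almost all local
invariants vanish and `∑_v inv_v (x_v) = 0`, the sum over all finite places `v` of `K`
(= over all primes `q` and representatives of `U \\ G_ℚ / D_q`). -/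
def ReciprocitySpec (I : LocalInvSystem) (p : ℕ) : Prop :=
  ∀ (U : Subgroup GQ), IsOpenQ U → ∀ x : gBr U, (∃ k : ℕ, p ^ k • x = 0) →
    ∀ R : Nat.Primes → Finset GQ,
      (∀ q : Nat.Primes,
        haveI : Fact (q : ℕ).Prime := ⟨q.2⟩
        IsDoubleCosetReps U (localGaloisToGlobal (q : ℕ)).range (R q)) →
      (Function.support fun q : Nat.Primes => ∑ r ∈ R q, I.invAt q r U x).Finite ∧
        ∑ᶠ q : Nat.Primes, ∑ r ∈ R q, I.invAt q r U x = 0

end Fermat.Agent.S55.G.Rec
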