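import Mathlib
import Fermat.Prelude.Def_EllipticCurve_FrobeniusTrace
import Fermat.Prelude.Def_GroupCohomology_ContinuousUnramified

/-!
# S55 / G / REC — leaf N4 (helper721), part 1: roots of unity, inertia and Frobenius

Prelude language: valuation subrings `A` of `ℚ̄` lying over a prime `q`.

* `eq_of_valuation_sub_lt_one`: reduction modulo `A` is injective on roots of unity of
  order prime to `q`.
* `inertia_apply_root`: inertia at `A` fixes roots of unity of order prime to `q`.
* `decomp_apply_root`: an element of the decomposition group acting as `x ↦ x ^ N` on the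
  residue field maps such a root of unity `ζ` to `ζ ^ N`;
* `frobenius_apply_root`: a Frobenius at `q` (`A.IsFrobeniusAt τ q`) maps `ζ` to `ζ ^ q`.
-/

set_option autoImplicit false

namespace Fermat.Agent.S55.G.Rec.H721

/-- `ℚ̄`. -/
abbrev Qb : Type := AlgebraicClosure ℚ

/-- `Gal(ℚ̄/ℚ)`. -/
abbrev GQ : Type := Qb ≃ₐ[ℚ] Qb

variable {A : ValuationSubring Qb}

theorem valuation_natCast_le_one (n : ℕ) : A.valuation (n : Qb) ≤ 1 :=
  (A.valuation_le_one_iff _).mpr (natCast_mem A n)

theorem valuation_intCast_le_one (n : ℤ) : A.valuation (n : Qb) ≤ 1 :=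
  (A.valuation_le_one_iff _).mpr (intCast_mem A n)

/-- An integer prime to `q` is a unit at every place over `q`. -/
theorem valuation_natCast_eq_one {q m : ℕ} (hA : A.LiesOverPrime q) (hqm : Nat.Coprime q m) :
    A.valuation (m : Qb) = 1 := by
  have hq' : A.valuation (q : Qb) < 1 := (A.mem_nonunits_iff).mp hA
  have hcop : IsCoprime (q : ℤ) (m : ℤ) := by
    rw [Int.isCoprime_iff_gcd_eq_one, Int.gcd_natCast_natCast]
    exact hqm
  obtain ⟨u, w, huw⟩ := hcop
  have h1 : (u : Qb) * (q : Qb) + (w : Qb) * (m : Qb) = 1 := by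
    exact_mod_cast congrArg (Int.cast : ℤ → Qb) huw
  have hsmall : A.valuation ((u : Qb) * (q : Qb)) < 1 := by
    rw [map_mul]
    exact (mul_le_of_le_one_left' (valuation_intCast_le_one u)).trans_lt hq'
  have hwn : A.valuation ((w : Qb) * (m : Qb)) = 1 := by
    have : (w : Qb) * (m : Qb) = 1 + -((u : Qb) * (q : Qb)) := by linear_combination h1
    rw [this, (A.valuation).map_add_eq_of_lt_left
      (by rw [Valuation.map_neg, map_one]; exact hsmall), map_one]
  rw [map_mul] at hwn
  refine le_antisymm (valuation_natCast_le_one m) ?_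
  calc (1 : A.ValueGroup)
      = A.valuation (w : Qb) * A.valuation (m : Qb) := hwn.symm
    _ ≤ 1 * A.valuation (m : Qb) := mul_le_mul_left (valuation_intCast_le_one w) _
    _ = A.valuation (m : Qb) := one_mul _

/-- Roots of unity are units of `A`. -/
theorem valuation_root_eq_one {η : Qb} {m : ℕ} (hm : m ≠ 0) (hη : η ^ m = 1) :
    A.valuation η = 1 := by
  have h : (A.valuation η) ^ m = 1 := by rw [← map_pow, hη, map_one]
  exact (pow_eq_one_iff.mp h).resolve_right hm

theorem root_mem {η : Qb} {m : ℕ} (hm : m ≠ 0) (hη : η ^ m = 1) : η ∈ A :=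
  (A.valuation_le_one_iff _).mp (valuation_root_eq_one hm hη).le

/-- `1 - η` is a unit at places prime to the order of the root of unity `η ≠ 1`. -/
theorem valuation_one_sub_root_eq_one {q m : ℕ} (hA : A.LiesOverPrime q)
    (hqm : Nat.Coprime q m) {η : Qb} (hη : η ^ m = 1) (hη1 : η ≠ 1) :
    A.valuation (1 - η) = 1 := by
  have hm : m ≠ 0 := by
    rintro rfl
    have : q = 1 := by simpa using hqm
    subst this
    have h1 : A.valuation ((1 : ℕ) : Qb) < 1 := (A.mem_nonunits_iff).mp hA
    simp at h1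
  have hηA : A.valuation η = 1 := valuation_root_eq_one hm hη
  have hle : A.valuation (1 - η) ≤ 1 := by
    refine (A.valuation_le_one_iff _).mpr (A.sub_mem ?_ (root_mem hm hη))
    exact A.one_mem
  have hsum : ∑ i ∈ Finset.range m, η ^ i = 0 := by
    have h := geom_sum_mul η m
    rw [hη, sub_self] at h
    rcases mul_eq_zero.mp h with h | h
    · exact h
    · exact absurd (sub_eq_zero.mp h) hη1
  -- `m = ∑ (1 - η ^ i) = (1 - η) * ∑ ∑ η ^ j`
  have hkey : (m : Qb) = (1 - η) * ∑ i ∈ Finset.range m, ∑ j ∈ Finset.range i, η ^ j := by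
    have h2 : ∀ i : ℕ, 1 - η ^ i = (1 - η) * ∑ j ∈ Finset.range i, η ^ j := by
      intro i
      have := mul_neg_geom_sum η i
      rw [← this]
    calc (m : Qb) = ∑ i ∈ Finset.range m, (1 - η ^ i) := by
          rw [Finset.sum_sub_distrib, hsum]; simp
      _ = ∑ i ∈ Finset.range m, (1 - η) * ∑ j ∈ Finset.range i, η ^ j :=
          Finset.sum_congr rfl fun i _ => h2 i
      _ = _ := by rw [Finset.mul_sum]
  have hS : A.valuation (∑ i ∈ Finset.range m, ∑ j ∈ Finset.range i, η ^ j) ≤ 1 := by
    refine (A.valuation_le_one_iff _).mpr ?_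
    refine A.toSubring.sum_mem fun i _ => A.toSubring.sum_mem fun j _ => ?_
    exact A.toSubring.pow_mem (root_mem hm hη) j
  have hm1 : A.valuation (m : Qb) = 1 := valuation_natCast_eq_one hA hqm
  rw [hkey, map_mul] at hm1
  refine le_antisymm hle ?_
  calc (1 : A.ValueGroup) = A.valuation (1 - η) * A.valuation _ := hm1.symm
    _ ≤ A.valuation (1 - η) * 1 := mul_le_mul_right hS _
    _ = A.valuation (1 - η) := mul_one _

/-- Reduction modulo the maximal ideal of `A` is injective on roots of unity of order prime to the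
residue characteristic. -/
theorem eq_of_valuation_sub_lt_one {q m : ℕ} (hA : A.LiesOverPrime q) (hqm : Nat.Coprime q m)
    {ζ ξ : Qb} (hζ : ζ ^ m = 1) (hξ : ξ ^ m = 1) (h : A.valuation (ζ - ξ) < 1) : ζ = ξ := by
  by_contra hne
  have hm : m ≠ 0 := by
    rintro rfl
    have : q = 1 := by simpa using hqm
    subst this
    have h1 : A.valuation ((1 : ℕ) : Qb) < 1 := (A.mem_nonunits_iff).mp hA
    simp at h1
  have hζ0 : ζ ≠ 0 := by
    rintro rfl
    rw [zero_pow hm] at hζ
    exact zero_ne_one hζ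
  set η : Qb := ξ / ζ with hηdef
  have hη : η ^ m = 1 := by rw [hηdef, div_pow, hζ, hξ, div_one]
  have hη1 : η ≠ 1 := by
    intro h1
    rw [hηdef, div_eq_one_iff_eq hζ0] at h1
    exact hne h1.symm
  have hval := valuation_one_sub_root_eq_one hA hqm hη hη1
  have hfac : ζ - ξ = ζ * (1 - η) := by
    rw [hηdef]; field_simp
  rw [hfac, map_mul, hval, valuation_root_eq_one hm hζ, one_mul] at h
  exact lt_irrefl _ h

/-- Elements of the inertia group act trivially modulo the maximal ideal. -/
theorem inertia_valuation_sub_lt_one {σ : GQ} (hσ : σ ∈ A.inertiaSubgroupIn ℚ) (z : Qb)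
    (hz : z ∈ A) : A.valuation (σ z - z) < 1 := by
  obtain ⟨g, hg, rfl⟩ := hσ
  have h1 : MulSemiringAction.toRingAut (A.decompositionSubgroup ℚ)
      (IsLocalRing.ResidueField A) g = 1 := hg
  have h2 : g • (IsLocalRing.residue A ⟨z, hz⟩) = IsLocalRing.residue A ⟨z, hz⟩ := by
    have := congrArg (fun f => f (IsLocalRing.residue A ⟨z, hz⟩)) h1
    simpa using this
  rw [← IsLocalRing.ResidueField.residue_smul] at h2
  have h3 : (g • (⟨z, hz⟩ : A)) - ⟨z, hz⟩ ∈ IsLocalRing.maximalIdeal A := by
    rw [← Ideal.Quotient.eq]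
    exact h2
  rw [ValuationSubring.valuation_lt_one_iff] at h3
  exact h3

/-- Inertia at a place over `q` fixes the roots of unity of order prime to `q`. -/
theorem inertia_apply_root {q m : ℕ} (hA : A.LiesOverPrime q) (hqm : Nat.Coprime q m)
    {σ : GQ} (hσ : σ ∈ A.inertiaSubgroupIn ℚ) {ζ : Qb} (hζ : ζ ^ m = 1) : σ ζ = ζ := by
  have hm : m ≠ 0 := by
    rintro rfl
    have : q = 1 := by simpa using hqm
    subst this
    have h1 : A.valuation ((1 : ℕ) : Qb) < 1 := (A.mem_nonunits_iff).mp hA
    simp at h1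
  refine eq_of_valuation_sub_lt_one hA hqm ?_ hζ
    (inertia_valuation_sub_lt_one hσ ζ (root_mem hm hζ))
  rw [← map_pow, hζ, map_one]

/-- If `τ` lies in the decomposition group of `A` and acts on the residue field as `x ↦ x ^ N`,
then `τ ζ = ζ ^ N` for every root of unity `ζ` of order prime to the residue characteristic. -/
theorem decomp_apply_root {q m N : ℕ} (hA : A.LiesOverPrime q) (hqm : Nat.Coprime q m)
    {τ : GQ} (hτ : τ ∈ A.decompositionSubgroup ℚ)
    (hN : ∀ x : IsLocalRing.ResidueField A,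
      (⟨τ, hτ⟩ : A.decompositionSubgroup ℚ) • x = x ^ N)
    {ζ : Qb} (hζ : ζ ^ m = 1) : τ ζ = ζ ^ N := by
  have hm : m ≠ 0 := by
    rintro rfl
    have : q = 1 := by simpa using hqm
    subst this
    have h1 : A.valuation ((1 : ℕ) : Qb) < 1 := (A.mem_nonunits_iff).mp hA
    simp at h1
  have hζA : ζ ∈ A := root_mem hm hζ
  have h2 := hN (IsLocalRing.residue A ⟨ζ, hζA⟩)
  rw [← IsLocalRing.ResidueField.residue_smul, ← map_pow] at h2
  have h3 : ((⟨τ, hτ⟩ : A.decompositionSubgroup ℚ) • (⟨ζ, hζA⟩ : A)) - (⟨ζ, hζA⟩ : A) ^ N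
      ∈ IsLocalRing.maximalIdeal A := by
    rw [← Ideal.Quotient.eq]
    exact h2
  rw [ValuationSubring.valuation_lt_one_iff] at h3
  refine eq_of_valuation_sub_lt_one hA hqm ?_ ?_ h3
  · rw [← map_pow, hζ, map_one]
  · rw [← pow_mul, mul_comm, pow_mul, hζ, one_pow]

/-- A Frobenius element at a place over `q` raises roots of unity of order prime to `q` to the
`q`-th power. -/
theorem frobenius_apply_root {q m : ℕ} (hA : A.LiesOverPrime q) (hqm : Nat.Coprime q m)
    {τ : GQ} (hτ : A.IsFrobeniusAt τ q) {ζ : Qb} (hζ : ζ ^ m = 1) : τ ζ = ζ ^ q :=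
  decomp_apply_root hA hqm hτ.mem_decompositionSubgroup hτ.smul_residue_eq hζ

end Fermat.Agent.S55.G.Rec.H721
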