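import Mathlib
import Fermat.Prelude.Def_GaloisRep_CompletionBridge
import Fermat.Prelude.Def_GroupCohomology_ContinuousH2Map

/-!
# S55 / layer G / block REC : definitions (cochain level, Prelude style)

Ground-truth objects for the Hasse principle and the reciprocity law, stated with the SAME
level-constant cochains as the Prelude (`groupCohomology.continuousH2`), so that no finite-level
module (`E(F)`, `J(F)`, `C(F)`) enters the statements.

* `gBr U` : the Brauer group `H²_cont(U, ℚ̄ˣ)` of the fixed field `K = ℚ̄^U` of an open subgroup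
  `U ≤ G_ℚ` (level-constant cocycles on `U` modulo coboundaries of level-constant cochains).
* `lBr q V` : the Brauer group `H²_cont(V, ℚ̄_qˣ)` of the fixed field of an open subgroup
  `V ≤ G_{ℚ_q} = Gal(ℚ̄_q/ℚ_q)`.
* `locSub q g U`, `locBr q g U : gBr U → lBr q (locSub q g U)` : localisation at the place of `K`
  induced by the embedding `ι_q ∘ g⁻¹ : ℚ̄ → ℚ̄_q`  (`ι_q` = Prelude `padicEmbedding q`).
  The places of `K` above `q` are the double cosets `U \ G_ℚ / D_q`, `D_q = range (localGaloisToGlobal q)`.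
* `gRes`, `lRes` : restriction to a smaller subgroup.
-/

set_option autoImplicit false

noncomputable section

namespace Fermat.Agent.S55.G.Rec

open groupCohomology

local notation "Qb" => AlgebraicClosure ℚ
local notation "GQ" => (AlgebraicClosure ℚ ≃ₐ[ℚ] AlgebraicClosure ℚ)

/-! ## Global objects -/

/-- `ℚ̄ˣ` as a `G_ℚ`-module. -/
noncomputable abbrev gMod : Rep ℤ GQ := Rep.ofAlgebraAutOnUnits ℚ Qb

/-- `ℚ̄ˣ` as a `U`-module. -/
noncomputable abbrev gModOn (U : Subgroup GQ) : Rep ℤ ↥U := Rep.res U.subtype gMod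

/-- An element of `ℚ̄ˣ` as an element of the module `gModOn U`. -/
def toGMod (U : Subgroup GQ) (a : Qbˣ) : gModOn U := Additive.ofMul a

/-- `U ≤ G_ℚ` is open: it contains `Gal(ℚ̄/F)` for some number field `F`. -/
def IsOpenQ (U : Subgroup GQ) : Prop :=
  ∃ F : IntermediateField ℚ Qb, FiniteDimensional ℚ F ∧ F.fixingSubgroup ≤ U

/-- The Brauer group of the fixed field of `U`. -/
abbrev gBr (U : Subgroup GQ) : Type := continuousH2 U.subtype (gModOn U)

/-- Restriction `Br(K) → Br(K')`, `K' = ℚ̄^{U'}`, `U' ≤ U`. -/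
noncomputable def gRes {U U' : Subgroup GQ} (h : U' ≤ U) : gBr U →ₗ[ℤ] gBr U' :=
  continuousH2Map (rH := U.subtype) (rG := U'.subtype) (Subgroup.inclusion h) (fun _ => rfl)
    (LinearMap.id : gModOn U →ₗ[ℤ] gModOn U') (fun _ _ => rfl)

/-! ## Local objects -/

section Local

variable (q : ℕ) [Fact q.Prime]

local notation "Gq" => (PadicAlgCl q ≃ₐ[ℚ_[q]] PadicAlgCl q)

/-- `ℚ̄_qˣ` as a `G_{ℚ_q}`-module. -/
noncomputable abbrev lMod : Rep ℤ Gq := Rep.ofAlgebraAutOnUnits ℚ_[q] (PadicAlgCl q)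

/-- `ℚ̄_qˣ` as a `V`-module. -/
noncomputable abbrev lModOn (V : Subgroup Gq) : Rep ℤ ↥V := Rep.res V.subtype (lMod q)

/-- An element of `ℚ̄_qˣ` as an element of the module `lModOn q V`. -/
def toLMod (V : Subgroup Gq) (a : (PadicAlgCl q)ˣ) : lModOn q V := Additive.ofMul a

/-- The map `V → G_{ℚ_q} → G_ℚ` used by the Prelude to define level-constancy. -/
noncomputable abbrev lHom (V : Subgroup Gq) : ↥V →* GQ :=
  (localGaloisToGlobal q).comp V.subtype

/-- `V ≤ G_{ℚ_q}` is open. -/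
def IsOpenL (V : Subgroup Gq) : Prop :=
  ∃ E : IntermediateField ℚ_[q] (PadicAlgCl q), FiniteDimensional ℚ_[q] E ∧ E.fixingSubgroup ≤ V

/-- The Brauer group of the fixed field of `V`. -/
abbrev lBr (V : Subgroup Gq) : Type := continuousH2 (lHom q V) (lModOn q V)

/-- Restriction `Br(K_v) → Br(K'_w)`. -/
noncomputable def lRes {V V' : Subgroup Gq} (h : V' ≤ V) : lBr q V →ₗ[ℤ] lBr q V' :=
  continuousH2Map (rH := lHom q V) (rG := lHom q V') (Subgroup.inclusion h) (fun _ => rfl)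
    (LinearMap.id : lModOn q V →ₗ[ℤ] lModOn q V') (fun _ _ => rfl)

/-! ## Localisation -/

/-- The decomposition-type subgroup `{τ ∈ G_{ℚ_q} | g · loc(τ) · g⁻¹ ∈ U}`: the absolute Galois
group of the completion of `K = ℚ̄^U` at the place induced by `ι_q ∘ g⁻¹`. -/
def locSub (g : GQ) (U : Subgroup GQ) : Subgroup Gq :=
  (U.comap (MulAut.conj g).toMonoidHom).comap (localGaloisToGlobal q)

variable {q} in
lemma mem_locSub {g : GQ} {U : Subgroup GQ} {τ : Gq} :
    τ ∈ locSub q g U ↔ g * localGaloisToGlobal q τ * g⁻¹ ∈ U := Iff.rfl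

/-- `τ ↦ g · loc(τ) · g⁻¹`. -/
noncomputable def locHom (g : GQ) (U : Subgroup GQ) : ↥(locSub q g U) →* ↥U where
  toFun τ := ⟨g * localGaloisToGlobal q τ * g⁻¹, τ.2⟩
  map_one' := by ext1; simp
  map_mul' a b := by ext1; simp [mul_assoc]

@[simp] lemma locHom_coe (g : GQ) (U : Subgroup GQ) (τ : ↥(locSub q g U)) :
    ((locHom q g U τ : ↥U) : GQ) = g * localGaloisToGlobal q τ * g⁻¹ := rfl

/-- The coefficient map `ℚ̄ˣ → ℚ̄_qˣ`, `x ↦ ι_q (g⁻¹ x)`. -/
noncomputable def locPushMul (g : GQ) : Qbˣ →* (PadicAlgCl q)ˣ :=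
  (Units.map ((padicEmbedding q : Qb →ₐ[ℚ] PadicAlgCl q) : Qb →* PadicAlgCl q)).comp
    (MulDistribMulAction.toMonoidHom Qbˣ g⁻¹)

@[simp] lemma locPushMul_coe (g : GQ) (x : Qbˣ) :
    ((locPushMul q g x : (PadicAlgCl q)ˣ) : PadicAlgCl q) = padicEmbedding q (g⁻¹ (x : Qb)) := rfl

/-- The coefficient map as a `ℤ`-linear map of the underlying modules. -/
noncomputable def locPush (g : GQ) (U : Subgroup GQ) :
    gModOn U →ₗ[ℤ] lModOn q (locSub q g U) :=
  (MonoidHom.toAdditive (locPushMul q g)).toIntLinearMap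

lemma locPush_apply (g : GQ) (U : Subgroup GQ) (a : gModOn U) :
    locPush q g U a = Additive.ofMul (locPushMul q g (Additive.toMul a)) := rfl

lemma locPush_equivariant (g : GQ) (U : Subgroup GQ) (τ : ↥(locSub q g U)) (a : gModOn U) :
    locPush q g U ((gModOn U).ρ (locHom q g U τ) a) =
      (lModOn q (locSub q g U)).ρ τ (locPush q g U a) := by
  apply Additive.toMul.injective
  apply Units.ext
  show padicEmbedding q (g⁻¹ ((g * localGaloisToGlobal q τ * g⁻¹) ((Additive.toMul a : Qbˣ) : Qb)))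
    = (τ : Gq) (padicEmbedding q (g⁻¹ ((Additive.toMul a : Qbˣ) : Qb)))
  rw [← padicEmbedding_localGaloisToGlobal]
  congr 1
  simp [AlgEquiv.mul_apply]

/-! ### Level-constancy is preserved by localisation -/

/-- Conjugation-invariance of levels: `s` fixes `g⁻¹ F` iff `g s g⁻¹` fixes `F`. -/
lemma mem_fixingSubgroup_map_inv (F : IntermediateField ℚ Qb) (g s : GQ) :
    s ∈ (F.map (g⁻¹ : GQ).toAlgHom).fixingSubgroup ↔ g * s * g⁻¹ ∈ F.fixingSubgroup := by
  rw [IntermediateField.mem_fixingSubgroup_iff, IntermediateField.mem_fixingSubgroup_iff]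
  have key : ∀ x : Qb, (g * s * g⁻¹) x = g (s ((g⁻¹ : GQ) x)) := fun _ => rfl
  have hg : ∀ x : Qb, g ((g⁻¹ : GQ) x) = x := fun x => AlgEquiv.apply_symm_apply g x
  have hg' : ∀ x : Qb, (g⁻¹ : GQ) (g x) = x := fun x => AlgEquiv.symm_apply_apply g x
  constructor
  · intro h x hx
    have h1 : s ((g⁻¹ : GQ) x) = (g⁻¹ : GQ) x := h ((g⁻¹ : GQ) x) ⟨x, hx, rfl⟩
    show (g * s * g⁻¹) x = x
    rw [key, h1, hg]
  · rintro h _ ⟨x, hx, rfl⟩
    have h1 : (g * s * g⁻¹) x = x := h x hx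
    rw [key] at h1
    show s ((g⁻¹ : GQ) x) = (g⁻¹ : GQ) x
    have h3 := congrArg (g⁻¹ : GQ) h1
    rwa [hg'] at h3

lemma finiteDimensional_map_inv (F : IntermediateField ℚ Qb) [FiniteDimensional ℚ F] (g : GQ) :
    FiniteDimensional ℚ (F.map (g⁻¹ : GQ).toAlgHom) :=
  LinearEquiv.finiteDimensional (IntermediateField.equivMap F (g⁻¹ : GQ).toAlgHom).toLinearEquiv

lemma isLevelConstant₁_loc {X : Type*} (g : GQ) (U : Subgroup GQ) {x : ↥U → X}
    (hx : IsLevelConstant₁ U.subtype x) :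
    IsLevelConstant₁ (lHom q (locSub q g U)) (x ∘ locHom q g U) := by
  obtain ⟨F, hF, h⟩ := hx
  refine ⟨F.map (g⁻¹ : GQ).toAlgHom, finiteDimensional_map_inv F g, fun τ σ hσ => ?_⟩
  simp only [Function.comp_apply, map_mul]
  refine h _ _ ?_
  exact (mem_fixingSubgroup_map_inv F g _).1 hσ

lemma isLevelConstant₂_loc {X : Type*} (g : GQ) (U : Subgroup GQ) {x : ↥U × ↥U → X}
    (hx : IsLevelConstant₂ U.subtype x) :
    IsLevelConstant₂ (lHom q (locSub q g U))
      (x ∘ Prod.map (locHom q g U) (locHom q g U)) := by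
  obtain ⟨F, hF, h⟩ := hx
  refine ⟨F.map (g⁻¹ : GQ).toAlgHom, finiteDimensional_map_inv F g, fun τ τ' σ σ' hσ hσ' => ?_⟩
  simp only [Function.comp_apply, Prod.map_apply, map_mul]
  refine h _ _ _ _ ?_ ?_
  · exact (mem_fixingSubgroup_map_inv F g _).1 hσ
  · exact (mem_fixingSubgroup_map_inv F g _).1 hσ'

/-- Localisation of 2-cochains: `c ↦ ((τ₁, τ₂) ↦ ι_q (g⁻¹ • c (g τ₁ g⁻¹, g τ₂ g⁻¹)))`. -/
def locCochain₂ (g : GQ) (U : Subgroup GQ) :
    (↥U × ↥U → gModOn U) →ₗ[ℤ]
      (↥(locSub q g U) × ↥(locSub q g U) → lModOn q (locSub q g U)) :=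
  cochainsPullPush₂ (locHom q g U) (locPush q g U)

/-- Localisation of 1-cochains. -/
def locCochain₁ (g : GQ) (U : Subgroup GQ) :
    (↥U → gModOn U) →ₗ[ℤ] (↥(locSub q g U) → lModOn q (locSub q g U)) :=
  cochainsPullPush₁ (locHom q g U) (locPush q g U)

lemma locCochain₂_mem_levelCocycles₂ (g : GQ) (U : Subgroup GQ) {c : ↥U × ↥U → gModOn U}
    (hc : c ∈ levelCocycles₂ U.subtype (gModOn U)) :
    locCochain₂ q g U c ∈ levelCocycles₂ (lHom q (locSub q g U)) (lModOn q (locSub q g U)) :=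
  ⟨cochainsPullPush₂_mem_cocycles₂ (locHom q g U) (locPush q g U)
      (locPush_equivariant q g U) hc.1,
    ((isLevelConstant₂_loc q g U hc.2).comp (locPush q g U) :)⟩

lemma locCochain₂_mem_levelCoboundaries₂ (g : GQ) (U : Subgroup GQ) {c : ↥U × ↥U → gModOn U}
    (hc : c ∈ levelCoboundaries₂ U.subtype (gModOn U)) :
    locCochain₂ q g U c ∈
      levelCoboundaries₂ (lHom q (locSub q g U)) (lModOn q (locSub q g U)) := by
  obtain ⟨y, hy, rfl⟩ := (mem_levelCoboundaries₂_iff _ _ c).1 hc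
  exact (mem_levelCoboundaries₂_iff _ _ _).2
    ⟨locCochain₁ q g U y, ((isLevelConstant₁_loc q g U hy).comp (locPush q g U) :),
      (cochainsPullPush₂_d₁₂ (locHom q g U) (locPush q g U)
        (locPush_equivariant q g U) y).symm⟩

/-- Localisation on level cocycles. -/
def locCocycles₂ (g : GQ) (U : Subgroup GQ) :
    ↥(levelCocycles₂ U.subtype (gModOn U)) →ₗ[ℤ]
      ↥(levelCocycles₂ (lHom q (locSub q g U)) (lModOn q (locSub q g U))) :=
  (locCochain₂ q g U).restrict fun _ hc => locCochain₂_mem_levelCocycles₂ q g U hc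

@[simp] lemma coe_locCocycles₂ (g : GQ) (U : Subgroup GQ)
    (c : ↥(levelCocycles₂ U.subtype (gModOn U))) :
    (locCocycles₂ q g U c : ↥(locSub q g U) × ↥(locSub q g U) → lModOn q (locSub q g U)) =
      locCochain₂ q g U c := rfl

/-- **Localisation** `Br(K) → Br(K_v)` at the place `v` of `K = ℚ̄^U` induced by `ι_q ∘ g⁻¹`. -/
def locBr (g : GQ) (U : Subgroup GQ) : gBr U →ₗ[ℤ] lBr q (locSub q g U) :=
  Submodule.mapQ _ _ (locCocycles₂ q g U) fun _ hc =>
    locCochain₂_mem_levelCoboundaries₂ q g U hc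

@[simp] lemma locBr_mk (g : GQ) (U : Subgroup GQ) (c : ↥(levelCocycles₂ U.subtype (gModOn U))) :
    locBr q g U (continuousH2π U.subtype (gModOn U) c) =
      continuousH2π (lHom q (locSub q g U)) (lModOn q (locSub q g U)) (locCocycles₂ q g U c) :=
  rfl

end Local

/-! ## Double cosets -/

/-- `R` is a system of representatives of the double cosets `U \ G / D`. -/
def IsDoubleCosetReps {G : Type*} [Group G] (U D : Subgroup G) (R : Finset G) : Prop :=
  ∀ g : G, ∃! r, r ∈ R ∧ ∃ u ∈ U, ∃ d ∈ D, g = u * r * d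

end Fermat.Agent.S55.G.Rec
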