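import Mathlib
import Fermat.Agent.S55.G.Rec.H379Core
import Fermat.Agent.S55.G.Rec.NormExtractH844

/-!
# S55 / G / REC, leaf K4 (helper844): algebraic core of the cyclic splitting

* `cyclic_section844` : abstract group theory.  `π : E → G`, `χ : G → ℤ/n` with `χ σ = 1`,
  `t` a homomorphic section of `π` over `H = ker χ`, `e` a lift of `σ` normalising `t`
  (`e t(h) e⁻¹ = t(σ h σ⁻¹)`).  Then `S(g) = e ^ χ(g) · t(σ ^ (-χ(g)) g)` is a section of `π`
  with `S(g) S(g') = α ^ carry(χ g, χ g') S(g g')`, `α = e ^ n t(σ ^ n)⁻¹` central-like.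
* `TwExt844 c` : the extension `M ×_c G` attached to a normalised 2-cocycle `c`.
* `exists_cupChar_of_split844` : the cochain-level statement: a normalised 2-cocycle `c`, trivial on
  `H × H`, for which the 1-cocycle `h ↦ c(σ, σ⁻¹hσ) / c(h, σ)` of `H` is the coboundary of `β`,
  equals `a ∪ δχ` up to the coboundary of an explicit 1-cochain `z`.
-/

set_option autoImplicit false
set_option linter.unusedSectionVars false
set_option linter.style.haveILetI false

namespace Fermat.Agent.S55.G.Rec.H844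

open Fermat.Agent.S55.G.Rec.H379

section AbstractSection

variable {G E : Type*} [Group G] [Group E] {n : ℕ} [NeZero n]
  (χ : G →* Multiplicative (ZMod n)) (π : E →* G) (t : G → E)

lemma pow_chiVal_inv_mul_mem844 {σ : G} (hσ : χ σ = Multiplicative.ofAdd 1) (g : G) :
    (σ ^ chiVal844 χ g)⁻¹ * g ∈ χ.ker := by
  rw [MonoidHom.mem_ker, map_mul, map_inv, map_pow, hσ, inv_mul_eq_one]
  apply Multiplicative.toAdd.injective
  rw [toAdd_pow, toAdd_ofAdd, nsmul_eq_mul, mul_one]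
  exact ZMod.natCast_zmod_val _

lemma pow_card_mem_ker844 {σ : G} (hσ : χ σ = Multiplicative.ofAdd 1) : σ ^ n ∈ χ.ker := by
  rw [MonoidHom.mem_ker, map_pow, hσ]
  apply Multiplicative.toAdd.injective
  rw [toAdd_pow, toAdd_ofAdd, nsmul_eq_mul, mul_one, toAdd_one]
  exact ZMod.natCast_self n

variable {χ π t}

theorem cyclic_section844
    (ht : ∀ h h', h ∈ χ.ker → h' ∈ χ.ker → t (h * h') = t h * t h')
    (hπt : ∀ g, π (t g) = g)
    {σ : G} (hσ : χ σ = Multiplicative.ofAdd 1) {e : E} (he : π e = σ)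
    (hconj : ∀ h ∈ χ.ker, e * t h * e⁻¹ = t (σ * h * σ⁻¹)) :
    ∃ (α : E) (S : G → E), π α = 1 ∧ (∀ g, π (S g) = g) ∧
      (∀ g g', S g * S g' =
        α ^ carry n (Multiplicative.toAdd (χ g)) (Multiplicative.toAdd (χ g')) * S (g * g')) ∧
      (∀ g, ∀ s ∈ χ.ker, S (g * s) = S g * t s) ∧
      (∀ g, α * S g = S g * α) := by
  have hker1 : (1 : G) ∈ χ.ker := one_mem _
  have ht1 : t 1 = 1 := by
    have := ht 1 1 hker1 hker1
    rw [mul_one] at this
    exact (mul_eq_left.mp this.symm)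
  have htinv : ∀ h ∈ χ.ker, t h⁻¹ = (t h)⁻¹ := by
    intro h hh
    have := ht h⁻¹ h (inv_mem hh) hh
    rw [inv_mul_cancel, ht1] at this
    exact eq_inv_of_mul_eq_one_left this.symm
  have hnorm : ∀ (j : ℕ) (h : G), h ∈ χ.ker → σ ^ j * h * (σ ^ j)⁻¹ ∈ χ.ker := by
    intro j h hh
    exact (inferInstance : χ.ker.Normal).conj_mem h hh (σ ^ j)
  have hnorm' : ∀ (j : ℕ) (h : G), h ∈ χ.ker → (σ ^ j)⁻¹ * h * σ ^ j ∈ χ.ker := by
    intro j h hh
    have := (inferInstance : χ.ker.Normal).conj_mem h hh (σ ^ j)⁻¹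
    simpa using this
  -- conjugation by powers of `e`
  have hconjpow : ∀ (j : ℕ) (h : G), h ∈ χ.ker → e ^ j * t h * (e ^ j)⁻¹ = t (σ ^ j * h * (σ ^ j)⁻¹) := by
    intro j
    induction j with
    | zero => intro h _; simp
    | succ j ih =>
      intro h hh
      have h1 := ih h hh
      have h2 := hconj _ (hnorm j h hh)
      rw [← h1] at h2
      rw [pow_succ', pow_succ']
      calc e * e ^ j * t h * (e * e ^ j)⁻¹ = e * (e ^ j * t h * (e ^ j)⁻¹) * e⁻¹ := by group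
        _ = t (σ * (σ ^ j * h * (σ ^ j)⁻¹) * σ⁻¹) := by rw [h2]
        _ = _ := by congr 1; group
  have hconjpow' : ∀ (j : ℕ) (h : G), h ∈ χ.ker → t h * e ^ j = e ^ j * t ((σ ^ j)⁻¹ * h * σ ^ j) := by
    intro j h hh
    have := hconjpow j _ (hnorm' j h hh)
    have h3 : σ ^ j * ((σ ^ j)⁻¹ * h * σ ^ j) * (σ ^ j)⁻¹ = h := by group
    rw [h3] at this
    rw [← this]
    group
  have hσn := pow_card_mem_ker844 χ hσ
  -- the element `α`
  obtain ⟨α, hα⟩ : ∃ α : E, α = e ^ n * (t (σ ^ n))⁻¹ := ⟨_, rfl⟩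
  have hαe : α * e = e * α := by
    have h1 := hconj _ (inv_mem hσn)
    have h2 : σ * (σ ^ n)⁻¹ * σ⁻¹ = (σ ^ n)⁻¹ := by group
    rw [h2, htinv _ hσn] at h1
    rw [hα]
    calc e ^ n * (t (σ ^ n))⁻¹ * e = e ^ n * (e * (t (σ ^ n))⁻¹ * e⁻¹) * e := by rw [h1]
      _ = e * (e ^ n * (t (σ ^ n))⁻¹) := by
        have : e ^ n * e = e * e ^ n := (pow_succ e n).symm.trans (pow_succ' e n)
        calc e ^ n * (e * (t (σ ^ n))⁻¹ * e⁻¹) * e = (e ^ n * e) * (t (σ ^ n))⁻¹ := by group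
          _ = _ := by rw [this]; group
  have hαt : ∀ h ∈ χ.ker, α * t h = t h * α := by
    intro h hh
    -- t h * e^n = e^n * t (σ^-n h σ^n)
    have h1 := hconjpow' n h hh
    have h2 : t ((σ ^ n)⁻¹ * h * σ ^ n) * (t (σ ^ n))⁻¹ = (t (σ ^ n))⁻¹ * t h := by
      rw [← htinv _ hσn, ← ht _ _ (hnorm' n h hh) (inv_mem hσn), ← ht _ _ (inv_mem hσn) hh]
      congr 1
      group
    rw [hα]
    calc e ^ n * (t (σ ^ n))⁻¹ * t h = e ^ n * ((t (σ ^ n))⁻¹ * t h) := by group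
      _ = e ^ n * (t ((σ ^ n)⁻¹ * h * σ ^ n) * (t (σ ^ n))⁻¹) := by rw [h2]
      _ = (e ^ n * t ((σ ^ n)⁻¹ * h * σ ^ n)) * (t (σ ^ n))⁻¹ := by group
      _ = t h * e ^ n * (t (σ ^ n))⁻¹ := by rw [← h1]
      _ = _ := by group
  have hαpow : ∀ j : ℕ, α * e ^ j = e ^ j * α := by
    intro j
    exact ((Commute.pow_right (show Commute α e from hαe) j) : _)
  -- the section
  obtain ⟨S, hS⟩ : ∃ S : G → E, ∀ g, S g = e ^ chiVal844 χ g * t ((σ ^ chiVal844 χ g)⁻¹ * g) :=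
    ⟨_, fun _ => rfl⟩
  have hk := pow_chiVal_inv_mul_mem844 χ hσ
  refine ⟨α, S, ?_, ?_, ?_, ?_, ?_⟩
  · rw [hα, map_mul, map_pow, map_inv, he, hπt, mul_inv_cancel]
  · intro g
    rw [hS, map_mul, map_pow, he, hπt, mul_inv_cancel_left]
  · intro g g'
    -- S g * S g' = e ^ (i + i') * t (σ ^ -(i+i') g g')
    have hprod : S g * S g' = e ^ (chiVal844 χ g + chiVal844 χ g') *
        t ((σ ^ (chiVal844 χ g + chiVal844 χ g'))⁻¹ * (g * g')) := by
      rw [hS, hS]
      calc e ^ chiVal844 χ g * t ((σ ^ chiVal844 χ g)⁻¹ * g) *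
            (e ^ chiVal844 χ g' * t ((σ ^ chiVal844 χ g')⁻¹ * g'))
          = e ^ chiVal844 χ g * (t ((σ ^ chiVal844 χ g)⁻¹ * g) * e ^ chiVal844 χ g') *
              t ((σ ^ chiVal844 χ g')⁻¹ * g') := by group
        _ = e ^ chiVal844 χ g * (e ^ chiVal844 χ g' *
              t ((σ ^ chiVal844 χ g')⁻¹ * ((σ ^ chiVal844 χ g)⁻¹ * g) * σ ^ chiVal844 χ g')) *
              t ((σ ^ chiVal844 χ g')⁻¹ * g') := by rw [hconjpow' _ _ (hk g)]
        _ = e ^ (chiVal844 χ g + chiVal844 χ g') *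
              (t ((σ ^ chiVal844 χ g')⁻¹ * ((σ ^ chiVal844 χ g)⁻¹ * g) * σ ^ chiVal844 χ g') *
              t ((σ ^ chiVal844 χ g')⁻¹ * g')) := by rw [pow_add]; group
        _ = _ := by
          rw [← ht _ _ (hnorm' _ _ (hk g)) (hk g')]
          congr 2
          rw [pow_add]
          group
    rw [hprod]
    have hi := chiVal844_lt χ g
    have hi' := chiVal844_lt χ g'
    have hmul := chiVal844_mul χ g g'
    have hcarry : carry n (Multiplicative.toAdd (χ g)) (Multiplicative.toAdd (χ g')) =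
        (chiVal844 χ g + chiVal844 χ g') / n := rfl
    rw [hcarry, hS (g * g'), hmul]
    by_cases hlt : chiVal844 χ g + chiVal844 χ g' < n
    · rw [Nat.div_eq_of_lt hlt, pow_zero, one_mul, Nat.mod_eq_of_lt hlt]
    · push Not at hlt
      have hdiv : (chiVal844 χ g + chiVal844 χ g') / n = 1 := by
        apply Nat.div_eq_of_lt_le <;> omega
      have hmod : (chiVal844 χ g + chiVal844 χ g') % n = chiVal844 χ g + chiVal844 χ g' - n := by
        rw [Nat.mod_eq_sub_mod hlt, Nat.mod_eq_of_lt (by omega)]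
      rw [hdiv, pow_one, hmod]
      obtain ⟨r, hr⟩ : ∃ r, chiVal844 χ g + chiVal844 χ g' = r + n := ⟨_, (Nat.sub_add_cancel hlt).symm⟩
      rw [hr, Nat.add_sub_cancel]
      have hmem : (σ ^ r)⁻¹ * (g * g') ∈ χ.ker := by
        have := hk (g * g')
        rw [hmul, hmod, hr, Nat.add_sub_cancel] at this
        exact this
      have hsplit : t ((σ ^ r)⁻¹ * (g * g')) = t (σ ^ n) * t ((σ ^ (r + n))⁻¹ * (g * g')) := by
        have hmem2 : (σ ^ (r + n))⁻¹ * (g * g') ∈ χ.ker := by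
          have : (σ ^ (r + n))⁻¹ * (g * g') = (σ ^ n)⁻¹ * ((σ ^ r)⁻¹ * (g * g')) := by
            rw [pow_add]; group
          rw [this]
          exact mul_mem (inv_mem hσn) hmem
        rw [← ht _ _ hσn hmem2]
        congr 1
        rw [pow_add]
        group
      rw [hsplit]
      symm
      calc α * (e ^ r * (t (σ ^ n) * t ((σ ^ (r + n))⁻¹ * (g * g'))))
          = (α * e ^ r) * (t (σ ^ n) * t ((σ ^ (r + n))⁻¹ * (g * g'))) := by group
        _ = (e ^ r * (e ^ n * (t (σ ^ n))⁻¹)) * (t (σ ^ n) * t ((σ ^ (r + n))⁻¹ * (g * g'))) := by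
            rw [hαpow r, hα]
        _ = _ := by rw [pow_add]; group
  · intro g s hs
    have hval : chiVal844 χ (g * s) = chiVal844 χ g := by
      apply (chiVal844_congr χ _).symm
      simpa using hs
    rw [hS, hS, hval, mul_assoc, ← ht _ _ (hk g) hs, mul_assoc]
  · intro g
    rw [hS, ← mul_assoc, hαpow, mul_assoc, hαt _ (hk g), mul_assoc]

end AbstractSection

section TwistedExtension

variable {G M : Type*} [Group G] [CommGroup M] [MulDistribMulAction G M]

/-- The underlying type of the extension `M ×_c G` attached to a 2-cocycle `c`. -/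
@[ext] structure TwExt844 (c : G → G → M) where
  /-- the component in `M` -/
  m : M
  /-- the component in `G` -/
  g : G

namespace TwExt844

variable {c : G → G → M}

/-- The group structure of `M ×_c G` for a normalised 2-cocycle `c`. -/
@[reducible] def group (h1 : ∀ g, c 1 g = 1) (h2 : ∀ g, c g 1 = 1)
    (hc : ∀ g h k, g • c h k * c g (h * k) = c (g * h) k * c g h) : Group (TwExt844 c) where
  mul x y := ⟨x.m * x.g • y.m * c x.g y.g, x.g * y.g⟩
  one := ⟨1, 1⟩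
  inv x := ⟨(x.g⁻¹ • x.m)⁻¹ * (c x.g⁻¹ x.g)⁻¹, x.g⁻¹⟩
  mul_assoc x y z := by
    apply TwExt844.ext
    · show x.m * x.g • y.m * c x.g y.g * (x.g * y.g) • z.m * c (x.g * y.g) z.g =
        x.m * x.g • (y.m * y.g • z.m * c y.g z.g) * c x.g (y.g * z.g)
      rw [smul_mul', smul_mul', mul_smul]
      calc x.m * x.g • y.m * c x.g y.g * x.g • y.g • z.m * c (x.g * y.g) z.g
          = x.m * x.g • y.m * (x.g • y.g • z.m) * (c (x.g * y.g) z.g * c x.g y.g) := by ac_rfl
        _ = x.m * x.g • y.m * (x.g • y.g • z.m) * (x.g • c y.g z.g * c x.g (y.g * z.g)) := by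
            rw [hc]
        _ = _ := by ac_rfl
    · exact mul_assoc _ _ _
  one_mul x := by
    apply TwExt844.ext
    · show (1 : M) * (1 : G) • x.m * c 1 x.g = x.m
      rw [h1, one_smul, one_mul, mul_one]
    · exact one_mul _
  mul_one x := by
    apply TwExt844.ext
    · show x.m * x.g • (1 : M) * c x.g 1 = x.m
      rw [h2, smul_one, mul_one, mul_one]
    · exact mul_one _
  inv_mul_cancel x := by
    apply TwExt844.ext
    · show (x.g⁻¹ • x.m)⁻¹ * (c x.g⁻¹ x.g)⁻¹ * x.g⁻¹ • x.m * c x.g⁻¹ x.g = 1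
      calc (x.g⁻¹ • x.m)⁻¹ * (c x.g⁻¹ x.g)⁻¹ * x.g⁻¹ • x.m * c x.g⁻¹ x.g
          = ((x.g⁻¹ • x.m)⁻¹ * x.g⁻¹ • x.m) * ((c x.g⁻¹ x.g)⁻¹ * c x.g⁻¹ x.g) := by ac_rfl
        _ = 1 := by rw [inv_mul_cancel, inv_mul_cancel, one_mul]
    · exact inv_mul_cancel _

end TwExt844

/-- normalisation: `c(1,1) = 1` implies `c(g,1) = 1`. -/
lemma cocycle_norm_right844 {c : G → G → M}
    (hc : ∀ g h k, g • c h k * c g (h * k) = c (g * h) k * c g h) (h11 : c 1 1 = 1) (g : G) :
    c g 1 = 1 := by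
  have := hc g 1 1
  rw [h11, smul_one, one_mul, mul_one, mul_one] at this
  exact (mul_eq_left.mp this.symm)

/-- normalisation: `c(1,1) = 1` implies `c(1,g) = 1`. -/
lemma cocycle_norm_left844 {c : G → G → M}
    (hc : ∀ g h k, g • c h k * c g (h * k) = c (g * h) k * c g h) (h11 : c 1 1 = 1) (g : G) :
    c 1 g = 1 := by
  have := hc 1 1 g
  rw [h11, one_smul, one_mul, mul_one, mul_one] at this
  exact (mul_eq_left.mp this)

/-- The conjugation 1-cocycle `w(h) = c(σ, σ⁻¹hσ) / c(h, σ)` of a subgroup `H` on which `c` is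
trivial. -/
lemma conjCocycle844 {c : G → G → M}
    (hc : ∀ g h k, g • c h k * c g (h * k) = c (g * h) k * c g h)
    (H : Subgroup G) [H.Normal] (hH : ∀ h h', h ∈ H → h' ∈ H → c h h' = 1)
    (σ : G) {h h' : G} (hh : h ∈ H) (hh' : h' ∈ H) :
    c σ (σ⁻¹ * (h * h') * σ) / c (h * h') σ =
      h • (c σ (σ⁻¹ * h' * σ) / c h' σ) * (c σ (σ⁻¹ * h * σ) / c h σ) := by
  have ha : σ⁻¹ * h * σ ∈ H := by
    have := (inferInstance : H.Normal).conj_mem h hh σ⁻¹
    simpa using this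
  have hb : σ⁻¹ * h' * σ ∈ H := by
    have := (inferInstance : H.Normal).conj_mem h' hh' σ⁻¹
    simpa using this
  have e1 := hc σ (σ⁻¹ * h * σ) (σ⁻¹ * h' * σ)
  have e2 := hc h σ (σ⁻¹ * h' * σ)
  have e3 := hc h h' σ
  rw [hH _ _ ha hb, smul_one, one_mul] at e1
  rw [hH _ _ hh hh', mul_one] at e3
  have g1 : σ⁻¹ * h * σ * (σ⁻¹ * h' * σ) = σ⁻¹ * (h * h') * σ := by group
  have g2 : σ * (σ⁻¹ * h * σ) = h * σ := by group
  have g3 : σ * (σ⁻¹ * h' * σ) = h' * σ := by group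
  rw [g1, g2] at e1
  rw [g3] at e2
  rw [e1, ← e3, smul_div']
  generalize c σ (σ⁻¹ * h * σ) = A at *
  generalize h • c σ (σ⁻¹ * h' * σ) = B at *
  generalize c (h * σ) (σ⁻¹ * h' * σ) = P at *
  generalize c h (h' * σ) = Q at *
  generalize c h σ = R at *
  generalize h • c h' σ = R' at *
  have hP : P = B * Q / R := by rw [e2, mul_div_assoc, div_self', mul_one]
  rw [hP]
  simp only [div_eq_mul_inv, mul_inv_rev]
  calc B * Q * R⁻¹ * A * (Q⁻¹ * R'⁻¹) = B * R'⁻¹ * (A * R⁻¹) * (Q * Q⁻¹) := by ac_rfl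
    _ = _ := by rw [mul_inv_cancel, mul_one]

/-- **Cochain-level cyclic splitting.**  `c` a 2-cocycle of `G` in `M` (multiplicative notation),
trivial on `H × H`, `H = ker χ`, `χ σ = 1`; `β ∈ M` trivialising the 1-cocycle
`h ↦ c(σ, σ⁻¹hσ) / c(h, σ)` of `H`.  Then `c = (a ∪ δχ) / d z` for an invariant `a`. -/
theorem exists_cupChar_of_split844 {n : ℕ} [NeZero n] (χ : G →* Multiplicative (ZMod n))
    {σ : G} (hσ : χ σ = Multiplicative.ofAdd 1)
    (c : G → G → M) (hc : ∀ g h k, g • c h k * c g (h * k) = c (g * h) k * c g h)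
    (hH : ∀ h h', h ∈ χ.ker → h' ∈ χ.ker → c h h' = 1)
    (β : M) (hβ : ∀ h ∈ χ.ker, h • β * (c σ (σ⁻¹ * h * σ) / c h σ) = β) :
    ∃ (a : M) (z : G → M), (∀ g : G, g • a = a) ∧
      (∀ g g', z g * g • z g' * c g g' =
        a ^ carry n (Multiplicative.toAdd (χ g)) (Multiplicative.toAdd (χ g')) * z (g * g')) ∧
      (∀ g, ∀ s ∈ χ.ker, z (g * s) = z g * c g s) := by
  have h11 : c 1 1 = 1 := hH 1 1 (one_mem _) (one_mem _)
  have h2 : ∀ g, c g 1 = 1 := by
    intro g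
    have := hc g 1 1
    rw [h11, smul_one, one_mul, mul_one, mul_one] at this
    exact (mul_eq_left.mp this.symm)
  have h1 : ∀ g, c 1 g = 1 := by
    intro g
    have := hc 1 1 g
    rw [h11, one_smul, one_mul, mul_one, mul_one] at this
    exact (mul_eq_left.mp this)
  letI : Group (TwExt844 c) := TwExt844.group h1 h2 hc
  have hmul_m : ∀ x y : TwExt844 c, (x * y).m = x.m * x.g • y.m * c x.g y.g := fun _ _ => rfl
  have hmul_g : ∀ x y : TwExt844 c, (x * y).g = x.g * y.g := fun _ _ => rfl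
  have hone_m : (1 : TwExt844 c).m = 1 := rfl
  have hone_g : (1 : TwExt844 c).g = 1 := rfl
  let π : TwExt844 c →* G :=
    { toFun := fun x => x.g
      map_one' := rfl
      map_mul' := fun _ _ => rfl }
  have hπ : ∀ x : TwExt844 c, π x = x.g := fun _ => rfl
  obtain ⟨t, ht_def⟩ : ∃ t : G → TwExt844 c, ∀ g, t g = ⟨1, g⟩ := ⟨_, fun _ => rfl⟩
  obtain ⟨e, he_def⟩ : ∃ e : TwExt844 c, e = ⟨β⁻¹, σ⟩ := ⟨_, rfl⟩
  have ht : ∀ h h', h ∈ χ.ker → h' ∈ χ.ker → t (h * h') = t h * t h' := by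
    intro h h' hh hh'
    apply TwExt844.ext
    · rw [hmul_m, ht_def, ht_def, ht_def]
      show (1 : M) = 1 * h • (1 : M) * c h h'
      rw [hH h h' hh hh', smul_one, mul_one, mul_one]
    · rw [hmul_g, ht_def, ht_def, ht_def]
  have hπt : ∀ g, π (t g) = g := by
    intro g
    rw [hπ, ht_def]
  have he : π e = σ := by rw [hπ, he_def]
  have hconj : ∀ h ∈ χ.ker, e * t h * e⁻¹ = t (σ * h * σ⁻¹) := by
    intro h hh
    rw [mul_inv_eq_iff_eq_mul]
    have hmem : σ * h * σ⁻¹ ∈ χ.ker := (inferInstance : χ.ker.Normal).conj_mem h hh σ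
    have hb := hβ _ hmem
    have hs : σ⁻¹ * (σ * h * σ⁻¹) * σ = h := by group
    rw [hs] at hb
    apply TwExt844.ext
    · rw [hmul_m, hmul_m, ht_def, ht_def, he_def]
      show β⁻¹ * σ • (1 : M) * c σ h = 1 * (σ * h * σ⁻¹) • β⁻¹ * c (σ * h * σ⁻¹) σ
      rw [smul_one, mul_one, one_mul, smul_inv']
      -- from hb : x * (c σ h / c' ) = β
      generalize (σ * h * σ⁻¹) • β = x at hb ⊢
      generalize c (σ * h * σ⁻¹) σ = c' at hb ⊢
      rw [← hb]
      simp only [div_eq_mul_inv, mul_inv_rev, inv_inv]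
      calc c' * (c σ h)⁻¹ * x⁻¹ * c σ h = (x⁻¹ * c') * ((c σ h)⁻¹ * c σ h) := by ac_rfl
        _ = _ := by rw [inv_mul_cancel, mul_one]
    · rw [hmul_g, hmul_g, ht_def, ht_def, he_def]
      show σ * h = σ * h * σ⁻¹ * σ
      group
  obtain ⟨α, S, hα1, hS1, hS2, hS3, hS4⟩ := cyclic_section844 ht hπt hσ he hconj
  rw [hπ] at hα1
  simp only [hπ] at hS1
  obtain ⟨z, hz⟩ : ∃ z : G → M, ∀ g, z g = (S g).m := ⟨_, fun _ => rfl⟩
  refine ⟨α.m, z, ?_, ?_, ?_⟩
  · intro g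
    have := congrArg TwExt844.m (hS4 g)
    rw [hmul_m, hmul_m, hα1, hS1, one_smul, h1, h2, mul_one, mul_one, mul_comm] at this
    exact (mul_left_cancel this).symm
  · intro g g'
    have := congrArg TwExt844.m (hS2 g g')
    rw [hmul_m, hS1, hS1] at this
    rw [hz, hz, hz, this]
    have hle := carry_le_one n (Multiplicative.toAdd (χ g)) (Multiplicative.toAdd (χ g'))
    rcases Nat.le_one_iff_eq_zero_or_eq_one.mp hle with h0 | h0
    · rw [h0, pow_zero, pow_zero, one_mul, one_mul]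
    · rw [h0, pow_one, pow_one, hmul_m, hα1, one_smul, h1, mul_one]
  · intro g s hs
    have := congrArg TwExt844.m (hS3 g s hs)
    rw [hmul_m, hS1, ht_def] at this
    rw [hz, hz, this]
    show (S g).m * g • (1 : M) * c g s = (S g).m * c g s
    rw [smul_one, mul_one]

end TwistedExtension

end Fermat.Agent.S55.G.Rec.H844
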