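import Fermat.Agent.S55.G.Rec.LocalNormH844
import Fermat.Agent.S55.G.Rec.CyclicSplitCoreH844

/-!
# S55 / G / REC, leaf K4 (helper844): the global cyclic splitting `CyclicSplitSpec`

A class `x ∈ Br(K)` which dies in `Br(L)`, `L/K` cyclic with character `χ`, is a cup class
`a ∪ δχ`.  Direct cochain-level proof (no finite-level dictionary):

1. `x = [c]`, `c|_{H × H} = d y` on `H = ker χ`; extend `y` by `0` to `ỹ` and put `c₁ = c - d ỹ`:
   a normalised cocycle, trivial on `H × H`.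
2. `w(h) = c₁(σ, σ⁻¹hσ) - c₁(h, σ)` is a level-constant 1-cocycle of `H`, hence the coboundary of
   some `β` (`exists_unit_of_levelCocycle844`, Hilbert 90).
3. `exists_cupChar_of_split844` : `c₁ = a ∪ δχ - d z`, with `z` level-constant.
-/

set_option autoImplicit false
set_option linter.unusedSectionVars false
set_option linter.style.haveILetI false

noncomputable section

namespace Fermat.Agent.S55.G.Rec.H844

open groupCohomology Fermat.Agent.S55.G.Rec

local notation "Qb" => AlgebraicClosure ℚ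
local notation "GQ" => (AlgebraicClosure ℚ ≃ₐ[ℚ] AlgebraicClosure ℚ)

/-- Unpacking the hypotheses of K4: a level cocycle `c` representing `x` and a level-constant
1-cochain `y` on `ker χ` with `d y = c` on `ker χ`, everything constant modulo one finite `F`. -/
lemma exists_rep_of_gRes_eq_zero844 (U : Subgroup GQ) (n : ℕ)
    (χ : ↥U →* Multiplicative (ZMod n)) (hχ : IsLevelConstant₁ U.subtype χ)
    (x : gBr U)
    (hx : gRes (U := U) (U' := χ.ker.map U.subtype) (Subgroup.map_subtype_le _) x = 0) :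
    ∃ (cc : ↥(levelCocycles₂ U.subtype (gModOn U))) (y : ↥U → gModOn U)
      (F : IntermediateField ℚ Qb),
      x = continuousH2π U.subtype (gModOn U) cc ∧ FiniteDimensional ℚ F ∧
      (∀ g s : ↥U, (s : GQ) ∈ F.fixingSubgroup → χ (g * s) = χ g) ∧
      (∀ g g' s s' : ↥U, (s : GQ) ∈ F.fixingSubgroup → (s' : GQ) ∈ F.fixingSubgroup →
        cc.1 (g * s, g' * s') = cc.1 (g, g')) ∧
      (∀ g s : ↥U, g ∈ χ.ker → (s : GQ) ∈ F.fixingSubgroup → y (g * s) = y g) ∧
      (∀ g : ↥U, g ∉ χ.ker → y g = 0) ∧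
      (∀ g g' : ↥U, g ∈ χ.ker → g' ∈ χ.ker →
        (gModOn U).ρ g (y g') - y (g * g') + y g = cc.1 (g, g')) := by
  obtain ⟨cc, rfl⟩ := Submodule.mkQ_surjective _ x
  have h1 : continuousH2π (χ.ker.map U.subtype).subtype (gModOn (χ.ker.map U.subtype))
      (levelCocycles₂Map (Subgroup.inclusion (Subgroup.map_subtype_le χ.ker)) (fun _ => rfl)
        (LinearMap.id : gModOn U →ₗ[ℤ] gModOn (χ.ker.map U.subtype)) (fun _ _ => rfl) cc) = 0 := hx
  have h2 := (Submodule.Quotient.mk_eq_zero _).mp h1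
  obtain ⟨y₀, ⟨F₂, hF₂, hy₀F⟩, hdy⟩ := (mem_levelCoboundaries₂_iff _ _ _).mp h2
  obtain ⟨F₁, hF₁, hχF⟩ := hχ
  obtain ⟨F₃, hF₃, hcF⟩ := cc.2.2
  classical
  obtain ⟨y, hy⟩ : ∃ y : ↥U → gModOn U, ∀ g : ↥U,
      y g = if hg : g ∈ χ.ker then y₀ ⟨g.1, ⟨g, hg, rfl⟩⟩ else 0 := ⟨_, fun _ => rfl⟩
  refine ⟨cc, y, F₁ ⊔ F₂ ⊔ F₃, rfl, inferInstance, ?_, ?_, ?_, ?_, ?_⟩
  · intro g s hs
    refine hχF g s ?_
    exact IntermediateField.fixingSubgroup_antitone (le_sup_left.trans le_sup_left) hs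
  · intro g g' s s' hs hs'
    refine hcF g g' s s' ?_ ?_
    · exact IntermediateField.fixingSubgroup_antitone le_sup_right hs
    · exact IntermediateField.fixingSubgroup_antitone le_sup_right hs'
  · intro g s hg hs
    have hs1 : (s : GQ) ∈ F₁.fixingSubgroup :=
      IntermediateField.fixingSubgroup_antitone (le_sup_left.trans le_sup_left) hs
    have hs2 : (s : GQ) ∈ F₂.fixingSubgroup :=
      IntermediateField.fixingSubgroup_antitone (le_sup_right.trans le_sup_left) hs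
    have hsk : s ∈ χ.ker := by
      have := hχF 1 s hs1
      rw [one_mul, map_one] at this
      exact this
    have hgs : g * s ∈ χ.ker := mul_mem hg hsk
    rw [hy, hy, dif_pos hgs, dif_pos hg]
    exact hy₀F ⟨g.1, ⟨g, hg, rfl⟩⟩ ⟨s.1, ⟨s, hsk, rfl⟩⟩ hs2
  · intro g hg
    rw [hy, dif_neg hg]
  · intro g g' hg hg'
    rw [hy, hy, hy, dif_pos hg, dif_pos hg', dif_pos (mul_mem hg hg')]
    have := congrFun hdy (⟨g.1, ⟨g, hg, rfl⟩⟩, ⟨g'.1, ⟨g', hg', rfl⟩⟩)
    rw [d₁₂_hom_apply] at this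
    exact this

/-- **(K4)** the global cyclic splitting. -/
theorem cyclicSplit : CyclicSplitSpec := by
  intro U _hU n _ χ hχ hsurj x hx
  obtain ⟨cc, y, F, rfl, hF, hχF, hcF, hyF, hy0, hdy⟩ :=
    exists_rep_of_gRes_eq_zero844 U n χ hχ x hx
  obtain ⟨σ, hσ⟩ := hsurj (Multiplicative.ofAdd 1)
  -- elements of the level lie in `ker χ`
  have hlevel_ker : ∀ s : ↥U, (s : GQ) ∈ F.fixingSubgroup → s ∈ χ.ker := by
    intro s hs
    have := hχF 1 s hs
    rw [one_mul, map_one] at this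
    exact this
  -- `y` is level-constant on all of `U`
  have hyF' : ∀ g s : ↥U, (s : GQ) ∈ F.fixingSubgroup → y (g * s) = y g := by
    intro g s hs
    by_cases hg : g ∈ χ.ker
    · exact hyF g s hg hs
    · have hgs : g * s ∉ χ.ker := by
        intro h
        apply hg
        have := (Subgroup.mul_mem_cancel_right χ.ker (hlevel_ker s hs)).mp h
        exact this
      rw [hy0 g hg, hy0 _ hgs]
  -- the normalised cocycle (additive, then multiplicative)
  obtain ⟨c₁, hc₁⟩ : ∃ c₁ : ↥U × ↥U → gModOn U, c₁ = cc.1 - (d₁₂ (gModOn U)).hom y := ⟨_, rfl⟩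
  have hc₁_apply : ∀ g g' : ↥U,
      c₁ (g, g') = cc.1 (g, g') - ((gModOn U).ρ g (y g') - y (g * g') + y g) := by
    intro g g'
    rw [hc₁, Pi.sub_apply, d₁₂_hom_apply]
  have hc₁_mem : c₁ ∈ cocycles₂ (gModOn U) := by
    rw [hc₁]
    exact Submodule.sub_mem _ cc.2.1 (d₁₂_apply_mem_cocycles₂ y)
  obtain ⟨c, hc_def⟩ : ∃ c : ↥U → ↥U → Qbˣ, ∀ g g', c g g' = Additive.toMul (c₁ (g, g')) :=
    ⟨_, fun _ _ => rfl⟩
  have hc : ∀ g h k : ↥U, g • c h k * c g (h * k) = c (g * h) k * c g h := by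
    intro g h k
    have := (mem_cocycles₂_iff c₁).1 hc₁_mem g h k
    rw [hc_def, hc_def, hc_def, hc_def]
    exact (congrArg Additive.toMul this).symm
  have hH : ∀ h h' : ↥U, h ∈ χ.ker → h' ∈ χ.ker → c h h' = 1 := by
    intro h h' hh hh'
    rw [hc_def, hc₁_apply, hdy h h' hh hh', sub_self]
    rfl
  have h11 : c 1 1 = 1 := hH 1 1 (one_mem _) (one_mem _)
  -- (L1)
  have hL1 : ∀ g s : ↥U, (s : GQ) ∈ F.fixingSubgroup → c g s = 1 := by
    intro g s hs
    have e1 : cc.1 (g, s) = cc.1 (g, 1) := by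
      have := hcF g 1 1 s (one_mem _) hs
      rwa [mul_one, one_mul] at this
    have e2 : y s = y 1 := by
      have := hyF' 1 s hs
      rwa [one_mul] at this
    have e3 : y (g * s) = y g := hyF' g s hs
    have : c g s = c g 1 := by
      rw [hc_def, hc_def, hc₁_apply, hc₁_apply, e1, e2, e3, mul_one]
    rw [this]
    exact cocycle_norm_right844 hc h11 g
  -- (L2)
  have hL2 : ∀ s : ↥U, (s : GQ) ∈ F.fixingSubgroup → ((σ⁻¹ * s * σ : ↥U) : GQ) ∈ F.fixingSubgroup →
      (gModOn U).ρ s (y σ) = y σ → c s σ = 1 := by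
    intro s hs hs' hfix
    have e1 : cc.1 (s, σ) = cc.1 (1, σ) := by
      have := hcF 1 σ s 1 hs (one_mem _)
      rwa [mul_one, one_mul] at this
    have e2 : y s = y 1 := by
      have := hyF' 1 s hs
      rwa [one_mul] at this
    have e3 : y (s * σ) = y σ := by
      have := hyF' σ (σ⁻¹ * s * σ) hs'
      rw [← this]
      congr 1
      group
    have : c s σ = c 1 σ := by
      rw [hc_def, hc_def, hc₁_apply, hc₁_apply, e1, e2, e3, hfix, one_mul, map_one]
      rfl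
    rw [this]
    exact cocycle_norm_left844 hc h11 σ
  -- the level for Hilbert 90
  haveI : FiniteDimensional ℚ F := hF
  haveI hFmap : FiniteDimensional ℚ (F.map (((σ : GQ)⁻¹)⁻¹ : GQ).toAlgHom) :=
    finiteDimensional_map_inv F _
  obtain ⟨b, hb⟩ : ∃ b : Qb, b = ((Additive.toMul (y σ) : Qbˣ) : Qb) := ⟨_, rfl⟩
  haveI hFb : FiniteDimensional ℚ (IntermediateField.adjoin ℚ {b}) :=
    haveI : Algebra.IsAlgebraic ℚ Qb := AlgebraicClosure.isAlgebraic ℚ
    IntermediateField.adjoin.finiteDimensional (Algebra.IsAlgebraic.isAlgebraic b).isIntegral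
  obtain ⟨F', hF'⟩ : ∃ F' : IntermediateField ℚ Qb,
      F' = F ⊔ F.map (((σ : GQ)⁻¹)⁻¹ : GQ).toAlgHom ⊔ IntermediateField.adjoin ℚ {b} := ⟨_, rfl⟩
  haveI hF'fin : FiniteDimensional ℚ F' := by
    rw [hF']
    infer_instance
  have hF'1 : ∀ s : GQ, s ∈ F'.fixingSubgroup → s ∈ F.fixingSubgroup := by
    intro s hs
    rw [hF'] at hs
    exact IntermediateField.fixingSubgroup_antitone (le_sup_left.trans le_sup_left) hs
  have hF'2 : ∀ s : GQ, s ∈ F'.fixingSubgroup → (σ : GQ)⁻¹ * s * σ ∈ F.fixingSubgroup := by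
    intro s hs
    rw [hF'] at hs
    have h1 : s ∈ (F.map (((σ : GQ)⁻¹)⁻¹ : GQ).toAlgHom).fixingSubgroup :=
      IntermediateField.fixingSubgroup_antitone (le_sup_right.trans le_sup_left) hs
    have h2 := (mem_fixingSubgroup_map_inv F ((σ : GQ)⁻¹) s).1 h1
    rwa [inv_inv] at h2
  have hF'3 : ∀ s : GQ, s ∈ F'.fixingSubgroup → s b = b := by
    intro s hs
    rw [hF'] at hs
    have h1 : s ∈ (IntermediateField.adjoin ℚ {b}).fixingSubgroup :=
      IntermediateField.fixingSubgroup_antitone le_sup_right hs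
    exact (IntermediateField.mem_fixingSubgroup_iff _ _).1 h1 b
      (IntermediateField.mem_adjoin_simple_self ℚ b)
  -- the conjugation cocycle
  obtain ⟨X, hX_def⟩ : ∃ X : ↥χ.ker → Qbˣ,
      ∀ h : ↥χ.ker, X h = c σ (σ⁻¹ * (h : ↥U) * σ) / c (h : ↥U) σ := ⟨_, fun _ => rfl⟩
  have hXmul : ∀ g h : ↥χ.ker, X (g * h) = (g : ↥U) • X h * X g := by
    intro g h
    rw [hX_def, hX_def, hX_def]
    exact conjCocycle844 hc χ.ker hH σ g.2 h.2
  have hX1 : ∀ s : ↥χ.ker, ((s : ↥U) : GQ) ∈ F'.fixingSubgroup → X s = 1 := by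
    intro s hs
    rw [hX_def]
    have e1 : c σ (σ⁻¹ * (s : ↥U) * σ) = 1 := hL1 σ _ (hF'2 _ hs)
    have e2 : c (s : ↥U) σ = 1 := by
      refine hL2 _ (hF'1 _ hs) (hF'2 _ hs) ?_
      apply Additive.toMul.injective
      apply Units.ext
      show ((s : ↥U) : GQ) ((Additive.toMul (y σ) : Qbˣ) : Qb) = ((Additive.toMul (y σ) : Qbˣ) : Qb)
      rw [← hb]
      exact hF'3 _ hs
    rw [e1, e2, div_one]
  let f : ↥χ.ker →* GQ := U.subtype.comp χ.ker.subtype
  haveI := finite_quotient_comap_fixing844 F' f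
  obtain ⟨β, hβ⟩ := exists_unit_of_levelCocycle844 (H := ↥χ.ker) (Ω := Qb) (T := ↥F')
    ((algebraMap F' Qb : F' →* Qb)) (F'.fixingSubgroup.comap f)
    (by
      intro g hg
      rw [Subgroup.mem_comap, IntermediateField.mem_fixingSubgroup_iff]
      intro x hx
      exact hg ⟨x, hx⟩)
    (by
      intro g hg θ
      rw [Subgroup.mem_comap, IntermediateField.mem_fixingSubgroup_iff] at hg
      exact hg θ θ.2)
    X
    (by
      intro g h
      have h2 := congrArg (fun u : Qbˣ => (u : Qb)) (hXmul g h)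
      exact h2)
    (by
      intro g s hs
      rw [hXmul, hX1 s hs, smul_one, one_mul])
  have hβ' : ∀ h ∈ χ.ker, h • β * (c σ (σ⁻¹ * h * σ) / c h σ) = β := by
    intro h hh
    have := hβ ⟨h, hh⟩
    rw [hX_def] at this
    apply Units.ext
    exact this
  obtain ⟨a, z, ha, hz2, hz3⟩ := exists_cupChar_of_split844 χ hσ c hc hH β hβ'
  have ha' : GFixed U a := fun u hu => ha ⟨u, hu⟩
  refine ⟨a, ha', ?_⟩
  rw [gcc_eq U n χ a ⟨NeZero.ne n, hχ, ha'⟩]
  refine (Submodule.Quotient.eq _).mpr ?_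
  show (cc.1 - H379.cupChar n (chiAdd χ) (toGMod U a)) ∈ levelCoboundaries₂ U.subtype (gModOn U)
  obtain ⟨zadd, hzadd⟩ : ∃ zadd : ↥U → gModOn U, ∀ g, zadd g = Additive.ofMul (z g) :=
    ⟨_, fun _ => rfl⟩
  refine (mem_levelCoboundaries₂_iff _ _ _).mpr ⟨y - zadd, ⟨F, hF, ?_⟩, ?_⟩
  · intro g s hs
    rw [Pi.sub_apply, Pi.sub_apply, hyF' g s hs, hzadd, hzadd, hz3 g s (hlevel_ker s hs),
      hL1 g s hs, mul_one]
  · funext p
    obtain ⟨g, g'⟩ := p
    rw [d₁₂_hom_apply]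
    show (gModOn U).ρ g ((y - zadd) g') - (y - zadd) (g * g') + (y - zadd) g =
      cc.1 (g, g') - H379.carry n (chiAdd χ g) (chiAdd χ g') • toGMod U a
    have h2 := congrArg Additive.ofMul (hz2 g g')
    have h3 : zadd g + (gModOn U).ρ g (zadd g') + c₁ (g, g') =
        H379.carry n (chiAdd χ g) (chiAdd χ g') • toGMod U a + zadd (g * g') := by
      rw [hzadd, hzadd, hzadd]
      rw [hc_def] at h2
      exact h2
    rw [hc₁_apply] at h3
    simp only [Pi.sub_apply, map_sub]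
    have h4 : cc.1 (g, g') = H379.carry n (chiAdd χ g) (chiAdd χ g') • toGMod U a + zadd (g * g')
        - zadd g - (gModOn U).ρ g (zadd g') + ((gModOn U).ρ g (y g') - y (g * g') + y g) := by
      rw [← h3]
      abel
    rw [h4]
    abel

end Fermat.Agent.S55.G.Rec.H844
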