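import Fermat.Agent.S55.G.Rec.Spec2

/-!
# S55 / layer G / block REC, leaf REC2-L4 (helper533): `CycloFrobSpec`

`q ∤ m`: the `m`-th roots of unity of `ℚ̄_q` are pairwise incongruent modulo the maximal ideal
(`rootsOfUnity_eq_of_norm_sub_lt_one533`).  Hence an inertial automorphism fixes `μ_m`, and an
automorphism acting as `x ↦ x ^ (q ^ f)` on the residue field acts as `ζ ↦ ζ ^ (q ^ f)` on `μ_m`.
-/

set_option autoImplicit false

namespace Fermat.Agent.S55.G.Rec.H533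

open Fermat.Agent.S55.G.Rec

section Core

variable {K : Type*} [NormedField K] [IsUltrametricDist K]

/-- In an ultrametric normed field, `‖ω - 1‖ < 1` implies `‖ω ^ i - 1‖ < 1`. -/
lemma norm_pow_sub_one_lt533 {ω : K} (h : ‖ω - 1‖ < 1) (i : ℕ) : ‖ω ^ i - 1‖ < 1 := by
  induction i with
  | zero => simp
  | succ i ih =>
    have hω : ‖ω‖ ≤ 1 := by
      have : ω = (ω - 1) + 1 := by ring
      rw [this]
      refine (IsUltrametricDist.norm_add_le_max _ _).trans ?_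
      rw [norm_one]
      exact max_le h.le le_rfl
    have e : ω ^ (i + 1) - 1 = (ω ^ i - 1) * ω + (ω - 1) := by ring
    rw [e]
    refine lt_of_le_of_lt (IsUltrametricDist.norm_add_le_max _ _) (max_lt ?_ h)
    rw [norm_mul]
    calc ‖ω ^ i - 1‖ * ‖ω‖ ≤ ‖ω ^ i - 1‖ * 1 :=
          mul_le_mul_of_nonneg_left hω (norm_nonneg _)
      _ < 1 := by rw [mul_one]; exact ih

/-- In an ultrametric normed field, a finite sum of elements of norm `< 1` has norm `< 1`. -/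
lemma norm_sum_lt_one533 {ι : Type*} (s : Finset ι) (f : ι → K) (h : ∀ i ∈ s, ‖f i‖ < 1) :
    ‖∑ i ∈ s, f i‖ < 1 := by
  classical
  induction s using Finset.induction_on with
  | empty => simp
  | insert a s ha ih =>
    rw [Finset.sum_insert ha]
    refine lt_of_le_of_lt (IsUltrametricDist.norm_add_le_max _ _) (max_lt ?_ ?_)
    · exact h a (Finset.mem_insert_self a s)
    · exact ih fun i hi => h i (Finset.mem_insert_of_mem hi)

/-- If `‖(m : K)‖ = 1`, an `m`-th root of unity `ω` with `‖ω - 1‖ < 1` is `1`. -/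
lemma eq_one_of_pow_eq_one_of_norm_sub_lt533 {m : ℕ} (hm : ‖(m : K)‖ = 1) {ω : K}
    (hω : ω ^ m = 1) (h : ‖ω - 1‖ < 1) : ω = 1 := by
  by_contra hne
  have hgeom : (∑ i ∈ Finset.range m, ω ^ i) * (ω - 1) = ω ^ m - 1 := geom_sum_mul ω m
  rw [hω, sub_self] at hgeom
  have hsum : ∑ i ∈ Finset.range m, ω ^ i = 0 := by
    rcases mul_eq_zero.1 hgeom with h0 | h0
    · exact h0
    · exact absurd (sub_eq_zero.1 h0) hne
  have hm' : (m : K) = - ∑ i ∈ Finset.range m, (ω ^ i - 1) := by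
    rw [Finset.sum_sub_distrib, hsum]
    simp
  have hlt : ‖(m : K)‖ < 1 := by
    rw [hm', norm_neg]
    exact norm_sum_lt_one533 _ _ fun i _ => norm_pow_sub_one_lt533 h i
  rw [hm] at hlt
  exact lt_irrefl _ hlt

/-- If `‖(m : K)‖ = 1`, two `m`-th roots of unity which are congruent modulo the maximal ideal are
equal. -/
lemma rootsOfUnity_eq_of_norm_sub_lt_one533 {m : ℕ} (hm : ‖(m : K)‖ = 1) {ζ ξ : K}
    (hζ : ζ ^ m = 1) (hξ : ξ ^ m = 1) (h : ‖ξ - ζ‖ < 1) : ξ = ζ := by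
  have hm0 : m ≠ 0 := by
    rintro rfl
    simp at hm
  have hζ0 : ζ ≠ 0 := by
    rintro rfl
    rw [zero_pow hm0] at hζ
    exact zero_ne_one hζ
  have hnζ : ‖ζ‖ = 1 := by
    have h1 : ‖ζ‖ ^ m = 1 := by rw [← norm_pow, hζ, norm_one]
    exact (pow_eq_one_iff_of_nonneg (norm_nonneg _) hm0).1 h1
  have hω : (ξ / ζ) ^ m = 1 := by rw [div_pow, hζ, hξ, div_one]
  have hdist : ‖ξ / ζ - 1‖ < 1 := by
    have e : ξ / ζ - 1 = (ξ - ζ) / ζ := by field_simp
    rw [e, norm_div, hnζ, div_one]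
    exact h
  have := eq_one_of_pow_eq_one_of_norm_sub_lt533 hm hω hdist
  exact (div_eq_one_iff_eq hζ0).1 this

end Core

section Padic

variable (q : ℕ) [Fact q.Prime]

/-- `‖(m : ℚ̄_q)‖ = 1` for `q ∤ m`. -/
lemma norm_natCast_padicAlgCl533 {m : ℕ} (hm : ¬ q ∣ m) : ‖(m : PadicAlgCl q)‖ = 1 := by
  have h1 : ((m : ℚ_[q]) : PadicAlgCl q) = (m : PadicAlgCl q) := by
    exact map_natCast (algebraMap ℚ_[q] (PadicAlgCl q)) m
  rw [← h1, PadicAlgCl.norm_extends]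
  exact (Padic.norm_natCast_eq_one_iff (p := q)).2 ((Nat.Prime.coprime_iff_not_dvd Fact.out).2 hm)

/-- **REC2-L4.** -/
theorem cycloFrob533 : CycloFrobSpec := by
  intro q _ m hm
  have hnm : ‖(m : PadicAlgCl q)‖ = 1 := norm_natCast_padicAlgCl533 q hm
  have hm0 : m ≠ 0 := by
    rintro rfl
    exact hm (dvd_zero q)
  have hnorm : ∀ ζ : PadicAlgCl q, ζ ^ m = 1 → ‖ζ‖ ≤ 1 := by
    intro ζ hζ
    have h1 : ‖ζ‖ ^ m = 1 := by rw [← norm_pow, hζ, norm_one]
    exact ((pow_eq_one_iff_of_nonneg (norm_nonneg _) hm0).1 h1).le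
  refine ⟨fun τ hτ ζ hζ => ?_, fun τ f hτ ζ hζ => ?_⟩
  · have hτζ : (τ ζ) ^ m = 1 := by rw [← map_pow, hζ, map_one]
    exact rootsOfUnity_eq_of_norm_sub_lt_one533 hnm hζ hτζ (hτ ζ (hnorm ζ hζ))
  · have hτζ : (τ ζ) ^ m = 1 := by rw [← map_pow, hζ, map_one]
    have hζq : (ζ ^ (q ^ f)) ^ m = 1 := by rw [← pow_mul, mul_comm, pow_mul, hζ, one_pow]
    exact rootsOfUnity_eq_of_norm_sub_lt_one533 hnm hζq hτζ (hτ ζ (hnorm ζ hζ))

end Padic

end Fermat.Agent.S55.G.Rec.H533
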