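import Fermat.Agent.S55.G.Rec.Spec2

/-!
# S55 / layer G / block REC : leaf (L4) `CycloFrobSpec`   (helper735)

Roots of unity of order prime to `q` are pairwise incongruent modulo the maximal ideal of
`ℚ̄_q`.  Hence an inertial automorphism fixes `μ_m` (`q ∤ m`) and an automorphism acting as
`x ↦ x ^ (q ^ f)` on the residue field acts as `ζ ↦ ζ ^ (q ^ f)` on `μ_m`.

* `H735.norm_natCast_eq_one` : `‖(m : ℚ̄_q)‖ = 1` for `q ∤ m`.
* `H735.eq_one_of_pow_eq_one_of_norm_sub_one_lt` : `u ^ m = 1`, `‖u - 1‖ < 1`, `q ∤ m` ⇒ `u = 1`.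
* `H735.eq_of_pow_eq_one_of_norm_sub_lt` : `ζ ^ m = ξ ^ m = 1`, `‖ζ - ξ‖ < 1`, `q ∤ m` ⇒ `ζ = ξ`.
* `H735.cycloFrob : CycloFrobSpec`.
-/

set_option autoImplicit false

noncomputable section

namespace Fermat.Agent.S55.G.Rec.H735

open Fermat.Agent.S55.G.Rec

variable {q : ℕ} [Fact q.Prime]

/-- `‖(m : ℚ̄_q)‖ = 1` for `q ∤ m`. -/
lemma norm_natCast_eq_one {m : ℕ} (hm : ¬ q ∣ m) : ‖(m : PadicAlgCl q)‖ = 1 := by
  have h1 : (m : PadicAlgCl q) = algebraMap ℚ_[q] (PadicAlgCl q) (m : ℚ_[q]) := by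
    rw [map_natCast]
  rw [h1, PadicAlgCl.norm_extends, Padic.norm_natCast_eq_one_iff]
  exact (Nat.Prime.coprime_iff_not_dvd (Fact.out : q.Prime)).2 hm

/-- A root of unity has norm `1`. -/
lemma norm_eq_one_of_pow_eq_one {m : ℕ} (hm : m ≠ 0) {ζ : PadicAlgCl q} (hζ : ζ ^ m = 1) :
    ‖ζ‖ = 1 := by
  have h : ‖ζ‖ ^ m = 1 := by rw [← norm_pow, hζ, norm_one]
  exact (pow_eq_one_iff_of_nonneg (norm_nonneg ζ) hm).1 h

/-- `‖∑_{i<m} u^i - m‖ < 1` if `‖u - 1‖ < 1`. -/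
lemma norm_geom_sum_sub_lt {u : PadicAlgCl q} (hu : ‖u - 1‖ < 1) (m : ℕ) :
    ‖(∑ i ∈ Finset.range m, u ^ i) - (m : PadicAlgCl q)‖ ≤ ‖u - 1‖ := by
  have hu1 : ‖u‖ ≤ 1 := by
    have : u = (u - 1) + 1 := by ring
    rw [this]
    refine (IsUltrametricDist.norm_add_le_max _ _).trans ?_
    rw [norm_one]
    exact max_le hu.le le_rfl
  have hpow : ∀ i : ℕ, ‖u ^ i - 1‖ ≤ ‖u - 1‖ := by
    intro i
    have h : u ^ i - 1 = (u - 1) * ∑ j ∈ Finset.range i, u ^ j := (mul_geom_sum u i).symm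
    rw [h, norm_mul]
    have hs : ‖∑ j ∈ Finset.range i, u ^ j‖ ≤ 1 := by
      refine IsUltrametricDist.norm_sum_le_of_forall_le_of_nonneg zero_le_one ?_
      intro j _
      rw [norm_pow]
      exact pow_le_one₀ (norm_nonneg u) hu1
    calc ‖u - 1‖ * ‖∑ j ∈ Finset.range i, u ^ j‖ ≤ ‖u - 1‖ * 1 :=
          mul_le_mul_of_nonneg_left hs (norm_nonneg _)
      _ = ‖u - 1‖ := mul_one _
  have hsum : (∑ i ∈ Finset.range m, u ^ i) - (m : PadicAlgCl q)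
      = ∑ i ∈ Finset.range m, (u ^ i - 1) := by
    rw [Finset.sum_sub_distrib]
    simp
  rw [hsum]
  exact IsUltrametricDist.norm_sum_le_of_forall_le_of_nonneg (norm_nonneg _) fun i _ => hpow i

/-- A root of unity of order prime to `q` which is congruent to `1` is `1`. -/
lemma eq_one_of_pow_eq_one_of_norm_sub_one_lt {m : ℕ} (hm : ¬ q ∣ m) {u : PadicAlgCl q}
    (hum : u ^ m = 1) (hu : ‖u - 1‖ < 1) : u = 1 := by
  by_contra hne
  have hne' : u - 1 ≠ 0 := sub_ne_zero.2 hne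
  have h0 : (u - 1) * ∑ i ∈ Finset.range m, u ^ i = 0 := by
    rw [mul_geom_sum, hum, sub_self]
  have hS : ∑ i ∈ Finset.range m, u ^ i = 0 := (mul_eq_zero.1 h0).resolve_left hne'
  have h1 := norm_geom_sum_sub_lt hu m
  rw [hS, zero_sub, norm_neg, norm_natCast_eq_one hm] at h1
  exact absurd hu (not_lt.2 h1)

/-- Two roots of unity of order prime to `q` which are congruent are equal. -/
lemma eq_of_pow_eq_one_of_norm_sub_lt {m : ℕ} (hm : ¬ q ∣ m) {ζ ξ : PadicAlgCl q}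
    (hζ : ζ ^ m = 1) (hξ : ξ ^ m = 1) (h : ‖ζ - ξ‖ < 1) : ζ = ξ := by
  have hm0 : m ≠ 0 := fun h0 => hm (h0 ▸ dvd_zero q)
  have hξn : ‖ξ‖ = 1 := norm_eq_one_of_pow_eq_one hm0 hξ
  have hξ0 : ξ ≠ 0 := by
    intro h0
    rw [h0, norm_zero] at hξn
    exact zero_ne_one hξn
  have hu : (ζ * ξ⁻¹) ^ m = 1 := by
    rw [mul_pow, inv_pow, hζ, hξ, inv_one, mul_one]
  have hsub : ζ * ξ⁻¹ - 1 = (ζ - ξ) * ξ⁻¹ := by
    field_simp
  have hlt : ‖ζ * ξ⁻¹ - 1‖ < 1 := by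
    rw [hsub, norm_mul, norm_inv, hξn, inv_one, mul_one]
    exact h
  have h1 := eq_one_of_pow_eq_one_of_norm_sub_one_lt hm hu hlt
  have := congrArg (· * ξ) h1
  simpa [inv_mul_cancel_right₀ hξ0] using this

/-- **(L4)**  cyclotomic characters away from `q`. -/
theorem cycloFrob : CycloFrobSpec := by
  intro q _ m hm
  have hm0 : m ≠ 0 := fun h0 => hm (h0 ▸ dvd_zero q)
  refine ⟨fun τ hτ ζ hζ => ?_, fun τ f hτ ζ hζ => ?_⟩
  · have hn : ‖ζ‖ ≤ 1 := (norm_eq_one_of_pow_eq_one hm0 hζ).le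
    have hτζ : (τ ζ) ^ m = 1 := by rw [← map_pow, hζ, map_one]
    exact eq_of_pow_eq_one_of_norm_sub_lt hm hτζ hζ (hτ ζ hn)
  · have hn : ‖ζ‖ ≤ 1 := (norm_eq_one_of_pow_eq_one hm0 hζ).le
    have hτζ : (τ ζ) ^ m = 1 := by rw [← map_pow, hζ, map_one]
    have hpow : (ζ ^ (q ^ f)) ^ m = 1 := by
      rw [← pow_mul, mul_comm, pow_mul, hζ, one_pow]
    exact eq_of_pow_eq_one_of_norm_sub_lt hm hτζ hpow (hτ ζ hn)

end Fermat.Agent.S55.G.Rec.H735
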