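import Fermat.Agent.S55.G.Rec.H379Core

/-!
# S55 / G / REC, leaf (A4), `Rep`-level form

For `A : Rep k G` (Mathlib), `χ : G → ZMod n` additive:

* `cupCocycle A χ hχ : A.ρ.invariants →ₗ[k] cocycles₂ A`, `a ↦ cupChar n χ a`;
* `cc A χ hχ : A.ρ.invariants →ₗ[k] H2 A`, the class of `cupChar n χ a`;
* if moreover `χ` is injective and `χ σ = 1` (i.e. `G = ⟨σ⟩` is cyclic of order `n`):
  `cc_surjective`, `cc_eq_zero_iff`, `ker_cc`, and the isomorphism
  `ccEquiv : A^G / N_G A ≃ₗ[k] H²(G, A)`.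
-/

set_option autoImplicit false
set_option linter.unusedSectionVars false
set_option linter.style.haveILetI false

universe u

namespace Fermat.Agent.S55.G.Rec.H379

open groupCohomology Finset

section Rep

variable {k G : Type u} [CommRing k] [Group G]

/-- The `DistribMulAction` of `G` on the underlying module of `A : Rep k G` (a local instance,
only used to talk about `IsCocycle₂` / `IsCoboundary₂`). -/
@[reducible] def repAct (A : Rep.{u} k G) : DistribMulAction G A.V where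
  smul g x := A.ρ g x
  one_smul x := by simp [HSMul.hSMul]
  mul_smul g h x := by simp [HSMul.hSMul]
  smul_zero g := by simp [HSMul.hSMul]
  smul_add g x y := by simp [HSMul.hSMul]

lemma repAct_smul (A : Rep.{u} k G) (g : G) (x : A.V) :
    (letI := repAct A; g • x) = A.ρ g x := rfl

lemma mem_cocycles₂_iff_isCocycle₂ (A : Rep.{u} k G) (f : G × G → A.V) :
    f ∈ cocycles₂ A ↔ (letI := repAct A; IsCocycle₂ f) :=
  mem_cocycles₂_iff f

lemma mem_coboundaries₂_iff_isCoboundary₂ (A : Rep.{u} k G) (f : G × G → A.V) :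
    f ∈ coboundaries₂ A ↔ (letI := repAct A; IsCoboundary₂ f) := by
  letI := repAct A
  constructor
  · rintro ⟨x, rfl⟩
    exact ⟨x, fun g h => rfl⟩
  · rintro ⟨x, hx⟩
    exact ⟨x, funext fun p => hx p.1 p.2⟩

variable (A : Rep.{u} k G) {n : ℕ} [NeZero n] (χ : G → ZMod n)

/-- **(A1)**, `Rep`-level. -/
theorem cupChar_mem_cocycles₂ (hχ : ∀ g h, χ (g * h) = χ g + χ h) {a : A.V}
    (ha : a ∈ A.ρ.invariants) : cupChar n χ a ∈ cocycles₂ A := by
  rw [mem_cocycles₂_iff_isCocycle₂]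
  letI := repAct A
  exact isCocycle₂_cupChar hχ (fun g => (Representation.mem_invariants A.ρ a).1 ha g)

/-- `a ↦ cupChar n χ a` as a linear map from the invariants to the 2-cocycles. -/
noncomputable def cupCocycle (hχ : ∀ g h, χ (g * h) = χ g + χ h) : A.ρ.invariants →ₗ[k] cocycles₂ A where
  toFun a := ⟨cupChar n χ (a : A.V), cupChar_mem_cocycles₂ A χ hχ a.2⟩
  map_add' a b := by
    apply Subtype.ext
    exact cupChar_add n χ (a : A.V) (b : A.V)
  map_smul' c a := by
    apply Subtype.ext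
    funext p
    show carry n (χ p.1) (χ p.2) • (c • (a : A.V)) = c • (carry n (χ p.1) (χ p.2) • (a : A.V))
    rw [smul_comm]

@[simp] lemma cupCocycle_apply (hχ : ∀ g h, χ (g * h) = χ g + χ h) (a : A.ρ.invariants)
    (g h : G) : (cupCocycle A χ hχ a : G × G → A.V) (g, h) = carry n (χ g) (χ h) • (a : A.V) :=
  rfl

lemma coe_cupCocycle (hχ : ∀ g h, χ (g * h) = χ g + χ h) (a : A.ρ.invariants) :
    ((cupCocycle A χ hχ a : cocycles₂ A) : G × G → A.V) = cupChar n χ (a : A.V) := rfl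

/-- The class `cc a χ ∈ H²(G, A)` of `cupChar n χ a`, as a linear map in `a ∈ A^G`. -/
noncomputable def cc (hχ : ∀ g h, χ (g * h) = χ g + χ h) : A.ρ.invariants →ₗ[k] H2 A :=
  (H2π A).hom ∘ₗ cupCocycle A χ hχ

lemma cc_apply (hχ : ∀ g h, χ (g * h) = χ g + χ h) (a : A.ρ.invariants) :
    cc A χ hχ a = H2π A (cupCocycle A χ hχ a) := rfl

variable {A χ}

/-- **(A4), surjectivity**, `Rep`-level: every class in `H²(G, A)` is `cc a χ`. -/
theorem cc_surjective (hχ : ∀ g h, χ (g * h) = χ g + χ h) (hinj : Function.Injective χ)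
    {σ : G} (hσ : χ σ = 1) : Function.Surjective (cc A χ hχ) := by
  intro x
  induction x using H2_induction_on with
  | h f =>
    letI := repAct A
    have hf : IsCocycle₂ (f : G × G → A.V) := (mem_cocycles₂_iff_isCocycle₂ A _).1 f.2
    obtain ⟨a, ha, hcob⟩ := exists_cupChar_cohomologous hχ hinj hσ hf
    refine ⟨⟨a, (Representation.mem_invariants A.ρ a).2 ha⟩, ?_⟩
    rw [cc_apply, H2π_eq_iff]
    have := (mem_coboundaries₂_iff_isCoboundary₂ A _).2 hcob
    rw [← neg_sub] at this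
    exact (Submodule.neg_mem_iff _).1 this

/-- **(A4), injectivity**, `Rep`-level: `cc a χ = 0` iff `a` is a norm. -/
theorem cc_eq_zero_iff (hχ : ∀ g h, χ (g * h) = χ g + χ h) (hinj : Function.Injective χ)
    {σ : G} (hσ : χ σ = 1) [Fintype G] (a : A.ρ.invariants) :
    cc A χ hχ a = 0 ↔ ∃ b : A.V, A.ρ.norm b = (a : A.V) := by
  rw [cc_apply, H2π_eq_zero_iff, coe_cupCocycle, mem_coboundaries₂_iff_isCoboundary₂]
  letI := repAct A
  rw [isCoboundary₂_cupChar_iff' hχ hinj hσ]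
  constructor
  · rintro ⟨b, hb⟩
    refine ⟨b, ?_⟩
    rw [hb, Representation.norm, LinearMap.sum_apply]
    rfl
  · rintro ⟨b, hb⟩
    refine ⟨b, ?_⟩
    rw [← hb, Representation.norm, LinearMap.sum_apply]
    rfl

/-- In particular (A4): `cc (N_G b) χ = 0`. -/
theorem cc_norm_eq_zero (hχ : ∀ g h, χ (g * h) = χ g + χ h) (hinj : Function.Injective χ)
    {σ : G} (hσ : χ σ = 1) [Fintype G] (a : A.ρ.invariants) (b : A.V)
    (hb : A.ρ.norm b = (a : A.V)) : cc A χ hχ a = 0 :=
  (cc_eq_zero_iff hχ hinj hσ a).2 ⟨b, hb⟩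

/-- The kernel of `cc` is the submodule of norms. -/
theorem ker_cc (hχ : ∀ g h, χ (g * h) = χ g + χ h) (hinj : Function.Injective χ)
    {σ : G} (hσ : χ σ = 1) [Fintype G] :
    LinearMap.ker (cc A χ hχ) = (LinearMap.range A.ρ.norm).comap A.ρ.invariants.subtype := by
  ext a
  rw [LinearMap.mem_ker, cc_eq_zero_iff hχ hinj hσ, Submodule.mem_comap, LinearMap.mem_range]
  rfl

/-- **(A4)**: `A^G / N_G A ≃ H²(G, A)` for `G` cyclic of order `n`, induced by `a ↦ cc a χ`. -/
noncomputable def ccEquiv (hχ : ∀ g h, χ (g * h) = χ g + χ h) (hinj : Function.Injective χ)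
    {σ : G} (hσ : χ σ = 1) [Fintype G] :
    (A.ρ.invariants ⧸ (LinearMap.range A.ρ.norm).comap A.ρ.invariants.subtype) ≃ₗ[k] H2 A :=
  (Submodule.quotEquivOfEq _ _ (ker_cc hχ hinj hσ).symm).trans
    ((cc A χ hχ).quotKerEquivOfSurjective (cc_surjective hχ hinj hσ))

@[simp] lemma ccEquiv_mk (hχ : ∀ g h, χ (g * h) = χ g + χ h) (hinj : Function.Injective χ)
    {σ : G} (hσ : χ σ = 1) [Fintype G] (a : A.ρ.invariants) :
    ccEquiv hχ hinj hσ (Submodule.Quotient.mk a) = cc A χ hχ a := rfl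


/-- The norm (for the cyclic quotient `G / ker χ`) of an element fixed by `ker χ` is
`G`-invariant. -/
theorem norm_ker_mem_invariants (hχ : ∀ g h, χ (g * h) = χ g + χ h) {σ : G} (hσ : χ σ = 1)
    {b : A.V} (hb : ∀ g : G, χ g = 0 → A.ρ g b = b) :
    (∑ k ∈ range n, A.ρ (σ ^ k) b) ∈ A.ρ.invariants := by
  rw [Representation.mem_invariants]
  letI := repAct A
  exact fun g => smul_norm_eq_of_ker hχ hσ hb g

/-- **(A4) + inflation**, `Rep`-level (no injectivity of `χ` needed): if `a` is the norm, for the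
cyclic quotient `G / ker χ = ⟨σ̄⟩`, of an element `b` fixed by `ker χ`, then `cc a χ = 0`. -/
theorem cc_eq_zero_of_norm_ker (hχ : ∀ g h, χ (g * h) = χ g + χ h) {σ : G} (hσ : χ σ = 1)
    {b : A.V} (hb : ∀ g : G, χ g = 0 → A.ρ g b = b) (a : A.ρ.invariants)
    (ha : (a : A.V) = ∑ k ∈ range n, A.ρ (σ ^ k) b) : cc A χ hχ a = 0 := by
  rw [cc_apply, H2π_eq_zero_iff, coe_cupCocycle, mem_coboundaries₂_iff_isCoboundary₂, ha]
  letI := repAct A
  exact isCoboundary₂_cupChar_of_norm hχ hσ hb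

end Rep

end Fermat.Agent.S55.G.Rec.H379
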