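import Fermat.Agent.S55.G.Rec.Spec
import Fermat.Agent.S55.G.Rec.H379Rep

/-!
# S55 / layer G / block REC : definitions, part 2 (cup classes, norms, local degree-valuation)

* `gcc U n χ a : gBr U`, `lcc q V n χ a : lBr q V` : the classes of the explicit cocycles
  `(g, h) ↦ a ^ ε_χ(g, h)` (`H379.cupChar`), for a continuous character `χ` of `U` (resp. `V`)
  with values in `ℤ/n` and an invariant element `a`  (junk value `0` if `χ` is not
  continuous, `a` is not invariant or `n = 0`).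
* `relNorm H b = ∏_{t ∈ G/H} t • b` : the norm from the fixed field of `H` (junk unless `b` is fixed
  by `H` and `H` has finite index).
* `vdeg q V a : ℤ` : `q ^ (-vdeg) = ‖a‖ ^ [G_{ℚ_q} : V]`, i.e. `vdeg = f_v · ord_v (a)`,
  `N(v) ^ ord_v(a) = q ^ vdeg`.
* `IsCycloChar m χ` : `χ` is trivial on the elements acting trivially on `μ_m`.
-/

set_option autoImplicit false

noncomputable section

namespace Fermat.Agent.S55.G.Rec

open groupCohomology

local notation "Qb" => AlgebraicClosure ℚ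
local notation "GQ" => (AlgebraicClosure ℚ ≃ₐ[ℚ] AlgebraicClosure ℚ)

/-! ## Characters -/

/-- The additive function `G → ℤ/n` underlying a character `χ : G →* Multiplicative (ZMod n)`. -/
def chiAdd {G : Type*} [Monoid G] {n : ℕ} (χ : G →* Multiplicative (ZMod n)) : G → ZMod n :=
  fun g => Multiplicative.toAdd (χ g)

lemma chiAdd_mul {G : Type*} [Monoid G] {n : ℕ} (χ : G →* Multiplicative (ZMod n)) (g h : G) :
    chiAdd χ (g * h) = chiAdd χ g + chiAdd χ h := by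
  simp [chiAdd]

lemma isCupChar_iff {G A : Type*} [Group G] [AddCommGroup A] {n : ℕ} (a : A)
    (χ : G →* Multiplicative (ZMod n)) (c : G × G → A) :
    IsCupChar a χ c ↔ c = H379.cupChar n (chiAdd χ) a := by
  constructor
  · intro h
    funext ⟨g, k⟩
    exact h g k
  · rintro rfl g k
    rfl

/-- A general norm: `∏_{t ∈ G/H} t • b` (product over coset representatives). -/
def relNorm {G M : Type*} [Group G] [CommGroup M] [MulDistribMulAction G M] (H : Subgroup G)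
    (b : M) : M :=
  ∏ᶠ t : G ⧸ H, (Quotient.out t : G) • b

/-! ## Global cup classes -/

section Global

/-- `a ∈ ℚ̄ˣ` lies in the fixed field of `U`. -/
def GFixed (U : Subgroup GQ) (a : Qbˣ) : Prop := ∀ u ∈ U, u • a = a

lemma toGMod_mem_invariants {U : Subgroup GQ} {a : Qbˣ} (ha : GFixed U a) :
    toGMod U a ∈ (gModOn U).ρ.invariants := by
  intro u
  show Additive.ofMul ((u : GQ) • a) = Additive.ofMul a
  rw [ha u u.2]

lemma cupChar_isLevelConstant₂ {G A : Type} [Group G] [AddCommGroup A]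
    (r : G →* GQ) {n : ℕ} (χ : G →* Multiplicative (ZMod n)) (hχ : IsLevelConstant₁ r χ) (a : A) :
    IsLevelConstant₂ r (H379.cupChar n (chiAdd χ) a) := by
  obtain ⟨F, hF, h⟩ := hχ
  refine ⟨F, hF, fun g g' s s' hs hs' => ?_⟩
  simp only [H379.cupChar_apply, chiAdd, h g s hs, h g' s' hs']

lemma gcupChar_mem (U : Subgroup GQ) (n : ℕ) (χ : ↥U →* Multiplicative (ZMod n)) (a : Qbˣ)
    (h : n ≠ 0 ∧ IsLevelConstant₁ U.subtype χ ∧ GFixed U a) :
    H379.cupChar n (chiAdd χ) (toGMod U a) ∈ levelCocycles₂ U.subtype (gModOn U) := by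
  haveI : NeZero n := ⟨h.1⟩
  exact ⟨H379.cupChar_mem_cocycles₂ (gModOn U) (chiAdd χ) (chiAdd_mul χ)
    (toGMod_mem_invariants h.2.2), cupChar_isLevelConstant₂ _ χ h.2.1 _⟩

open Classical in
/-- The global cup class `a ∪ δχ ∈ Br(K)`, `K = ℚ̄^U`. -/
def gcc (U : Subgroup GQ) (n : ℕ) (χ : ↥U →* Multiplicative (ZMod n)) (a : Qbˣ) : gBr U :=
  if h : n ≠ 0 ∧ IsLevelConstant₁ U.subtype χ ∧ GFixed U a then
    continuousH2π U.subtype (gModOn U) ⟨_, gcupChar_mem U n χ a h⟩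
  else 0

lemma gcc_eq (U : Subgroup GQ) (n : ℕ) (χ : ↥U →* Multiplicative (ZMod n)) (a : Qbˣ)
    (h : n ≠ 0 ∧ IsLevelConstant₁ U.subtype χ ∧ GFixed U a) :
    gcc U n χ a = continuousH2π U.subtype (gModOn U) ⟨_, gcupChar_mem U n χ a h⟩ := by
  unfold gcc
  rw [dif_pos h]

/-- `χ` is cyclotomic mod `m`: trivial on the elements of `U` acting trivially on `μ_m`. -/
def IsCycloChar (U : Subgroup GQ) (m : ℕ) {n : ℕ} (χ : ↥U →* Multiplicative (ZMod n)) : Prop :=
  ∀ σ : ↥U, (∀ ζ : Qb, ζ ^ m = 1 → (σ : GQ) ζ = ζ) → χ σ = 1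

end Global

/-! ## Local cup classes -/

section Local

variable (q : ℕ) [Fact q.Prime]

local notation "Gq" => (PadicAlgCl q ≃ₐ[ℚ_[q]] PadicAlgCl q)

/-- `a ∈ ℚ̄_qˣ` lies in the fixed field of `V`. -/
def LFixed (V : Subgroup Gq) (a : (PadicAlgCl q)ˣ) : Prop := ∀ τ ∈ V, τ • a = a

variable {q} in
lemma toLMod_mem_invariants {V : Subgroup Gq} {a : (PadicAlgCl q)ˣ} (ha : LFixed q V a) :
    toLMod q V a ∈ (lModOn q V).ρ.invariants := by
  intro τ
  show Additive.ofMul ((τ : Gq) • a) = Additive.ofMul a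
  rw [ha τ τ.2]

lemma lcupChar_mem (V : Subgroup Gq) (n : ℕ) (χ : ↥V →* Multiplicative (ZMod n))
    (a : (PadicAlgCl q)ˣ) (h : n ≠ 0 ∧ IsLevelConstant₁ (lHom q V) χ ∧ LFixed q V a) :
    H379.cupChar n (chiAdd χ) (toLMod q V a) ∈ levelCocycles₂ (lHom q V) (lModOn q V) := by
  haveI : NeZero n := ⟨h.1⟩
  exact ⟨H379.cupChar_mem_cocycles₂ (lModOn q V) (chiAdd χ) (chiAdd_mul χ)
    (toLMod_mem_invariants h.2.2), cupChar_isLevelConstant₂ _ χ h.2.1 _⟩

open Classical in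
/-- The local cup class `a ∪ δχ ∈ Br(K_v)`, `K_v = ℚ̄_q^V`. -/
def lcc (V : Subgroup Gq) (n : ℕ) (χ : ↥V →* Multiplicative (ZMod n)) (a : (PadicAlgCl q)ˣ) :
    lBr q V :=
  if h : n ≠ 0 ∧ IsLevelConstant₁ (lHom q V) χ ∧ LFixed q V a then
    continuousH2π (lHom q V) (lModOn q V) ⟨_, lcupChar_mem q V n χ a h⟩
  else 0

lemma lcc_eq (V : Subgroup Gq) (n : ℕ) (χ : ↥V →* Multiplicative (ZMod n)) (a : (PadicAlgCl q)ˣ)
    (h : n ≠ 0 ∧ IsLevelConstant₁ (lHom q V) χ ∧ LFixed q V a) :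
    lcc q V n χ a = continuousH2π (lHom q V) (lModOn q V) ⟨_, lcupChar_mem q V n χ a h⟩ := by
  unfold lcc
  rw [dif_pos h]

/-- The degree-valuation of `a` at the place with group `V`:
`vdeg = - log_q (‖a‖ ^ [G_{ℚ_q} : V]) = f_v · ord_v (a)`, so that `N(v) ^ ord_v (a) = q ^ vdeg`. -/
def vdeg (V : Subgroup Gq) (a : (PadicAlgCl q)ˣ) : ℤ :=
  - Int.log q (‖(a : PadicAlgCl q)‖ ^ V.index)

end Local

end Fermat.Agent.S55.G.Rec
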