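import Mathlib

/-!
# S55 / layer G / block REC — leaf N3 (norm identity mod `r`), helper293

Abstract core: if `S` is a free `R`-algebra of finite rank `n` and `F` is a field over `R` such that
there are `n` pairwise distinct `R`-algebra homs `φ k : S →ₐ[R] F` ("the fibre of `S` over `F` is
totally split"), then `Algebra.norm R b` maps to `∏ k, φ k b` in `F`.
-/

set_option autoImplicit false

open Matrix

namespace Fermat.Agent.S55.G.Rec.H293

section Abstract

variable {R S F ι κ : Type*} [CommRing R] [CommRing S] [Algebra R S] [Field F] [Algebra R F]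
  [Fintype ι] [DecidableEq ι] [Fintype κ] [DecidableEq κ]

/-- The matrix of values `φ k (ω j)`. -/
noncomputable def valueMatrix (ω : Module.Basis ι R S) (φ : κ → (S →ₐ[R] F)) : Matrix κ ι F :=
  Matrix.of fun k j => φ k (ω j)

omit [DecidableEq κ] [Fintype κ] in
/-- `W * M̄ = diag(φ b) * W`. -/
theorem valueMatrix_mul_leftMulMatrix (ω : Module.Basis ι R S) (φ : κ → (S →ₐ[R] F)) (b : S) :
    valueMatrix ω φ * (Algebra.leftMulMatrix ω b).map (algebraMap R F) =
      Matrix.of fun k j => φ k b * φ k (ω j) := by
  ext k j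
  simp only [Matrix.mul_apply, valueMatrix, Matrix.of_apply, Matrix.map_apply,
    Algebra.leftMulMatrix_eq_repr_mul]
  have h : b * ω j = ∑ l, ω.repr (b * ω j) l • ω l := (ω.sum_repr (b * ω j)).symm
  calc ∑ l, φ k (ω l) * algebraMap R F (ω.repr (b * ω j) l)
      = φ k (∑ l, ω.repr (b * ω j) l • ω l) := by
        rw [map_sum]
        refine Finset.sum_congr rfl fun l _ => ?_
        rw [map_smul, Algebra.smul_def, mul_comm]
    _ = φ k (b * ω j) := by rw [← h]
    _ = φ k b * φ k (ω j) := map_mul _ _ _

omit [DecidableEq ι] [DecidableEq κ] in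
/-- The rows of the value matrix of pairwise distinct algebra homs are linearly independent. -/
theorem linearIndependent_valueMatrix (ω : Module.Basis ι R S) (φ : κ → (S →ₐ[R] F))
    (hφ : Function.Injective φ) :
    LinearIndependent F (fun k => (valueMatrix ω φ) k) := by
  classical
  rw [Fintype.linearIndependent_iff]
  intro c hc
  -- the combination `∑ c k • φ k` vanishes on all of `S`
  have hS : ∀ s : S, ∑ k, c k * φ k s = 0 := by
    intro s
    have hs : s = ∑ j, ω.repr s j • ω j := (ω.sum_repr s).symm
    have h1 : ∀ k, φ k s = ∑ j, algebraMap R F (ω.repr s j) * φ k (ω j) := by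
      intro k
      conv_lhs => rw [hs]
      rw [map_sum]
      refine Finset.sum_congr rfl fun j _ => ?_
      rw [map_smul, Algebra.smul_def]
    simp only [h1, Finset.mul_sum]
    rw [Finset.sum_comm]
    refine Finset.sum_eq_zero fun j _ => ?_
    have hj : ∑ k, c k * φ k (ω j) = 0 := by
      have := congrFun hc j
      simpa [valueMatrix, Finset.sum_apply, Pi.smul_apply, smul_eq_mul] using this
    calc ∑ k, c k * (algebraMap R F (ω.repr s j) * φ k (ω j))
        = algebraMap R F (ω.repr s j) * ∑ k, c k * φ k (ω j) := by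
          rw [Finset.mul_sum]
          refine Finset.sum_congr rfl fun k _ => by ring
      _ = 0 := by rw [hj, mul_zero]
  -- Dedekind independence of characters
  have hli : LinearIndependent F (fun k : κ => (((φ k : S →ₐ[R] F) : S →* F) : S → F)) := by
    have := linearIndependent_monoidHom S F
    refine this.comp (fun k : κ => ((φ k : S →ₐ[R] F) : S →* F)) ?_
    intro k k' h
    apply hφ
    ext s
    exact congrArg (fun f : S →* F => f s) h
  rw [Fintype.linearIndependent_iff] at hli
  refine hli c ?_
  funext s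
  simpa [Finset.sum_apply, Pi.smul_apply, smul_eq_mul] using hS s

omit [DecidableEq κ] in
/-- **Abstract norm identity.**  If the free `R`-algebra `S` of rank `n` has `n` pairwise distinct
`R`-algebra homs into the field `F`, then the norm of `b` maps to the product of the values of
these homs at `b`. -/
theorem algebraMap_norm_eq_prod (ω : Module.Basis ι R S) (φ : κ → (S →ₐ[R] F))
    (hφ : Function.Injective φ) (hcard : Fintype.card κ = Fintype.card ι) (b : S) :
    algebraMap R F (Algebra.norm R b) = ∏ k, φ k b := by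
  classical
  let e : ι ≃ κ := (Fintype.equivOfCardEq hcard).symm
  -- square version of the value matrix
  let W : Matrix ι ι F := (valueMatrix ω φ).submatrix e id
  let M : Matrix ι ι F := (Algebra.leftMulMatrix ω b).map (algebraMap R F)
  let D : Matrix ι ι F := Matrix.diagonal fun i => φ (e i) b
  have hWM : W * M = D * W := by
    have h := valueMatrix_mul_leftMulMatrix ω φ b
    ext i j
    have hij := congrFun (congrFun h (e i)) j
    simp only [Matrix.mul_apply, Matrix.of_apply] at hij
    have hL : (W * M) i j = ∑ l, valueMatrix ω φ (e i) l * M l j := by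
      simp only [W, Matrix.mul_apply, Matrix.submatrix_apply, id_eq]
    have hR : (D * W) i j = φ (e i) b * valueMatrix ω φ (e i) j := by
      simp only [D, W, Matrix.diagonal_mul, Matrix.submatrix_apply, id_eq]
    rw [hL, hR, hij]
    simp [valueMatrix]
  have hWunit : IsUnit W := by
    rw [← Matrix.linearIndependent_rows_iff_isUnit]
    have h := linearIndependent_valueMatrix ω φ hφ
    have h2 := h.comp e e.injective
    convert h2 using 1
    funext i j
    simp [W, Matrix.row, Matrix.submatrix_apply]
  have hdetW : W.det ≠ 0 := by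
    have := (Matrix.isUnit_iff_isUnit_det W).1 hWunit
    exact this.ne_zero
  have hdet : W.det * M.det = D.det * W.det := by
    rw [← Matrix.det_mul, ← Matrix.det_mul, hWM]
  have hM : M.det = D.det := by
    have : W.det * M.det = W.det * D.det := by rw [hdet, mul_comm]
    exact mul_left_cancel₀ hdetW this
  calc algebraMap R F (Algebra.norm R b)
      = algebraMap R F (Algebra.leftMulMatrix ω b).det := by rw [Algebra.norm_eq_matrix_det ω b]
    _ = M.det := by rw [RingHom.map_det]; rfl
    _ = D.det := hM
    _ = ∏ i, φ (e i) b := Matrix.det_diagonal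
    _ = ∏ k, φ k b := Equiv.prod_comp e (fun k => φ k b)

end Abstract

end Fermat.Agent.S55.G.Rec.H293

namespace Fermat.Agent.S55.G.Rec.H293

open NumberField

section NumberField

variable (K : Type*) [Field K] [NumberField K] (r : ℕ) [hr : Fact r.Prime]

/-- **N3, hom form.**  Let `r` be a prime and suppose that there are `[K : ℚ]` pairwise distinct
ring homs `φ k : 𝓞 K →+* ZMod r` (i.e. `r` is totally split in `K`; the `φ k` are the reductions
modulo the primes above `r`).  Then `N_{K/ℚ}(b) ≡ ∏ k, φ k b  (mod r)` for every `b ∈ 𝓞 K`. -/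
theorem norm_cast_eq_prod_homs {κ : Type*} [Fintype κ] (φ : κ → (𝓞 K →+* ZMod r))
    (hφ : Function.Injective φ) (hcard : Fintype.card κ = Module.finrank ℚ K) (b : 𝓞 K) :
    ((Algebra.norm ℤ b : ℤ) : ZMod r) = ∏ k, φ k b := by
  classical
  have h := algebraMap_norm_eq_prod (R := ℤ) (S := 𝓞 K) (F := ZMod r)
    (RingOfIntegers.basis K) (fun k => (φ k).toIntAlgHom)
    (fun k k' hkk' => hφ (by
      ext s
      exact congrArg (fun f : 𝓞 K →ₐ[ℤ] ZMod r => f s) hkk'))
    (by rw [hcard, ← RingOfIntegers.rank K, Module.finrank_eq_card_chooseBasisIndex]) b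
  simpa using h

/-- If all reductions `φ k b` are nonzero then `r ∤ N(b)`. -/
theorem norm_cast_ne_zero {κ : Type*} [Fintype κ] (φ : κ → (𝓞 K →+* ZMod r))
    (hφ : Function.Injective φ) (hcard : Fintype.card κ = Module.finrank ℚ K) (b : 𝓞 K)
    (hb : ∀ k, φ k b ≠ 0) : ((Algebra.norm ℤ b : ℤ) : ZMod r) ≠ 0 := by
  rw [norm_cast_eq_prod_homs K r φ hφ hcard b]
  exact Finset.prod_ne_zero_iff.2 fun k _ => hb k

/-- **N3, absolute-norm form.**  `N(b𝓞_K) ≡ ± ∏ k, φ k b (mod r)`. -/
theorem absNorm_cast_eq_prod_homs {κ : Type*} [Fintype κ] (φ : κ → (𝓞 K →+* ZMod r))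
    (hφ : Function.Injective φ) (hcard : Fintype.card κ = Module.finrank ℚ K) (b : 𝓞 K) :
    ((Ideal.absNorm (Ideal.span {b}) : ℕ) : ZMod r) = ∏ k, φ k b ∨
      ((Ideal.absNorm (Ideal.span {b}) : ℕ) : ZMod r) = - ∏ k, φ k b := by
  rw [← norm_cast_eq_prod_homs K r φ hφ hcard b, Ideal.absNorm_span_singleton]
  rcases Int.natAbs_eq (Algebra.norm ℤ b) with h | h
  · left
    conv_rhs => rw [h]
    simp
  · right
    conv_rhs => rw [h]
    simp

/-- The absolute norm of a nonzero ideal is the product of the absolute norms of its prime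
factors (with multiplicity). -/
theorem absNorm_eq_prod_normalizedFactors {I : Ideal (𝓞 K)} (hI : I ≠ ⊥) :
    Ideal.absNorm I =
      ((UniqueFactorizationMonoid.normalizedFactors I).map Ideal.absNorm).prod := by
  conv_lhs => rw [← Ideal.prod_normalizedFactors_eq_self hI]
  exact map_multiset_prod Ideal.absNorm _

/-- **N3, product form.**  For `b ≠ 0`:
`∏_{P ∣ (b)} N(P)^{v_P(b)} ≡ ± ∏ k, φ k b (mod r)`, the product over the prime factors of `(b)`
with multiplicity. -/
theorem prod_absNorm_factors_eq_prod_homs {κ : Type*} [Fintype κ] (φ : κ → (𝓞 K →+* ZMod r))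
    (hφ : Function.Injective φ) (hcard : Fintype.card κ = Module.finrank ℚ K) (b : 𝓞 K)
    (hb : b ≠ 0) :
    let m : ℕ := ((UniqueFactorizationMonoid.normalizedFactors
      (Ideal.span {b} : Ideal (𝓞 K))).map Ideal.absNorm).prod
    ((m : ℕ) : ZMod r) = ∏ k, φ k b ∨ ((m : ℕ) : ZMod r) = - ∏ k, φ k b := by
  intro m
  have hI : (Ideal.span {b} : Ideal (𝓞 K)) ≠ ⊥ := by
    simpa [Ideal.span_singleton_eq_bot] using hb
  have hm : m = Ideal.absNorm (Ideal.span {b} : Ideal (𝓞 K)) :=
    (absNorm_eq_prod_normalizedFactors K hI).symm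
  rw [hm]
  exact absNorm_cast_eq_prod_homs K r φ hφ hcard b

end NumberField

end Fermat.Agent.S55.G.Rec.H293
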