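import Fermat.Agent.S55.G.Rec.H293Norm

/-!
# S55 / layer G / block REC — leaf N3, bridge from prime ideals (helper293)

* `resHom K r P hP : 𝓞 K →+* ZMod r` for a (prime) ideal `P` with `Ideal.absNorm P = r`,
  with `ker = P`;
* `norm_cast_eq_prod_primes`: N3 for a finset of `[K:ℚ]` ideals of norm `r`;
* quotient forms (`b = x / y`).
-/

set_option autoImplicit false

namespace Fermat.Agent.S55.G.Rec.H293

open NumberField

section Prime

variable (K : Type*) [Field K] [NumberField K] (r : ℕ) [hr : Fact r.Prime]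

/-- The quotient by an ideal of absolute norm `r` is finite. -/
theorem finite_quotient_of_absNorm_eq (P : Ideal (𝓞 K)) (hP : Ideal.absNorm P = r) :
    Finite (𝓞 K ⧸ P) := by
  rw [Ideal.absNorm_apply, Submodule.cardQuot_apply] at hP
  exact Nat.finite_of_card_ne_zero (by rw [hP]; exact hr.out.ne_zero)

/-- The ring isomorphism `ZMod r ≃+* 𝓞 K ⧸ P` for an ideal `P` of absolute norm `r`. -/
noncomputable def zmodEquivQuot (P : Ideal (𝓞 K)) (hP : Ideal.absNorm P = r) :
    ZMod r ≃+* (𝓞 K ⧸ P) :=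
  haveI := finite_quotient_of_absNorm_eq K r P hP
  letI := Fintype.ofFinite (𝓞 K ⧸ P)
  ZMod.ringEquivOfPrime (𝓞 K ⧸ P) hr.out (by
    rw [← Nat.card_eq_fintype_card, ← Submodule.cardQuot_apply, ← Ideal.absNorm_apply, hP])

/-- The reduction map `𝓞 K →+* ZMod r` modulo an ideal `P` of absolute norm `r`. -/
noncomputable def resHom (P : Ideal (𝓞 K)) (hP : Ideal.absNorm P = r) : 𝓞 K →+* ZMod r :=
  ((zmodEquivQuot K r P hP).symm : (𝓞 K ⧸ P) →+* ZMod r).comp (Ideal.Quotient.mk P)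

theorem resHom_eq_zero_iff (P : Ideal (𝓞 K)) (hP : Ideal.absNorm P = r) (b : 𝓞 K) :
    resHom K r P hP b = 0 ↔ b ∈ P := by
  simp [resHom, Ideal.Quotient.eq_zero_iff_mem]

theorem ker_resHom (P : Ideal (𝓞 K)) (hP : Ideal.absNorm P = r) :
    RingHom.ker (resHom K r P hP) = P := by
  ext b
  rw [RingHom.mem_ker, resHom_eq_zero_iff]

theorem resHom_surjective (P : Ideal (𝓞 K)) (hP : Ideal.absNorm P = r) :
    Function.Surjective (resHom K r P hP) := by
  intro z
  obtain ⟨b, hb⟩ := Ideal.Quotient.mk_surjective (zmodEquivQuot K r P hP z)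
  refine ⟨b, ?_⟩
  simp [resHom, hb]

/-- Ring homs `𝓞 K →+* ZMod r` are determined by their kernels. -/
theorem ringHom_zmod_ext_of_ker_eq {A : Type*} [CommRing A] (f g : A →+* ZMod r)
    (h : RingHom.ker f = RingHom.ker g) : f = g := by
  ext a
  -- `f a = (n : ZMod r)` for some natural `n`, so `a - n ∈ ker f = ker g`
  obtain ⟨n, hn⟩ : ∃ n : ℕ, f a = (n : ZMod r) := ⟨(f a).val, by simp⟩
  have h1 : a - (n : A) ∈ RingHom.ker f := by
    rw [RingHom.mem_ker, map_sub, map_natCast, hn, sub_self]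
  rw [h, RingHom.mem_ker, map_sub, map_natCast, sub_eq_zero] at h1
  rw [hn, h1]

/-- The family of reductions modulo the ideals of norm `r` in a finset `s`. -/
noncomputable def resHomFamily (s : Finset (Ideal (𝓞 K))) (hs : ∀ P ∈ s, Ideal.absNorm P = r) :
    s → (𝓞 K →+* ZMod r) :=
  fun P => resHom K r P.1 (hs P.1 P.2)

theorem resHomFamily_injective (s : Finset (Ideal (𝓞 K)))
    (hs : ∀ P ∈ s, Ideal.absNorm P = r) : Function.Injective (resHomFamily K r s hs) := by
  intro P Q h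
  have := congrArg RingHom.ker h
  simp only [resHomFamily, ker_resHom] at this
  exact Subtype.ext this

/-- **N3, prime-ideal form.**  If `s` is a set of `[K:ℚ]` ideals of absolute norm `r`
(`r` is totally split in `K` and `s` is the set of primes above `r`), then for all `b ∈ 𝓞 K`:
`N_{K/ℚ}(b) ≡ ∏_{P ∈ s} (b mod P)  (mod r)`. -/
theorem norm_cast_eq_prod_primes (s : Finset (Ideal (𝓞 K)))
    (hs : ∀ P ∈ s, Ideal.absNorm P = r) (hcard : s.card = Module.finrank ℚ K) (b : 𝓞 K) :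
    ((Algebra.norm ℤ b : ℤ) : ZMod r) = ∏ P : s, resHomFamily K r s hs P b :=
  norm_cast_eq_prod_homs K r (resHomFamily K r s hs) (resHomFamily_injective K r s hs)
    (by rw [Fintype.card_coe, hcard]) b

/-- **N3, prime-ideal form, absolute norm.** -/
theorem absNorm_cast_eq_prod_primes (s : Finset (Ideal (𝓞 K)))
    (hs : ∀ P ∈ s, Ideal.absNorm P = r) (hcard : s.card = Module.finrank ℚ K) (b : 𝓞 K) :
    ((Ideal.absNorm (Ideal.span {b}) : ℕ) : ZMod r) = ∏ P : s, resHomFamily K r s hs P b ∨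
      ((Ideal.absNorm (Ideal.span {b}) : ℕ) : ZMod r) = - ∏ P : s, resHomFamily K r s hs P b :=
  absNorm_cast_eq_prod_homs K r (resHomFamily K r s hs) (resHomFamily_injective K r s hs)
    (by rw [Fintype.card_coe, hcard]) b

end Prime

section Quotient

variable (K : Type*) [Field K] [NumberField K] (r : ℕ) [hr : Fact r.Prime]

/-- **N3, quotient form** (for `b = x / y ∈ Kˣ`, `y` prime to all primes above `r`):
`N(x) / N(y) ≡ ∏ k, φ k x / φ k y (mod r)`. -/
theorem norm_div_cast_eq_prod_homs {κ : Type*} [Fintype κ] (φ : κ → (𝓞 K →+* ZMod r))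
    (hφ : Function.Injective φ) (hcard : Fintype.card κ = Module.finrank ℚ K) (x y : 𝓞 K) :
    ((Algebra.norm ℤ x : ℤ) : ZMod r) / ((Algebra.norm ℤ y : ℤ) : ZMod r) =
      ∏ k, φ k x / φ k y := by
  rw [norm_cast_eq_prod_homs K r φ hφ hcard x, norm_cast_eq_prod_homs K r φ hφ hcard y,
    Finset.prod_div_distrib]

/-- **N3, quotient form, absolute norms**: `N(x𝓞) / N(y𝓞) ≡ ± ∏ k, φ k x / φ k y (mod r)`. -/
theorem absNorm_div_cast_eq_prod_homs {κ : Type*} [Fintype κ] (φ : κ → (𝓞 K →+* ZMod r))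
    (hφ : Function.Injective φ) (hcard : Fintype.card κ = Module.finrank ℚ K) (x y : 𝓞 K) :
    ((Ideal.absNorm (Ideal.span {x}) : ℕ) : ZMod r) / ((Ideal.absNorm (Ideal.span {y}) : ℕ) : ZMod r)
        = ∏ k, φ k x / φ k y ∨
    ((Ideal.absNorm (Ideal.span {x}) : ℕ) : ZMod r) / ((Ideal.absNorm (Ideal.span {y}) : ℕ) : ZMod r)
        = - ∏ k, φ k x / φ k y := by
  rw [Finset.prod_div_distrib]
  rcases absNorm_cast_eq_prod_homs K r φ hφ hcard x with hx | hx <;>
  rcases absNorm_cast_eq_prod_homs K r φ hφ hcard y with hy | hy <;>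
  rw [hx, hy]
  · left; rfl
  · right; rw [div_neg]
  · right; rw [neg_div]
  · left; rw [neg_div_neg_eq]

end Quotient

end Fermat.Agent.S55.G.Rec.H293

namespace Fermat.Agent.S55.G.Rec.H293

open NumberField

section Galois

variable (K : Type*) [Field K] [NumberField K]

/-- In a Galois number field, the product of the Galois conjugates of `b ∈ 𝓞 K` is the norm. -/
theorem prod_smul_eq_norm [IsGalois ℚ K] (b : 𝓞 K) :
    ∏ σ : (K ≃ₐ[ℚ] K), σ • b = algebraMap ℤ (𝓞 K) (Algebra.norm ℤ b) := by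
  apply RingOfIntegers.coe_injective
  have h1 : algebraMap (𝓞 K) K (algebraMap ℤ (𝓞 K) (Algebra.norm ℤ b)) =
      algebraMap ℚ K (Algebra.norm ℚ (b : K)) := by
    rw [← Algebra.coe_norm_int]
    simp
  have h2 : algebraMap (𝓞 K) K (∏ σ : (K ≃ₐ[ℚ] K), σ • b) =
      ∏ σ : (K ≃ₐ[ℚ] K), σ (b : K) := by
    rw [map_prod]
    rfl
  change algebraMap (𝓞 K) K (∏ σ : (K ≃ₐ[ℚ] K), σ • b) =
    algebraMap (𝓞 K) K (algebraMap ℤ (𝓞 K) (Algebra.norm ℤ b))
  rw [h1, h2, Algebra.norm_eq_prod_automorphisms]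

/-- **N3, Galois form.**  `K/ℚ` Galois, `φ₀ : 𝓞 K →+* A` any ring hom (e.g. reduction modulo a
prime above `r`, `A = ZMod r`).  Then `N_{K/ℚ}(b) = ∏_σ φ₀ (σ b)` in `A`. -/
theorem norm_cast_eq_prod_galois [IsGalois ℚ K] {A : Type*} [CommRing A] (φ₀ : 𝓞 K →+* A)
    (b : 𝓞 K) :
    ((Algebra.norm ℤ b : ℤ) : A) = ∏ σ : (K ≃ₐ[ℚ] K), φ₀ (σ • b) := by
  rw [← map_prod, prod_smul_eq_norm]
  simp

/-- **N3, Galois form, absolute norm.** -/
theorem absNorm_cast_eq_prod_galois [IsGalois ℚ K] {A : Type*} [CommRing A] (φ₀ : 𝓞 K →+* A)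
    (b : 𝓞 K) :
    ((Ideal.absNorm (Ideal.span {b}) : ℕ) : A) = ∏ σ : (K ≃ₐ[ℚ] K), φ₀ (σ • b) ∨
      ((Ideal.absNorm (Ideal.span {b}) : ℕ) : A) = - ∏ σ : (K ≃ₐ[ℚ] K), φ₀ (σ • b) := by
  rw [← norm_cast_eq_prod_galois K φ₀ b, Ideal.absNorm_span_singleton]
  rcases Int.natAbs_eq (Algebra.norm ℤ b) with h | h
  · left
    conv_rhs => rw [h]
    simp
  · right
    conv_rhs => rw [h]
    simp

end Galois

end Fermat.Agent.S55.G.Rec.H293

namespace Fermat.Agent.S55.G.Rec.H293

open NumberField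

section Split

variable (K : Type*) [Field K] [NumberField K] (r : ℕ) [hr : Fact r.Prime]

/-- `(r) ⊂ ℤ` is a prime ideal. -/
theorem span_natCast_isPrime : (Ideal.span {(r : ℤ)}).IsPrime :=
  (Ideal.span_singleton_prime (by exact_mod_cast hr.out.ne_zero)).2
    (Nat.prime_iff_prime_int.1 hr.out)

/-- "`r` is totally split in `K`": all primes of `𝓞 K` over `r` have `e = f = 1`. -/
def TotallySplit : Prop :=
  ∀ q : Ideal (𝓞 K), q ∈ (Ideal.span {(r : ℤ)}).primesOver (𝓞 K) →
    q.ramificationIdx ℤ = 1 ∧ q.inertiaDeg ℤ = 1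

variable {K r}

omit hr in
theorem TotallySplit.absNorm_eq (h : TotallySplit K r) {q : Ideal (𝓞 K)}
    (hq : q ∈ (Ideal.span {(r : ℤ)}).primesOver (𝓞 K)) : Ideal.absNorm q = r := by
  have : q.IsPrime := hq.1
  have : q.LiesOver (Ideal.span {(r : ℤ)}) := hq.2
  rw [← Ideal.pow_inertiaDeg r q, (h q hq).2, pow_one]

theorem TotallySplit.card_primesOver (h : TotallySplit K r) :
    Fintype.card ((Ideal.span {(r : ℤ)}).primesOver (𝓞 K)) = Module.finrank ℚ K := by
  have := span_natCast_isPrime r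
  have key := Ideal.sum_ramification_inertia_eq_finrank (Ideal.span {(r : ℤ)}) (𝓞 K)
  rw [RingOfIntegers.rank K] at key
  rw [← key, Fintype.card_eq_sum_ones]
  refine Finset.sum_congr rfl fun q _ => ?_
  rw [(h q.1 q.2).1, (h q.1 q.2).2]

/-- The reduction maps modulo the primes over a totally split prime `r`. -/
noncomputable def TotallySplit.resHoms (h : TotallySplit K r) :
    (Ideal.span {(r : ℤ)}).primesOver (𝓞 K) → (𝓞 K →+* ZMod r) :=
  fun q => resHom K r q.1 (h.absNorm_eq q.2)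

theorem TotallySplit.ker_resHoms (h : TotallySplit K r)
    (q : (Ideal.span {(r : ℤ)}).primesOver (𝓞 K)) : RingHom.ker (h.resHoms q) = q.1 :=
  ker_resHom K r q.1 (h.absNorm_eq q.2)

theorem TotallySplit.resHoms_injective (h : TotallySplit K r) :
    Function.Injective h.resHoms := by
  intro P Q hPQ
  have := congrArg RingHom.ker hPQ
  rw [h.ker_resHoms, h.ker_resHoms] at this
  exact Subtype.ext this

/-- **N3, totally split form.**  If `r` is totally split in `K` then for all `b ∈ 𝓞 K`: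
`N_{K/ℚ}(b) ≡ ∏_{q | r} (b mod q)  (mod r)`. -/
theorem TotallySplit.norm_cast_eq_prod (h : TotallySplit K r) (b : 𝓞 K) :
    ((Algebra.norm ℤ b : ℤ) : ZMod r) = ∏ q, h.resHoms q b :=
  norm_cast_eq_prod_homs K r h.resHoms h.resHoms_injective h.card_primesOver b

/-- **N3, totally split form, absolute norm.** -/
theorem TotallySplit.absNorm_cast_eq_prod (h : TotallySplit K r) (b : 𝓞 K) :
    ((Ideal.absNorm (Ideal.span {b}) : ℕ) : ZMod r) = ∏ q, h.resHoms q b ∨
      ((Ideal.absNorm (Ideal.span {b}) : ℕ) : ZMod r) = - ∏ q, h.resHoms q b :=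
  absNorm_cast_eq_prod_homs K r h.resHoms h.resHoms_injective h.card_primesOver b

open Pointwise MulAction in
/-- **Galois criterion.**  If `G` is a Galois group of `K/ℚ` and some prime `P` of `𝓞 K` over `r`
has trivial decomposition group in `G`, then `r` is totally split in `K`. -/
theorem totallySplit_of_stabilizer_trivial (G : Type*) [Group G] [Finite G]
    [MulSemiringAction G K] [IsGaloisGroup G ℚ K]
    (P : Ideal (𝓞 K)) (hP : P ∈ (Ideal.span {(r : ℤ)}).primesOver (𝓞 K))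
    (hstab : ∀ g : G, g • P = P → g = 1) : TotallySplit K r := by
  have hpr := span_natCast_isPrime r
  have key := Ideal.ncard_primesOver_mul_ramificationIdxIn_mul_inertiaDegIn
    (Ideal.span {(r : ℤ)}) (𝓞 K) G
  have hinj : Function.Injective
      (fun g : G => g • (⟨P, hP⟩ : (Ideal.span {(r : ℤ)}).primesOver (𝓞 K))) := by
    intro g h hgh
    have h1 : g • P = h • P := by
      have := congrArg Subtype.val hgh
      simpa only [Ideal.coe_smul_primesOver] using this
    have h2 : (h⁻¹ * g) • P = P := by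
      rw [mul_smul, h1, inv_smul_smul]
    have h3 := hstab _ h2
    exact (inv_mul_eq_one.1 h3).symm
  have hle : Nat.card G ≤ ((Ideal.span {(r : ℤ)}).primesOver (𝓞 K)).ncard := by
    rw [← Nat.card_coe_set_eq]
    exact Nat.card_le_card_of_injective _ hinj
  have hG : 0 < Nat.card G := Nat.card_pos
  have hef : Ideal.ramificationIdxIn (Ideal.span {(r : ℤ)}) (𝓞 K) *
      Ideal.inertiaDegIn (Ideal.span {(r : ℤ)}) (𝓞 K) = 1 := by
    set n := ((Ideal.span {(r : ℤ)}).primesOver (𝓞 K)).ncard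
    set ef := Ideal.ramificationIdxIn (Ideal.span {(r : ℤ)}) (𝓞 K) *
      Ideal.inertiaDegIn (Ideal.span {(r : ℤ)}) (𝓞 K)
    have hn : 0 < n := lt_of_lt_of_le hG hle
    have h1 : n * ef ≤ n * 1 := by rw [key, mul_one]; exact hle
    have h2 : ef ≤ 1 := Nat.le_of_mul_le_mul_left h1 hn
    have h3 : ef ≠ 0 := by
      intro h0
      rw [h0, mul_zero] at key
      omega
    omega
  intro q hq
  have : q.IsPrime := hq.1
  have : q.LiesOver (Ideal.span {(r : ℤ)}) := hq.2
  have he := Ideal.ramificationIdxIn_eq_ramificationIdx (Ideal.span {(r : ℤ)}) q G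
  have hf := Ideal.inertiaDegIn_eq_inertiaDeg (Ideal.span {(r : ℤ)}) q G
  rw [he, hf] at hef
  exact ⟨Nat.eq_one_of_mul_eq_one_right hef, Nat.eq_one_of_mul_eq_one_left hef⟩

end Split

end Fermat.Agent.S55.G.Rec.H293
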