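import Fermat.Agent.S55.G.Rec.H293Norm

/-!
# S55 / layer G / block REC — leaf R1-arith (helper293)

The arithmetic heart of cyclic reciprocity (R1 of `coord/S55-G-REC.md`), for ARBITRARY
`b ∈ Kˣ` (no weak approximation needed):

* `tameRes r : ℚ_[r]ˣ →* (ZMod r)ˣ`, `x = r^m · u ↦ u mod r` (the tame residue);
* `normUnit K r v : (ZMod r)ˣ`, the class of `N(v)` modulo `r` (`1` if `v ∣ r`);
* `ordZ K v : Kˣ → ℤ`, the normalised valuation at `v` (with the valuation bridge
  `valuation_eq_exp_neg_ordZ`);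
* `prod_tameRes_eq`: for `[K:ℚ]` distinct embeddings `ι k : K →+* ℚ_[r]`,
  `∏ k, tameRes (ι k b) = ± ∏ᶠ v, normUnit v ^ ordZ v b`;
* `prod_char_tameRes_eq`: the character form.
-/

set_option autoImplicit false

namespace Fermat.Agent.S55.G.Rec.H293

open NumberField IsDedekindDomain

section TameRes

variable (r : ℕ) [hr : Fact r.Prime]

theorem norm_mul_zpow_neg_valuation {x : ℚ_[r]} (hx : x ≠ 0) :
    ‖x * (r : ℚ_[r]) ^ (-x.valuation)‖ = 1 := by
  have hr0 : (r : ℝ) ≠ 0 := by exact_mod_cast hr.out.ne_zero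
  rw [norm_mul, Padic.norm_eq_zpow_neg_valuation hx, Padic.norm_p_zpow, neg_neg,
    ← zpow_add₀ hr0, neg_add_cancel, zpow_zero]

/-- The unit part `x · r^{-v(x)}` of a nonzero `r`-adic number. -/
noncomputable def tameUnit (x : ℚ_[r]ˣ) : ℤ_[r]ˣ :=
  PadicInt.mkUnits (norm_mul_zpow_neg_valuation r x.ne_zero)

theorem coe_tameUnit (x : ℚ_[r]ˣ) :
    (((tameUnit r x : ℤ_[r]ˣ) : ℤ_[r]) : ℚ_[r]) = x * (r : ℚ_[r]) ^ (-(x : ℚ_[r]).valuation) :=
  rfl

theorem tameUnit_mul (x y : ℚ_[r]ˣ) : tameUnit r (x * y) = tameUnit r x * tameUnit r y := by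
  apply Units.ext
  apply Subtype.ext
  have hr0 : (r : ℚ_[r]) ≠ 0 := by exact_mod_cast hr.out.ne_zero
  rw [Units.val_mul, PadicInt.coe_mul, coe_tameUnit, coe_tameUnit, coe_tameUnit, Units.val_mul,
    Padic.valuation_mul x.ne_zero y.ne_zero, neg_add, zpow_add₀ hr0]
  ring

theorem tameUnit_one : tameUnit r 1 = 1 := by
  apply Units.ext
  apply Subtype.ext
  rw [coe_tameUnit]
  simp

/-- `x ↦ x · r^{-v(x)}` as a group hom `ℚ_[r]ˣ →* ℤ_[r]ˣ`. -/
noncomputable def tameUnitHom : ℚ_[r]ˣ →* ℤ_[r]ˣ where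
  toFun := tameUnit r
  map_one' := tameUnit_one r
  map_mul' := tameUnit_mul r

/-- **The tame residue** `ℚ_[r]ˣ →* (ZMod r)ˣ`, `r^m · u ↦ u mod r`. -/
noncomputable def tameRes : ℚ_[r]ˣ →* (ZMod r)ˣ :=
  (Units.map ((PadicInt.toZMod : ℤ_[r] →+* ZMod r) : ℤ_[r] →* ZMod r)).comp (tameUnitHom r)

theorem coe_tameRes (x : ℚ_[r]ˣ) :
    ((tameRes r x : (ZMod r)ˣ) : ZMod r) = PadicInt.toZMod ((tameUnit r x : ℤ_[r]ˣ) : ℤ_[r]) :=
  rfl

/-- On units of `ℤ_[r]` the tame residue is reduction modulo `r`. -/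
theorem tameUnit_of_valuation_eq_zero (x : ℚ_[r]ˣ) (hx : (x : ℚ_[r]).valuation = 0) :
    (((tameUnit r x : ℤ_[r]ˣ) : ℤ_[r]) : ℚ_[r]) = x := by
  rw [coe_tameUnit, hx, neg_zero, zpow_zero, mul_one]

/-- The tame residue of (a power of) `r` is trivial. -/
theorem tameUnit_of_eq_zpow (x : ℚ_[r]ˣ) (m : ℤ) (hx : (x : ℚ_[r]) = (r : ℚ_[r]) ^ m) :
    tameUnit r x = 1 := by
  apply Units.ext
  apply Subtype.ext
  have hr0 : (r : ℚ_[r]) ≠ 0 := by exact_mod_cast hr.out.ne_zero
  rw [coe_tameUnit, hx, Padic.valuation_zpow, Padic.valuation_p, mul_one, ← zpow_add₀ hr0,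
    add_neg_cancel, zpow_zero]
  rfl

theorem tameRes_of_eq_zpow (x : ℚ_[r]ˣ) (m : ℤ) (hx : (x : ℚ_[r]) = (r : ℚ_[r]) ^ m) :
    tameRes r x = 1 := by
  change Units.map _ (tameUnit r x) = 1
  rw [tameUnit_of_eq_zpow r x m hx, map_one]

theorem tameRes_neg_one : tameRes r (-1) = -1 := by
  apply Units.ext
  rw [coe_tameRes]
  have hv : (-1 : ℚ_[r]).valuation = 0 := by
    have h1 : (-1 : ℚ_[r]) = ((-1 : ℤ) : ℚ_[r]) := by push_cast; rfl
    rw [h1, Padic.valuation_intCast, padicValInt, Int.natAbs_neg, Int.natAbs_one]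
    simp
  have h : ((tameUnit r (-1) : ℤ_[r]ˣ) : ℤ_[r]) = -1 := by
    apply Subtype.ext
    rw [coe_tameUnit]
    simp [hv]
  rw [h]
  simp

/-- The tame residue of a natural number prime to `r` is its class modulo `r`. -/
theorem coe_tameRes_natCast (x : ℚ_[r]ˣ) (m : ℕ) (hx : (x : ℚ_[r]) = (m : ℚ_[r]))
    (hm : ¬ r ∣ m) : ((tameRes r x : (ZMod r)ˣ) : ZMod r) = (m : ZMod r) := by
  rw [coe_tameRes]
  have hval : (x : ℚ_[r]).valuation = 0 := by
    rw [hx, Padic.valuation_natCast]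
    simp [padicValNat.eq_zero_of_not_dvd hm]
  have h : ((tameUnit r x : ℤ_[r]ˣ) : ℤ_[r]) = (m : ℤ_[r]) := by
    apply Subtype.ext
    rw [tameUnit_of_valuation_eq_zero r x hval, hx]
    simp
  rw [h, map_natCast]

end TameRes

end Fermat.Agent.S55.G.Rec.H293

namespace Fermat.Agent.S55.G.Rec.H293

open NumberField IsDedekindDomain

section Ord

variable (K : Type*) [Field K] [NumberField K]

/-- The principal fractional ideal `(b)` of a unit `b ∈ Kˣ`. -/
noncomputable def principalFI (b : Kˣ) : FractionalIdeal (nonZeroDivisors (𝓞 K)) K :=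
  FractionalIdeal.spanSingleton (nonZeroDivisors (𝓞 K)) (b : K)

theorem principalFI_ne_zero (b : Kˣ) : principalFI K b ≠ 0 := by
  rw [principalFI, Ne, FractionalIdeal.spanSingleton_eq_zero_iff]
  exact b.ne_zero

theorem principalFI_mul (a b : Kˣ) : principalFI K (a * b) = principalFI K a * principalFI K b := by
  rw [principalFI, principalFI, principalFI, FractionalIdeal.spanSingleton_mul_spanSingleton,
    Units.val_mul]

/-- The normalised (additive) valuation of `b ∈ Kˣ` at the finite prime `v`. -/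
noncomputable def ordZ (v : HeightOneSpectrum (𝓞 K)) (b : Kˣ) : ℤ :=
  FractionalIdeal.count K v (principalFI K b)

theorem ordZ_mul (v : HeightOneSpectrum (𝓞 K)) (a b : Kˣ) :
    ordZ K v (a * b) = ordZ K v a + ordZ K v b := by
  rw [ordZ, ordZ, ordZ, principalFI_mul,
    FractionalIdeal.count_mul K v (principalFI_ne_zero K a) (principalFI_ne_zero K b)]

theorem ordZ_one (v : HeightOneSpectrum (𝓞 K)) : ordZ K v 1 = 0 := by
  have h := ordZ_mul K v 1 1
  rw [mul_one] at h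
  omega

/-- Only finitely many primes divide `b`. -/
theorem finite_setOf_ordZ_ne_zero (b : Kˣ) :
    {v : HeightOneSpectrum (𝓞 K) | ordZ K v b ≠ 0}.Finite := by
  have h := FractionalIdeal.finite_factors (principalFI K b)
  rw [Filter.eventually_cofinite] at h
  exact h

/-- `|N_{K/ℚ}(b)| = ∏_{v ∈ s} N(v)^{ord_v(b)}` for any finite set `s` of primes containing the
support of `b`. -/
theorem abs_norm_eq_prod (b : Kˣ) (s : Finset (HeightOneSpectrum (𝓞 K)))
    (hs : ∀ v, ordZ K v b ≠ 0 → v ∈ s) :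
    |Algebra.norm ℚ (b : K)| = ∏ v ∈ s, ((Ideal.absNorm v.asIdeal : ℕ) : ℚ) ^ ordZ K v b := by
  have hfac := FractionalIdeal.finprod_heightOneSpectrum_factorization' (K := K)
    (principalFI_ne_zero K b)
  have hsupp : Function.mulSupport (fun v : HeightOneSpectrum (𝓞 K) =>
      (v.asIdeal : FractionalIdeal (nonZeroDivisors (𝓞 K)) K) ^
        FractionalIdeal.count K v (principalFI K b)) ⊆ (s : Set (HeightOneSpectrum (𝓞 K))) := by
    intro v hv
    rw [Function.mem_mulSupport] at hv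
    apply hs v
    intro h0
    apply hv
    change FractionalIdeal.count K v (principalFI K b) = 0 at h0
    rw [h0, zpow_zero]
  rw [finprod_eq_prod_of_mulSupport_subset _ hsupp] at hfac
  have h1 := congrArg (FractionalIdeal.absNorm (R := 𝓞 K) (K := K)) hfac
  rw [map_prod] at h1
  have h2 : FractionalIdeal.absNorm (principalFI K b) = |Algebra.norm ℚ (b : K)| :=
    FractionalIdeal.absNorm_span_singleton (R := 𝓞 K) (b : K)
  rw [h2] at h1
  rw [← h1]
  refine Finset.prod_congr rfl fun v _ => ?_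
  rw [map_zpow₀, FractionalIdeal.coeIdeal_absNorm]
  rfl

end Ord

end Fermat.Agent.S55.G.Rec.H293

namespace Fermat.Agent.S55.G.Rec.H293

open NumberField IsDedekindDomain

section Bridge

variable (K : Type*) [Field K] [NumberField K]

/-- **Valuation bridge**: `ordZ` is `-log` of Mathlib's `v`-adic valuation. -/
theorem valuation_eq_exp_neg_ordZ (v : HeightOneSpectrum (𝓞 K)) (b : Kˣ) :
    v.valuation K (b : K) = WithZero.exp (-ordZ K v b) := by
  classical
  obtain ⟨x, y, hy, hxy⟩ := IsFractionRing.div_surjective (A := 𝓞 K) (b : K)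
  have hy0 : y ≠ 0 := nonZeroDivisors.ne_zero hy
  have hyK : algebraMap (𝓞 K) K y ≠ 0 := by
    rw [Ne, map_eq_zero_iff _ (IsFractionRing.injective (𝓞 K) K)]
    exact hy0
  have hx0 : x ≠ 0 := by
    rintro rfl
    rw [map_zero, zero_div] at hxy
    exact b.ne_zero hxy.symm
  have hI : principalFI K b = FractionalIdeal.spanSingleton (nonZeroDivisors (𝓞 K))
      ((algebraMap (𝓞 K) K) y)⁻¹ * ((Ideal.span {x} : Ideal (𝓞 K)) :
        FractionalIdeal (nonZeroDivisors (𝓞 K)) K) := by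
    rw [principalFI, FractionalIdeal.coeIdeal_span_singleton,
      FractionalIdeal.spanSingleton_mul_spanSingleton, ← hxy, div_eq_inv_mul]
  have hc := FractionalIdeal.count_well_defined K v (principalFI_ne_zero K b) hI
  rw [ordZ, hc, ← hxy, map_div₀, HeightOneSpectrum.valuation_of_algebraMap,
    HeightOneSpectrum.valuation_of_algebraMap, v.intValuation_if_neg hx0,
    v.intValuation_if_neg hy0, ← WithZero.exp_sub]
  congr 1
  ring

/-- Characterisation of `ordZ`: it is the unique integer `n` with `v(b) = exp (-n)`. -/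
theorem ordZ_eq_of_valuation_eq (v : HeightOneSpectrum (𝓞 K)) (b : Kˣ) (n : ℤ)
    (h : v.valuation K (b : K) = WithZero.exp (-n)) : ordZ K v b = n := by
  rw [valuation_eq_exp_neg_ordZ, WithZero.exp_inj] at h
  omega

end Bridge

end Fermat.Agent.S55.G.Rec.H293

namespace Fermat.Agent.S55.G.Rec.H293

open NumberField IsDedekindDomain

section Main

variable (K : Type*) [Field K] [NumberField K] (r : ℕ) [hr : Fact r.Prime]

theorem absNorm_ne_zero_of_heightOne (v : HeightOneSpectrum (𝓞 K)) :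
    Ideal.absNorm v.asIdeal ≠ 0 := by
  rw [Ne, Ideal.absNorm_eq_zero_iff]
  exact v.ne_bot

/-- `N(v)` as a unit of `ℚ_[r]`. -/
noncomputable def absNormUnit (v : HeightOneSpectrum (𝓞 K)) : ℚ_[r]ˣ :=
  Units.mk0 ((Ideal.absNorm v.asIdeal : ℕ) : ℚ_[r])
    (by exact_mod_cast absNorm_ne_zero_of_heightOne K v)

/-- The class of `N(v)` in `(ZMod r)ˣ` (equal to `1` when `v ∣ r`): the image of the Frobenius
at `v` under the cyclotomic character modulo `r`. -/
noncomputable def normUnit (v : HeightOneSpectrum (𝓞 K)) : (ZMod r)ˣ :=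
  tameRes r (absNormUnit K r v)

/-- For `v ∤ r`, `normUnit v = N(v) mod r`. -/
theorem coe_normUnit_of_not_dvd (v : HeightOneSpectrum (𝓞 K))
    (h : ¬ r ∣ Ideal.absNorm v.asIdeal) :
    ((normUnit K r v : (ZMod r)ˣ) : ZMod r) = (Ideal.absNorm v.asIdeal : ZMod r) :=
  coe_tameRes_natCast r (absNormUnit K r v) (Ideal.absNorm v.asIdeal) rfl h

/-- For `v ∣ r`, `normUnit v = 1`. -/
theorem normUnit_of_dvd (v : HeightOneSpectrum (𝓞 K)) (h : r ∣ Ideal.absNorm v.asIdeal) :
    normUnit K r v = 1 := by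
  have : v.asIdeal.IsMaximal := v.isMaximal
  obtain ⟨q, n, _, _, hq, hqn⟩ := Ideal.exists_prime_and_absNorm_eq_pow v.asIdeal
  have hrq : r = q := by
    rw [hqn] at h
    exact (Nat.prime_dvd_prime_iff_eq hr.out hq).1 (hr.out.dvd_of_dvd_pow h)
  subst hrq
  refine tameRes_of_eq_zpow r (absNormUnit K r v) (n : ℤ) ?_
  change ((Ideal.absNorm v.asIdeal : ℕ) : ℚ_[r]) = _
  rw [hqn, zpow_natCast]
  push_cast
  rfl

/-- `v ∣ r` in terms of membership. -/
theorem dvd_absNorm_iff_mem (v : HeightOneSpectrum (𝓞 K)) :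
    r ∣ Ideal.absNorm v.asIdeal ↔ (r : 𝓞 K) ∈ v.asIdeal := by
  have : v.asIdeal.IsMaximal := v.isMaximal
  have : v.asIdeal.IsPrime := v.isPrime
  obtain ⟨q, n, hn, hqmem, hq, hqn⟩ := Ideal.exists_prime_and_absNorm_eq_pow v.asIdeal
  constructor
  · intro h
    rw [hqn] at h
    have hrq : r = q :=
      (Nat.prime_dvd_prime_iff_eq hr.out hq).1 (hr.out.dvd_of_dvd_pow h)
    rw [hrq]
    exact hqmem
  · intro h
    by_contra hnd
    -- `r` and `q` are coprime, so `1 ∈ v`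
    have hne : r ≠ q := by
      rintro rfl
      exact hnd (hqn ▸ dvd_pow_self _ hn.ne')
    have hcop : Nat.Coprime r q := (Nat.coprime_primes hr.out hq).2 hne
    have h1 : (1 : 𝓞 K) ∈ v.asIdeal := by
      have hb := Nat.Coprime.isCoprime hcop
      obtain ⟨a, b, hab⟩ := hb
      have hab' : ((a : ℤ) : 𝓞 K) * (r : 𝓞 K) + ((b : ℤ) : 𝓞 K) * (q : 𝓞 K) = 1 := by
        have := congrArg (fun z : ℤ => (z : 𝓞 K)) hab
        simpa using this
      rw [← hab']
      exact v.asIdeal.add_mem (v.asIdeal.mul_mem_left _ h) (v.asIdeal.mul_mem_left _ hqmem)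
    exact v.isPrime.ne_top ((Ideal.eq_top_iff_one _).2 h1)

/-- **R1-arith, unit form** (full norm identity for arbitrary `b ∈ Kˣ`).
Let `ι k : K →+* ℚ_[r]` be `[K : ℚ]` pairwise distinct embeddings (`r` totally split in `K`).
Then in `(ZMod r)ˣ`, for every finite set `s` of primes containing the support of `b`,
`∏ k, tameRes (ι k b) = ± ∏_{v ∈ s} N(v)^{ord_v b}`. -/
theorem prod_tameRes_eq_prod {κ : Type*} [Fintype κ] (ι : κ → (K →+* ℚ_[r]))
    (hι : Function.Injective ι) (hcard : Fintype.card κ = Module.finrank ℚ K) (b : Kˣ)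
    (s : Finset (HeightOneSpectrum (𝓞 K))) (hs : ∀ v, ordZ K v b ≠ 0 → v ∈ s) :
    ∏ k, tameRes r (Units.map (ι k : K →* ℚ_[r]) b) = ∏ v ∈ s, normUnit K r v ^ ordZ K v b ∨
    ∏ k, tameRes r (Units.map (ι k : K →* ℚ_[r]) b) =
      -∏ v ∈ s, normUnit K r v ^ ordZ K v b := by
  classical
  -- Step 1: the norm is the product of the conjugates
  have hN : algebraMap ℚ ℚ_[r] (Algebra.norm ℚ (b : K)) = ∏ k, ι k (b : K) := by
    have h := algebraMap_norm_eq_prod (R := ℚ) (S := K) (F := ℚ_[r]) (Module.finBasis ℚ K)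
      (fun k => (ι k).toRatAlgHom)
      (fun k k' hkk' => hι (by
        ext x
        exact congrArg (fun f : K →ₐ[ℚ] ℚ_[r] => f x) hkk'))
      (by rw [hcard, Fintype.card_fin]) (b : K)
    simpa using h
  -- Step 2: the absolute value of the norm is the product of the `N(v)^{ord_v b}`
  have hA := abs_norm_eq_prod K b s hs
  have hA' : ((|Algebra.norm ℚ (b : K)| : ℚ) : ℚ_[r]) =
      ∏ v ∈ s, ((absNormUnit K r v : ℚ_[r]ˣ) : ℚ_[r]) ^ ordZ K v b := by
    rw [hA]
    push_cast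
    rfl
  -- Step 3: as units of `ℚ_[r]`
  have hU : ∏ k, Units.map (ι k : K →* ℚ_[r]) b = ∏ v ∈ s, absNormUnit K r v ^ ordZ K v b ∨
      ∏ k, Units.map (ι k : K →* ℚ_[r]) b = -∏ v ∈ s, absNormUnit K r v ^ ordZ K v b := by
    have hL : ((∏ k, Units.map (ι k : K →* ℚ_[r]) b : ℚ_[r]ˣ) : ℚ_[r]) =
        algebraMap ℚ ℚ_[r] (Algebra.norm ℚ (b : K)) := by
      rw [hN, Units.coe_prod]
      rfl
    have hR : ((∏ v ∈ s, absNormUnit K r v ^ ordZ K v b : ℚ_[r]ˣ) : ℚ_[r]) =
        ((|Algebra.norm ℚ (b : K)| : ℚ) : ℚ_[r]) := by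
      rw [hA', Units.coe_prod]
      refine Finset.prod_congr rfl fun v _ => ?_
      rw [Units.val_zpow_eq_zpow_val]
    rcases abs_choice (Algebra.norm ℚ (b : K)) with h | h
    · left
      apply Units.ext
      rw [hL, hR, h]
      rfl
    · right
      apply Units.ext
      rw [Units.val_neg, hL, hR, h]
      simp
  -- Step 4: apply the tame residue
  have key : ∏ k, tameRes r (Units.map (ι k : K →* ℚ_[r]) b) =
      tameRes r (∏ k, Units.map (ι k : K →* ℚ_[r]) b) := (map_prod _ _ _).symm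
  have key2 : tameRes r (∏ v ∈ s, absNormUnit K r v ^ ordZ K v b) =
      ∏ v ∈ s, normUnit K r v ^ ordZ K v b := by
    rw [map_prod]
    refine Finset.prod_congr rfl fun v _ => ?_
    rw [map_zpow]
    rfl
  rcases hU with h | h
  · left
    rw [key, h, key2]
  · right
    rw [key, h, ← key2]
    have : -∏ v ∈ s, absNormUnit K r v ^ ordZ K v b =
        (-1) * ∏ v ∈ s, absNormUnit K r v ^ ordZ K v b := by rw [neg_one_mul]
    rw [this, map_mul, tameRes_neg_one, neg_one_mul]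

/-- **R1-arith, `finprod` form.** -/
theorem prod_tameRes_eq {κ : Type*} [Fintype κ] (ι : κ → (K →+* ℚ_[r]))
    (hι : Function.Injective ι) (hcard : Fintype.card κ = Module.finrank ℚ K) (b : Kˣ) :
    ∏ k, tameRes r (Units.map (ι k : K →* ℚ_[r]) b) =
        ∏ᶠ v : HeightOneSpectrum (𝓞 K), normUnit K r v ^ ordZ K v b ∨
    ∏ k, tameRes r (Units.map (ι k : K →* ℚ_[r]) b) =
        -∏ᶠ v : HeightOneSpectrum (𝓞 K), normUnit K r v ^ ordZ K v b := by
  classical
  set s := (finite_setOf_ordZ_ne_zero K b).toFinset with hs_def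
  have hs : ∀ v, ordZ K v b ≠ 0 → v ∈ s := fun v hv => by
    rw [hs_def, Set.Finite.mem_toFinset]
    exact hv
  have hfin : ∏ᶠ v : HeightOneSpectrum (𝓞 K), normUnit K r v ^ ordZ K v b =
      ∏ v ∈ s, normUnit K r v ^ ordZ K v b := by
    apply finprod_eq_prod_of_mulSupport_subset
    intro v hv
    rw [Function.mem_mulSupport] at hv
    apply hs v
    intro h0
    apply hv
    rw [h0, zpow_zero]
  rw [hfin]
  exact prod_tameRes_eq_prod K r ι hι hcard b s hs

/-- **R1-arith, character form.**  For a character `ψ` of `(ZMod r)ˣ` with `ψ (-1) = 1`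
(automatic if `ψ` has odd order):
`∏ k, ψ (tameRes (ι k b)) = ∏ᶠ v, ψ (N v) ^ ord_v(b)`;
the factors with `v ∣ r` are trivial (`normUnit_of_dvd`). -/
theorem prod_char_tameRes_eq {A : Type*} [CommGroup A] (ψ : (ZMod r)ˣ →* A) (hψ : ψ (-1) = 1)
    {κ : Type*} [Fintype κ] (ι : κ → (K →+* ℚ_[r]))
    (hι : Function.Injective ι) (hcard : Fintype.card κ = Module.finrank ℚ K) (b : Kˣ) :
    ∏ k, ψ (tameRes r (Units.map (ι k : K →* ℚ_[r]) b)) =
      ∏ᶠ v : HeightOneSpectrum (𝓞 K), ψ (normUnit K r v) ^ ordZ K v b := by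
  classical
  set s := (finite_setOf_ordZ_ne_zero K b).toFinset with hs_def
  have hs : ∀ v, ordZ K v b ≠ 0 → v ∈ s := fun v hv => by
    rw [hs_def, Set.Finite.mem_toFinset]
    exact hv
  have hfin : ∏ᶠ v : HeightOneSpectrum (𝓞 K), ψ (normUnit K r v) ^ ordZ K v b =
      ∏ v ∈ s, ψ (normUnit K r v) ^ ordZ K v b := by
    apply finprod_eq_prod_of_mulSupport_subset
    intro v hv
    rw [Function.mem_mulSupport] at hv
    apply hs v
    intro h0
    apply hv
    rw [h0, zpow_zero]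
  rw [hfin]
  have h1 : ∏ k, ψ (tameRes r (Units.map (ι k : K →* ℚ_[r]) b)) =
      ψ (∏ k, tameRes r (Units.map (ι k : K →* ℚ_[r]) b)) := (map_prod _ _ _).symm
  have h2 : ψ (∏ v ∈ s, normUnit K r v ^ ordZ K v b) =
      ∏ v ∈ s, ψ (normUnit K r v) ^ ordZ K v b := by
    rw [map_prod]
    refine Finset.prod_congr rfl fun v _ => ?_
    rw [map_zpow]
  rcases prod_tameRes_eq_prod K r ι hι hcard b s hs with h | h
  · rw [h1, h, h2]
  · rw [h1, h, ← h2, ← neg_one_mul, map_mul, hψ, one_mul]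

/-- **R1-arith, Galois form.**  `K/ℚ` Galois, `ι₀ : K →+* ℚ_[r]` one embedding (`r` totally
split in `K`); the places above `r` are enumerated by `σ ∈ Gal(K/ℚ)` via `ι₀ ∘ σ`. -/
theorem prod_char_tameRes_galois [IsGalois ℚ K] {A : Type*} [CommGroup A] (ψ : (ZMod r)ˣ →* A)
    (hψ : ψ (-1) = 1) (ι₀ : K →+* ℚ_[r]) (b : Kˣ) :
    ∏ σ : (K ≃ₐ[ℚ] K), ψ (tameRes r (Units.map (ι₀ : K →* ℚ_[r])
        (Units.map ((σ : K →+* K) : K →* K) b))) =
      ∏ᶠ v : HeightOneSpectrum (𝓞 K), ψ (normUnit K r v) ^ ordZ K v b := by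
  classical
  have h := prod_char_tameRes_eq K r ψ hψ (κ := K ≃ₐ[ℚ] K)
    (fun σ => ι₀.comp (σ : K →+* K))
    (fun σ τ hστ => by
      ext x
      have := congrArg (fun f : K →+* ℚ_[r] => f x) hστ
      exact ι₀.injective this)
    (by rw [← Nat.card_eq_fintype_card, IsGalois.card_aut_eq_finrank]) b
  rw [← h]
  rfl

/-- A character of odd order kills `-1`. -/
theorem char_neg_one_eq_one {G A : Type*} [CommRing G] [CommGroup A] (ψ : Gˣ →* A) (n : ℕ)
    (hn : Odd n) (hA : ∀ a : A, a ^ n = 1) : ψ (-1) = 1 := by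
  have h1 : ψ (-1) ^ 2 = 1 := by
    rw [← map_pow]
    simp
  have h2 : ψ (-1) ^ n = 1 := hA _
  obtain ⟨m, rfl⟩ := hn
  rw [pow_succ, pow_mul, h1, one_pow, one_mul] at h2
  exact h2

end Main

end Fermat.Agent.S55.G.Rec.H293
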