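import Fermat.Agent.S55.G.Rec.H473CupChar
import Fermat.Agent.S55.G.Rec.H379Rep

/-!
# S55 / G / REC, leaf (A4), in the vocabulary of `H473CupChar.lean` (leaves A1–A3)

`G` a group, `n ≠ 0`, `χ : G →* Multiplicative (ZMod n)`, `A : Rep.{0} k G`,
`cc A χ : A.ρ.invariants →ₗ[k] H2 A` (helper473).

If `χ` is injective and `χ σ = ofAdd 1` (equivalently: `G = ⟨σ⟩` is cyclic of order `n`, see
`A4_injective_of_generator`), then

* `A4_surjective` : `cc A χ` is surjective;
* `A4_eq_zero_iff` : `cc A χ a = 0 ↔ a ∈ N_G A`;   `A4_ker`;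
* `A4Equiv : A^G / N_G A ≃ₗ[k] H²(G, A)`.

Without injectivity (`G` arbitrary, `χ σ = ofAdd 1`):

* `A4_norm_ker` : if `b` is fixed by `ker χ` and `a = ∑_{k<n} σ^k b`, then `cc A χ a = 0`
  (this is A4 for the cyclic quotient `G / ker χ` combined with inflation A3).
-/

set_option autoImplicit false
set_option linter.unusedSectionVars false

namespace Fermat.Agent.S55.G.Rec.H379

open groupCohomology Finset

section A4

variable {k G : Type} [CommRing k] [Group G] {n : ℕ} [NeZero n]

/-- The additive function `G → ZMod n` underlying a character. -/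
def addFun (χ : G →* Multiplicative (ZMod n)) : G → ZMod n :=
  fun g => Multiplicative.toAdd (χ g)

lemma addFun_mul (χ : G →* Multiplicative (ZMod n)) (g h : G) :
    addFun χ (g * h) = addFun χ g + addFun χ h := by
  simp [addFun]

lemma addFun_injective {χ : G →* Multiplicative (ZMod n)} (hinj : Function.Injective χ) :
    Function.Injective (addFun χ) :=
  fun _ _ h => hinj (Multiplicative.toAdd.injective h)

lemma addFun_gen {χ : G →* Multiplicative (ZMod n)} {σ : G}
    (hσ : χ σ = Multiplicative.ofAdd 1) : addFun χ σ = 1 := by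
  simp [addFun, hσ]

lemma addFun_eq_zero_iff (χ : G →* Multiplicative (ZMod n)) (g : G) :
    addFun χ g = 0 ↔ χ g = 1 := by
  simp [addFun]

lemma rec_carry_eq (χ : G →* Multiplicative (ZMod n)) (g h : G) :
    Rec.carry χ g h = carry n (addFun χ g) (addFun χ h) := rfl

/-- helper473's `cc` is the `cc` of `H379Rep.lean` for the underlying additive function. -/
lemma rec_cc_eq (A : Rep.{0} k G) (χ : G →* Multiplicative (ZMod n)) :
    Rec.cc A χ = cc A (addFun χ) (addFun_mul χ) := rfl

variable (A : Rep.{0} k G) (χ : G →* Multiplicative (ZMod n)) {σ : G}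

/-- **(A4), surjectivity.**  `G = ⟨σ⟩` cyclic of order `n`, `χ σ = 1`: every class in
`H²(G, A)` is of the form `cc a χ`, `a ∈ A^G`. -/
theorem A4_surjective (hinj : Function.Injective χ) (hσ : χ σ = Multiplicative.ofAdd 1) :
    Function.Surjective (Rec.cc A χ) := by
  rw [rec_cc_eq]
  exact cc_surjective (addFun_mul χ) (addFun_injective hinj) (addFun_gen hσ)

/-- **(A4), injectivity.**  `cc a χ = 0` iff `a` is a norm. -/
theorem A4_eq_zero_iff (hinj : Function.Injective χ) (hσ : χ σ = Multiplicative.ofAdd 1)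
    [Fintype G] (a : A.ρ.invariants) :
    Rec.cc A χ a = 0 ↔ ∃ b : A.V, A.ρ.norm b = (a : A.V) := by
  rw [rec_cc_eq]
  exact cc_eq_zero_iff (addFun_mul χ) (addFun_injective hinj) (addFun_gen hσ) a

/-- **(A4)**, in particular: `cc (N_G b) χ = 0`. -/
theorem A4_norm (hinj : Function.Injective χ) (hσ : χ σ = Multiplicative.ofAdd 1)
    [Fintype G] (a : A.ρ.invariants) (b : A.V) (hb : A.ρ.norm b = (a : A.V)) :
    Rec.cc A χ a = 0 :=
  (A4_eq_zero_iff A χ hinj hσ a).2 ⟨b, hb⟩

/-- **(A4)**: the kernel of `cc · χ` is `N_G A`. -/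
theorem A4_ker (hinj : Function.Injective χ) (hσ : χ σ = Multiplicative.ofAdd 1)
    [Fintype G] :
    LinearMap.ker (Rec.cc A χ) =
      (LinearMap.range A.ρ.norm).comap A.ρ.invariants.subtype := by
  rw [rec_cc_eq]
  exact ker_cc (addFun_mul χ) (addFun_injective hinj) (addFun_gen hσ)

/-- **(A4)**: the isomorphism `A^G / N_G A ≃ H²(G, A)` induced by `a ↦ cc a χ`. -/
noncomputable def A4Equiv (hinj : Function.Injective χ) (hσ : χ σ = Multiplicative.ofAdd 1)
    [Fintype G] :
    (A.ρ.invariants ⧸ (LinearMap.range A.ρ.norm).comap A.ρ.invariants.subtype) ≃ₗ[k] H2 A :=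
  ccEquiv (addFun_mul χ) (addFun_injective hinj) (addFun_gen hσ)

@[simp] lemma A4Equiv_mk (hinj : Function.Injective χ) (hσ : χ σ = Multiplicative.ofAdd 1)
    [Fintype G] (a : A.ρ.invariants) :
    A4Equiv A χ hinj hσ (Submodule.Quotient.mk a) = Rec.cc A χ a := rfl

/-- The norm, for the cyclic quotient `G / ker χ`, of an element fixed by `ker χ` is
`G`-invariant. -/
theorem A4_norm_ker_mem_invariants (hσ : χ σ = Multiplicative.ofAdd 1) {b : A.V}
    (hb : ∀ g : G, χ g = 1 → A.ρ g b = b) :
    (∑ i ∈ range n, A.ρ (σ ^ i) b) ∈ A.ρ.invariants :=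
  norm_ker_mem_invariants (addFun_mul χ) (addFun_gen hσ)
    (fun g hg => hb g ((addFun_eq_zero_iff χ g).1 hg))

/-- **(A4) + inflation (A3)** in one step, for an arbitrary group `G` and a character `χ` with
`χ σ = 1` (no injectivity): if `b` is fixed by `ker χ` and `a = ∑_{i<n} σ^i b` is its norm for
the cyclic quotient `G / ker χ`, then `cc a χ = 0`. -/
theorem A4_norm_ker (hσ : χ σ = Multiplicative.ofAdd 1) {b : A.V}
    (hb : ∀ g : G, χ g = 1 → A.ρ g b = b) (a : A.ρ.invariants)
    (ha : (a : A.V) = ∑ i ∈ range n, A.ρ (σ ^ i) b) : Rec.cc A χ a = 0 := by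
  rw [rec_cc_eq]
  exact cc_eq_zero_of_norm_ker (addFun_mul χ) (addFun_gen hσ)
    (fun g hg => hb g ((addFun_eq_zero_iff χ g).1 hg)) a ha

/-- A character with `χ σ = 1` on a group of order `n` generated by `σ` is injective. -/
theorem A4_injective_of_generator [Finite G] (hσ : χ σ = Multiplicative.ofAdd 1)
    (hgen : ∀ g : G, g ∈ Subgroup.zpowers σ) (hcard : Nat.card G = n) :
    Function.Injective χ := by
  have := injective_of_generator (addFun_mul χ) (addFun_gen hσ) hgen hcard
  intro g h hgh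
  exact this (congrArg Multiplicative.toAdd hgh)

/-- A finite cyclic group of order `n` with chosen generator `σ` has a (unique) character `χ`
with `χ σ = 1`; it is injective. -/
theorem A4_exists_character [Finite G] (hgen : ∀ g : G, g ∈ Subgroup.zpowers σ)
    (hcard : Nat.card G = n) :
    ∃ χ : G →* Multiplicative (ZMod n),
      Function.Injective χ ∧ χ σ = Multiplicative.ofAdd 1 := by
  obtain ⟨χ₀, hadd, hinj, hone⟩ := exists_character_of_generator (n := n) hgen hcard
  refine ⟨⟨⟨fun g => Multiplicative.ofAdd (χ₀ g), ?_⟩, ?_⟩, ?_, ?_⟩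
  · show Multiplicative.ofAdd (χ₀ 1) = 1
    rw [chi_one hadd]; rfl
  · intro g h
    show Multiplicative.ofAdd (χ₀ (g * h)) =
      Multiplicative.ofAdd (χ₀ g) * Multiplicative.ofAdd (χ₀ h)
    rw [hadd]; rfl
  · intro g h hgh
    exact hinj (Multiplicative.ofAdd.injective hgh)
  · show Multiplicative.ofAdd (χ₀ σ) = Multiplicative.ofAdd 1
    rw [hone]

end A4

end Fermat.Agent.S55.G.Rec.H379
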