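import Fermat.Agent.S55.G.Rec.H379Core

/-!
# S55 / G / REC, leaf (A4), multiplicative form

The same statements as in `H379Core.lean` for a multiplicatively written `G`-module `M`
(`[CommGroup M] [MulDistribMulAction G M]`, e.g. `M = Lˣ`, `G = Gal(L/K)`), in the vocabulary of
Mathlib's `groupCohomology.IsMulCocycle₂` / `IsMulCoboundary₂`.
-/

set_option autoImplicit false
set_option linter.unusedSectionVars false
set_option linter.style.haveILetI false

namespace Fermat.Agent.S55.G.Rec.H379

open groupCohomology Finset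

section Mul

variable {G M : Type*} [Group G] [CommGroup M] [MulDistribMulAction G M]

/-- The additive action of `G` on `Additive M` (a local instance). -/
@[reducible] def additiveAct (G M : Type*) [Group G] [CommGroup M] [MulDistribMulAction G M] :
    DistribMulAction G (Additive M) where
  smul g a := Additive.ofMul (g • a.toMul)
  one_smul a := by
    show Additive.ofMul ((1 : G) • a.toMul) = a
    rw [one_smul]; rfl
  mul_smul g h a := by
    show Additive.ofMul ((g * h) • a.toMul) = Additive.ofMul (g • (h • a.toMul))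
    rw [mul_smul]
  smul_zero g := by
    show Additive.ofMul (g • (1 : M)) = Additive.ofMul 1
    rw [smul_one]
  smul_add g a b := by
    show Additive.ofMul (g • (a.toMul * b.toMul)) =
      Additive.ofMul (g • a.toMul * g • b.toMul)
    rw [smul_mul']

/-- The multiplicative version of `cupChar`: `(g, h) ↦ x ^ ε_χ(g, h)`. -/
def mulCupChar (n : ℕ) (χ : G → ZMod n) (x : M) : G × G → M :=
  fun p => x ^ carry n (χ p.1) (χ p.2)

@[simp] lemma mulCupChar_apply (n : ℕ) (χ : G → ZMod n) (x : M) (g h : G) :
    mulCupChar n χ x (g, h) = x ^ carry n (χ g) (χ h) := rfl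

lemma isMulCocycle₂_iff_additive (f : G × G → M) :
    IsMulCocycle₂ f ↔
      (letI := additiveAct G M; IsCocycle₂ (fun p => Additive.ofMul (f p))) :=
  Iff.rfl

lemma isMulCoboundary₂_iff_additive (f : G × G → M) :
    IsMulCoboundary₂ f ↔
      (letI := additiveAct G M; IsCoboundary₂ (fun p => Additive.ofMul (f p))) := by
  letI := additiveAct G M
  constructor
  · rintro ⟨u, hu⟩
    exact ⟨fun g => Additive.ofMul (u g), fun g h => congrArg Additive.ofMul (hu g h)⟩
  · rintro ⟨u, hu⟩
    exact ⟨fun g => (u g).toMul, fun g h => congrArg Additive.toMul (hu g h)⟩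

lemma ofMul_mulCupChar (n : ℕ) (χ : G → ZMod n) (x : M) :
    (fun p => Additive.ofMul (mulCupChar n χ x p)) = cupChar n χ (Additive.ofMul x) := rfl

variable {n : ℕ} [NeZero n] {χ : G → ZMod n} {σ : G}

/-- **(A1)**, multiplicative. -/
theorem isMulCocycle₂_mulCupChar (hχ : ∀ g h, χ (g * h) = χ g + χ h) {x : M}
    (hx : ∀ g : G, g • x = x) : IsMulCocycle₂ (mulCupChar n χ x) := by
  rw [isMulCocycle₂_iff_additive, ofMul_mulCupChar]
  letI := additiveAct G M
  exact isCocycle₂_cupChar hχ (fun g => congrArg Additive.ofMul (hx g))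

/-- **(A4), surjectivity**, multiplicative. -/
theorem exists_mulCupChar_cohomologous (hχ : ∀ g h, χ (g * h) = χ g + χ h)
    (hinj : Function.Injective χ) (hσ : χ σ = 1) {f : G × G → M} (hf : IsMulCocycle₂ f) :
    ∃ x : M, (∀ g : G, g • x = x) ∧ IsMulCoboundary₂ (fun p => f p / mulCupChar n χ x p) := by
  letI := additiveAct G M
  obtain ⟨a, ha, hcob⟩ := exists_cupChar_cohomologous hχ hinj hσ
    ((isMulCocycle₂_iff_additive f).1 hf)
  refine ⟨a.toMul, fun g => congrArg Additive.toMul (ha g), ?_⟩
  rw [isMulCoboundary₂_iff_additive]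
  exact hcob

/-- **(A4), injectivity**, multiplicative: `mulCupChar n χ x` is a coboundary iff `x` is a norm. -/
theorem isMulCoboundary₂_mulCupChar_iff (hχ : ∀ g h, χ (g * h) = χ g + χ h)
    (hinj : Function.Injective χ) (hσ : χ σ = 1) {x : M} :
    IsMulCoboundary₂ (mulCupChar n χ x) ↔ ∃ y : M, x = ∏ k ∈ range n, σ ^ k • y := by
  rw [isMulCoboundary₂_iff_additive, ofMul_mulCupChar]
  letI := additiveAct G M
  rw [isCoboundary₂_cupChar_iff hχ hinj hσ]
  constructor
  · rintro ⟨b, hb⟩
    refine ⟨b.toMul, ?_⟩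
    have := congrArg Additive.toMul hb
    rw [toMul_sum] at this
    exact this
  · rintro ⟨y, hy⟩
    refine ⟨Additive.ofMul y, ?_⟩
    have := congrArg Additive.ofMul hy
    rw [ofMul_prod] at this
    exact this

/-- Variant with the norm written as a product over the group. -/
theorem isMulCoboundary₂_mulCupChar_iff' (hχ : ∀ g h, χ (g * h) = χ g + χ h)
    (hinj : Function.Injective χ) (hσ : χ σ = 1) [Fintype G] {x : M} :
    IsMulCoboundary₂ (mulCupChar n χ x) ↔ ∃ y : M, x = ∏ g : G, g • y := by
  rw [isMulCoboundary₂_mulCupChar_iff hχ hinj hσ]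
  have key : ∀ y : M, ∏ g : G, g • y = ∏ k ∈ range n, σ ^ k • y := by
    intro y
    have := sum_univ_eq_sum_range (A := Additive M) hχ hinj hσ
      (fun g => Additive.ofMul (g • y))
    have h2 := congrArg Additive.toMul this
    rw [toMul_sum, toMul_sum] at h2
    exact h2
  simp only [key]


/-- **(A4) + inflation**, multiplicative cochain level (no injectivity of `χ` needed): if `y` is
fixed by `ker χ` and `χ σ = 1`, then `mulCupChar n χ (∏_{k<n} σ^k • y)` is a coboundary. -/
theorem isMulCoboundary₂_mulCupChar_of_norm (hχ : ∀ g h, χ (g * h) = χ g + χ h) (hσ : χ σ = 1)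
    {y : M} (hy : ∀ g : G, χ g = 0 → g • y = y) :
    IsMulCoboundary₂ (mulCupChar n χ (∏ k ∈ range n, σ ^ k • y)) := by
  rw [isMulCoboundary₂_iff_additive, ofMul_mulCupChar, ofMul_prod]
  letI := additiveAct G M
  exact isCoboundary₂_cupChar_of_norm (b := Additive.ofMul y) hχ hσ
    (fun g hg => congrArg Additive.ofMul (hy g hg))

/-- The norm of an element fixed by `ker χ` is `G`-invariant (multiplicative form). -/
theorem smul_prod_eq_of_ker (hχ : ∀ g h, χ (g * h) = χ g + χ h) (hσ : χ σ = 1)
    {y : M} (hy : ∀ g : G, χ g = 0 → g • y = y) (g : G) :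
    g • (∏ k ∈ range n, σ ^ k • y) = ∏ k ∈ range n, σ ^ k • y := by
  letI := additiveAct G M
  have := smul_norm_eq_of_ker (b := Additive.ofMul y) hχ hσ
    (fun g hg => congrArg Additive.ofMul (hy g hg)) g
  have h2 : g • Additive.toMul (∑ k ∈ range n, σ ^ k • Additive.ofMul y) =
      Additive.toMul (∑ k ∈ range n, σ ^ k • Additive.ofMul y) :=
    congrArg Additive.toMul this
  rw [toMul_sum] at h2
  exact h2

end Mul

end Fermat.Agent.S55.G.Rec.H379
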