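import Mathlib
import Fermat.Agent.S55.G.Rec.H473CupChar

/-!
# S55 / layer G / block REC, leaf A4: cyclic groups

`G` a finite group, `χ : G →* Multiplicative (ZMod n)` an injective character and `σ : G` with
`χ σ = 1` (so `G = ⟨σ⟩` is cyclic of order `n`; `IsGenChar χ σ`).  Then for every `A : Rep k G`

* `cc A χ a = 0 ↔ a ∈ N_G A`   (`cc_eq_zero_iff`),
* `cc A χ : A^G → H²(G, A)` is surjective   (`cc_surjective`),

hence `A^G / N_G A ≃ H²(G, A)` (`ccEquiv`).  Everything is done with explicit cocycles.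
-/

set_option autoImplicit false

open CategoryTheory groupCohomology

namespace Fermat.Agent.S55.G.Rec

section Generator

variable {G : Type} [Group G] {n : ℕ} [NeZero n]

/-- `χ` is an injective character with `χ σ = 1`; then `G = ⟨σ⟩` is cyclic of order `n`. -/
structure IsGenChar (χ : G →* Multiplicative (ZMod n)) (σ : G) : Prop where
  injective : Function.Injective χ
  map_gen : χ σ = Multiplicative.ofAdd 1

namespace IsGenChar

variable {χ : G →* Multiplicative (ZMod n)} {σ : G} (h : IsGenChar χ σ)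
include h

omit [NeZero n] in
theorem toAdd_map_pow (m : ℕ) : Multiplicative.toAdd (χ (σ ^ m)) = (m : ZMod n) := by
  rw [map_pow, h.map_gen, toAdd_pow, toAdd_ofAdd, nsmul_eq_mul, mul_one]

omit [NeZero n] in
theorem lift_pow (m : ℕ) : lift χ (σ ^ m) = m % n := by
  rw [lift, h.toAdd_map_pow, ZMod.val_natCast]

omit [NeZero n] in
theorem lift_pow_of_lt {m : ℕ} (hm : m < n) : lift χ (σ ^ m) = m := by
  rw [h.lift_pow, Nat.mod_eq_of_lt hm]

theorem pow_lift (g : G) : σ ^ lift χ g = g := by
  apply h.injective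
  apply Multiplicative.toAdd.injective
  rw [h.toAdd_map_pow, lift, ZMod.natCast_zmod_val]

omit [NeZero n] in
theorem lift_gen : lift χ σ = 1 % n := by
  have := h.lift_pow 1
  rwa [pow_one] at this

omit [NeZero n] in
theorem pow_card : σ ^ n = 1 := by
  apply h.injective
  apply Multiplicative.toAdd.injective
  rw [h.toAdd_map_pow, map_one, toAdd_one, ZMod.natCast_self]

theorem sum_eq [Fintype G] {M : Type*} [AddCommMonoid M] (F : G → M) :
    ∑ g, F g = ∑ i ∈ Finset.range n, F (σ ^ i) := by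
  refine Finset.sum_nbij' (fun g => lift χ g) (fun i => σ ^ i) ?_ ?_ ?_ ?_ ?_
  · intro g _; exact Finset.mem_range.2 (lift_lt χ g)
  · intro i _; exact Finset.mem_univ _
  · intro g _; exact h.pow_lift g
  · intro i hi; exact h.lift_pow_of_lt (Finset.mem_range.1 hi)
  · intro g _; rw [h.pow_lift]

theorem card_eq [Fintype G] : Fintype.card G = n := by
  have := h.sum_eq (fun _ => (1 : ℕ))
  simpa using this

/-- `∑_τ ε_χ(τ, g) = χ̃(g)`. -/
theorem sum_carry [Fintype G] (g : G) : ∑ τ, carry χ τ g = lift χ g := by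
  have hn : 0 < n := Nat.pos_of_ne_zero (NeZero.ne n)
  have e1 : ∑ τ : G, (lift χ τ + lift χ g) = ∑ τ : G, (lift χ (τ * g) + n * carry χ τ g) :=
    Finset.sum_congr rfl fun τ _ => lift_add_lift χ τ g
  have e2 : ∑ τ : G, lift χ (τ * g) = ∑ τ : G, lift χ τ :=
    Fintype.sum_equiv (Equiv.mulRight g) _ _ fun _ => rfl
  rw [Finset.sum_add_distrib, Finset.sum_add_distrib, e2, Finset.sum_const, Finset.card_univ,
    h.card_eq, smul_eq_mul, ← Finset.mul_sum] at e1
  exact (Nat.eq_of_mul_eq_mul_left hn (Nat.add_left_cancel e1)).symm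

end IsGenChar

end Generator

section Existence

variable {G : Type} [Group G] [Finite G]

/-- A finite group generated by `σ` carries a (unique) injective character
`χ : G →* Multiplicative (ZMod |G|)` with `χ σ = 1`. -/
theorem exists_isGenChar {n : ℕ} (σ : G) (hσ : ∀ g : G, g ∈ Subgroup.zpowers σ)
    (hn : Nat.card G = n) : ∃ χ : G →* Multiplicative (ZMod n), IsGenChar χ σ := by
  have hn0 : n ≠ 0 := by rw [← hn]; exact Nat.card_pos.ne'
  have : NeZero n := ⟨hn0⟩
  have hpow : σ ^ n = 1 := by rw [← hn]; exact pow_card_eq_one'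
  -- the homomorphism `ZMod n → Additive G`, `1 ↦ σ`
  let ψ0 : ℤ →+ Additive G := zmultiplesHom (Additive G) (Additive.ofMul σ)
  have hψ0 : ψ0 (n : ℤ) = 0 := by
    change (n : ℤ) • Additive.ofMul σ = 0
    rw [natCast_zsmul]
    exact congrArg Additive.ofMul hpow
  let ψ : ZMod n →+ Additive G := ZMod.lift n ⟨ψ0, hψ0⟩
  have hψ1 : ψ 1 = Additive.ofMul σ := by
    have : ψ ((1 : ℤ) : ZMod n) = ψ0 1 := ZMod.lift_coe n ⟨ψ0, hψ0⟩ 1
    rw [Int.cast_one] at this
    rw [this]
    change (1 : ℤ) • Additive.ofMul σ = _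
    rw [one_zsmul]
  have hsurj : Function.Surjective ψ := by
    intro g
    obtain ⟨z, hz⟩ := Subgroup.mem_zpowers_iff.1 (hσ (Additive.toMul g))
    refine ⟨(z : ZMod n), ?_⟩
    have : ψ ((z : ℤ) : ZMod n) = ψ0 z := ZMod.lift_coe n ⟨ψ0, hψ0⟩ z
    rw [this]
    change z • Additive.ofMul σ = g
    rw [← ofMul_zpow, hz]
    rfl
  have hbij : Function.Bijective ψ := by
    rw [Nat.bijective_iff_surjective_and_card]
    refine ⟨hsurj, ?_⟩
    rw [Nat.card_eq_fintype_card, ZMod.card]
    exact hn.symm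
  let e : Multiplicative (ZMod n) ≃* G :=
    AddEquiv.toMultiplicativeLeft (AddEquiv.ofBijective ψ hbij)
  refine ⟨e.symm.toMonoidHom, e.symm.injective, ?_⟩
  change e.symm σ = Multiplicative.ofAdd 1
  rw [MulEquiv.symm_apply_eq]
  change σ = Additive.toMul (ψ 1)
  rw [hψ1]
  rfl

end Existence

section Trace

variable {k G : Type} [CommRing k] [Group G] [Fintype G] (A : Rep.{0} k G) (σ : G)

/-- The functional `f ↦ ∑_g f(g, σ)` on 2-cochains. -/
def traceAt (f : G × G → A.V) : A.V := ∑ g, f (g, σ)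

theorem traceAt_add (f f' : G × G → A.V) :
    traceAt A σ (f + f') = traceAt A σ f + traceAt A σ f' := by
  simp only [traceAt, Pi.add_apply, Finset.sum_add_distrib]

theorem traceAt_sub (f f' : G × G → A.V) :
    traceAt A σ (f - f') = traceAt A σ f - traceAt A σ f' := by
  simp only [traceAt, Pi.sub_apply, Finset.sum_sub_distrib]

/-- `T(dx) = N(x σ)`. -/
theorem traceAt_d (x : G → A.V) : traceAt A σ ((d₁₂ A).hom x) = A.ρ.norm (x σ) := by
  have e2 : ∑ g : G, x (g * σ) = ∑ g : G, x g :=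
    Fintype.sum_equiv (Equiv.mulRight σ) _ _ fun _ => rfl
  simp only [traceAt, d₁₂_hom_apply, Finset.sum_add_distrib, Finset.sum_sub_distrib, e2,
    sub_add_cancel]
  simp [Representation.norm]

/-- `T f` is `G`-invariant for a cocycle `f`. -/
theorem traceAt_mem_invariants {f : G × G → A.V} (hf : f ∈ cocycles₂ A) :
    traceAt A σ f ∈ A.ρ.invariants := by
  intro h
  have hc := (mem_cocycles₂_iff f).1 hf
  have e1 : ∑ g : G, f (h * g, σ) = ∑ g : G, f (g, σ) :=
    Fintype.sum_equiv (Equiv.mulLeft h) _ _ fun _ => rfl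
  have e2 : ∑ g : G, f (h, g * σ) = ∑ g : G, f (h, g) :=
    Fintype.sum_equiv (Equiv.mulRight σ) _ _ fun _ => rfl
  have e3 : ∑ g : G, (f (h * g, σ) + f (h, g)) = ∑ g : G, (A.ρ h (f (g, σ)) + f (h, g * σ)) :=
    Finset.sum_congr rfl fun g _ => hc h g σ
  rw [Finset.sum_add_distrib, Finset.sum_add_distrib, e1, e2] at e3
  have e4 := add_right_cancel e3
  simp only [traceAt, map_sum]
  exact e4.symm

end Trace

section Cyclic

variable {k G : Type} [CommRing k] [Group G] [Fintype G] {n : ℕ} [NeZero n]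
  (A : Rep.{0} k G) {χ : G →* Multiplicative (ZMod n)} {σ : G} (h : IsGenChar χ σ)

include h in
/-- `T(cupChar a χ) = χ̃(σ) • a`. -/
theorem traceAt_cupChar (a : A.ρ.invariants) :
    traceAt A σ (cupChar A χ a) = lift χ σ • (a : A.V) := by
  simp only [traceAt, cupChar_apply]
  rw [← Finset.sum_smul, h.sum_carry]

/-- The partial norms `∑_{i < t} σ^i b`. -/
def partialNorm (σ : G) (b : A.V) (t : ℕ) : A.V := ∑ i ∈ Finset.range t, A.ρ (σ ^ i) b

omit [Fintype G] in
theorem partialNorm_add (σ : G) (b : A.V) (s t : ℕ) :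
    partialNorm A σ b (s + t) = partialNorm A σ b s + A.ρ (σ ^ s) (partialNorm A σ b t) := by
  simp only [partialNorm, Finset.sum_range_add, map_sum]
  congr 1
  refine Finset.sum_congr rfl fun i _ => ?_
  rw [pow_add, map_mul]
  rfl

include h in
theorem partialNorm_card (b : A.V) : partialNorm A σ b n = A.ρ.norm b := by
  rw [partialNorm, ← h.sum_eq (fun g => A.ρ g b)]
  simp [Representation.norm]

theorem norm_mem_invariants (b : A.V) : A.ρ.norm b ∈ A.ρ.invariants :=
  fun g => Representation.self_norm_apply A.ρ g b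

include h in
/-- `cupChar (N b) χ = d (g ↦ ∑_{i < χ̃(g)} σ^i b)`. -/
theorem cupChar_norm (b : A.V) :
    (cupChar A χ ⟨A.ρ.norm b, norm_mem_invariants A b⟩ : G × G → A.V) =
      (d₁₂ A).hom (fun g => partialNorm A σ b (lift χ g)) := by
  funext ⟨g, t⟩
  rw [cupChar_apply, d₁₂_hom_apply]
  change carry χ g t • A.ρ.norm b = A.ρ g (partialNorm A σ b (lift χ t)) -
    partialNorm A σ b (lift χ (g * t)) + partialNorm A σ b (lift χ g)
  have e1 : partialNorm A σ b (lift χ g) + A.ρ g (partialNorm A σ b (lift χ t)) =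
      partialNorm A σ b (lift χ (g * t) + n * carry χ g t) := by
    rw [← lift_add_lift, partialNorm_add, h.pow_lift]
  have e2 : partialNorm A σ b (lift χ (g * t) + n * carry χ g t) =
      partialNorm A σ b (lift χ (g * t)) + carry χ g t • A.ρ.norm b := by
    rcases Nat.le_one_iff_eq_zero_or_eq_one.1 (carry_le_one χ g t) with hc | hc
    · rw [hc, mul_zero, add_zero, zero_smul, add_zero]
    · rw [hc, mul_one, one_smul, partialNorm_add, h.pow_lift, partialNorm_card A h,
        Representation.self_norm_apply]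
  rw [e2] at e1
  rw [sub_add_eq_add_sub, add_comm, e1, add_sub_cancel_left]

include h in
/-- **A4a.** `cc (N b) χ = 0`. -/
theorem cc_norm (b : A.V) : cc A χ ⟨A.ρ.norm b, norm_mem_invariants A b⟩ = 0 := by
  rw [cc_apply, H2π_eq_zero_iff, cupChar_norm A h]
  exact LinearMap.mem_range_self _ _

include h in
/-- **A4b.** If `cc a χ = 0` then `a` is a norm. -/
theorem exists_norm_eq_of_cc_eq_zero (a : A.ρ.invariants) (ha : cc A χ a = 0) :
    ∃ b : A.V, A.ρ.norm b = a := by
  rw [cc_apply, H2π_eq_zero_iff] at ha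
  obtain ⟨x, hx⟩ := ha
  have hT := congrArg (traceAt A σ) hx
  rw [traceAt_d, traceAt_cupChar A h, h.lift_gen] at hT
  by_cases hn : n = 1
  · -- trivial group: the norm is the identity
    refine ⟨a, ?_⟩
    have hcard : Fintype.card G = 1 := by rw [h.card_eq, hn]
    have : Subsingleton G := Fintype.card_le_one_iff_subsingleton.1 hcard.le
    let _ : Unique G := uniqueOfSubsingleton 1
    simp [Representation.norm, Finset.univ_unique, Subsingleton.elim default (1 : G)]
  · have hn' : 1 < n := lt_of_le_of_ne (Nat.pos_of_ne_zero (NeZero.ne n)) (Ne.symm hn)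
    rw [Nat.mod_eq_of_lt hn', one_smul] at hT
    exact ⟨x σ, hT⟩

include h in
theorem cc_eq_zero_iff (a : A.ρ.invariants) :
    cc A χ a = 0 ↔ (a : A.V) ∈ LinearMap.range A.ρ.norm := by
  constructor
  · intro ha
    obtain ⟨b, hb⟩ := exists_norm_eq_of_cc_eq_zero A h a ha
    exact ⟨b, hb⟩
  · rintro ⟨b, hb⟩
    have : a = ⟨A.ρ.norm b, norm_mem_invariants A b⟩ := Subtype.ext hb.symm
    rw [this]
    exact cc_norm A h b

omit [Fintype G] in
/-- A 2-cocycle vanishing on `G × {σ}` vanishes identically. -/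
theorem cocycle_eq_zero_of_vanish {f : G × G → A.V} (hf : f ∈ cocycles₂ A)
    (h : IsGenChar χ σ) (h0 : ∀ τ, f (τ, σ) = 0) : f = 0 := by
  have hc := (mem_cocycles₂_iff f).1 hf
  have h11 : f (1, 1) = 0 := by
    have := cocycles₂_map_one_fst ⟨f, hf⟩ σ
    change f (1, σ) = f (1, 1) at this
    rw [← this]
    exact h0 1
  have key : ∀ (j : ℕ) (τ : G), f (τ, σ ^ j) = 0 := by
    intro j
    induction j with
    | zero =>
      intro τ
      rw [pow_zero]
      have := cocycles₂_map_one_snd ⟨f, hf⟩ τ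
      change f (τ, 1) = A.ρ τ (f (1, 1)) at this
      rw [this, h11, map_zero]
    | succ j ih =>
      intro τ
      have := hc τ (σ ^ j) σ
      rw [h0, ih τ, h0, map_zero, zero_add, zero_add, ← pow_succ] at this
      exact this.symm
  funext ⟨τ, t⟩
  rw [← h.pow_lift t]
  exact key _ τ

/-- The 1-cochain `τ ↦ ∑_{i < χ̃(τ)} f(σ^i, σ)`. -/
def sumAt (χ : G →* Multiplicative (ZMod n)) (σ : G) (f : G × G → A.V) (τ : G) : A.V :=
  ∑ i ∈ Finset.range (lift χ τ), f (σ ^ i, σ)

include h in
theorem sumAt_mul_gen (hn : 1 < n) (f : G × G → A.V) (τ : G) :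
    sumAt A χ σ f (τ * σ) + carry χ τ σ • traceAt A σ f = sumAt A χ σ f τ + f (τ, σ) := by
  have hσ : lift χ σ = 1 := by rw [h.lift_gen, Nat.mod_eq_of_lt hn]
  have e := lift_add_lift χ τ σ
  rw [hσ] at e
  have hlt := lift_lt χ τ
  rcases Nat.le_one_iff_eq_zero_or_eq_one.1 (carry_le_one χ τ σ) with hc | hc
  · rw [hc, mul_zero, add_zero] at e
    rw [hc, zero_smul, add_zero, sumAt, ← e, Finset.sum_range_succ, h.pow_lift]
    rfl
  · rw [hc, mul_one] at e
    have h1 : lift χ (τ * σ) = 0 := by omega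
    have h2 : lift χ τ + 1 = n := by omega
    have h3 : Finset.range n = Finset.range (lift χ τ + 1) := by rw [h2]
    rw [hc, one_smul, sumAt, h1, Finset.sum_range_zero, zero_add, traceAt,
      h.sum_eq (fun g => f (g, σ)), h3, Finset.sum_range_succ, h.pow_lift]
    rfl

include h in
/-- For `n ≥ 2`, every 2-cocycle `f` is cohomologous to `cupChar (T f) χ`. -/
theorem sub_cupChar_traceAt_mem_coboundaries₂ (hn : 1 < n) (f : cocycles₂ A) :
    (f : G × G → A.V) - cupChar A χ ⟨traceAt A σ f, traceAt_mem_invariants A σ f.2⟩ ∈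
      coboundaries₂ A := by
  have hσ : lift χ σ = 1 := by rw [h.lift_gen, Nat.mod_eq_of_lt hn]
  have key : (f : G × G → A.V) -
      cupChar A χ ⟨traceAt A σ f, traceAt_mem_invariants A σ f.2⟩ -
      (d₁₂ A).hom (fun τ => f (1, 1) - sumAt A χ σ f τ) = 0 := by
    apply cocycle_eq_zero_of_vanish A _ h
    · intro τ
      have e := sumAt_mul_gen A h hn f τ
      have hyσ : f (1, 1) - sumAt A χ σ f σ = 0 := by
        simp only [sumAt, hσ, Finset.sum_range_one, pow_zero]
        rw [sub_eq_zero]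
        exact (cocycles₂_map_one_fst f σ).symm
      simp only [Pi.sub_apply, cupChar_apply, d₁₂_hom_apply, hyσ, map_zero, zero_sub]
      have e' : f (τ, σ) = sumAt A χ σ f (τ * σ) + carry χ τ σ • traceAt A σ f -
          sumAt A χ σ f τ := by rw [e]; abel
      rw [e']
      abel
    · refine Submodule.sub_mem _ (Submodule.sub_mem _ f.2 (cupChar A χ _).2) ?_
      exact d₁₂_apply_mem_cocycles₂ _
  exact ⟨_, (sub_eq_zero.1 key).symm⟩

include h in
/-- **A4c.** `cc A χ : A^G → H²(G, A)` is surjective. -/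
theorem cc_surjective : Function.Surjective (cc A χ) := by
  intro z
  induction z using H2_induction_on with
  | h f =>
    by_cases hn : n = 1
    · -- trivial group: `H²` vanishes
      refine ⟨0, ?_⟩
      rw [map_zero, eq_comm, H2π_eq_zero_iff]
      have hcard : Fintype.card G = 1 := by rw [h.card_eq, hn]
      have hsub : Subsingleton G := Fintype.card_le_one_iff_subsingleton.1 hcard.le
      refine ⟨fun _ => f (1, 1), ?_⟩
      funext ⟨g, t⟩
      rw [d₁₂_hom_apply, Subsingleton.elim g 1, Subsingleton.elim t 1]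
      simp
    · have hn' : 1 < n := lt_of_le_of_ne (Nat.pos_of_ne_zero (NeZero.ne n)) (Ne.symm hn)
      refine ⟨⟨traceAt A σ f, traceAt_mem_invariants A σ f.2⟩, ?_⟩
      rw [cc_apply, eq_comm, H2π_eq_iff]
      exact sub_cupChar_traceAt_mem_coboundaries₂ A h hn' f

include h in
/-- **A4.** For a finite cyclic group, `a ↦ cc a χ` induces `A^G / N_G A ≃ H²(G, A)`. -/
noncomputable def ccEquiv :
    (A.ρ.invariants ⧸ (LinearMap.range A.ρ.norm).comap A.ρ.invariants.subtype) ≃ₗ[k] H2 A :=
  LinearEquiv.ofBijective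
    (Submodule.liftQ _ (cc A χ) (by
      intro a ha
      exact (cc_eq_zero_iff A h a).2 ha))
    ⟨by
      rw [← LinearMap.ker_eq_bot, Submodule.ker_liftQ, eq_bot_iff]
      rintro _ ⟨a, ha, rfl⟩
      rw [Submodule.mem_bot, Submodule.mkQ_apply, Submodule.Quotient.mk_eq_zero]
      exact (cc_eq_zero_iff A h a).1 ha,
     by
      intro z
      obtain ⟨a, rfl⟩ := cc_surjective A h z
      exact ⟨Submodule.Quotient.mk a, rfl⟩⟩

theorem ccEquiv_mk (a : A.ρ.invariants) :
    ccEquiv A h (Submodule.Quotient.mk a) = cc A χ a := rfl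

end Cyclic

end Fermat.Agent.S55.G.Rec
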