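import Fermat.Agent.S55.G.Rec.H63AuxField
import Fermat.Prelude.Def_ExtEndgame_ProductionDatum

/-!
# S55 / G / REC, leaf N4 (continued): Galois group, norms and real place of `L(r, n)`

* `galEquiv63 : Gal(L(r,n)/ℚ) ≃* (ℤ/r)ˣ ⧸ ((ℤ/r)ˣ)ⁿ` with `galEquiv63_restrict`
  (`galEquiv63 (σ|L) = auxChar63 σ`), `isCyclic_gal_auxField63`;
* `cycloChar_complexConjugation63 : cycloChar r c = -1`,
  `complexConjugation_mem_fixingSubgroup63`, `archimedeanLoc_mem_fixingSubgroup63`
  (`L(r, n)` is totally real for odd `n`);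
* `exists_norm_eq_prime63` (`r` is a norm from `L(r, n)`), `norm_neg_one63`.
-/

set_option autoImplicit false
set_option linter.style.haveILetI false

namespace Fermat.Agent.S55.G.Rec

open ExtCitation Fermat.Agent.S55.Bridge

local notation "Qb" => AlgebraicClosure ℚ
local notation "GQ" => (AlgebraicClosure ℚ ≃ₐ[ℚ] AlgebraicClosure ℚ)

section galgroup

variable (r : ℕ) [Fact r.Prime] (n : ℕ)

theorem normal_algebraicClosure_rat63 : Normal ℚ Qb :=
  haveI : Algebra.IsAlgebraic ℚ Qb := AlgebraicClosure.isAlgebraic ℚ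
  haveI : IsAlgClosure ℚ Qb := ⟨inferInstance, inferInstance⟩
  IsAlgClosure.normal ℚ Qb

attribute [local instance] normal_algebraicClosure_rat63

instance normal_auxField63 : Normal ℚ (auxField63 r n) :=
  (isGalois_auxField63 r n).to_normal

theorem restrictNormalHom_surjective63 :
    Function.Surjective (AlgEquiv.restrictNormalHom (F := ℚ) (K₁ := Qb) (auxField63 r n)) :=
  AlgEquiv.restrictNormalHom_surjective Qb

theorem ker_restrictNormalHom63 :
    (AlgEquiv.restrictNormalHom (F := ℚ) (K₁ := Qb) (auxField63 r n)).ker =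
      (auxChar63 r n).ker := by
  rw [← fixingSubgroup_auxField63]
  ext σ
  rw [MonoidHom.mem_ker, IntermediateField.mem_fixingSubgroup_iff]
  constructor
  · intro h x hx
    have h1 := AlgEquiv.restrictNormal_commutes σ (auxField63 r n) ⟨x, hx⟩
    have h2 : σ.restrictNormal (auxField63 r n) = 1 := h
    rw [h2] at h1
    exact h1.symm
  · intro h
    ext ⟨x, hx⟩
    have h1 := AlgEquiv.restrictNormal_commutes σ (auxField63 r n) ⟨x, hx⟩
    have h2 : σ (algebraMap (auxField63 r n) Qb ⟨x, hx⟩) = x := h x hx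
    rw [h2] at h1
    exact h1

/-- `Gal(L(r, n)/ℚ) ≃ (ℤ/r)ˣ ⧸ ((ℤ/r)ˣ)ⁿ`, compatibly with restriction from `G_ℚ`. -/
noncomputable def galEquiv63 :
    ((auxField63 r n) ≃ₐ[ℚ] (auxField63 r n)) ≃* (ZMod r)ˣ ⧸ powSubgroup63 r n :=
  ((QuotientGroup.quotientKerEquivOfSurjective _ (restrictNormalHom_surjective63 r n)).symm.trans
    (QuotientGroup.quotientMulEquivOfEq (ker_restrictNormalHom63 r n))).trans
    (QuotientGroup.quotientKerEquivOfSurjective _ (auxChar63_surjective r n))

theorem galEquiv63_restrict (σ : GQ) :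
    galEquiv63 r n (AlgEquiv.restrictNormalHom (auxField63 r n) σ) = auxChar63 r n σ := by
  unfold galEquiv63
  rw [MulEquiv.trans_apply, MulEquiv.trans_apply]
  have h1 : (QuotientGroup.quotientKerEquivOfSurjective _
      (restrictNormalHom_surjective63 r n)).symm
      (AlgEquiv.restrictNormalHom (auxField63 r n) σ) = QuotientGroup.mk σ := by
    rw [MulEquiv.symm_apply_eq]
    rfl
  rw [h1]
  rfl

theorem isCyclic_gal_auxField63 : IsCyclic ((auxField63 r n) ≃ₐ[ℚ] (auxField63 r n)) :=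
  isCyclic_of_surjective (galEquiv63 r n).symm (galEquiv63 r n).symm.surjective

end galgroup

end Fermat.Agent.S55.G.Rec

namespace Fermat.Agent.S55.G.Rec

open ExtCitation Fermat.Agent.S55.Bridge

local notation "Qb" => AlgebraicClosure ℚ
local notation "GQ" => (AlgebraicClosure ℚ ≃ₐ[ℚ] AlgebraicClosure ℚ)

section real

variable (r : ℕ) [Fact r.Prime] (n : ℕ)

/-- Complex conjugation inverts roots of unity. -/
theorem complexConjugation_root63 {t : Qb} {m : ℕ} (hm : m ≠ 0) (ht : t ^ m = 1) :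
    complexConjugation t = t⁻¹ := by
  apply complexEmbedding.toRingHom.injective
  show complexEmbedding (complexConjugation t) = complexEmbedding t⁻¹
  rw [complexEmbedding_complexConjugation, map_inv₀]
  have h1 : (complexEmbedding t) ^ m = 1 := by rw [← map_pow, ht, map_one]
  have h2 : ‖complexEmbedding t‖ = 1 := Complex.norm_eq_one_of_pow_eq_one h1 hm
  exact (Complex.inv_eq_conj h2).symm

/-- The cyclotomic character of complex conjugation is `-1`. -/
theorem cycloChar_complexConjugation63 : cycloChar r complexConjugation = -1 := by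
  have hr : r.Prime := Fact.out
  haveI : NeZero r := ⟨hr.ne_zero⟩
  obtain ⟨ζ, hζ⟩ := exists_primitiveRoot63 r
  apply cycloChar_eq_of_apply63 r hζ
  rw [complexConjugation_root63 hr.ne_zero hζ.pow_eq_one]
  have hval : ((-1 : (ZMod r)ˣ) : ZMod r).val = r - 1 := by
    rw [Units.val_neg, Units.val_one]
    obtain ⟨k, rfl⟩ : ∃ k, r = k + 1 := ⟨r - 1, (Nat.succ_pred_eq_of_pos hr.pos).symm⟩
    rw [ZMod.val_neg_one]
    simp
  rw [hval]
  have h0 : ζ ≠ 0 := hζ.ne_zero hr.ne_zero
  have h1 : ζ ^ (r - 1) * ζ = 1 := by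
    rw [← pow_succ, Nat.sub_add_cancel hr.pos, hζ.pow_eq_one]
  exact (eq_inv_of_mul_eq_one_left h1).symm ▸ rfl

/-- For odd `n` the field `L(r, n)` is totally real: complex conjugation acts trivially. -/
theorem complexConjugation_mem_fixingSubgroup63 (hn : Odd n) :
    complexConjugation ∈ (auxField63 r n).fixingSubgroup := by
  rw [mem_fixingSubgroup_auxField63, cycloChar_complexConjugation63, mem_powSubgroup63]
  exact ⟨-1, hn.neg_one_pow⟩

theorem archimedeanLoc_mem_fixingSubgroup63 (hn : Odd n) (g : archimedeanDecomposition) :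
    archimedeanLoc g ∈ (auxField63 r n).fixingSubgroup := by
  obtain ⟨g, hg⟩ := g
  obtain ⟨k, rfl⟩ := Subgroup.mem_zpowers_iff.1 hg
  exact Subgroup.zpow_mem _ (complexConjugation_mem_fixingSubgroup63 r n hn) k

end real

section norms

variable (r : ℕ) [Fact r.Prime] (n : ℕ)

/-- `r` is a norm from `L(r, n)` (`r` odd): `r = N_{ℚ(ζ)/ℚ}(ζ - 1)`. -/
theorem exists_norm_eq_prime63 (hr2 : r ≠ 2) :
    ∃ y : auxField63 r n, Algebra.norm ℚ y = (r : ℚ) := by
  have hr : r.Prime := Fact.out
  haveI : NeZero r := ⟨hr.ne_zero⟩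
  obtain ⟨ζ, hζ⟩ := exists_primitiveRoot63 r
  have hLE := auxField63_le_adjoin r n hζ
  -- the cyclotomic field `E = ℚ(ζ)`
  set E : IntermediateField ℚ Qb := IntermediateField.adjoin ℚ {ζ} with hE
  haveI : FiniteDimensional ℚ E := finiteDimensional_adjoin_root63 ζ
  haveI : Algebra.IsIntegral ℚ Qb := (AlgebraicClosure.isAlgebraic ℚ).isIntegral
  haveI hcyc : IsCyclotomicExtension {r} ℚ E :=
    hζ.intermediateField_adjoin_isCyclotomicExtension ℚ
  let ζE : E := ⟨ζ, IntermediateField.mem_adjoin_simple_self ℚ ζ⟩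
  have hζE : IsPrimitiveRoot ζE r :=
    IsPrimitiveRoot.of_map_of_injective (f := algebraMap E Qb)
      (show IsPrimitiveRoot (algebraMap E Qb ζE) r from hζ)
      (FaithfulSMul.algebraMap_injective _ _)
  have hnorm : Algebra.norm ℚ (ζE - 1) = (r : ℚ) :=
    hζE.norm_sub_one_of_prime_ne_two' (Polynomial.cyclotomic.irreducible_rat hr.pos) hr2
  -- the tower `ℚ ⊆ L' ⊆ E`
  let L' : IntermediateField ℚ E := IntermediateField.restrict hLE
  have h2 : Algebra.norm ℚ (Algebra.norm L' (ζE - 1)) = (r : ℚ) := by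
    rw [Algebra.norm_norm, hnorm]
  let e : auxField63 r n ≃ₐ[ℚ] L' := IntermediateField.restrictAlgEquiv hLE
  refine ⟨e.symm (Algebra.norm L' (ζE - 1)), ?_⟩
  rw [Algebra.norm_eq_of_algEquiv e.symm, h2]

/-- `-1` is a norm from `L(r, n)` for odd `n ∣ r - 1`. -/
theorem norm_neg_one63 (hn : n ∣ r - 1) (hodd : Odd n) :
    Algebra.norm ℚ (-1 : auxField63 r n) = -1 := by
  have h := Algebra.norm_algebraMap (S := auxField63 r n) (-1 : ℚ)
  rw [map_neg, map_one] at h
  rw [h, finrank_auxField63 r n hn, hodd.neg_one_pow]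

end norms


end Fermat.Agent.S55.G.Rec
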