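import Fermat.Agent.S55.G.Rec.H63AuxGal

/-!
# S55 / G / REC, leaf N4 (continued): the tame structure of `L(r, n)` at `r`

Let `A` be a valuation subring of `ℚ̄` over the odd prime `r`, `D_A` its decomposition group.

* `exists_tame_generator63` : there is `β₀ ∈ ℚ̄` with `β₀ ^ (r - 1) = -r` such that for every
  `σ ∈ D_A`:  `σ β₀ / β₀ ≡ c(σ)  (mod 𝔪_A)`, where `c(σ)` is the cyclotomic character mod `r`
  (so `σ β₀ / β₀` is the Teichmüller representative of `c(σ)`): the completion of `ℚ(ζ_r)` at `r`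
  is `ℚ_r((-r)^{1/(r-1)})`.
* `exists_tame_root63` : for `n ∣ r - 1` there is `β` with `β ^ n = -r`,
  `σ β / β ≡ c(σ) ^ ((r-1)/n)` for `σ ∈ D_A`, and for `σ ∈ D_A`:
  `σ β = β ↔ σ ∈ Gal(ℚ̄ / L(r, n))`: the completion of `L(r, n)` at `r` is `ℚ_r((-r)^{1/n})`.
-/

set_option autoImplicit false
set_option linter.style.haveILetI false

namespace Fermat.Agent.S55.G.Rec

open ExtCitation Fermat.Agent.S55.Bridge
open scoped Pointwise

local notation "Qb" => AlgebraicClosure ℚ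
local notation "GQ" => (AlgebraicClosure ℚ ≃ₐ[ℚ] AlgebraicClosure ℚ)

section decomp

variable (A : ValuationSubring Qb)

theorem map_mem_of_mem_decomp63 {σ : GQ} (hσ : σ ∈ A.decompositionSubgroup ℚ) {x : Qb}
    (hx : x ∈ A) : σ x ∈ A := by
  have h : σ • A = A := hσ
  have h1 : σ • x ∈ σ • A := ValuationSubring.smul_mem_pointwise_smul σ x A hx
  rw [h] at h1
  exact h1

theorem val_map_le_one_iff63 {σ : GQ} (hσ : σ ∈ A.decompositionSubgroup ℚ) (x : Qb) :
    A.valuation (σ x) ≤ 1 ↔ A.valuation x ≤ 1 := by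
  rw [A.valuation_le_one_iff, A.valuation_le_one_iff]
  constructor
  · intro h
    have := map_mem_of_mem_decomp63 A ((A.decompositionSubgroup ℚ).inv_mem hσ) h
    simpa using this
  · exact map_mem_of_mem_decomp63 A hσ

theorem val_map_lt_one_iff63 {σ : GQ} (hσ : σ ∈ A.decompositionSubgroup ℚ) (x : Qb) :
    A.valuation (σ x) < 1 ↔ A.valuation x < 1 := by
  by_cases hx : x = 0
  · subst hx; simp
  have hσx : σ x ≠ 0 := by simpa using hx
  have h := val_map_le_one_iff63 A hσ x⁻¹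
  rw [map_inv₀, map_inv₀, map_inv₀] at h
  rw [← not_le, ← not_le]
  have h1 : ∀ y : Qb, y ≠ 0 → ((A.valuation y)⁻¹ ≤ 1 ↔ 1 ≤ A.valuation y) := by
    intro y hy
    have hv : A.valuation y ≠ 0 := (Valuation.ne_zero_iff _).2 hy
    exact inv_le_one₀ (zero_lt_iff.2 hv)
  rw [h1 _ hσx, h1 _ hx] at h
  exact not_congr h

/-- Congruences modulo the maximal ideal are multiplicative. -/
theorem val_mul_sub_mul_lt_one63 {a a' b b' : Qb} (ha : A.valuation (a - a') < 1)
    (hb : A.valuation (b - b') < 1) (ha' : A.valuation a' ≤ 1) (hb1 : A.valuation b ≤ 1) :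
    A.valuation (a * b - a' * b') < 1 := by
  have h : a * b - a' * b' = (a - a') * b + a' * (b - b') := by ring
  rw [h]
  refine (A.valuation.map_add _ _).trans_lt (max_lt ?_ ?_)
  · rw [map_mul]
    exact (mul_le_of_le_one_right zero_le hb1).trans_lt ha
  · rw [map_mul]
    exact (mul_le_of_le_one_left zero_le ha').trans_lt hb

theorem val_eq_one_of_sub_one_lt63 {u : Qb} (hu : A.valuation (u - 1) < 1) :
    A.valuation u = 1 := by
  have h : u = 1 + (u - 1) := by ring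
  rw [h, A.valuation.map_add_eq_of_lt_left (by rwa [map_one]), map_one]

theorem val_inv_sub_one_lt_one63 {u : Qb} (hu : A.valuation (u - 1) < 1) :
    A.valuation (u⁻¹ - 1) < 1 := by
  have hu1 := val_eq_one_of_sub_one_lt63 A hu
  have hu0 : u ≠ 0 := by
    rintro rfl
    rw [map_zero] at hu1
    exact zero_ne_one hu1
  have h : u⁻¹ - 1 = -(u - 1) * u⁻¹ := by
    field_simp
    ring
  rw [h, map_mul, map_inv₀, hu1, inv_one, mul_one, Valuation.map_neg]
  exact hu

end decomp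

section eisenstein

variable (r : ℕ) [Fact r.Prime] (A : ValuationSubring Qb)

/-- `(ζ - 1)^(r-1) ≡ -r` modulo `r 𝔪_A` (Eisenstein). -/
theorem val_pow_add_prime_lt63 (hA : A.LiesOverPrime r) (hr2 : r ≠ 2) {ζ : Qb}
    (hζ : IsPrimitiveRoot ζ r) :
    A.valuation ((ζ - 1) ^ (r - 1) + (r : Qb)) < A.valuation (r : Qb) := by
  have hr : r.Prime := Fact.out
  obtain ⟨k, rfl⟩ : ∃ k, r = k + 2 := ⟨r - 2, by have := hr.two_le; omega⟩
  set π : Qb := ζ - 1 with hπ
  have hπ0 : π ≠ 0 := sub_ne_zero.2 (hζ.ne_one hr.one_lt)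
  have hvπ : A.valuation π < 1 :=
    Fermat.Agent.S14.H894.valuation_zeta_sub_one_lt_one A (k + 2) hr hA ζ hζ
  have hvr0 : A.valuation ((k + 2 : ℕ) : Qb) ≠ 0 :=
    (Valuation.ne_zero_iff _).2 (Nat.cast_ne_zero.2 hr.ne_zero)
  -- binomial expansion of `(π + 1)^r = 1`
  have h1 : (π + 1) ^ (k + 2) = 1 := by
    rw [hπ, sub_add_cancel, hζ.pow_eq_one]
  rw [add_pow] at h1
  simp only [one_pow, mul_one] at h1
  rw [Finset.sum_range_succ', pow_zero, Nat.choose_zero_right, Nat.cast_one, mul_one,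
    add_eq_right] at h1
  have h2 : π * ∑ m ∈ Finset.range (k + 2), π ^ m * ((k + 2).choose (m + 1) : Qb) = 0 := by
    rw [Finset.mul_sum, ← h1]
    refine Finset.sum_congr rfl fun m _ => ?_
    ring
  have h3 := (mul_eq_zero.1 h2).resolve_left hπ0
  rw [Finset.sum_range_succ, Finset.sum_range_succ', pow_zero, one_mul, Nat.choose_one_right,
    Nat.choose_self, Nat.cast_one, mul_one] at h3
  have h4 : π ^ (k + 2 - 1) + ((k + 2 : ℕ) : Qb) =
      -∑ m ∈ Finset.range k, π ^ (m + 1) * ((k + 2).choose (m + 1 + 1) : Qb) := by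
    have : k + 2 - 1 = k + 1 := by omega
    rw [this]
    linear_combination h3
  rw [h4, Valuation.map_neg]
  refine Valuation.map_sum_lt _ hvr0 fun m hm => ?_
  rw [Finset.mem_range] at hm
  have hdvd : (k + 2) ∣ (k + 2).choose (m + 1 + 1) :=
    hr.dvd_choose_self (by omega) (by omega)
  obtain ⟨t, ht⟩ := hdvd
  have hC : A.valuation (((k + 2).choose (m + 1 + 1) : ℕ) : Qb) ≤
      A.valuation ((k + 2 : ℕ) : Qb) := by
    rw [ht, Nat.cast_mul, map_mul]
    have : A.valuation (t : Qb) ≤ 1 := by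
      exact_mod_cast val_intCast_le_one (A := A) (t : ℤ)
    exact mul_le_of_le_one_right zero_le this
  have hπm : A.valuation π ^ (m + 1) < 1 := pow_lt_one₀ zero_le hvπ (by omega)
  rw [map_mul, map_pow]
  calc A.valuation π ^ (m + 1) * A.valuation (((k + 2).choose (m + 1 + 1) : ℕ) : Qb)
      ≤ A.valuation π ^ (m + 1) * A.valuation ((k + 2 : ℕ) : Qb) :=
        mul_le_mul_right hC _
    _ < 1 * A.valuation ((k + 2 : ℕ) : Qb) :=
        mul_lt_mul_of_pos_right hπm (zero_lt_iff.2 hvr0)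
    _ = A.valuation ((k + 2 : ℕ) : Qb) := one_mul _

/-- `(ζ - 1)^(r-1) / (-r) ≡ 1` modulo `𝔪_A`. -/
theorem val_pow_div_neg_prime_sub_one_lt63 (hA : A.LiesOverPrime r) (hr2 : r ≠ 2) {ζ : Qb}
    (hζ : IsPrimitiveRoot ζ r) :
    A.valuation ((ζ - 1) ^ (r - 1) / (-(r : Qb)) - 1) < 1 := by
  have hr : r.Prime := Fact.out
  have hr0 : (r : Qb) ≠ 0 := Nat.cast_ne_zero.2 hr.ne_zero
  have hvr0 : A.valuation (r : Qb) ≠ 0 := (Valuation.ne_zero_iff _).2 hr0
  have h := val_pow_add_prime_lt63 r A hA hr2 hζ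
  have h1 : (ζ - 1) ^ (r - 1) / (-(r : Qb)) - 1 = -(((ζ - 1) ^ (r - 1) + (r : Qb)) / (r : Qb)) := by
    field_simp
    ring
  rw [h1, Valuation.map_neg, map_div₀]
  exact (div_lt_one₀ (zero_lt_iff.2 hvr0)).2 h

end eisenstein

section tame

variable (r : ℕ) [Fact r.Prime] (A : ValuationSubring Qb)

/-- If `y ^ m ≡ 1` modulo `𝔪_A` then `y` is congruent to an `m`-th root of unity. -/
theorem exists_root_of_unity_congr63 {m : ℕ} (hm : 0 < m) {y : Qb}
    (hy : A.valuation (y ^ m - 1) < 1) : ∃ ω : Qb, ω ^ m = 1 ∧ A.valuation (y - ω) < 1 := by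
  haveI : NeZero m := ⟨hm.ne'⟩
  obtain ⟨ξ, hξ⟩ := HasEnoughRootsOfUnity.exists_primitiveRoot Qb m
  have hprod := Polynomial.X_pow_sub_one_eq_prod hm hξ
  have h1 : y ^ m - 1 = ∏ ω ∈ Polynomial.nthRootsFinset m (1 : Qb), (y - ω) := by
    have := congrArg (Polynomial.eval y) hprod
    simpa [Polynomial.eval_prod] using this
  rw [h1, map_prod] at hy
  by_contra hcon0
  have hcon : ∀ ω : Qb, ω ^ m = 1 → 1 ≤ A.valuation (y - ω) :=
    fun ω hω => not_lt.1 fun h => hcon0 ⟨ω, hω, h⟩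
  have hy1 : A.valuation y = 1 := by
    have h2 : A.valuation (y ^ m) = 1 := by
      have : A.valuation (y ^ m - 1) < 1 := by rw [h1, map_prod]; exact hy
      exact val_eq_one_of_sub_one_lt63 A this
    rw [map_pow] at h2
    exact (pow_eq_one_iff_left hm.ne').1 h2
  have h3 : ∀ ω ∈ Polynomial.nthRootsFinset m (1 : Qb), A.valuation (y - ω) = 1 := by
    intro ω hω
    have hω1 : ω ^ m = 1 := (Polynomial.mem_nthRootsFinset hm 1).1 hω
    have hvω : A.valuation ω = 1 := by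
      have : A.valuation ω ^ m = 1 := by rw [← map_pow, hω1, map_one]
      exact (pow_eq_one_iff_left hm.ne').1 this
    refine le_antisymm ?_ (hcon ω hω1)
    exact (A.valuation.map_sub _ _).trans (max_le hy1.le hvω.le)
  rw [Finset.prod_congr rfl h3, Finset.prod_const_one] at hy
  exact lt_irrefl _ hy

/-- **Tame generator.** There is an `(r-1)`-th root `β₀` of `-r` on which the decomposition
group of `A` acts through the Teichmüller lift of the cyclotomic character. -/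
theorem exists_tame_generator63 (hA : A.LiesOverPrime r) (hr2 : r ≠ 2) :
    ∃ β₀ : Qb, β₀ ^ (r - 1) = -(r : Qb) ∧ ∀ σ ∈ A.decompositionSubgroup ℚ,
      A.valuation (σ β₀ / β₀ - (((cycloChar r σ : (ZMod r)ˣ) : ZMod r).val : Qb)) < 1 := by
  have hr : r.Prime := Fact.out
  haveI : NeZero r := ⟨hr.ne_zero⟩
  have hr1 : 0 < r - 1 := by have := hr.two_le; omega
  have hr0 : (r : Qb) ≠ 0 := Nat.cast_ne_zero.2 hr.ne_zero
  obtain ⟨ζ, hζ⟩ := exists_primitiveRoot63 r
  set π : Qb := ζ - 1 with hπ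
  have hπ0 : π ≠ 0 := sub_ne_zero.2 (hζ.ne_one hr.one_lt)
  have hvπ : A.valuation π < 1 :=
    Fermat.Agent.S14.H894.valuation_zeta_sub_one_lt_one A r hr hA ζ hζ
  -- a first root of `-r`
  obtain ⟨β₁, hβ₁⟩ := IsAlgClosed.exists_pow_nat_eq (-(r : Qb)) hr1
  have hβ₁0 : β₁ ≠ 0 := by
    rintro rfl
    rw [zero_pow hr1.ne'] at hβ₁
    exact neg_ne_zero.2 hr0 hβ₁.symm
  have hy : A.valuation ((π / β₁) ^ (r - 1) - 1) < 1 := by
    rw [div_pow, hβ₁]
    exact val_pow_div_neg_prime_sub_one_lt63 r A hA hr2 hζ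
  obtain ⟨ω, hω, hyω⟩ := exists_root_of_unity_congr63 A hr1 hy
  have hω0 : ω ≠ 0 := by
    rintro rfl
    rw [zero_pow hr1.ne'] at hω
    exact zero_ne_one hω
  have hvω : A.valuation ω = 1 := by
    have : A.valuation ω ^ (r - 1) = 1 := by rw [← map_pow, hω, map_one]
    exact (pow_eq_one_iff_left hr1.ne').1 this
  -- the good root
  refine ⟨ω * β₁, by rw [mul_pow, hω, one_mul, hβ₁], fun σ hσ => ?_⟩
  set β₀ : Qb := ω * β₁ with hβ₀
  have hβ₀0 : β₀ ≠ 0 := mul_ne_zero hω0 hβ₁0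
  set u : Qb := π / β₀ with hu
  have hu1 : A.valuation (u - 1) < 1 := by
    have : u - 1 = (π / β₁ - ω) * ω⁻¹ := by
      rw [hu, hβ₀]
      field_simp
    rw [this, map_mul, map_inv₀, hvω, inv_one, mul_one]
    exact hyω
  have hu0 : u ≠ 0 := div_ne_zero hπ0 hβ₀0
  -- the action on `π`
  set c : ℕ := ((cycloChar r σ : (ZMod r)ˣ) : ZMod r).val with hc
  have hσζ : σ ζ = ζ ^ c := cycloChar_spec r σ (t := (hζ.toRootsOfUnity : Qbˣ))
    hζ.toRootsOfUnity.2
  set g : Qb := ∑ i ∈ Finset.range c, ζ ^ i with hg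
  have hσπ : σ π = g * π := by
    rw [hπ, map_sub, map_one, hσζ, hg, geom_sum_mul]
  have hgc : A.valuation (g - (c : Qb)) < 1 := by
    have h1 : g - (c : Qb) = ∑ i ∈ Finset.range c, (ζ ^ i - 1) := by
      rw [hg, Finset.sum_sub_distrib]
      simp
    rw [h1]
    refine Valuation.map_sum_lt _ one_ne_zero fun i _ => ?_
    exact (Fermat.Agent.S14.H894.valuation_pow_sub_one_le A hr.ne_zero hζ.pow_eq_one i).trans_lt
      hvπ
  -- the action on `u`
  have hσu1 : A.valuation (σ u - 1) < 1 := by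
    have : σ u - 1 = σ (u - 1) := by rw [map_sub, map_one]
    rw [this, val_map_lt_one_iff63 A hσ]
    exact hu1
  have hσu0 : σ u ≠ 0 := by simpa using hu0
  -- assemble: `σ β₀ / β₀ = g * (u * (σ u)⁻¹)`
  have hβu : β₀ = π / u := by
    rw [hu]
    field_simp
  have hkey : σ β₀ / β₀ = g * (u * (σ u)⁻¹) := by
    have h1 : σ β₀ = σ π / σ u := by
      conv_lhs => rw [hβu]
      rw [map_div₀]
    rw [h1, hσπ]
    conv_lhs => rw [hβu]
    field_simp
  rw [hkey]
  have hvc : A.valuation (c : Qb) ≤ 1 := by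
    exact_mod_cast val_intCast_le_one (A := A) (c : ℤ)
  have h2 : A.valuation (u * (σ u)⁻¹ - 1 * 1) < 1 :=
    val_mul_sub_mul_lt_one63 A hu1 (val_inv_sub_one_lt_one63 A hσu1) (by simp)
      (by rw [map_inv₀, val_eq_one_of_sub_one_lt63 A hσu1, inv_one])
  rw [mul_one] at h2
  have h3 := val_mul_sub_mul_lt_one63 A hgc h2 hvc
    (by rw [map_mul, map_inv₀, val_eq_one_of_sub_one_lt63 A hu1,
      val_eq_one_of_sub_one_lt63 A hσu1, inv_one, mul_one])
  rw [mul_one] at h3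
  exact h3

/-- Congruences modulo `𝔪_A` are compatible with powers. -/
theorem val_pow_sub_pow_lt_one63 {a b : Qb} (hab : A.valuation (a - b) < 1)
    (ha : A.valuation a ≤ 1) (hb : A.valuation b ≤ 1) (d : ℕ) :
    A.valuation (a ^ d - b ^ d) < 1 := by
  induction d with
  | zero => simp
  | succ d ih =>
    rw [pow_succ, pow_succ]
    exact val_mul_sub_mul_lt_one63 A ih hab (by rw [map_pow]; exact pow_le_one₀ zero_le hb) ha

/-- In `(ℤ/r)ˣ` (cyclic of order `r - 1 = n d`): `x ^ d = 1` iff `x` is an `n`-th power. -/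
theorem mem_powSubgroup_iff_pow_eq_one63 {n d : ℕ} (hnd : n * d = r - 1) (x : (ZMod r)ˣ) :
    x ∈ powSubgroup63 r n ↔ x ^ d = 1 := by
  have hr : r.Prime := Fact.out
  have hcard : Nat.card (ZMod r)ˣ = r - 1 := by
    rw [Nat.card_eq_fintype_card, ZMod.card_units]
  have hr1 : 0 < r - 1 := by have := hr.two_le; omega
  have hn0 : 0 < n := Nat.pos_of_ne_zero (by rintro rfl; omega)
  have hd0 : 0 < d := Nat.pos_of_ne_zero (by rintro rfl; omega)
  constructor
  · rintro ⟨b, rfl⟩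
    rw [powMonoidHom_apply, ← pow_mul, hnd, ← hcard]
    exact pow_card_eq_one'
  · intro hx
    -- compare cardinalities of `range (pow n) ≤ ker (pow d)`
    have hle : (powMonoidHom n : (ZMod r)ˣ →* (ZMod r)ˣ).range ≤
        (powMonoidHom d : (ZMod r)ˣ →* (ZMod r)ˣ).ker := by
      rintro _ ⟨b, rfl⟩
      rw [MonoidHom.mem_ker, powMonoidHom_apply, powMonoidHom_apply, ← pow_mul, hnd, ← hcard]
      exact pow_card_eq_one'
    have hc1 : Nat.card (powMonoidHom n : (ZMod r)ˣ →* (ZMod r)ˣ).range = d := by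
      rw [IsCyclic.card_powMonoidHom_range, hcard, ← hnd, Nat.gcd_eq_right (Dvd.intro _ rfl),
        Nat.mul_div_cancel_left _ hn0]
    have hc2 : Nat.card (powMonoidHom d : (ZMod r)ˣ →* (ZMod r)ˣ).ker = d := by
      rw [IsCyclic.card_powMonoidHom_ker, hcard, ← hnd, Nat.gcd_eq_right (Dvd.intro_left _ rfl)]
    have heq : (powMonoidHom n : (ZMod r)ˣ →* (ZMod r)ˣ).range =
        (powMonoidHom d : (ZMod r)ˣ →* (ZMod r)ˣ).ker :=
      Subgroup.eq_of_le_of_card_ge hle (by rw [hc1, hc2])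
    show x ∈ (powMonoidHom n : (ZMod r)ˣ →* (ZMod r)ˣ).range
    rw [heq, MonoidHom.mem_ker, powMonoidHom_apply, hx]

/-- **Tame structure of `L(r, n)` at `r`.** -/
theorem exists_tame_root63 (hA : A.LiesOverPrime r) (hr2 : r ≠ 2) {n : ℕ} (hn : n ∣ r - 1) :
    ∃ β : Qb, β ^ n = -(r : Qb) ∧
      (∀ σ ∈ A.decompositionSubgroup ℚ,
        A.valuation (σ β / β -
          ((((cycloChar r σ : (ZMod r)ˣ) : ZMod r).val : Qb)) ^ ((r - 1) / n)) < 1) ∧
      (∀ σ ∈ A.decompositionSubgroup ℚ,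
        σ β = β ↔ σ ∈ (auxField63 r n).fixingSubgroup) := by
  have hr : r.Prime := Fact.out
  haveI : NeZero r := ⟨hr.ne_zero⟩
  have hr1 : 0 < r - 1 := by have := hr.two_le; omega
  have hr0 : (r : Qb) ≠ 0 := Nat.cast_ne_zero.2 hr.ne_zero
  obtain ⟨d, hd⟩ := hn
  have hn0 : 0 < n := Nat.pos_of_ne_zero (by rintro rfl; omega)
  have hd0 : 0 < d := Nat.pos_of_ne_zero (by rintro rfl; omega)
  have hdiv : (r - 1) / n = d := by rw [hd, Nat.mul_div_cancel_left _ hn0]
  obtain ⟨β₀, hβ₀, hβ₀σ⟩ := exists_tame_generator63 r A hA hr2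
  have hβ₀0 : β₀ ≠ 0 := by
    rintro rfl
    rw [zero_pow hr1.ne'] at hβ₀
    exact neg_ne_zero.2 hr0 hβ₀.symm
  have hβn : (β₀ ^ d) ^ n = -(r : Qb) := by rw [← pow_mul, mul_comm, ← hd, hβ₀]
  have hβ0 : β₀ ^ d ≠ 0 := pow_ne_zero _ hβ₀0
  -- the congruence
  have hcong : ∀ σ ∈ A.decompositionSubgroup ℚ,
      A.valuation (σ (β₀ ^ d) / β₀ ^ d -
        ((((cycloChar r σ : (ZMod r)ˣ) : ZMod r).val : Qb)) ^ d) < 1 := by
    intro σ hσ
    have h1 : σ (β₀ ^ d) / β₀ ^ d = (σ β₀ / β₀) ^ d := by rw [map_pow, div_pow]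
    rw [h1]
    have hθ : (σ β₀ / β₀) ^ (r - 1) = 1 := by
      rw [div_pow, ← map_pow, hβ₀, map_neg, map_natCast, div_self (neg_ne_zero.2 hr0)]
    have hvθ : A.valuation (σ β₀ / β₀) ≤ 1 := by
      have : A.valuation (σ β₀ / β₀) ^ (r - 1) = 1 := by rw [← map_pow, hθ, map_one]
      exact ((pow_eq_one_iff_left hr1.ne').1 this).le
    have hvc : A.valuation ((((cycloChar r σ : (ZMod r)ˣ) : ZMod r).val : Qb)) ≤ 1 := by
      exact_mod_cast val_intCast_le_one (A := A)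
        ((((cycloChar r σ : (ZMod r)ˣ) : ZMod r).val : ℤ))
    exact val_pow_sub_pow_lt_one63 A (hβ₀σ σ hσ) hvθ hvc d
  refine ⟨β₀ ^ d, hβn, fun σ hσ => by rw [hdiv]; exact hcong σ hσ, fun σ hσ => ?_⟩
  rw [mem_fixingSubgroup_auxField63, mem_powSubgroup_iff_pow_eq_one63 r hd.symm]
  set c : ℕ := ((cycloChar r σ : (ZMod r)ˣ) : ZMod r).val with hc
  -- `x ^ d = 1` in `(ZMod r)ˣ` iff `r ∣ c ^ d - 1`
  have hiff : (cycloChar r σ) ^ d = 1 ↔ (r : ℤ) ∣ ((c : ℤ) ^ d - 1) := by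
    rw [← Units.val_inj, Units.val_pow_eq_pow_val, Units.val_one,
      ← ZMod.natCast_zmod_val ((cycloChar r σ : (ZMod r)ˣ) : ZMod r), ← hc]
    rw [← ZMod.intCast_zmod_eq_zero_iff_dvd]
    push_cast
    rw [sub_eq_zero]
  rw [hiff]
  have hθn : (σ (β₀ ^ d) / β₀ ^ d) ^ n = 1 := by
    rw [div_pow, ← map_pow, hβn, map_neg, map_natCast, div_self (neg_ne_zero.2 hr0)]
  have hvn : A.valuation (n : Qb) = 1 := by
    have hndvd : ¬ (r : ℤ) ∣ (n : ℤ) := by
      intro h
      have h1 : r ∣ n := by exact_mod_cast h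
      have h2 : r ∣ r - 1 := h1.trans ⟨d, hd⟩
      have := Nat.le_of_dvd hr1 h2
      omega
    exact_mod_cast Fermat.Agent.S14.H894.valuation_intCast_eq_one A r hr hA (n : ℤ) hndvd
  constructor
  · intro hfix
    have h1 := hcong σ hσ
    rw [hfix, div_self hβ0] at h1
    have h2 : A.valuation (((c : ℤ) ^ d - 1 : ℤ) : Qb) < 1 := by
      push_cast
      rw [← Valuation.map_neg]
      have : -((c : Qb) ^ d - 1) = 1 - (c : Qb) ^ d := by ring
      rw [this]
      exact h1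
    exact Fermat.Agent.S54.dvd_of_intCast_mem_nonunits A r hr hA _
      ((A.mem_nonunits_iff).2 h2)
  · intro hdvd
    have h2 : A.valuation ((c : Qb) ^ d - 1) < 1 := by
      have := Fermat.Agent.S14.H894.valuation_intCast_lt_one_of_dvd A r hA _ hdvd
      push_cast at this
      exact this
    have h3 : A.valuation (σ (β₀ ^ d) / β₀ ^ d - 1) < 1 := by
      have h4 : σ (β₀ ^ d) / β₀ ^ d - 1 =
          (σ (β₀ ^ d) / β₀ ^ d - (c : Qb) ^ d) + ((c : Qb) ^ d - 1) := by ring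
      rw [h4]
      exact (A.valuation.map_add _ _).trans_lt (max_lt (hcong σ hσ) h2)
    by_contra hne
    have hne' : σ (β₀ ^ d) / β₀ ^ d ≠ 1 := by
      intro h
      exact hne ((div_eq_one_iff_eq hβ0).1 h)
    have h5 := val_sub_roots_eq_one (A := A) hn0.ne' hvn hθn (one_pow n) hne'
    rw [h5] at h3
    exact lt_irrefl _ h3

end tame

end Fermat.Agent.S55.G.Rec
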