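import Fermat.Agent.S55.G.Rec.H721Cyc

/-!
# S55 / G / REC — leaf N4 (helper721), part 2: the auxiliary cyclic field `L(r, n) ⊂ ℚ(ζ_r)`

For a prime `r` and `n : ℕ` (in applications `n = p ^ k ∣ r - 1`):

* `cycChar r : GQ →* (ZMod r)ˣ`, the mod `r` cyclotomic character (`σ ζ = ζ ^ (cycChar r σ)`);
  surjective (`cycChar_surjective`);
* `auxSubgroup r n`, the open normal subgroup `{σ | cycChar r σ is an n-th power}`;
* `auxField r n : IntermediateField ℚ ℚ̄`, its fixed field, with
  `auxField_fixingSubgroup`, finite-dimensional, Galois,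
  `auxGalEquiv : Gal(L/ℚ) ≃* (ZMod r)ˣ ⧸ (n-th powers)`, cyclic, of degree `n` if `n ∣ r - 1`;
* `auxField_isUnramifiedOutside`: `L(r,n)` is unramified outside `r` (Prelude definition);
* `cycChar_frobenius`: Frobenius elements at `ℓ ≠ r` have cyclotomic character `ℓ`.
-/

set_option autoImplicit false

namespace Fermat.Agent.S55.G.Rec.H721

open IntermediateField

instance instIsAlgebraicQb : Algebra.IsAlgebraic ℚ Qb := AlgebraicClosure.isAlgebraic ℚ

instance instIsAlgClosureQb : IsAlgClosure ℚ Qb := ⟨inferInstance, inferInstance⟩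

instance instNormalQb : Normal ℚ Qb := IsAlgClosure.normal ℚ Qb

instance instIsGaloisQb : IsGalois ℚ Qb := ⟨⟩

variable (r : ℕ) [hr : Fact r.Prime]

instance neZero_of_fact_prime : NeZero r := ⟨hr.out.ne_zero⟩

theorem exists_zetaR : ∃ ζ : Qb, IsPrimitiveRoot ζ r :=
  HasEnoughRootsOfUnity.exists_primitiveRoot Qb r

/-- A fixed primitive `r`-th root of unity in `ℚ̄`. -/
noncomputable def zetaR : Qb := (exists_zetaR r).choose

theorem zetaR_spec : IsPrimitiveRoot (zetaR r) r := (exists_zetaR r).choose_spec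

/-- The mod `r` cyclotomic character of `Gal(ℚ̄/ℚ)`. -/
noncomputable def cycChar : GQ →* (ZMod r)ˣ := (zetaR_spec r).autToPow ℚ

theorem cycChar_zetaR (σ : GQ) : σ (zetaR r) = zetaR r ^ ((cycChar r σ : (ZMod r)ˣ) : ZMod r).val :=
  ((zetaR_spec r).autToPow_spec ℚ σ).symm

/-- The defining property of the cyclotomic character on all `r`-th roots of unity. -/
theorem cycChar_spec (σ : GQ) {ζ : Qb} (hζ : ζ ^ r = 1) :
    σ ζ = ζ ^ ((cycChar r σ : (ZMod r)ˣ) : ZMod r).val := by
  obtain ⟨i, -, rfl⟩ := (zetaR_spec r).eq_pow_of_pow_eq_one hζ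
  rw [map_pow, cycChar_zetaR, ← pow_mul, ← pow_mul, mul_comm]


theorem cycChar_eq_one_iff (σ : GQ) : cycChar r σ = 1 ↔ σ (zetaR r) = zetaR r := by
  constructor
  · intro h
    have := cycChar_zetaR r σ
    rw [h] at this
    have h1 : ((1 : (ZMod r)ˣ) : ZMod r).val = 1 := by
      rw [Units.val_one]
      have : Fact (1 < r) := ⟨hr.out.one_lt⟩
      exact ZMod.val_one r
    rw [h1, pow_one] at this
    exact this
  · intro h
    have h2 : (cycChar r) σ = (cycChar r) 1 := by
      apply Units.ext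
      have e1 := cycChar_zetaR r σ
      have e2 := cycChar_zetaR r (1 : GQ)
      rw [h] at e1
      rw [AlgEquiv.one_apply] at e2
      have e3 : zetaR r ^ ((cycChar r σ : (ZMod r)ˣ) : ZMod r).val
          = zetaR r ^ ((cycChar r 1 : (ZMod r)ˣ) : ZMod r).val := by rw [← e1, ← e2]
      have := (zetaR_spec r).pow_inj (ZMod.val_lt _) (ZMod.val_lt _) e3
      exact ZMod.val_injective r this
    rw [h2, map_one]

/-- The mod `r` cyclotomic character is surjective (irreducibility of the cyclotomic polynomial). -/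
theorem cycChar_surjective : Function.Surjective (cycChar r) := by
  intro a
  have hprim : IsPrimitiveRoot (zetaR r ^ (a : ZMod r).val) r :=
    (zetaR_spec r).pow_of_coprime _ ((ZMod.val_coe_unit_coprime a))
  have hmin : minpoly ℚ (zetaR r) = minpoly ℚ (zetaR r ^ (a : ZMod r).val) := by
    rw [← Polynomial.cyclotomic_eq_minpoly_rat (zetaR_spec r) hr.out.pos,
      ← Polynomial.cyclotomic_eq_minpoly_rat hprim hr.out.pos]
  have halg : IsAlgebraic ℚ (zetaR r ^ (a : ZMod r).val) := Algebra.IsAlgebraic.isAlgebraic _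
  obtain ⟨σ, hσ⟩ := minpoly.exists_algEquiv_of_root (K := ℚ) (L := Qb) (x := zetaR r) halg
    (by rw [← hmin]; exact minpoly.aeval ℚ _)
  refine ⟨σ, ?_⟩
  apply Units.ext
  have e1 := cycChar_zetaR r σ
  rw [hσ] at e1
  have := (zetaR_spec r).pow_inj (ZMod.val_lt _) (ZMod.val_lt _) e1
  exact (ZMod.val_injective r this).symm


variable (n : ℕ)

/-- The subgroup of `n`-th powers in `(ZMod r)ˣ`. -/
def powSubgroup : Subgroup (ZMod r)ˣ := (powMonoidHom n : (ZMod r)ˣ →* (ZMod r)ˣ).range

theorem mem_powSubgroup_iff (a : (ZMod r)ˣ) : a ∈ powSubgroup r n ↔ ∃ b : (ZMod r)ˣ, b ^ n = a := by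
  simp [powSubgroup, MonoidHom.mem_range]

theorem index_powSubgroup : (powSubgroup r n).index = (r - 1).gcd n := by
  have : IsCyclic (ZMod r)ˣ := ZMod.isCyclic_units_prime hr.out
  rw [powSubgroup, IsCyclic.index_powMonoidHom_range, Nat.card_eq_fintype_card, ZMod.card_units_eq_totient,
    Nat.totient_prime hr.out]

theorem index_powSubgroup_of_dvd (hn : n ∣ r - 1) : (powSubgroup r n).index = n := by
  rw [index_powSubgroup, Nat.gcd_eq_right hn]

/-- The open normal subgroup `{σ | cycChar r σ is an n-th power}` of `Gal(ℚ̄/ℚ)`. -/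
noncomputable def auxSubgroup : Subgroup GQ := (powSubgroup r n).comap (cycChar r)

theorem mem_auxSubgroup_iff (σ : GQ) :
    σ ∈ auxSubgroup r n ↔ ∃ b : (ZMod r)ˣ, b ^ n = cycChar r σ := by
  rw [auxSubgroup, Subgroup.mem_comap, mem_powSubgroup_iff]

instance auxSubgroup_normal : (auxSubgroup r n).Normal :=
  Subgroup.Normal.comap inferInstance _

/-- The kernel of the cyclotomic character is the open subgroup fixing `ℚ(ζ_r)`. -/
theorem cycChar_ker : (cycChar r).ker = (ℚ⟮zetaR r⟯).fixingSubgroup := by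
  ext σ
  rw [MonoidHom.mem_ker, cycChar_eq_one_iff, IntermediateField.mem_fixingSubgroup_iff]
  constructor
  · intro h x hx
    have hle : ℚ⟮zetaR r⟯ ≤ IntermediateField.fixedField (Subgroup.zpowers σ) := by
      rw [IntermediateField.adjoin_simple_le_iff, IntermediateField.mem_fixedField_iff]
      intro τ hτ
      have hst : Subgroup.zpowers σ ≤ MulAction.stabilizer GQ (zetaR r) := by
        rw [Subgroup.zpowers_le]
        exact h
      exact hst hτ
    exact (IntermediateField.mem_fixedField_iff _ _).mp (hle hx) σ (Subgroup.mem_zpowers σ)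
  · intro h
    exact h _ (IntermediateField.mem_adjoin_simple_self ℚ _)

theorem finiteDimensional_adjoin_zetaR : FiniteDimensional ℚ ℚ⟮zetaR r⟯ :=
  IntermediateField.adjoin.finiteDimensional
    ((zetaR_spec r).isIntegral hr.out.pos).tower_top

theorem auxSubgroup_isOpen : IsOpen (auxSubgroup r n : Set GQ) := by
  have := finiteDimensional_adjoin_zetaR r
  have h1 : IsOpen ((ℚ⟮zetaR r⟯).fixingSubgroup : Set GQ) :=
    IntermediateField.fixingSubgroup_isOpen _
  have hle : (ℚ⟮zetaR r⟯).fixingSubgroup ≤ auxSubgroup r n := by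
    rw [← cycChar_ker]
    intro σ hσ
    rw [MonoidHom.mem_ker] at hσ
    rw [mem_auxSubgroup_iff]
    exact ⟨1, by rw [one_pow, hσ]⟩
  exact Subgroup.isOpen_mono hle h1

theorem auxSubgroup_isClosed : IsClosed (auxSubgroup r n : Set GQ) :=
  Subgroup.isClosed_of_isOpen _ (auxSubgroup_isOpen r n)

/-- The auxiliary field `L(r, n)`: the fixed field of `auxSubgroup r n`, i.e. the subfield of
`ℚ(ζ_r)` corresponding to the subgroup of `n`-th powers of `(ℤ/r)ˣ`. -/
noncomputable def auxField : IntermediateField ℚ Qb :=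
  IntermediateField.fixedField (auxSubgroup r n)

theorem auxField_fixingSubgroup : (auxField r n).fixingSubgroup = auxSubgroup r n :=
  InfiniteGalois.fixingSubgroup_fixedField
    (⟨auxSubgroup r n, auxSubgroup_isClosed r n⟩ : ClosedSubgroup GQ)

/-- `σ` fixes `L(r, n)` pointwise iff its cyclotomic character is an `n`-th power. -/
theorem forall_mem_auxField_iff (σ : GQ) :
    (∀ x ∈ auxField r n, σ x = x) ↔ ∃ b : (ZMod r)ˣ, b ^ n = cycChar r σ := by
  rw [← mem_auxSubgroup_iff, ← auxField_fixingSubgroup, IntermediateField.mem_fixingSubgroup_iff]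

instance auxField_finiteDimensional : FiniteDimensional ℚ (auxField r n) := by
  rw [← InfiniteGalois.isOpen_iff_finite]
  have := auxSubgroup_isOpen r n
  rwa [← auxField_fixingSubgroup] at this

instance auxField_isGalois : IsGalois ℚ (auxField r n) := by
  have h : (auxField r n).fixingSubgroup.Normal := by
    rw [auxField_fixingSubgroup]
    infer_instance
  have h2 := (InfiniteGalois.normal_iff_isGalois (auxField r n)).mp h
  convert h2
  exact Subsingleton.elim _ _

theorem fixingSubgroup_adjoin_le : (ℚ⟮zetaR r⟯).fixingSubgroup ≤ auxSubgroup r n := by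
  rw [← cycChar_ker]
  intro σ hσ
  rw [MonoidHom.mem_ker] at hσ
  rw [mem_auxSubgroup_iff]
  exact ⟨1, by rw [one_pow, hσ]⟩

/-- `L(r, n) ⊂ ℚ(ζ_r)`. -/
theorem auxField_le_adjoin : auxField r n ≤ ℚ⟮zetaR r⟯ := by
  rw [← InfiniteGalois.fixedField_fixingSubgroup (ℚ⟮zetaR r⟯), auxField]
  exact IntermediateField.fixedField_antitone (fixingSubgroup_adjoin_le r n)


/-- Restriction `Gal(ℚ̄/ℚ) → Gal(L(r,n)/ℚ)`. -/
noncomputable def auxRestrict : GQ →* ((auxField r n) ≃ₐ[ℚ] (auxField r n)) :=
  AlgEquiv.restrictNormalHom (auxField r n)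

theorem auxRestrict_apply (σ : GQ) (x : auxField r n) :
    ((auxRestrict r n σ x : auxField r n) : Qb) = σ (x : Qb) :=
  AlgEquiv.restrictNormal_commutes σ (auxField r n) x

theorem auxRestrict_surjective : Function.Surjective (auxRestrict r n) :=
  AlgEquiv.restrictNormalHom_surjective Qb

theorem auxRestrict_ker : (auxRestrict r n).ker = auxSubgroup r n := by
  rw [← auxField_fixingSubgroup]
  ext σ
  rw [MonoidHom.mem_ker, IntermediateField.mem_fixingSubgroup_iff]
  constructor
  · intro h x hx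
    have := auxRestrict_apply r n σ ⟨x, hx⟩
    rw [h] at this
    exact this.symm
  · intro h
    ext x
    rw [auxRestrict_apply]
    exact h x x.2

/-- The character `Gal(ℚ̄/ℚ) → (ℤ/r)ˣ / (n-th powers)`. -/
noncomputable def auxQuotChar : GQ →* (ZMod r)ˣ ⧸ powSubgroup r n :=
  (QuotientGroup.mk' (powSubgroup r n)).comp (cycChar r)

theorem auxQuotChar_surjective : Function.Surjective (auxQuotChar r n) :=
  (QuotientGroup.mk'_surjective _).comp (cycChar_surjective r)

theorem auxQuotChar_ker : (auxQuotChar r n).ker = auxSubgroup r n := by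
  ext σ
  rw [MonoidHom.mem_ker, auxQuotChar, MonoidHom.comp_apply, QuotientGroup.mk'_apply,
    QuotientGroup.eq_one_iff]
  rfl

/-- `Gal(L(r,n)/ℚ) ≃* (ℤ/r)ˣ / (n-th powers)`, compatible with the cyclotomic character. -/
noncomputable def auxGalEquiv :
    ((auxField r n) ≃ₐ[ℚ] (auxField r n)) ≃* (ZMod r)ˣ ⧸ powSubgroup r n :=
  ((QuotientGroup.quotientKerEquivOfSurjective (auxRestrict r n)
      (auxRestrict_surjective r n)).symm.trans
    (QuotientGroup.quotientMulEquivOfEq
      ((auxRestrict_ker r n).trans (auxQuotChar_ker r n).symm))).trans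
    (QuotientGroup.quotientKerEquivOfSurjective (auxQuotChar r n) (auxQuotChar_surjective r n))

theorem auxGalEquiv_restrict (σ : GQ) :
    auxGalEquiv r n (auxRestrict r n σ) = QuotientGroup.mk (cycChar r σ) := by
  have h1 : (QuotientGroup.quotientKerEquivOfSurjective (auxRestrict r n)
      (auxRestrict_surjective r n)).symm (auxRestrict r n σ) = QuotientGroup.mk σ := by
    rw [MulEquiv.symm_apply_eq]
    rfl
  simp only [auxGalEquiv, MulEquiv.trans_apply, h1]
  rfl

instance auxGal_isCyclic : IsCyclic ((auxField r n) ≃ₐ[ℚ] (auxField r n)) := by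
  have : IsCyclic (ZMod r)ˣ := ZMod.isCyclic_units_prime hr.out
  have : IsCyclic ((ZMod r)ˣ ⧸ powSubgroup r n) :=
    isCyclic_of_surjective (QuotientGroup.mk' (powSubgroup r n)) (QuotientGroup.mk'_surjective _)
  exact isCyclic_of_surjective (auxGalEquiv r n).symm (auxGalEquiv r n).symm.surjective

theorem card_auxGal : Nat.card ((auxField r n) ≃ₐ[ℚ] (auxField r n)) = (r - 1).gcd n := by
  rw [Nat.card_congr (auxGalEquiv r n).toEquiv, ← index_powSubgroup r n]
  rfl

theorem finrank_auxField : Module.finrank ℚ (auxField r n) = (r - 1).gcd n := by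
  rw [← card_auxGal r n, IsGalois.card_aut_eq_finrank]

theorem finrank_auxField_of_dvd (hn : n ∣ r - 1) : Module.finrank ℚ (auxField r n) = n := by
  rw [finrank_auxField, Nat.gcd_eq_right hn]


/-! ### Ramification and Frobenius elements -/

variable {r}

/-- Inertia at a place over `q ≠ r` lies in the kernel of the mod `r` cyclotomic character. -/
theorem cycChar_inertia {q : ℕ} (hq : q.Prime) (hqr : q ≠ r) {A : ValuationSubring Qb}
    (hA : A.LiesOverPrime q) {σ : GQ} (hσ : σ ∈ A.inertiaSubgroupIn ℚ) : cycChar r σ = 1 := by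
  rw [cycChar_eq_one_iff]
  exact inertia_apply_root hA ((Nat.coprime_primes hq hr.out).mpr hqr) hσ (zetaR_spec r).pow_eq_one

/-- If `τ` lies in the decomposition group at a place over `q ≠ r` and acts on the residue field
as `x ↦ x ^ N`, then its mod `r` cyclotomic character is `N`. -/
theorem cycChar_decomp {q N : ℕ} (hq : q.Prime) (hqr : q ≠ r) {A : ValuationSubring Qb}
    (hA : A.LiesOverPrime q) {τ : GQ} (hτ : τ ∈ A.decompositionSubgroup ℚ)
    (hN : ∀ x : IsLocalRing.ResidueField A,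
      (⟨τ, hτ⟩ : A.decompositionSubgroup ℚ) • x = x ^ N) :
    ((cycChar r τ : (ZMod r)ˣ) : ZMod r) = (N : ZMod r) := by
  have h1 := decomp_apply_root hA ((Nat.coprime_primes hq hr.out).mpr hqr) hτ hN
    (zetaR_spec r).pow_eq_one
  rw [cycChar_zetaR] at h1
  set a : ℕ := ((cycChar r τ : (ZMod r)ˣ) : ZMod r).val with ha
  have h2 : zetaR r ^ (a + (r - 1) * N) = 1 := by
    rw [pow_add, h1, ← pow_add]
    have : N + (r - 1) * N = r * N := by
      have hr1 : 1 ≤ r := hr.out.one_le
      zify [hr1]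
      ring
    rw [this, pow_mul, (zetaR_spec r).pow_eq_one, one_pow]
  have h3 : r ∣ a + (r - 1) * N := (zetaR_spec r).dvd_of_pow_eq_one _ h2
  have h4 : ((a + (r - 1) * N : ℕ) : ZMod r) = 0 := (ZMod.natCast_eq_zero_iff _ _).mpr h3
  have h5 : ((r - 1 : ℕ) : ZMod r) = -1 := by
    have hr1 : 1 ≤ r := hr.out.one_le
    rw [Nat.cast_sub hr1, ZMod.natCast_self, Nat.cast_one, zero_sub]
  rw [Nat.cast_add, Nat.cast_mul, h5, ha, ZMod.natCast_zmod_val] at h4
  linear_combination h4

/-- **Frobenius in `ℚ(ζ_r)`**: a Frobenius element at `ℓ ≠ r` has cyclotomic character `ℓ`. -/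
theorem cycChar_frobenius {ℓ : ℕ} (hℓ : ℓ.Prime) (hℓr : ℓ ≠ r) {A : ValuationSubring Qb}
    (hA : A.LiesOverPrime ℓ) {τ : GQ} (hτ : A.IsFrobeniusAt τ ℓ) :
    ((cycChar r τ : (ZMod r)ˣ) : ZMod r) = (ℓ : ZMod r) :=
  cycChar_decomp hℓ hℓr hA hτ.mem_decompositionSubgroup hτ.smul_residue_eq

variable (r)

/-- `L(r, n)` is unramified outside `r` (in the sense of the Prelude). -/
theorem auxField_isUnramifiedOutside :
    (auxField r n).IsUnramifiedOutside {(⟨r, hr.out⟩ : Nat.Primes)} := by
  refine ⟨inferInstance, fun q hq A hA σ hσ => ?_⟩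
  have hqr : (q : ℕ) ≠ r := fun h => hq (Finset.mem_singleton.mpr (Subtype.ext h))
  rw [auxField_fixingSubgroup, mem_auxSubgroup_iff]
  exact ⟨1, by rw [one_pow, cycChar_inertia q.2 hqr hA hσ]⟩

/-- The image in `Gal(L(r,n)/ℚ) ≃ (ℤ/r)ˣ/(n-th powers)` of a Frobenius element at `ℓ ≠ r` is the
class of `ℓ`. -/
theorem auxGalEquiv_frobenius {ℓ : ℕ} (hℓ : ℓ.Prime) (hℓr : ℓ ≠ r) {A : ValuationSubring Qb}
    (hA : A.LiesOverPrime ℓ) {τ : GQ} (hτ : A.IsFrobeniusAt τ ℓ) (u : (ZMod r)ˣ)
    (hu : (u : ZMod r) = (ℓ : ZMod r)) :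
    auxGalEquiv r n (auxRestrict r n τ) = QuotientGroup.mk u := by
  rw [auxGalEquiv_restrict]
  congr 1
  exact Units.ext ((cycChar_frobenius hℓ hℓr hA hτ).trans hu.symm)

end Fermat.Agent.S55.G.Rec.H721
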