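import Fermat.Agent.S55.G.Rec.H721Local

/-!
# S55 / G / REC — leaf N4 (helper721), part 4: the tame extension `ℚ_r((-r)^(1/n))`

* `irreducible_X_pow_add_r`: `X ^ n + r` is irreducible over `ℚ_r` (Eisenstein);
* `exists_algEquiv_tame`: if `α ^ n = -r` and `ξ ^ n = 1` in `Ω` then some `τ ∈ Gal(Ω/ℚ_r)` maps
  `α` to `ξ α`;
* `finrank_adjoin_tame`: `[ℚ_r(α) : ℚ_r] = n`.
-/

set_option autoImplicit false

namespace Fermat.Agent.S55.G.Rec.H721

open Polynomial

variable {r : ℕ} [hr : Fact r.Prime]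

theorem irreducible_X_pow_add_padicInt {n : ℕ} (hn : 0 < n) :
    Irreducible (X ^ n + C (r : ℤ_[r]) : ℤ_[r][X]) := by
  have hprime : Prime (r : ℤ_[r]) := PadicInt.prime_p
  have hP : (Ideal.span {(r : ℤ_[r])}).IsPrime :=
    (Ideal.span_singleton_prime hprime.ne_zero).mpr hprime
  have hmonic : (X ^ n + C (r : ℤ_[r]) : ℤ_[r][X]).Monic := monic_X_pow_add_C _ hn.ne'
  have hdeg : (X ^ n + C (r : ℤ_[r]) : ℤ_[r][X]).natDegree = n := natDegree_X_pow_add_C
  have hE : (X ^ n + C (r : ℤ_[r]) : ℤ_[r][X]).IsEisensteinAt (Ideal.span {(r : ℤ_[r])}) := by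
    refine hmonic.isEisensteinAt_of_mem_of_notMem hP.ne_top (fun {k} hk => ?_) ?_
    · rw [hdeg] at hk
      rw [coeff_add, coeff_X_pow, if_neg hk.ne, zero_add, coeff_C]
      split_ifs
      · exact Ideal.mem_span_singleton_self _
      · exact Ideal.zero_mem _
    · rw [coeff_add, coeff_X_pow, if_neg hn.ne, zero_add, coeff_C_zero, Ideal.span_singleton_pow,
        Ideal.mem_span_singleton]
      intro h
      have h2 : (r : ℤ_[r]) * (r : ℤ_[r]) ∣ (r : ℤ_[r]) * 1 := by simpa [pow_two] using h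
      have h3 := (mul_dvd_mul_iff_left hprime.ne_zero).mp h2
      exact hprime.not_isUnit (isUnit_of_dvd_one h3)
  exact hE.irreducible hP hmonic.isPrimitive (by rw [hdeg]; exact hn)

/-- `X ^ n + r` is irreducible over `ℚ_r` (Eisenstein's criterion). -/
theorem irreducible_X_pow_add_r {n : ℕ} (hn : 0 < n) :
    Irreducible (X ^ n + C (r : ℚ_[r]) : ℚ_[r][X]) := by
  have hmonic : (X ^ n + C (r : ℤ_[r]) : ℤ_[r][X]).Monic := monic_X_pow_add_C _ hn.ne'
  have h := (Polynomial.Monic.irreducible_iff_irreducible_map_fraction_map (K := ℚ_[r])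
    hmonic).mp (irreducible_X_pow_add_padicInt hn)
  simpa using h


instance instNormalOm : Normal ℚ_[r] (Om r) := IsAlgClosure.normal ℚ_[r] (Om r)

instance instIsGaloisOm : IsGalois ℚ_[r] (Om r) := ⟨⟩

theorem minpoly_tame {n : ℕ} (hn : 0 < n) {α : Om r} (hα : α ^ n = -(r : Om r)) :
    minpoly ℚ_[r] α = X ^ n + C (r : ℚ_[r]) := by
  symm
  refine minpoly.eq_of_irreducible_of_monic (irreducible_X_pow_add_r hn) ?_
    (monic_X_pow_add_C _ hn.ne')
  simp [hα]

/-- All `n`-th roots of `-r` are conjugate over `ℚ_r`. -/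
theorem exists_algEquiv_tame {n : ℕ} (hn : 0 < n) {α ξ : Om r} (hα : α ^ n = -(r : Om r))
    (hξ : ξ ^ n = 1) : ∃ τ : Om r ≃ₐ[ℚ_[r]] Om r, τ α = ξ * α := by
  have hα' : (ξ * α) ^ n = -(r : Om r) := by rw [mul_pow, hξ, one_mul, hα]
  have halg : IsAlgebraic ℚ_[r] (ξ * α) := Algebra.IsAlgebraic.isAlgebraic _
  refine minpoly.exists_algEquiv_of_root (K := ℚ_[r]) (L := Om r) (x := α) halg ?_
  rw [minpoly_tame hn hα']
  simp [hα]

theorem finrank_adjoin_tame {n : ℕ} (hn : 0 < n) {α : Om r} (hα : α ^ n = -(r : Om r)) :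
    Module.finrank ℚ_[r] (IntermediateField.adjoin ℚ_[r] {α}) = n := by
  rw [IntermediateField.adjoin.finrank (Algebra.IsIntegral.isIntegral α), minpoly_tame hn hα,
    natDegree_X_pow_add_C]

end Fermat.Agent.S55.G.Rec.H721
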