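import Fermat.Agent.S55.G.Rec.H721Field
import Fermat.Agent.S55.G.Rec.H721Tame

/-!
# S55 / G / REC — leaf N4 (helper721), part 5: `L(r, n)` at the prime `r`

Notation: `Ω = PadicAlgCl r`, `ι = padicEmbedding r : ℚ̄ → Ω`,
`loc = localGaloisToGlobal r : Gal(Ω/ℚ_r) → Gal(ℚ̄/ℚ)` (Prelude).

* `teich r : (ZMod r)ˣ →* ℚ_[r]ˣ`, the Teichmüller character (injective, `‖teich c - c‖ < 1`);
* `locChar r = cycChar r ∘ loc`, the local cyclotomic character; `locChar_surjective`;
* `tameUnif r : Ω` with `tameUnif r ^ (r - 1) = - r` and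
  `tameUnif_action : τ (tameUnif r) = teich (locChar τ) * tameUnif r`;
* `tameGen r n = tameUnif r ^ ((r - 1) / n)`: `tameGen ^ n = - r` (if `n ∣ r - 1`),
  `τ (tameGen r n) = teich (locChar τ) ^ ((r-1)/n) * tameGen r n`;
* `tameGen_fixed_iff`: `τ` fixes `tameGen r n` iff `loc τ` fixes `L(r, n)` pointwise;
* `adjoin_tameGen_eq`: `ℚ_r(tameGen r n) = ℚ_r · ι(L(r, n))`, of degree `n` over `ℚ_r`
  (`L(r,n)` is totally ramified at `r`, generated by an `n`-th root of the uniformizer `-r`).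
-/

set_option autoImplicit false

namespace Fermat.Agent.S55.G.Rec.H721

open Polynomial

variable (r : ℕ) [hr : Fact r.Prime]

/-! ### The Teichmüller character -/

theorem not_dvd_val_unit (c : (ZMod r)ˣ) : ¬ r ∣ (c : ZMod r).val := by
  intro h
  have : ((c : ZMod r).val : ZMod r) = 0 := (ZMod.natCast_eq_zero_iff _ _).mpr h
  rw [ZMod.natCast_zmod_val] at this
  exact c.ne_zero this

theorem exists_teich (c : (ZMod r)ˣ) :
    ∃ η : ℚ_[r], η ^ (r - 1) = 1 ∧ ‖η - ((c : ZMod r).val : ℚ_[r])‖ < 1 := by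
  obtain ⟨z, hz1, hz2⟩ := exists_teich_padicInt (not_dvd_val_unit r c)
  refine ⟨(z : ℚ_[r]), by exact_mod_cast congrArg (fun x : ℤ_[r] => (x : ℚ_[r])) hz1, ?_⟩
  have : ((z - ((c : ZMod r).val : ℤ_[r]) : ℤ_[r]) : ℚ_[r]) = (z : ℚ_[r]) - ((c : ZMod r).val : ℚ_[r]) := by
    push_cast
    rfl
  rw [← this]
  exact hz2


variable {r}

theorem norm_algebraMap_Om (x : ℚ_[r]) : ‖algebraMap ℚ_[r] (Om r) x‖ = ‖x‖ :=
  PadicAlgCl.norm_extends r x

theorem not_dvd_pred : ¬ r ∣ r - 1 := fun h => by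
  have h2 := hr.out.two_le
  have := Nat.le_of_dvd (by omega) h
  omega

/-- Two `(r-1)`-th roots of unity of `ℚ_r` which are congruent modulo `r` are equal. -/
theorem teich_unique {η η' : ℚ_[r]} (h : η ^ (r - 1) = 1) (h' : η' ^ (r - 1) = 1)
    (hn : ‖η - η'‖ < 1) : η = η' := by
  apply (algebraMap ℚ_[r] (Om r)).injective
  refine root_eq_of_norm_sub_lt_one not_dvd_pred (by rw [← map_pow, h, map_one])
    (by rw [← map_pow, h', map_one]) ?_
  rw [← map_sub, norm_algebraMap_Om]
  exact hn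

variable (r)

/-- The Teichmüller lift of `c ∈ (ℤ/r)ˣ`, as an element of `ℚ_r`. -/
noncomputable def teichFun (c : (ZMod r)ˣ) : ℚ_[r] := (exists_teich r c).choose

theorem teichFun_pow (c : (ZMod r)ˣ) : teichFun r c ^ (r - 1) = 1 :=
  (exists_teich r c).choose_spec.1

theorem teichFun_norm_sub (c : (ZMod r)ˣ) :
    ‖teichFun r c - ((c : ZMod r).val : ℚ_[r])‖ < 1 :=
  (exists_teich r c).choose_spec.2

theorem teichFun_norm_sub_Om (c : (ZMod r)ˣ) :
    ‖algebraMap ℚ_[r] (Om r) (teichFun r c) - ((c : ZMod r).val : Om r)‖ < 1 := by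
  have := teichFun_norm_sub r c
  rwa [← norm_algebraMap_Om, map_sub, map_natCast] at this

theorem teichFun_ne_zero (c : (ZMod r)ˣ) : teichFun r c ≠ 0 := by
  intro h
  have := teichFun_pow r c
  rw [h, zero_pow (by have := hr.out.two_le; omega)] at this
  exact zero_ne_one this

/-- Characterisation of the Teichmüller lift. -/
theorem teichFun_eq_of {c : (ZMod r)ˣ} {η : ℚ_[r]} {m : ℕ} (hη : η ^ (r - 1) = 1)
    (hm : (m : ZMod r) = (c : ZMod r)) (h : ‖algebraMap ℚ_[r] (Om r) η - (m : Om r)‖ < 1) :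
    η = teichFun r c := by
  refine teich_unique hη (teichFun_pow r c) ?_
  rw [← norm_algebraMap_Om, map_sub]
  have h1 : ‖((m : ℤ) - ((c : ZMod r).val : ℤ) : Om r)‖ < 1 := by
    have hdvd : (r : ℤ) ∣ (m : ℤ) - ((c : ZMod r).val : ℤ) := by
      apply (ZMod.intCast_zmod_eq_zero_iff_dvd _ r).mp
      push_cast
      rw [hm, ZMod.natCast_zmod_val, sub_self]
    have h2 : ‖(((m : ℤ) - ((c : ZMod r).val : ℤ) : ℤ) : Om r)‖ < 1 := by
      rw [norm_intCast_Om]
      exact Padic.norm_intCast_lt_one_iff.mpr hdvd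
    simpa using h2
  have h3 : algebraMap ℚ_[r] (Om r) η - algebraMap ℚ_[r] (Om r) (teichFun r c)
      = (algebraMap ℚ_[r] (Om r) η - (m : Om r)) + (((m : ℤ) - ((c : ZMod r).val : ℤ) : Om r))
        - (algebraMap ℚ_[r] (Om r) (teichFun r c) - ((c : ZMod r).val : Om r)) := by
    push_cast
    ring
  rw [h3]
  exact norm_sub_lt_of_lt (norm_add_lt_of_lt h h1) (teichFun_norm_sub_Om r c)

theorem teichFun_one : teichFun r 1 = 1 := by
  symm
  refine teichFun_eq_of r (m := 1) (one_pow _) (by simp) ?_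
  simp

theorem teichFun_mul (c d : (ZMod r)ˣ) : teichFun r (c * d) = teichFun r c * teichFun r d := by
  symm
  refine teichFun_eq_of r (m := (c : ZMod r).val * (d : ZMod r).val)
    (by rw [mul_pow, teichFun_pow, teichFun_pow, one_mul]) (by simp) ?_
  have h3 : algebraMap ℚ_[r] (Om r) (teichFun r c * teichFun r d)
      - (((c : ZMod r).val * (d : ZMod r).val : ℕ) : Om r)
      = (algebraMap ℚ_[r] (Om r) (teichFun r c) - ((c : ZMod r).val : Om r))
          * algebraMap ℚ_[r] (Om r) (teichFun r d)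
        + ((c : ZMod r).val : Om r)
          * (algebraMap ℚ_[r] (Om r) (teichFun r d) - ((d : ZMod r).val : Om r)) := by
    rw [map_mul, Nat.cast_mul]
    ring
  rw [h3]
  have hd1 : ‖algebraMap ℚ_[r] (Om r) (teichFun r d)‖ = 1 :=
    norm_root_eq_one (m := r - 1) (by have := hr.out.two_le; omega)
      (by rw [← map_pow, teichFun_pow, map_one])
  refine norm_add_lt_of_lt ?_ ?_
  · rw [norm_mul, hd1, mul_one]
    exact teichFun_norm_sub_Om r c
  · rw [norm_mul]
    calc ‖((c : ZMod r).val : Om r)‖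
          * ‖algebraMap ℚ_[r] (Om r) (teichFun r d) - ((d : ZMod r).val : Om r)‖
        ≤ 1 * ‖algebraMap ℚ_[r] (Om r) (teichFun r d) - ((d : ZMod r).val : Om r)‖ :=
          mul_le_mul_of_nonneg_right (norm_natCast_le_one _) (norm_nonneg _)
      _ < 1 := by rw [one_mul]; exact teichFun_norm_sub_Om r d

/-- The Teichmüller character `(ℤ/r)ˣ → ℚ_rˣ`. -/
noncomputable def teich : (ZMod r)ˣ →* ℚ_[r]ˣ where
  toFun c := Units.mk0 (teichFun r c) (teichFun_ne_zero r c)
  map_one' := Units.ext (teichFun_one r)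
  map_mul' c d := Units.ext (teichFun_mul r c d)

@[simp] theorem teich_coe (c : (ZMod r)ˣ) : ((teich r c : ℚ_[r]ˣ) : ℚ_[r]) = teichFun r c := rfl

theorem teich_injective : Function.Injective (teich r) := by
  rw [injective_iff_map_eq_one]
  intro c hc
  have h1 : teichFun r c = 1 := by
    have := congrArg (fun u : ℚ_[r]ˣ => (u : ℚ_[r])) hc
    simpa using this
  have h2 := teichFun_norm_sub r c
  rw [h1] at h2
  -- `r ∣ 1 - c.val`
  have h3 : ‖((1 - ((c : ZMod r).val : ℤ) : ℤ) : ℚ_[r])‖ < 1 := by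
    push_cast
    exact h2
  have h4 := Padic.norm_intCast_lt_one_iff.mp h3
  have h5 := (ZMod.intCast_zmod_eq_zero_iff_dvd _ r).mpr h4
  push_cast at h5
  rw [ZMod.natCast_zmod_val] at h5
  exact Units.ext (sub_eq_zero.mp h5).symm


/-! ### The local cyclotomic character and the tame uniformizer -/

/-- The image of `ζ_r` in `Ω`. -/
noncomputable def zetaLoc : Om r := padicEmbedding r (zetaR r)

theorem zetaLoc_spec : IsPrimitiveRoot (zetaLoc r) r :=
  (zetaR_spec r).map_of_injective (padicEmbedding r).toRingHom.injective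

/-- The local cyclotomic character at `r`: `cycChar r ∘ localGaloisToGlobal r`. -/
noncomputable def locChar : (Om r ≃ₐ[ℚ_[r]] Om r) →* (ZMod r)ˣ :=
  (cycChar r).comp (localGaloisToGlobal r)

theorem locChar_apply (τ : Om r ≃ₐ[ℚ_[r]] Om r) :
    locChar r τ = cycChar r (localGaloisToGlobal r τ) := rfl

theorem locChar_spec (τ : Om r ≃ₐ[ℚ_[r]] Om r) :
    τ (zetaLoc r) = zetaLoc r ^ ((locChar r τ : (ZMod r)ˣ) : ZMod r).val := by
  rw [zetaLoc, ← padicEmbedding_localGaloisToGlobal, cycChar_zetaR, map_pow]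
  rfl

theorem exists_tameUnif : ∃ ϖ : Om r, ϖ ^ (r - 1) = -(r : Om r) ∧
    ‖ϖ - (zetaLoc r - 1)‖ < ‖zetaLoc r - 1‖ :=
  exists_tame_uniformizer (zetaLoc_spec r)

/-- A fixed `(r-1)`-th root of `-r` in `ℚ_r(ζ_r)`, congruent to `ζ_r - 1`. -/
noncomputable def tameUnif : Om r := (exists_tameUnif r).choose

theorem tameUnif_pow : tameUnif r ^ (r - 1) = -(r : Om r) := (exists_tameUnif r).choose_spec.1

theorem tameUnif_norm_sub : ‖tameUnif r - (zetaLoc r - 1)‖ < ‖zetaLoc r - 1‖ :=
  (exists_tameUnif r).choose_spec.2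

theorem tameUnif_ne_zero : tameUnif r ≠ 0 :=
  tame_uniformizer_ne_zero (zetaLoc_spec r) (tameUnif_norm_sub r)

/-- **Galois action on the tame uniformizer**: `τ ϖ = teich(χ(τ)) ϖ`. -/
theorem tameUnif_action (τ : Om r ≃ₐ[ℚ_[r]] Om r) :
    τ (tameUnif r) = algebraMap ℚ_[r] (Om r) (teichFun r (locChar r τ)) * tameUnif r := by
  obtain ⟨η, hη1, hη2, hη3⟩ := tame_uniformizer_action (zetaLoc_spec r) (tameUnif_pow r)
    (tameUnif_norm_sub r) τ _ (locChar_spec r τ)
  rw [hη2, teichFun_eq_of r hη1 (ZMod.natCast_zmod_val _) hη3]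

/-- The local cyclotomic character at `r` is surjective (`ℚ_r(ζ_r)/ℚ_r` has degree `r - 1`). -/
theorem locChar_surjective : Function.Surjective (locChar r) := by
  intro c
  have hr1 : 0 < r - 1 := by have := hr.out.two_le; omega
  obtain ⟨τ, hτ⟩ := exists_algEquiv_tame hr1 (tameUnif_pow r)
    (ξ := algebraMap ℚ_[r] (Om r) (teichFun r c)) (by rw [← map_pow, teichFun_pow, map_one])
  refine ⟨τ, ?_⟩
  rw [tameUnif_action] at hτ
  have h1 := mul_right_cancel₀ (tameUnif_ne_zero r) hτ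
  have h2 := (algebraMap ℚ_[r] (Om r)).injective h1
  exact teich_injective r (Units.ext h2)

/-! ### The tame generator of `L(r, n)` at `r` -/

variable (n : ℕ)

/-- `α = ϖ ^ ((r - 1) / n)`, an `n`-th root of `-r` when `n ∣ r - 1`. -/
noncomputable def tameGen : Om r := tameUnif r ^ ((r - 1) / n)

theorem tameGen_pow (hn : n ∣ r - 1) : tameGen r n ^ n = -(r : Om r) := by
  rw [tameGen, ← pow_mul, Nat.div_mul_cancel hn, tameUnif_pow]

theorem tameGen_ne_zero : tameGen r n ≠ 0 := pow_ne_zero _ (tameUnif_ne_zero r)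

/-- **Galois action on the tame generator**: `τ α = teich(χ(τ))^((r-1)/n) α`. -/
theorem tameGen_action (τ : Om r ≃ₐ[ℚ_[r]] Om r) :
    τ (tameGen r n)
      = algebraMap ℚ_[r] (Om r) (teichFun r (locChar r τ) ^ ((r - 1) / n)) * tameGen r n := by
  rw [tameGen, map_pow, tameUnif_action, mul_pow, map_pow]

variable {r n}

/-- In the cyclic group `(ℤ/r)ˣ`: `c ^ ((r-1)/n) = 1` iff `c` is an `n`-th power. -/
theorem pow_div_eq_one_iff (hn : n ∣ r - 1) (c : (ZMod r)ˣ) :
    c ^ ((r - 1) / n) = 1 ↔ c ∈ powSubgroup r n := by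
  have hn0 : 0 < n := Nat.pos_of_dvd_of_pos hn (by have := hr.out.two_le; omega)
  have hcyc : IsCyclic (ZMod r)ˣ := ZMod.isCyclic_units_prime hr.out
  have hcard : Nat.card (ZMod r)ˣ = r - 1 := by
    rw [Nat.card_eq_fintype_card, ZMod.card_units_eq_totient, Nat.totient_prime hr.out]
  rw [mem_powSubgroup_iff]
  constructor
  · intro h
    obtain ⟨g, hg⟩ := IsCyclic.exists_generator (α := (ZMod r)ˣ)
    obtain ⟨k, rfl⟩ : ∃ k : ℕ, g ^ k = c := by
      have := hg c
      rw [Subgroup.mem_zpowers_iff] at this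
      obtain ⟨z, hz⟩ := this
      refine ⟨(z % (orderOf g : ℤ)).toNat, ?_⟩
      have hpos : (0 : ℤ) < orderOf g := by exact_mod_cast orderOf_pos g
      rw [← zpow_natCast, Int.toNat_of_nonneg (Int.emod_nonneg _ hpos.ne'), zpow_mod_orderOf, hz]
    have hord : orderOf g = r - 1 := by
      rw [orderOf_eq_card_of_forall_mem_zpowers hg, hcard]
    rw [← pow_mul] at h
    have h2 : r - 1 ∣ k * ((r - 1) / n) := by
      have := orderOf_dvd_of_pow_eq_one h
      rwa [hord] at this
    obtain ⟨m, hm⟩ := hn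
    have hm0 : 0 < m := by
      rcases Nat.eq_zero_or_pos m with h0 | h0
      · rw [h0, mul_zero] at hm
        have := hr.out.two_le
        omega
      · exact h0
    rw [hm, Nat.mul_div_cancel_left m hn0] at h2
    have h3 : n ∣ k := by
      have : n * m ∣ k * m := h2
      exact (Nat.mul_dvd_mul_iff_right hm0).mp this
    obtain ⟨j, rfl⟩ := h3
    exact ⟨g ^ j, by rw [← pow_mul, mul_comm]⟩
  · rintro ⟨b, rfl⟩
    rw [← pow_mul, Nat.mul_div_cancel' hn, ← hcard]
    exact pow_card_eq_one'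

theorem teichFun_pow_eq_one_iff (hn : n ∣ r - 1) (c : (ZMod r)ˣ) :
    teichFun r c ^ ((r - 1) / n) = 1 ↔ c ∈ powSubgroup r n := by
  rw [← pow_div_eq_one_iff hn]
  constructor
  · intro h
    apply teich_injective r
    rw [map_pow, map_one]
    exact Units.ext (by simpa using h)
  · intro h
    have := congrArg (fun u => ((teich r u : ℚ_[r]ˣ) : ℚ_[r])) h
    simpa using this

/-- `τ` fixes the tame generator iff `loc τ` acts trivially on `L(r, n)`. -/
theorem tameGen_fixed_iff (hn : n ∣ r - 1) (τ : Om r ≃ₐ[ℚ_[r]] Om r) :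
    τ (tameGen r n) = tameGen r n ↔ localGaloisToGlobal r τ ∈ (auxField r n).fixingSubgroup := by
  rw [auxField_fixingSubgroup, auxSubgroup, Subgroup.mem_comap, ← locChar_apply,
    ← teichFun_pow_eq_one_iff hn, tameGen_action]
  constructor
  · intro h
    have h1 : algebraMap ℚ_[r] (Om r) (teichFun r (locChar r τ) ^ ((r - 1) / n)) * tameGen r n
        = 1 * tameGen r n := by rw [h, one_mul]
    have h2 := mul_right_cancel₀ (tameGen_ne_zero r n) h1
    exact (algebraMap ℚ_[r] (Om r)).injective (by rw [h2, map_one])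
  · intro h
    rw [h, map_one, one_mul]

/-- `τ` fixes `ι(L(r, n))` pointwise iff it fixes the tame generator. -/
theorem forall_padicEmbedding_fixed_iff (hn : n ∣ r - 1) (τ : Om r ≃ₐ[ℚ_[r]] Om r) :
    (∀ x ∈ auxField r n, τ (padicEmbedding r x) = padicEmbedding r x)
      ↔ τ (tameGen r n) = tameGen r n := by
  rw [tameGen_fixed_iff hn, IntermediateField.mem_fixingSubgroup_iff]
  constructor
  · intro h x hx
    apply (padicEmbedding r).toRingHom.injective
    change padicEmbedding r (localGaloisToGlobal r τ x) = padicEmbedding r x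
    rw [padicEmbedding_localGaloisToGlobal]
    exact h x hx
  · intro h x hx
    rw [← padicEmbedding_localGaloisToGlobal, h x hx]


/-- **`L(r, n)` at `r`**: the field generated over `ℚ_r` by (the image of) `L(r, n)` is
`ℚ_r(α)`, `α ^ n = -r`. -/
theorem adjoin_tameGen_eq (hn : n ∣ r - 1) :
    IntermediateField.adjoin ℚ_[r] {tameGen r n}
      = IntermediateField.adjoin ℚ_[r] ((padicEmbedding r) '' (auxField r n : Set Qb)) := by
  apply le_antisymm
  · rw [← InfiniteGalois.fixedField_fixingSubgroup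
      (IntermediateField.adjoin ℚ_[r] ((padicEmbedding r) '' (auxField r n : Set Qb))),
      IntermediateField.adjoin_simple_le_iff, IntermediateField.mem_fixedField_iff]
    intro τ hτ
    rw [← forall_padicEmbedding_fixed_iff hn]
    intro x hx
    exact (IntermediateField.mem_fixingSubgroup_iff _ _).mp hτ _
      (IntermediateField.subset_adjoin _ _ ⟨x, hx, rfl⟩)
  · rw [← InfiniteGalois.fixedField_fixingSubgroup (IntermediateField.adjoin ℚ_[r] {tameGen r n}),
      IntermediateField.adjoin_le_iff]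
    rintro _ ⟨x, hx, rfl⟩
    rw [SetLike.mem_coe, IntermediateField.mem_fixedField_iff]
    intro τ hτ
    have h1 : τ (tameGen r n) = tameGen r n :=
      (IntermediateField.mem_fixingSubgroup_iff _ _).mp hτ _
        (IntermediateField.mem_adjoin_simple_self _ _)
    exact (forall_padicEmbedding_fixed_iff hn τ).mpr h1 x hx

/-- `[ℚ_r · L(r,n) : ℚ_r] = n`: the prime `r` is totally ramified in `L(r, n)`. -/
theorem finrank_adjoin_padicEmbedding (hn : n ∣ r - 1) :
    Module.finrank ℚ_[r]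
      (IntermediateField.adjoin ℚ_[r] ((padicEmbedding r) '' (auxField r n : Set Qb))) = n := by
  have hn0 : 0 < n := Nat.pos_of_dvd_of_pos hn (by have := hr.out.two_le; omega)
  rw [← adjoin_tameGen_eq hn]
  exact finrank_adjoin_tame hn0 (tameGen_pow r n hn)

/-- The tame generator is a uniformizer: `‖α‖ ^ n = 1 / r`. -/
theorem norm_tameGen_pow (hn : n ∣ r - 1) : ‖tameGen r n‖ ^ n = (r : ℝ)⁻¹ := by
  rw [← norm_pow, tameGen_pow r n hn, norm_neg, norm_r]

/-- The Teichmüller lift of a generator of `(ℤ/r)ˣ` is a primitive `(r-1)`-th root of unity. -/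
theorem isPrimitiveRoot_teichFun {g : (ZMod r)ˣ} (hg : ∀ x, x ∈ Subgroup.zpowers g) :
    IsPrimitiveRoot (teichFun r g) (r - 1) := by
  have hcard : Nat.card (ZMod r)ˣ = r - 1 := by
    rw [Nat.card_eq_fintype_card, ZMod.card_units_eq_totient, Nat.totient_prime hr.out]
  have hord : orderOf g = r - 1 := by
    rw [orderOf_eq_card_of_forall_mem_zpowers hg, hcard]
  rw [IsPrimitiveRoot.iff_def]
  refine ⟨teichFun_pow r g, fun l hl => ?_⟩
  have h1 : teich r (g ^ l) = 1 := by
    rw [map_pow]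
    exact Units.ext (by simpa using hl)
  have h2 : g ^ l = 1 := teich_injective r (by rw [h1, map_one])
  rw [← hord]
  exact orderOf_dvd_of_pow_eq_one h2

/-- A generator of the tame inertia: there are `τ ∈ Gal(Ω/ℚ_r)` and a primitive `n`-th root of
unity `ζ_n ∈ ℚ_r` with `τ α = ζ_n α`; moreover `locChar τ` is any prescribed generator `g` of
`(ℤ/r)ˣ` and `ζ_n = teich(g)^((r-1)/n)`. -/
theorem exists_tame_generator (hn : n ∣ r - 1) {g : (ZMod r)ˣ}
    (hg : ∀ x, x ∈ Subgroup.zpowers g) :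
    ∃ τ : Om r ≃ₐ[ℚ_[r]] Om r, locChar r τ = g ∧
      IsPrimitiveRoot (teichFun r g ^ ((r - 1) / n)) n ∧
      τ (tameGen r n) = algebraMap ℚ_[r] (Om r) (teichFun r g ^ ((r - 1) / n)) * tameGen r n := by
  obtain ⟨τ, hτ⟩ := locChar_surjective r g
  refine ⟨τ, hτ, ?_, ?_⟩
  · have hr1 : 0 < r - 1 := by have := hr.out.two_le; omega
    have hn0 : 0 < n := Nat.pos_of_dvd_of_pos hn hr1
    have h := (isPrimitiveRoot_teichFun hg).pow hr1
      (show r - 1 = (r - 1) / n * n from (Nat.div_mul_cancel hn).symm)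
    exact h
  · rw [tameGen_action, hτ]


/-- For odd `n`, `r` is the product of the conjugates `ζ_n ^ i * (-α)` of `-α`
(so `r = N(-α)` is a local norm from `ℚ_r(α)`). -/
theorem prod_conj_neg_tameGen (hn : n ∣ r - 1) (hodd : Odd n) {ζn : Om r}
    (hζn : IsPrimitiveRoot ζn n) :
    ∏ i ∈ Finset.range n, (ζn ^ i * (-tameGen r n)) = (r : Om r) := by
  have hn0 : 0 < n := hodd.pos
  have hα : (-tameGen r n) ^ n = (r : Om r) := by
    rw [Odd.neg_pow hodd, tameGen_pow r n hn, neg_neg]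
  have h := X_pow_sub_C_eq_prod hζn hn0 hα
  have h0 := congrArg (Polynomial.eval 0) h
  simp only [eval_sub, eval_pow, eval_X, eval_C, eval_prod, zero_pow hn0.ne', zero_sub] at h0
  have h1 : ∏ i ∈ Finset.range n, (-(ζn ^ i * (-tameGen r n))) =
      (-1) ^ n * ∏ i ∈ Finset.range n, (ζn ^ i * (-tameGen r n)) := by
    rw [Finset.prod_neg, Finset.card_range]
  rw [Odd.neg_one_pow hodd] at h1
  have h2 : -(r : Om r) = -1 * ∏ i ∈ Finset.range n, (ζn ^ i * (-tameGen r n)) := by
    rw [← h1]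
    convert h0 using 1
  rw [neg_one_mul] at h2
  exact (neg_injective h2).symm

end Fermat.Agent.S55.G.Rec.H721
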