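import Mathlib
import Fermat.Prelude.Def_GaloisRep_CompletionBridge

/-!
# S55 / G / REC — leaf N4 (helper721), part 3: the local field `ℚ_r(ζ_r)` (tame structure)

`Ω = PadicAlgCl r` with its `r`-adic (spectral) norm, `K = ℚ_[r]`.

* `norm_natCast_eq_one`, `norm_root_eq_one`, `norm_one_sub_root`, `root_eq_of_norm_sub_lt_one`:
  roots of unity of order prime to `r` are units and are distinct modulo the maximal ideal;
* `exists_isPrimitiveRoot_padic`: `ℚ_r` contains a primitive `(r-1)`-th root of unity (Hensel);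
* `exists_tame_uniformizer`: for a primitive `r`-th root of unity `ζ ∈ Ω` there is `ϖ ∈ Ω` with
  `ϖ ^ (r-1) = -r` and `‖ϖ - (ζ - 1)‖ < ‖ζ - 1‖`;
* `tame_uniformizer_fixed`: such a `ϖ` is fixed by every automorphism fixing `ζ` (so `ϖ ∈ ℚ_r(ζ)`);
* `tame_uniformizer_action`: if `τ ζ = ζ ^ c` then `τ ϖ = η ϖ` with `η ∈ ℚ_r`, `η^(r-1) = 1`,
  `‖η - c‖ < 1` (`η` is the Teichmüller lift of `c`).
-/

set_option autoImplicit false

namespace Fermat.Agent.S55.G.Rec.H721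

open Polynomial

variable (r : ℕ) [hr : Fact r.Prime]

/-- `Ω = ℚ̄_r`. -/
abbrev Om : Type := PadicAlgCl r

variable {r}

theorem norm_natCast_Om (n : ℕ) : ‖(n : Om r)‖ = ‖(n : ℚ_[r])‖ := by
  rw [← PadicAlgCl.norm_extends r (n : ℚ_[r]), map_natCast]

theorem norm_intCast_Om (n : ℤ) : ‖(n : Om r)‖ = ‖(n : ℚ_[r])‖ := by
  rw [← PadicAlgCl.norm_extends r (n : ℚ_[r]), map_intCast]

theorem norm_natCast_le_one (n : ℕ) : ‖(n : Om r)‖ ≤ 1 := by
  rw [norm_natCast_Om]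
  exact_mod_cast Padic.norm_int_le_one (n : ℤ)

theorem norm_intCast_le_one (n : ℤ) : ‖(n : Om r)‖ ≤ 1 := by
  rw [norm_intCast_Om]
  exact Padic.norm_int_le_one n

theorem norm_natCast_eq_one {n : ℕ} (hn : ¬ r ∣ n) : ‖(n : Om r)‖ = 1 := by
  rw [norm_natCast_Om, Padic.norm_natCast_eq_one_iff]
  exact (Nat.Prime.coprime_iff_not_dvd hr.out).mpr hn

theorem norm_r : ‖(r : Om r)‖ = (r : ℝ)⁻¹ := by
  rw [norm_natCast_Om, Padic.norm_p]

theorem norm_r_lt_one : ‖(r : Om r)‖ < 1 := by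
  rw [norm_r]
  exact inv_lt_one_of_one_lt₀ (by exact_mod_cast hr.out.one_lt)

theorem norm_r_pos : 0 < ‖(r : Om r)‖ := by
  rw [norm_r]
  exact inv_pos.mpr (by exact_mod_cast hr.out.pos)

/-- ultrametric inequality in `Ω`. -/
theorem norm_add_le_max_Om (x y : Om r) : ‖x + y‖ ≤ max ‖x‖ ‖y‖ :=
  PadicAlgCl.isNonarchimedean r x y

theorem norm_sub_le_max_Om (x y : Om r) : ‖x - y‖ ≤ max ‖x‖ ‖y‖ := by
  rw [sub_eq_add_neg]
  exact (norm_add_le_max_Om x (-y)).trans (by rw [norm_neg])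

theorem norm_add_lt_of_lt {x y : Om r} {c : ℝ} (hx : ‖x‖ < c) (hy : ‖y‖ < c) : ‖x + y‖ < c :=
  (norm_add_le_max_Om x y).trans_lt (max_lt hx hy)

theorem norm_sub_lt_of_lt {x y : Om r} {c : ℝ} (hx : ‖x‖ < c) (hy : ‖y‖ < c) : ‖x - y‖ < c :=
  (norm_sub_le_max_Om x y).trans_lt (max_lt hx hy)

theorem norm_sum_le_of_le {ι : Type*} (s : Finset ι) (f : ι → Om r) {c : ℝ} (hc : 0 ≤ c)
    (h : ∀ i ∈ s, ‖f i‖ ≤ c) : ‖∑ i ∈ s, f i‖ ≤ c := by
  classical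
  induction s using Finset.induction_on with
  | empty => simpa using hc
  | insert a s ha ih =>
    rw [Finset.sum_insert ha]
    refine (norm_add_le_max_Om _ _).trans (max_le (h a (Finset.mem_insert_self a s)) ?_)
    exact ih fun i hi => h i (Finset.mem_insert_of_mem hi)

/-- Roots of unity have norm one. -/
theorem norm_root_eq_one {η : Om r} {m : ℕ} (hm : m ≠ 0) (hη : η ^ m = 1) : ‖η‖ = 1 := by
  have h : ‖η‖ ^ m = 1 := by rw [← norm_pow, hη, norm_one]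
  exact (pow_eq_one_iff_of_nonneg (norm_nonneg η) hm).mp h

/-- `1 - η` is a unit for a root of unity `η ≠ 1` of order prime to `r`. -/
theorem norm_one_sub_root {m : ℕ} (hrm : ¬ r ∣ m) {η : Om r} (hη : η ^ m = 1) (hη1 : η ≠ 1) :
    ‖1 - η‖ = 1 := by
  have hm : m ≠ 0 := fun h => hrm (h ▸ dvd_zero r)
  have hηn : ‖η‖ = 1 := norm_root_eq_one hm hη
  have hle : ‖1 - η‖ ≤ 1 := by
    refine (norm_sub_le_max_Om 1 η).trans ?_
    rw [norm_one, hηn, max_self]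
  have hsum : ∑ i ∈ Finset.range m, η ^ i = 0 := by
    have h := geom_sum_mul η m
    rw [hη, sub_self] at h
    rcases mul_eq_zero.mp h with h | h
    · exact h
    · exact absurd (sub_eq_zero.mp h) hη1
  have hkey : (m : Om r) = (1 - η) * ∑ i ∈ Finset.range m, ∑ j ∈ Finset.range i, η ^ j := by
    have h2 : ∀ i : ℕ, 1 - η ^ i = (1 - η) * ∑ j ∈ Finset.range i, η ^ j := by
      intro i
      have := mul_neg_geom_sum η i
      rw [← this]
    calc (m : Om r) = ∑ i ∈ Finset.range m, (1 - η ^ i) := by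
          rw [Finset.sum_sub_distrib, hsum]; simp
      _ = ∑ i ∈ Finset.range m, (1 - η) * ∑ j ∈ Finset.range i, η ^ j :=
          Finset.sum_congr rfl fun i _ => h2 i
      _ = _ := by rw [Finset.mul_sum]
  have hS : ‖∑ i ∈ Finset.range m, ∑ j ∈ Finset.range i, η ^ j‖ ≤ 1 := by
    refine norm_sum_le_of_le _ _ zero_le_one fun i _ => ?_
    refine norm_sum_le_of_le _ _ zero_le_one fun j _ => ?_
    rw [norm_pow, hηn, one_pow]
  have hm1 : ‖(m : Om r)‖ = 1 := norm_natCast_eq_one hrm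
  rw [hkey, norm_mul] at hm1
  refine le_antisymm hle ?_
  calc (1 : ℝ) = ‖1 - η‖ * ‖∑ i ∈ Finset.range m, ∑ j ∈ Finset.range i, η ^ j‖ := hm1.symm
    _ ≤ ‖1 - η‖ * 1 := mul_le_mul_of_nonneg_left hS (norm_nonneg _)
    _ = ‖1 - η‖ := mul_one _

/-- Roots of unity of order prime to `r` are distinct modulo the maximal ideal. -/
theorem root_eq_of_norm_sub_lt_one {m : ℕ} (hrm : ¬ r ∣ m) {ζ ξ : Om r} (hζ : ζ ^ m = 1)
    (hξ : ξ ^ m = 1) (h : ‖ζ - ξ‖ < 1) : ζ = ξ := by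
  by_contra hne
  have hm : m ≠ 0 := fun h => hrm (h ▸ dvd_zero r)
  have hζ0 : ζ ≠ 0 := by
    rintro rfl
    rw [zero_pow hm] at hζ
    exact zero_ne_one hζ
  set η : Om r := ξ / ζ with hηdef
  have hη : η ^ m = 1 := by rw [hηdef, div_pow, hζ, hξ, div_one]
  have hη1 : η ≠ 1 := by
    intro h1
    rw [hηdef, div_eq_one_iff_eq hζ0] at h1
    exact hne h1.symm
  have hval := norm_one_sub_root hrm hη hη1
  have hfac : ζ - ξ = ζ * (1 - η) := by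
    rw [hηdef]; field_simp
  rw [hfac, norm_mul, hval, norm_root_eq_one hm hζ, one_mul] at h
  exact lt_irrefl _ h


/-! ### Roots of unity of order `r - 1` in `ℚ_r` -/

theorem padicInt_norm_natCast_eq_one {m : ℕ} (hm : ¬ r ∣ m) : ‖(m : ℤ_[r])‖ = 1 := by
  refine le_antisymm (PadicInt.norm_le_one _) (not_lt.mp fun h => hm ?_)
  have h2 : ‖((m : ℤ) : ℤ_[r])‖ < 1 := by simpa using h
  exact_mod_cast (PadicInt.norm_int_lt_one_iff_dvd (m : ℤ)).mp h2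

theorem int_dvd_pow_sub_one {c : ℕ} (hc : ¬ r ∣ c) : (r : ℤ) ∣ (c : ℤ) ^ (r - 1) - 1 := by
  have h0 : (c : ZMod r) ≠ 0 := fun h => hc ((ZMod.natCast_eq_zero_iff _ _).mp h)
  have h1 : (c : ZMod r) ^ (r - 1) = 1 := ZMod.pow_card_sub_one_eq_one h0
  apply (ZMod.intCast_zmod_eq_zero_iff_dvd _ r).mp
  push_cast
  rw [h1, sub_self]

/-- Hensel: every integer prime to `r` has a Teichmüller lift in `ℤ_r`. -/
theorem exists_teich_padicInt {c : ℕ} (hc : ¬ r ∣ c) :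
    ∃ z : ℤ_[r], z ^ (r - 1) = 1 ∧ ‖z - (c : ℤ_[r])‖ < 1 := by
  have hr2 : 2 ≤ r := hr.out.two_le
  set F : Polynomial ℤ_[r] := X ^ (r - 1) - 1 with hF
  have hFe : ∀ x : ℤ_[r], F.aeval x = x ^ (r - 1) - 1 := fun x => by simp [hF]
  have hFd : ∀ x : ℤ_[r], F.derivative.aeval x = ((r - 1 : ℕ) : ℤ_[r]) * x ^ (r - 2) := by
    intro x
    simp only [hF, derivative_sub, derivative_X_pow, derivative_one, sub_zero, coe_aeval_eq_eval,
      eval_mul, eval_pow, eval_X, eval_C, Nat.sub_sub]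
  have h1 : ‖F.aeval (c : ℤ_[r])‖ < 1 := by
    rw [hFe]
    have := (PadicInt.norm_int_lt_one_iff_dvd (p := r) ((c : ℤ) ^ (r - 1) - 1)).mpr
      (int_dvd_pow_sub_one hc)
    simpa using this
  have h2 : ‖F.derivative.aeval (c : ℤ_[r])‖ = 1 := by
    rw [hFd, norm_mul, norm_pow]
    have hr1 : ¬ r ∣ r - 1 := fun h => by
      have := Nat.le_of_dvd (by omega) h
      omega
    rw [padicInt_norm_natCast_eq_one hr1, padicInt_norm_natCast_eq_one hc, one_pow, one_mul]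
  obtain ⟨z, hz0, hz1, -, -⟩ := hensels_lemma (F := F) (a := (c : ℤ_[r]))
    (by rw [h2, one_pow]; exact h1)
  refine ⟨z, ?_, ?_⟩
  · rw [hFe] at hz0
    exact sub_eq_zero.mp hz0
  · rwa [h2] at hz1

/-- `ℚ_r` contains a primitive `(r-1)`-th root of unity. -/
theorem exists_isPrimitiveRoot_padic : ∃ ω : ℚ_[r], IsPrimitiveRoot ω (r - 1) ∧ ‖ω‖ = 1 := by
  have : IsCyclic (ZMod r)ˣ := ZMod.isCyclic_units_prime hr.out
  obtain ⟨g, hg⟩ := IsCyclic.exists_generator (α := (ZMod r)ˣ)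
  set c : ℕ := (g : ZMod r).val with hcdef
  have hcg : (c : ZMod r) = (g : ZMod r) := ZMod.natCast_zmod_val _
  have hc : ¬ r ∣ c := by
    intro h
    have : (c : ZMod r) = 0 := (ZMod.natCast_eq_zero_iff _ _).mpr h
    rw [hcg] at this
    exact g.ne_zero this
  obtain ⟨z, hz1, hz2⟩ := exists_teich_padicInt hc
  have hord : orderOf g = r - 1 := by
    rw [orderOf_eq_card_of_forall_mem_zpowers hg, Nat.card_eq_fintype_card,
      ZMod.card_units_eq_totient, Nat.totient_prime hr.out]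
  refine ⟨(z : ℚ_[r]), ?_, ?_⟩
  · rw [IsPrimitiveRoot.iff_def]
    refine ⟨by exact_mod_cast congrArg (fun x : ℤ_[r] => (x : ℚ_[r])) hz1, fun l hl => ?_⟩
    have hzl : z ^ l = 1 := by
      apply Subtype.ext
      rw [PadicInt.coe_pow, PadicInt.coe_one]
      exact hl
    -- `c ^ l ≡ z ^ l = 1` modulo the maximal ideal
    have h3 : ‖(c : ℤ_[r]) ^ l - 1‖ < 1 := by
      have hdvd : z - (c : ℤ_[r]) ∣ z ^ l - (c : ℤ_[r]) ^ l := sub_dvd_pow_sub_pow _ _ l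
      obtain ⟨t, ht⟩ := hdvd
      have h4 : ‖z ^ l - (c : ℤ_[r]) ^ l‖ < 1 := by
        rw [ht, norm_mul]
        calc ‖z - (c : ℤ_[r])‖ * ‖t‖ ≤ ‖z - (c : ℤ_[r])‖ * 1 :=
              mul_le_mul_of_nonneg_left (PadicInt.norm_le_one t) (norm_nonneg _)
          _ < 1 := by rw [mul_one]; exact hz2
      rw [hzl] at h4
      rwa [← norm_neg, neg_sub] at h4
    have h5 : (r : ℤ) ∣ (c : ℤ) ^ l - 1 := by
      apply (PadicInt.norm_int_lt_one_iff_dvd (p := r) _).mp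
      simpa using h3
    have h6 : (g : ZMod r) ^ l = 1 := by
      have := (ZMod.intCast_zmod_eq_zero_iff_dvd _ r).mpr h5
      push_cast at this
      rw [hcg] at this
      exact sub_eq_zero.mp this
    have h7 : g ^ l = 1 := Units.ext (by simpa using h6)
    rw [← hord]
    exact orderOf_dvd_of_pow_eq_one h7
  · have hu : IsUnit z := by
      have hr1 : r - 1 ≠ 0 := by have := hr.out.two_le; omega
      exact (isUnit_pow_iff hr1).mp (hz1 ▸ isUnit_one)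
    exact PadicInt.isUnit_iff.mp hu


/-! ### The uniformizer `π = ζ - 1` of `ℚ_r(ζ_r)` -/

section Pi

variable {ζ : Om r} (hζ : IsPrimitiveRoot ζ r)
include hζ

theorem zeta_sub_one_ne_zero : ζ - 1 ≠ 0 :=
  sub_ne_zero.mpr (hζ.ne_one hr.out.one_lt)

theorem norm_zeta_sub_one_le_one : ‖ζ - 1‖ ≤ 1 := by
  refine (norm_sub_le_max_Om ζ 1).trans ?_
  rw [norm_one, norm_root_eq_one hr.out.ne_zero hζ.pow_eq_one, max_self]

/-- `(ζ - 1) ^ (r - 1) = - r (1 + (ζ - 1) s)` with `s` integral. -/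
theorem tame_identity : ∃ s : Om r, ‖s‖ ≤ 1 ∧
    (ζ - 1) ^ (r - 1) = -(r : Om r) * (1 + (ζ - 1) * s) := by
  set π : Om r := ζ - 1 with hπ
  have hr2 : 2 ≤ r := hr.out.two_le
  have hπ1 : ‖π‖ ≤ 1 := norm_zeta_sub_one_le_one hζ
  have hπ0 : π ≠ 0 := zeta_sub_one_ne_zero hζ
  -- binomial expansion of `(π + 1) ^ r = 1`
  have h1 : (π + 1) ^ r = 1 := by rw [hπ, sub_add_cancel, hζ.pow_eq_one]
  rw [add_pow] at h1
  simp only [one_pow, mul_one] at h1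
  rw [Finset.sum_range_succ', pow_zero, Nat.choose_zero_right, Nat.cast_one, mul_one] at h1
  have h2 : ∑ k ∈ Finset.range r, π ^ (k + 1) * ((r.choose (k + 1) : ℕ) : Om r) = 0 := by
    linear_combination h1
  have h3 : π * ∑ k ∈ Finset.range r, π ^ k * ((r.choose (k + 1) : ℕ) : Om r) = 0 := by
    rw [Finset.mul_sum, ← h2]
    exact Finset.sum_congr rfl fun k _ => by ring
  have h4 : ∑ k ∈ Finset.range r, π ^ k * ((r.choose (k + 1) : ℕ) : Om r) = 0 :=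
    (mul_eq_zero.mp h3).resolve_left hπ0
  obtain ⟨m, rfl⟩ : ∃ m, r = m + 2 := ⟨r - 2, by omega⟩
  rw [Finset.sum_range_succ, Finset.sum_range_succ'] at h4
  simp only [pow_zero, one_mul, zero_add, Nat.choose_one_right, Nat.choose_self, Nat.cast_one,
    mul_one] at h4
  -- the middle coefficients are divisible by `r`
  have hdiv : ∀ k ∈ Finset.range m, ∃ d : ℕ, (m + 2).choose (k + 1 + 1) = (m + 2) * d := by
    intro k hk
    have hk' := Finset.mem_range.mp hk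
    exact hr.out.dvd_choose_self (by omega) (by omega)
  choose! d hd using hdiv
  refine ⟨∑ k ∈ Finset.range m, (d k : Om (m + 2)) * π ^ k, ?_, ?_⟩
  · refine norm_sum_le_of_le _ _ zero_le_one fun k _ => ?_
    rw [norm_mul, norm_pow]
    calc ‖(d k : Om (m + 2))‖ * ‖π‖ ^ k ≤ 1 * 1 :=
          mul_le_mul (norm_natCast_le_one _) (pow_le_one₀ (norm_nonneg _) hπ1)
            (pow_nonneg (norm_nonneg _) _) zero_le_one
      _ = 1 := one_mul 1
  · have h5 : ∑ k ∈ Finset.range m, π ^ (k + 1) * (((m + 2).choose (k + 1 + 1) : ℕ) : Om (m + 2))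
        = ((m + 2 : ℕ) : Om (m + 2)) * (π * ∑ k ∈ Finset.range m, (d k : Om (m + 2)) * π ^ k) := by
      rw [Finset.mul_sum, Finset.mul_sum]
      refine Finset.sum_congr rfl fun k hk => ?_
      rw [hd k hk]
      push_cast
      ring
    rw [h5] at h4
    have h6 : m + 2 - 1 = m + 1 := by omega
    rw [h6]
    linear_combination h4

theorem norm_zeta_sub_one_lt_one : ‖ζ - 1‖ < 1 := by
  obtain ⟨s, hs, h⟩ := tame_identity hζ
  by_contra hge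
  rw [not_lt] at hge
  have h1 : ‖ζ - 1‖ = 1 := le_antisymm (norm_zeta_sub_one_le_one hζ) hge
  have h2 := congrArg norm h
  rw [norm_pow, h1, one_pow, norm_mul, norm_neg] at h2
  have h3 : ‖1 + (ζ - 1) * s‖ ≤ 1 := by
    refine (norm_add_le_max_Om _ _).trans (max_le (by rw [norm_one]) ?_)
    rw [norm_mul, h1, one_mul]
    exact hs
  have h4 : ‖(r : Om r)‖ * ‖1 + (ζ - 1) * s‖ < 1 := by
    calc ‖(r : Om r)‖ * ‖1 + (ζ - 1) * s‖ ≤ ‖(r : Om r)‖ * 1 :=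
          mul_le_mul_of_nonneg_left h3 (norm_nonneg _)
      _ < 1 := by rw [mul_one]; exact norm_r_lt_one
  rw [← h2] at h4
  exact lt_irrefl _ h4

theorem norm_zeta_sub_one_pos : 0 < ‖ζ - 1‖ :=
  norm_pos_iff.mpr (zeta_sub_one_ne_zero hζ)

/-- `‖ζ - 1‖ ^ (r - 1) = ‖r‖`. -/
theorem norm_zeta_sub_one_pow : ‖ζ - 1‖ ^ (r - 1) = ‖(r : Om r)‖ := by
  obtain ⟨s, hs, h⟩ := tame_identity hζ
  have h2 := congrArg norm h
  rw [norm_pow, norm_mul, norm_neg] at h2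
  have h3 : ‖(ζ - 1) * s‖ < 1 := by
    rw [norm_mul]
    calc ‖ζ - 1‖ * ‖s‖ ≤ ‖ζ - 1‖ * 1 := mul_le_mul_of_nonneg_left hs (norm_nonneg _)
      _ < 1 := by rw [mul_one]; exact norm_zeta_sub_one_lt_one hζ
  have h4 : ‖1 + (ζ - 1) * s‖ = 1 := by
    refine le_antisymm ((norm_add_le_max_Om _ _).trans (max_le (by rw [norm_one]) h3.le)) ?_
    have h5 : (1 : Om r) = (1 + (ζ - 1) * s) - (ζ - 1) * s := by ring
    have h6 : ‖(1 : Om r)‖ ≤ max ‖1 + (ζ - 1) * s‖ ‖(ζ - 1) * s‖ := by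
      conv_lhs => rw [h5]
      exact norm_sub_le_max_Om _ _
    rw [norm_one] at h6
    rcases le_max_iff.mp h6 with h7 | h7
    · exact h7
    · exact absurd h7 (not_le.mpr h3)
  rw [h2, h4, mul_one]

/-- `‖(ζ - 1) ^ (r - 1) + r‖ < ‖r‖`. -/
theorem norm_zeta_sub_one_pow_add_lt : ‖(ζ - 1) ^ (r - 1) + (r : Om r)‖ < ‖(r : Om r)‖ := by
  obtain ⟨s, hs, h⟩ := tame_identity hζ
  have h1 : (ζ - 1) ^ (r - 1) + (r : Om r) = -((r : Om r) * ((ζ - 1) * s)) := by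
    rw [h]; ring
  rw [h1, norm_neg, norm_mul, norm_mul]
  have h3 : ‖ζ - 1‖ * ‖s‖ < 1 := by
    calc ‖ζ - 1‖ * ‖s‖ ≤ ‖ζ - 1‖ * 1 := mul_le_mul_of_nonneg_left hs (norm_nonneg _)
      _ < 1 := by rw [mul_one]; exact norm_zeta_sub_one_lt_one hζ
  calc ‖(r : Om r)‖ * (‖ζ - 1‖ * ‖s‖) < ‖(r : Om r)‖ * 1 :=
        mul_lt_mul_of_pos_left h3 norm_r_pos
    _ = ‖(r : Om r)‖ := mul_one _


/-- **Existence of the tame uniformizer.** There is `ϖ ∈ Ω` with `ϖ ^ (r - 1) = - r` which is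
congruent to `ζ - 1` modulo higher order terms. -/
theorem exists_tame_uniformizer :
    ∃ ϖ : Om r, ϖ ^ (r - 1) = -(r : Om r) ∧ ‖ϖ - (ζ - 1)‖ < ‖ζ - 1‖ := by
  have hr1 : 0 < r - 1 := by have := hr.out.two_le; omega
  obtain ⟨ϖ₀, hϖ₀⟩ := IsAlgClosed.exists_pow_nat_eq (-(r : Om r)) hr1
  obtain ⟨ω₀, hω₀, -⟩ := exists_isPrimitiveRoot_padic (r := r)
  have hω : IsPrimitiveRoot (algebraMap ℚ_[r] (Om r) ω₀) (r - 1) :=
    hω₀.map_of_injective (algebraMap ℚ_[r] (Om r)).injective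
  set ω : Om r := algebraMap ℚ_[r] (Om r) ω₀ with hωdef
  have hfac := X_pow_sub_C_eq_prod hω hr1 hϖ₀
  have hev := congrArg (Polynomial.eval (ζ - 1)) hfac
  simp only [eval_sub, eval_pow, eval_X, eval_C, eval_prod] at hev
  rw [sub_neg_eq_add] at hev
  by_contra hcon
  simp only [not_exists, not_and, not_lt] at hcon
  have hlow : ∀ i ∈ Finset.range (r - 1), ‖ζ - 1‖ ≤ ‖(ζ - 1) - ω ^ i * ϖ₀‖ := by
    intro i _
    have h1 : (ω ^ i * ϖ₀) ^ (r - 1) = -(r : Om r) := by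
      rw [mul_pow, ← pow_mul, mul_comm i, pow_mul, hω.pow_eq_one, one_pow, one_mul, hϖ₀]
    have := hcon (ω ^ i * ϖ₀) h1
    rw [norm_sub_rev (ω ^ i * ϖ₀) (ζ - 1)] at this
    exact this
  have hprod : ‖ζ - 1‖ ^ (r - 1) ≤ ‖∏ i ∈ Finset.range (r - 1), ((ζ - 1) - ω ^ i * ϖ₀)‖ := by
    rw [norm_prod]
    calc ‖ζ - 1‖ ^ (r - 1) = ∏ _i ∈ Finset.range (r - 1), ‖ζ - 1‖ := by
          rw [Finset.prod_const, Finset.card_range]
      _ ≤ ∏ i ∈ Finset.range (r - 1), ‖(ζ - 1) - ω ^ i * ϖ₀‖ :=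
          Finset.prod_le_prod (fun _ _ => norm_nonneg _) hlow
  rw [← hev, norm_zeta_sub_one_pow hζ] at hprod
  exact absurd (norm_zeta_sub_one_pow_add_lt hζ) (not_lt.mpr hprod)

end Pi

/-! ### Galois action on the tame uniformizer -/

section Action

variable {ζ ϖ : Om r}

theorem norm_tame_uniformizer (hϖζ : ‖ϖ - (ζ - 1)‖ < ‖ζ - 1‖) : ‖ϖ‖ = ‖ζ - 1‖ := by
  refine le_antisymm ?_ ?_
  · have h : ϖ = (ϖ - (ζ - 1)) + (ζ - 1) := by ring
    rw [h]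
    exact (norm_add_le_max_Om _ _).trans (max_le hϖζ.le le_rfl)
  · have h : ζ - 1 = ϖ - (ϖ - (ζ - 1)) := by ring
    have h2 : ‖ζ - 1‖ ≤ max ‖ϖ‖ ‖ϖ - (ζ - 1)‖ := by
      conv_lhs => rw [h]
      exact norm_sub_le_max_Om _ _
    rcases le_max_iff.mp h2 with h3 | h3
    · exact h3
    · exact absurd h3 (not_le.mpr hϖζ)

theorem tame_uniformizer_ne_zero (hζ : IsPrimitiveRoot ζ r)
    (hϖζ : ‖ϖ - (ζ - 1)‖ < ‖ζ - 1‖) : ϖ ≠ 0 := by
  rw [← norm_pos_iff, norm_tame_uniformizer hϖζ]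
  exact norm_zeta_sub_one_pos hζ

/-- **Galois action on the tame uniformizer.**  If `τ ζ = ζ ^ c`, then `τ ϖ = η ϖ` where
`η ∈ ℚ_r` is the `(r-1)`-th root of unity congruent to `c` (the Teichmüller lift of `c`). -/
theorem tame_uniformizer_action (hζ : IsPrimitiveRoot ζ r) (hϖ : ϖ ^ (r - 1) = -(r : Om r))
    (hϖζ : ‖ϖ - (ζ - 1)‖ < ‖ζ - 1‖) (τ : Om r ≃ₐ[ℚ_[r]] Om r) (c : ℕ) (hτ : τ ζ = ζ ^ c) :
    ∃ η : ℚ_[r], η ^ (r - 1) = 1 ∧ τ ϖ = algebraMap ℚ_[r] (Om r) η * ϖ ∧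
      ‖algebraMap ℚ_[r] (Om r) η - (c : Om r)‖ < 1 := by
  have hr1 : 0 < r - 1 := by have := hr.out.two_le; omega
  have hϖ0 : ϖ ≠ 0 := tame_uniformizer_ne_zero hζ hϖζ
  have hnϖ : ‖ϖ‖ = ‖ζ - 1‖ := norm_tame_uniformizer hϖζ
  have : NeZero (r - 1) := ⟨hr1.ne'⟩
  obtain ⟨ω₀, hω₀, -⟩ := exists_isPrimitiveRoot_padic (r := r)
  have hω : IsPrimitiveRoot (algebraMap ℚ_[r] (Om r) ω₀) (r - 1) :=
    hω₀.map_of_injective (algebraMap ℚ_[r] (Om r)).injective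
  -- `τ ϖ / ϖ` is an `(r-1)`-th root of unity
  have h1 : (τ ϖ / ϖ) ^ (r - 1) = 1 := by
    rw [div_pow, ← map_pow, hϖ, map_neg, map_natCast, div_self]
    rw [← hϖ]
    exact pow_ne_zero _ hϖ0
  obtain ⟨j, -, hj⟩ := hω.eq_pow_of_pow_eq_one h1
  refine ⟨ω₀ ^ j, by rw [← pow_mul, mul_comm, pow_mul, hω₀.pow_eq_one, one_pow], ?_, ?_⟩
  · rw [map_pow, hj, div_mul_cancel₀ _ hϖ0]
  · rw [map_pow, hj]
    -- norm estimate
    have hnorm : ∀ y : Om r, ‖τ y‖ = ‖y‖ := fun y => by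
      have := nnnorm_padicAlgCl_algEquiv r τ y
      exact congrArg NNReal.toReal this
    have e1 : ‖τ ϖ - τ (ζ - 1)‖ < ‖ζ - 1‖ := by
      rw [← map_sub, hnorm]
      exact hϖζ
    have e2 : ‖τ (ζ - 1) - (c : Om r) * (ζ - 1)‖ < ‖ζ - 1‖ := by
      rw [map_sub, map_one, hτ]
      have h2 : ζ ^ c - 1 - (c : Om r) * (ζ - 1)
          = (ζ - 1) * ((ζ - 1) * ∑ i ∈ Finset.range c, ∑ k ∈ Finset.range i, ζ ^ k) := by
        have hg : ∀ i : ℕ, ζ ^ i - 1 = (ζ - 1) * ∑ k ∈ Finset.range i, ζ ^ k := fun i => by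
          rw [mul_comm, geom_sum_mul]
        have hs : ∑ i ∈ Finset.range c, ζ ^ i - (c : Om r)
            = (ζ - 1) * ∑ i ∈ Finset.range c, ∑ k ∈ Finset.range i, ζ ^ k := by
          rw [Finset.mul_sum]
          calc ∑ i ∈ Finset.range c, ζ ^ i - (c : Om r)
              = ∑ i ∈ Finset.range c, (ζ ^ i - 1) := by
                rw [Finset.sum_sub_distrib]; simp
            _ = _ := Finset.sum_congr rfl fun i _ => hg i
        rw [hg c, ← hs]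
        ring
      rw [h2, norm_mul, norm_mul]
      have h3 : ‖∑ i ∈ Finset.range c, ∑ k ∈ Finset.range i, ζ ^ k‖ ≤ 1 := by
        refine norm_sum_le_of_le _ _ zero_le_one fun i _ => ?_
        refine norm_sum_le_of_le _ _ zero_le_one fun k _ => ?_
        rw [norm_pow, norm_root_eq_one hr.out.ne_zero hζ.pow_eq_one, one_pow]
      have h4 : ‖ζ - 1‖ * ‖∑ i ∈ Finset.range c, ∑ k ∈ Finset.range i, ζ ^ k‖ < 1 := by
        calc ‖ζ - 1‖ * ‖∑ i ∈ Finset.range c, ∑ k ∈ Finset.range i, ζ ^ k‖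
            ≤ ‖ζ - 1‖ * 1 := mul_le_mul_of_nonneg_left h3 (norm_nonneg _)
          _ < 1 := by rw [mul_one]; exact norm_zeta_sub_one_lt_one hζ
      calc ‖ζ - 1‖ * (‖ζ - 1‖ * ‖∑ i ∈ Finset.range c, ∑ k ∈ Finset.range i, ζ ^ k‖)
          < ‖ζ - 1‖ * 1 := mul_lt_mul_of_pos_left h4 (norm_zeta_sub_one_pos hζ)
        _ = ‖ζ - 1‖ := mul_one _
    have e3 : ‖(c : Om r) * ((ζ - 1) - ϖ)‖ < ‖ζ - 1‖ := by
      rw [norm_mul, ← norm_neg ((ζ - 1) - ϖ), neg_sub]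
      calc ‖(c : Om r)‖ * ‖ϖ - (ζ - 1)‖ ≤ 1 * ‖ϖ - (ζ - 1)‖ :=
            mul_le_mul_of_nonneg_right (norm_natCast_le_one c) (norm_nonneg _)
        _ < ‖ζ - 1‖ := by rw [one_mul]; exact hϖζ
    have e4 : (τ ϖ / ϖ - (c : Om r)) * ϖ
        = (τ ϖ - τ (ζ - 1)) + (τ (ζ - 1) - (c : Om r) * (ζ - 1))
          + (c : Om r) * ((ζ - 1) - ϖ) := by
      rw [sub_mul, div_mul_cancel₀ _ hϖ0]
      ring
    have e5 : ‖(τ ϖ / ϖ - (c : Om r)) * ϖ‖ < ‖ζ - 1‖ := by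
      rw [e4]
      exact norm_add_lt_of_lt (norm_add_lt_of_lt e1 e2) e3
    rw [norm_mul, hnϖ] at e5
    by_contra hge
    rw [not_lt] at hge
    have : ‖ζ - 1‖ ≤ ‖τ ϖ / ϖ - (c : Om r)‖ * ‖ζ - 1‖ := by
      calc ‖ζ - 1‖ = 1 * ‖ζ - 1‖ := (one_mul _).symm
        _ ≤ ‖τ ϖ / ϖ - (c : Om r)‖ * ‖ζ - 1‖ :=
            mul_le_mul_of_nonneg_right hge (norm_nonneg _)
    exact absurd e5 (not_lt.mpr this)

/-- Automorphisms fixing `ζ` fix the tame uniformizer: `ϖ ∈ ℚ_r(ζ)`. -/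
theorem tame_uniformizer_fixed (hζ : IsPrimitiveRoot ζ r) (hϖ : ϖ ^ (r - 1) = -(r : Om r))
    (hϖζ : ‖ϖ - (ζ - 1)‖ < ‖ζ - 1‖) (τ : Om r ≃ₐ[ℚ_[r]] Om r) (hτ : τ ζ = ζ) : τ ϖ = ϖ := by
  obtain ⟨η, hη1, hη2, hη3⟩ := tame_uniformizer_action hζ hϖ hϖζ τ 1 (by rw [pow_one, hτ])
  have hr1 : ¬ r ∣ r - 1 := fun h => by
    have := Nat.le_of_dvd (by have := hr.out.two_le; omega) h
    have := hr.out.two_le
    omega
  have h1 : algebraMap ℚ_[r] (Om r) η = 1 := by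
    refine root_eq_of_norm_sub_lt_one hr1 (by rw [← map_pow, hη1, map_one]) (one_pow _) ?_
    simpa using hη3
  rw [hη2, h1, one_mul]

end Action

end Fermat.Agent.S55.G.Rec.H721
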