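import Fermat.Agent.S55.G.Rec.SCH174.Main
import Fermat.Agent.S55.G.Rec.CupLocH496
import Fermat.Agent.S55.G.Rec.CupAddH496
import Fermat.Agent.S55.G.Rec.UnramCupH900
import Fermat.Agent.S55.G.Rec.L4L6H854

/-!
# S55 / G / REC, leaf SC (helper174) : `KillAbovePSpec` from the remaining open leaves

`killAboveP_of` : STEP C for odd `p`, from `LocalStructureSpec` (L2), `WeakApproxSpec` (G3) and
STEP A (`CycloSumSpec I`).  The leaves K1, K2, L3 (from L2), L4, L6 are taken from main.
The fully hypothesis-parametrised version is `killAboveP_core` (`SCH174/Main.lean`).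
-/

set_option autoImplicit false

namespace Fermat.Agent.S55.G.Rec.H174

open Fermat.Agent.S55.G.Rec

/-- **STEP C** (`KillAbovePSpec`) for odd `p`. -/
theorem killAboveP_of (I : LocalInvSystem) (p : ℕ) [Fact p.Prime] (hp2 : p ≠ 2)
    (hL2 : LocalStructureSpec) (hG3 : WeakApproxSpec) (hSA : CycloSumSpec I) :
    KillAbovePSpec I p :=
  killAboveP_core I p hp2 H496.cupLoc H496.cupAdd hL2 (H900.unramCup_of hL2 H496.cupAdd I)
    H854.cycloFrob H854.localRoot hG3 hSA

end Fermat.Agent.S55.G.Rec.H174
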