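import Fermat.Agent.S55.G.Rec.H413.L5Field

/-!
# S55 / G / REC, leaf L5 = `LocalCycloNormSpec` (helper413) — INDEX-COUNT route

`localCycloNorm : LocalCycloNormSpec`, unconditional.

Proof.  `F = ℚ_ℓ(ζ)`, `ζ` a primitive `ℓ^e`-th root of unity in `Ω = PadicAlgCl ℓ`, `N = Gal(Ω/F) ≤ W`,
`r = [W : N]`.  For `b` fixed by `W`: `y := relNorm W b ∈ ℚ_ℓ` and `y ^ r = relNorm N b = N_{F/ℚ_ℓ}(b)`.
The norm group of `F/ℚ_ℓ` is `ℓ^ℤ × (1 + ℓ^e ℤ_ℓ)` (explicit norms + the local norm index theorem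
for cyclic extensions, `H413.normRange_cyclotomic_eq`), so the unit part `u` of `y` satisfies
`u ^ r ≡ 1 mod ℓ^e`.  The image `c(W)` of `W` under the cyclotomic character is a subgroup of order
`r` of the CYCLIC group `(ℤ/ℓ^e)ˣ`, hence `c(W) = {x | x ^ r = 1} ∋ u mod ℓ^e`.
-/

set_option autoImplicit false
set_option linter.style.haveILetI false

namespace Fermat.Agent.S55.G.Rec.H413

open Fermat.Agent.S55.H413

/-- The norm estimate: `‖y - ℓ^k · t‖ ≤ ‖ℓ‖^(k + m)` where `k = v(y)` and `t` is the canonical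
lift of the residue mod `ℓ^m` of the unit part of `y`. -/
theorem norm_sub_unitResidue_le (ℓ : ℕ) [hℓ : Fact ℓ.Prime] (m : ℕ) (y : ℚ_[ℓ]ˣ) :
    ‖(y : ℚ_[ℓ]) - (ℓ : ℚ_[ℓ]) ^ ((y : ℚ_[ℓ]).valuation) *
        (((unitResidue ℓ m y : (ZMod (ℓ ^ m))ˣ) : ZMod (ℓ ^ m)).val : ℚ_[ℓ])‖
      ≤ ‖(ℓ : ℚ_[ℓ])‖ ^ ((y : ℚ_[ℓ]).valuation + m) := by
  have : NeZero (ℓ ^ m) := ⟨(pow_pos hℓ.out.pos _).ne'⟩
  set u : ℤ_[ℓ] := ((unitPart ℓ y : ℤ_[ℓ]ˣ) : ℤ_[ℓ]) with hu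
  set t : ℕ := ((unitResidue ℓ m y : (ZMod (ℓ ^ m))ˣ) : ZMod (ℓ ^ m)).val with ht
  have h1 : PadicInt.toZModPow m (u - (t : ℤ_[ℓ])) = 0 := by
    rw [map_sub, map_natCast, ht, ZMod.natCast_zmod_val, coe_unitResidue, sub_self]
  have h2 : u - (t : ℤ_[ℓ]) ∈ (Ideal.span {(ℓ : ℤ_[ℓ]) ^ m} : Ideal ℤ_[ℓ]) := by
    rw [← PadicInt.ker_toZModPow]
    exact h1
  have h3 : ‖u - (t : ℤ_[ℓ])‖ ≤ (ℓ : ℝ) ^ (-m : ℤ) :=
    (PadicInt.norm_le_pow_iff_mem_span_pow _ _).2 h2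
  have hy' := eq_unitPart_mul ℓ y
  rw [← hu] at hy'
  have h4 : (y : ℚ_[ℓ]) - (ℓ : ℚ_[ℓ]) ^ ((y : ℚ_[ℓ]).valuation) * (t : ℚ_[ℓ]) =
      (ℓ : ℚ_[ℓ]) ^ ((y : ℚ_[ℓ]).valuation) * ((u - (t : ℤ_[ℓ]) : ℤ_[ℓ]) : ℚ_[ℓ]) := by
    rw [PadicInt.coe_sub, PadicInt.coe_natCast]
    linear_combination hy'
  have hℓn : ‖(ℓ : ℚ_[ℓ])‖ ≠ 0 := by
    rw [Padic.norm_p]
    exact inv_ne_zero (by exact_mod_cast hℓ.out.ne_zero)
  rw [h4, norm_mul, zpow_add₀ hℓn, norm_zpow]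
  refine mul_le_mul_of_nonneg_left ?_ (by positivity)
  rw [PadicInt.padic_norm_e_of_padicInt, Padic.norm_p, zpow_natCast, inv_pow, ← zpow_natCast,
    ← zpow_neg]
  exact h3

/-- **Leaf L5** of the REC block (norm route): norms from the subfields of `ℚ_ℓ(μ_{ℓ^e})`. -/
theorem localCycloNorm : LocalCycloNormSpec := by
  intro ℓ hℓ hℓ2 e he W hW b hb
  obtain ⟨n, rfl⟩ : ∃ n, e = n + 1 := ⟨e - 1, by omega⟩
  have hne : NeZero (ℓ ^ (n + 1)) := ⟨(pow_pos hℓ.out.pos _).ne'⟩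
  obtain ⟨ζ, hζ⟩ := exists_primitiveRoot_padicAlgCl ℓ n
  haveI hcyc : IsCyclotomicExtension {ℓ ^ (n + 1)} ℚ_[ℓ] (cycF ℓ ζ) :=
    isCyclotomicExtension_cycF ℓ hζ
  haveI : FiniteDimensional ℚ_[ℓ] (cycF ℓ ζ) :=
    IsCyclotomicExtension.finiteDimensional {ℓ ^ (n + 1)} ℚ_[ℓ] (cycF ℓ ζ)
  haveI : IsGalois ℚ_[ℓ] (cycF ℓ ζ) :=
    IsCyclotomicExtension.isGalois {ℓ ^ (n + 1)} ℚ_[ℓ] (cycF ℓ ζ)
  haveI := RelNormH707.isGalois_local ℓ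
  have hNW : (cycF ℓ ζ).fixingSubgroup ≤ W := fixingSubgroup_cycF_le ℓ hζ hW
  haveI : (cycF ℓ ζ).fixingSubgroup.FiniteIndex := by
    refine ⟨?_⟩
    rw [← IntermediateField.finrank_eq_fixingSubgroup_index]
    exact Module.finrank_pos.ne'
  haveI : W.FiniteIndex := Subgroup.finiteIndex_of_le hNW
  -- `b ∈ F`
  have hbF : (b : PadicAlgCl ℓ) ∈ cycF ℓ ζ := by
    rw [← InfiniteGalois.fixedField_fixingSubgroup (cycF ℓ ζ), IntermediateField.mem_fixedField_iff]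
    intro τ hτ
    exact congrArg Units.val (hb τ (hNW hτ))
  -- the norm `y`
  obtain ⟨y, hy0, hy⟩ := RelNormH707.relNorm_rational_local ℓ hb
  set r := (cycF ℓ ζ).fixingSubgroup.relIndex W with hr
  have hpow := relNorm_pow_relIndex hNW b hb
  have hnorm := relNorm_fixing_eq_norm (cycF ℓ ζ) b hbF
  have hyr : y ^ r = Algebra.norm ℚ_[ℓ] (⟨b, hbF⟩ : cycF ℓ ζ) := by
    apply (algebraMap ℚ_[ℓ] (PadicAlgCl ℓ)).injective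
    rw [map_pow, ← hy, ← hnorm, hpow, Units.val_pow_eq_pow_val]
  have hb0 : (⟨b, hbF⟩ : cycF ℓ ζ) ≠ 0 := by
    intro h
    exact b.ne_zero (congrArg Subtype.val h)
  have hmem : (Units.mk0 y hy0) ^ r ∈ normRange ℓ (cycF ℓ ζ) := by
    refine ⟨Units.mk0 _ hb0, ?_⟩
    apply Units.ext
    rw [Units.coe_map, Units.val_pow_eq_pow_val, Units.val_mk0, Units.val_mk0]
    exact hyr.symm
  rw [normRange_cyclotomic_eq ℓ n (cycF ℓ ζ) hℓ2, MonoidHom.mem_ker, map_pow, wildChar_apply,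
    inv_pow, inv_eq_one] at hmem
  -- the cyclotomic character
  have hrcard : r = Nat.card (W.map (hζ.autToPow ℚ_[ℓ])) := by
    rw [hr, ← ker_autToPow_eq ℓ hζ, Subgroup.relIndex_ker]
  haveI : IsCyclic (ZMod (ℓ ^ (n + 1)))ˣ :=
    ZMod.isCyclic_units_of_prime_pow ℓ hℓ.out hℓ2 (n + 1)
  have hu : unitResidue ℓ (n + 1) (Units.mk0 y hy0) ∈ W.map (hζ.autToPow ℚ_[ℓ]) :=
    mem_of_pow_card_eq_one _ _ (by rw [← hrcard]; exact hmem)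
  obtain ⟨τ, hτW, hτ⟩ := hu
  refine ⟨y.valuation, 1,
    ((unitResidue ℓ (n + 1) (Units.mk0 y hy0) : (ZMod (ℓ ^ (n + 1)))ˣ) : ZMod (ℓ ^ (n + 1))).val,
    τ, hτW, ?_, ?_⟩
  · intro ξ hξ
    rw [autToPow_spec_all ℓ hζ τ ξ hξ, hτ]
  · have key := norm_sub_unitResidue_le ℓ (n + 1) (Units.mk0 y hy0)
    rw [Units.val_mk0] at key
    have e1 : ((relNorm W b : (PadicAlgCl ℓ)ˣ) : PadicAlgCl ℓ) -
        (((1 : ℤˣ) : ℤ) : PadicAlgCl ℓ) * (ℓ : PadicAlgCl ℓ) ^ y.valuation *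
          ((((unitResidue ℓ (n + 1) (Units.mk0 y hy0) : (ZMod (ℓ ^ (n + 1)))ˣ) :
            ZMod (ℓ ^ (n + 1))).val : ℕ) : PadicAlgCl ℓ) =
        algebraMap ℚ_[ℓ] (PadicAlgCl ℓ) (y - (ℓ : ℚ_[ℓ]) ^ y.valuation *
          ((((unitResidue ℓ (n + 1) (Units.mk0 y hy0) : (ZMod (ℓ ^ (n + 1)))ˣ) :
            ZMod (ℓ ^ (n + 1))).val : ℕ) : ℚ_[ℓ])) := by
      rw [hy, map_sub, map_mul, map_zpow₀, map_natCast, map_natCast]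
      simp
    have e2 : (ℓ : PadicAlgCl ℓ) = algebraMap ℚ_[ℓ] (PadicAlgCl ℓ) (ℓ : ℚ_[ℓ]) := by
      rw [map_natCast]
    rw [e1, e2]
    have hn1 : ∀ x : ℚ_[ℓ], ‖algebraMap ℚ_[ℓ] (PadicAlgCl ℓ) x‖ = ‖x‖ :=
      fun x => PadicAlgCl.norm_extends ℓ x
    rw [hn1, hn1]
    exact_mod_cast key

end Fermat.Agent.S55.G.Rec.H413
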