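import Fermat.Agent.S55.G.Rec.Final
import Fermat.Agent.S55.G.Rec.StepAH511
import Fermat.Agent.S55.G.Rec.StepBH415
import Fermat.Agent.S55.G.Rec.KillAbovePH174
import Fermat.Agent.S55.G.Rec.Glob.CyclicSplit
import Fermat.Agent.S55.G.Rec.L2H931
import Fermat.Agent.S55.G.Rec.L5H413
import Fermat.Agent.S55.G.Rec.H742.WeakApprox
import Fermat.Agent.S55.G.Rec.LocalNormH844
import Fermat.Agent.S55.G.Rec.LocResH496
import Fermat.Agent.S55.G.Rec.OrbitNormH934
import Fermat.Agent.S55.G.Rec.H124.ProductFormula
import Fermat.Agent.S55.G.Rec.VdegH707
import Fermat.Agent.S55.G.Rec.SupportFiniteH181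

/-!
# S55 / layer G / block REC : THE RECIPROCITY LAW  (assembly, helper1)

All 19 leaves of the norm route (`Rec/Spec2.lean`) are proved on main; this file assembles them.

* `cycloSum I : CycloSumSpec I`                                  (STEP A, unconditional)
* `killAboveP I p (hp : p ≠ 2) : KillAbovePSpec I p`             (STEP C, unconditional)
* `trivAboveP I p hp (HP : HassePrincipleSpec p) : TrivAbovePSpec I p`   (STEP B)
* **`reciprocity I p hp (HP : HassePrincipleSpec p) : ReciprocitySpec I p`** :
  for every local invariant system `I`, every odd prime `p` and every number field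
  `K = ℚ̄^U`: `∑_v inv_v (x_v) = 0` for all `x ∈ Br(K)` of `p`-power order.

The only remaining inputs are the adapters `HassePrincipleSpec p` (from the inequalities,
`Rec/HP/`) and the existence of a `LocalInvSystem` (from local class field theory, `Rec/Loc/`).
-/

set_option autoImplicit false

namespace Fermat.Agent.S55.G.Rec

/-- (L3) the unramified formula, unconditional. -/
theorem unramCup (I : LocalInvSystem) : UnramCupSpec I :=
  H900.unramCup_of H931.localStructure H496.cupAdd I

/-- **STEP A**: the cyclotomic sum formula. -/
theorem cycloSum (I : LocalInvSystem) : CycloSumSpec I :=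
  H511.cycloSum_of H496.cupLoc H844.localNorm H931.localStructure H854.cycloFrob
    H413.localCycloNorm H934.orbitNorm
    (H124.productFormula_of H934.orbitNorm VdegH707.vdegSpec) H181.supportFinite I (unramCup I)

/-- **STEP C**: killing the components above `p`. -/
theorem killAboveP (I : LocalInvSystem) (p : ℕ) [Fact p.Prime] (hp : p ≠ 2) :
    KillAbovePSpec I p :=
  H174.killAboveP_of I p hp H931.localStructure H742.weakApprox (cycloSum I)

/-- **STEP B**: classes trivial above `p`, from the Hasse principle. -/
theorem trivAboveP (I : LocalInvSystem) (p : ℕ) [Fact p.Prime] (hp : p ≠ 2)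
    (HP : HassePrincipleSpec p) : TrivAbovePSpec I p :=
  H415.trivAboveP_of I p hp HP Glob.cyclicSplit H181.supportFinite H496.locRes (cycloSum I)

/-- **THE RECIPROCITY LAW** (`p`-primary part, `p` odd), from the Hasse principle. -/
theorem reciprocity (I : LocalInvSystem) (p : ℕ) [Fact p.Prime] (hp : p ≠ 2)
    (HP : HassePrincipleSpec p) : ReciprocitySpec I p :=
  reciprocity_of I p (trivAboveP I p hp HP) (killAboveP I p hp) H181.supportFinite

end Fermat.Agent.S55.G.Rec
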