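import Mathlib
import Fermat.Prelude.Def_EllipticCurve_FrobeniusTrace
import Fermat.Agent.Lib.Cheb.Spec
import Fermat.Agent.Lib.Cheb.H343.PrimeSumZ
import Fermat.Agent.Lib.Cheb.H764.Count
import Fermat.Agent.Lib.Cheb.H943.Frob
import Fermat.Agent.Lib.Cheb.H993.Glue
import Fermat.Agent.S54.ValRing

/-!
# S55 / layer G / block REC — leaf N1: auxiliary primes that split completely

`coord/S55-G-REC.md` (helper1) §3 (N1).  For a prime `p`, `k : ℕ`, a finite extension `F` of `ℚ`
inside `ℚ̄` and a finite set `T` of primes there is a prime `r ∉ T` with `r ≡ 1 mod p ^ k` which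
splits completely in `F`: every valuation subring of `ℚ̄` over `r` has decomposition group
acting trivially on `F`.

Finite level (`exists_prime_decomp_eq_bot`): a Galois number field `L` has, outside any finite
set, a prime `r` all of whose primes in `𝓞 L` have trivial decomposition group and residue
field `𝔽_r`.  This uses the landed Tier 1 of the shared library CHEB (`frobFinite` with `σ = 1`).
-/

set_option autoImplicit false
set_option linter.unusedSectionVars false
set_option linter.style.haveILetI false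

open NumberField
open scoped Pointwise

namespace Fermat.Agent.S55.G.Rec.H897

open Fermat.Agent.Lib.Cheb

/-- Tier 1 of CHEB, assembled: the finite-level Frobenius density statement. -/
theorem frobFiniteStatement : Spec.FrobFiniteStatement :=
  H993.frobFinite H343.primeSum H343.primeCountBound H764.count H943.frobStatement

section FiniteLevel

variable (L : Type) [Field L] [NumberField L]

/-- If `r ∈ P` for a prime number `r` and a prime ideal `P` of `𝓞 L`, then `P ∩ ℤ = (r)`. -/
lemma under_eq_span {r : ℕ} (hr : r.Prime) {P : Ideal (𝓞 L)} (hP : P.IsPrime)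
    (hrP : (r : 𝓞 L) ∈ P) : P.under ℤ = Ideal.span {(r : ℤ)} := by
  have hmem : (r : ℤ) ∈ P.under ℤ := by
    rw [Ideal.under_def, Ideal.mem_comap]
    simpa using hrP
  have hmax : (Ideal.span {(r : ℤ)}).IsMaximal :=
    PrincipalIdealRing.isMaximal_of_irreducible
      (Nat.prime_iff_prime_int.mp hr).irreducible
  have hle : Ideal.span {(r : ℤ)} ≤ P.under ℤ := by
    rw [Ideal.span_le]
    simpa using hmem
  have hne : P.under ℤ ≠ ⊤ := by
    haveI := hP
    exact (Ideal.IsPrime.under ℤ P).ne_top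
  exact (hmax.eq_of_le hne hle).symm

/-- The residue field of `ℤ` below a prime of `𝓞 L` over `r` has `r` elements. -/
lemma card_quot_under {r : ℕ} (hr : r.Prime) {P : Ideal (𝓞 L)} (hP : P.IsPrime)
    (hrP : (r : 𝓞 L) ∈ P) : Nat.card (ℤ ⧸ P.under ℤ) = r := by
  rw [under_eq_span L hr hP hrP, Int.card_ideal_quot]

variable [IsGalois ℚ L]

/-- **Finite level.** Outside any finite set `T` there is a prime `r` such that every prime of
`𝓞 L` above `r` has trivial decomposition group, and the identity is an arithmetic Frobenius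
at each of them. -/
theorem exists_prime_decomp_eq_bot (T : Finset ℕ) :
    ∃ r : ℕ, r.Prime ∧ r ∉ T ∧ (∃ P : Ideal (𝓞 L), P.IsPrime ∧ (r : 𝓞 L) ∈ P) ∧
      ∀ Q : Ideal (𝓞 L), Q.IsPrime → (r : 𝓞 L) ∈ Q →
        Spec.decomp L Q = ⊥ ∧ IsArithFrobAt ℤ (1 : L ≃ₐ[ℚ] L) Q := by
  obtain ⟨r, P, τ, hr, hrT, hP, hrP, hI, hτ, hz⟩ := frobFiniteStatement L 1 T
  have hτ1 : τ = 1 := by
    have : τ ∈ Subgroup.zpowers (1 : L ≃ₐ[ℚ] L) := hz ▸ Subgroup.mem_zpowers τ
    simpa [Subgroup.zpowers_one_eq_bot] using this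
  subst hτ1
  haveI := hP
  have hD : Spec.decomp L P = ⊥ := by
    rw [H943.decomp_eq_zpowers hr hrP hI hτ, Subgroup.zpowers_one_eq_bot]
  refine ⟨r, hr, hrT, ⟨P, hP, hrP⟩, fun Q hQ hrQ => ?_⟩
  haveI := hQ
  haveI : P.LiesOver (Ideal.span {(r : ℤ)}) := ⟨(under_eq_span L hr hP hrP).symm⟩
  haveI : Q.LiesOver (Ideal.span {(r : ℤ)}) := ⟨(under_eq_span L hr hQ hrQ).symm⟩
  obtain ⟨g, hg⟩ := Ideal.exists_smul_eq_of_isGaloisGroup (Ideal.span {(r : ℤ)}) P Q (L ≃ₐ[ℚ] L)
  subst hg
  refine ⟨?_, ?_⟩
  · show MulAction.stabilizer (L ≃ₐ[ℚ] L) (g • P) = ⊥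
    rw [MulAction.stabilizer_smul_eq_stabilizer_map_conj]
    have : MulAction.stabilizer (L ≃ₐ[ℚ] L) P = ⊥ := hD
    rw [this, Subgroup.map_bot]
  · have := hτ.conj g
    simpa using this

end FiniteLevel

section PreludeLevel

/-- `ℚ̄`. -/
abbrev Qb : Type := AlgebraicClosure ℚ

variable (E : IntermediateField ℚ Qb)

/-- The prime of `𝓞 E` below a valuation subring of `ℚ̄`. -/
def primeBelowE (A : ValuationSubring Qb) : Ideal (𝓞 E) where
  carrier := {x | (((x : E) : Qb)) ∈ A.nonunits}
  add_mem' := fun {a b} ha hb => by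
    have := A.nonunits.add_mem ha hb
    simpa using this
  zero_mem' := by
    show (((0 : 𝓞 E) : E) : Qb) ∈ A.nonunits
    simp
  smul_mem' := fun c b hb => by
    show ((((c • b : 𝓞 E)) : E) : Qb) ∈ A.nonunits
    obtain ⟨hb1, hb2⟩ := ValuationSubring.mem_nonunits_iff_exists_mem_maximalIdeal.mp hb
    have hcint : IsIntegral ℤ (((c : E)) : Qb) := by
      have := c.2
      exact (map_isIntegral_int (algebraMap E Qb) (RingOfIntegers.isIntegral_coe c))
    have hc : (((c : E)) : Qb) ∈ A := Fermat.Agent.S54.isIntegral_mem_valuationSubring A hcint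
    have := Ideal.mul_mem_left _ (⟨_, hc⟩ : A) hb2
    have h2 := ValuationSubring.mem_nonunits_iff_exists_mem_maximalIdeal.mpr ⟨_, this⟩
    simpa using h2

lemma mem_primeBelowE (A : ValuationSubring Qb) (x : 𝓞 E) :
    x ∈ primeBelowE E A ↔ (((x : E) : Qb)) ∈ A.nonunits := Iff.rfl

lemma coe_mem_valuationSubring (A : ValuationSubring Qb) (x : 𝓞 E) : (((x : E) : Qb)) ∈ A :=
  Fermat.Agent.S54.isIntegral_mem_valuationSubring A
    (map_isIntegral_int (algebraMap E Qb) (RingOfIntegers.isIntegral_coe x))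

lemma primeBelowE_isPrime (A : ValuationSubring Qb) : (primeBelowE E A).IsPrime := by
  constructor
  · intro h
    have : (1 : 𝓞 E) ∈ primeBelowE E A := by rw [h]; trivial
    rw [mem_primeBelowE, ValuationSubring.mem_nonunits_iff] at this
    simp at this
  · intro a b hab
    rw [mem_primeBelowE, ValuationSubring.mem_nonunits_iff] at hab ⊢
    rw [mem_primeBelowE, ValuationSubring.mem_nonunits_iff]
    have ha : A.valuation (((a : E) : Qb)) ≤ 1 :=
      (A.valuation_le_one_iff _).mpr (coe_mem_valuationSubring E A a)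
    have hb : A.valuation (((b : E) : Qb)) ≤ 1 :=
      (A.valuation_le_one_iff _).mpr (coe_mem_valuationSubring E A b)
    by_contra hcon
    rw [not_or, not_lt, not_lt] at hcon
    have ha1 : A.valuation (((a : E) : Qb)) = 1 := le_antisymm ha hcon.1
    have hb1 : A.valuation (((b : E) : Qb)) = 1 := le_antisymm hb hcon.2
    have : A.valuation ((((a * b : 𝓞 E) : E) : Qb)) = 1 := by
      push_cast
      rw [map_mul, ha1, hb1, mul_one]
    exact absurd hab (by rw [this]; exact lt_irrefl _)

lemma natCast_mem_primeBelowE {A : ValuationSubring Qb} {r : ℕ} (hA : A.LiesOverPrime r) :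
    (r : 𝓞 E) ∈ primeBelowE E A := by
  rw [mem_primeBelowE]
  have : ((((r : 𝓞 E)) : E) : Qb) = (r : Qb) := by simp
  rw [this]
  exact hA

/-- An automorphism stabilising a valuation subring preserves its non-units. -/
lemma apply_mem_nonunits {A : ValuationSubring Qb} {τ : Qb ≃ₐ[ℚ] Qb} (hτ : τ • A = A)
    {y : Qb} (hy : y ∈ A.nonunits) : τ y ∈ A.nonunits := by
  rw [ValuationSubring.mem_nonunits_iff_or] at hy ⊢
  rcases hy with rfl | hy
  · left; simp
  · right
    intro h
    apply hy
    have h2 : τ y⁻¹ ∈ τ • A := by rw [hτ, map_inv₀]; exact h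
    rw [ValuationSubring.mem_pointwise_smul_iff_inv_smul_mem] at h2
    simpa using h2

variable [Normal ℚ E]

/-- The restriction to `E` of an element of the decomposition group of `A` stabilises the prime
of `𝓞 E` below `A`. -/
lemma restrictNormal_mem_stabilizer {A : ValuationSubring Qb} {σ : Qb ≃ₐ[ℚ] Qb}
    (hσ : σ ∈ A.decompositionSubgroup ℚ) :
    σ.restrictNormal E ∈ MulAction.stabilizer (E ≃ₐ[ℚ] E) (primeBelowE E A) := by
  have hσA : σ • A = A := hσ
  have hσA' : σ⁻¹ • A = A := by
    have := (A.decompositionSubgroup ℚ).inv_mem hσ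
    exact this
  rw [MulAction.mem_stabilizer_iff]
  ext x
  rw [Ideal.mem_pointwise_smul_iff_inv_smul_mem, mem_primeBelowE, mem_primeBelowE]
  have hcomm : ((((σ.restrictNormal E)⁻¹ • x : 𝓞 E) : E) : Qb) = σ⁻¹ (((x : E) : Qb)) := by
    have h1 : (σ.restrictNormal E)⁻¹ = (σ⁻¹).restrictNormal E := by
      have := map_inv (AlgEquiv.restrictNormalHom (F := ℚ) (K₁ := Qb) E) σ
      exact this.symm
    rw [h1]
    exact AlgEquiv.restrictNormal_commutes σ⁻¹ E (x : E)
  rw [hcomm]
  constructor
  · intro h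
    have := apply_mem_nonunits hσA h
    simpa using this
  · intro h
    exact apply_mem_nonunits hσA' h

end PreludeLevel

section Main

/-- **REC-N1.** For a prime `p`, `k : ℕ`, a finite extension `F` of `ℚ` inside `ℚ̄` and a finite
set `T` of natural numbers, there is a prime `r ∉ T`, `r ≠ p`, `r ≡ 1 mod p ^ k`, which splits
completely in `F`: the decomposition group of every valuation subring of `ℚ̄` over `r` acts
trivially on `F` (even on the normal closure of `F(ζ_{p^k})`). -/
theorem exists_aux_prime_totally_split (p : ℕ) (hp : p.Prime) (k : ℕ)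
    (F : IntermediateField ℚ Qb) (hF : FiniteDimensional ℚ F) (T : Finset ℕ) :
    ∃ r : ℕ, r.Prime ∧ r ∉ T ∧ r ≠ p ∧ r ≡ 1 [MOD p ^ k] ∧
      ∀ A : ValuationSubring Qb, A.LiesOverPrime r →
        A.decompositionSubgroup ℚ ≤ F.fixingSubgroup := by
  haveI : Algebra.IsAlgebraic ℚ Qb := AlgebraicClosure.isAlgebraic ℚ
  haveI : IsAlgClosure ℚ Qb := ⟨inferInstance, inferInstance⟩
  haveI : Normal ℚ Qb := IsAlgClosure.normal ℚ Qb
  have hpk : 0 < p ^ k := pow_pos hp.pos k
  haveI : NeZero ((p ^ k : ℕ) : Qb) := ⟨by exact_mod_cast hpk.ne'⟩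
  obtain ⟨ζ, hζ⟩ : ∃ ζ : Qb, IsPrimitiveRoot ζ (p ^ k) :=
    HasEnoughRootsOfUnity.exists_primitiveRoot Qb (p ^ k)
  have hζint : IsIntegral ℚ ζ := Algebra.IsIntegral.isIntegral ζ
  haveI := hF
  haveI : FiniteDimensional ℚ (IntermediateField.adjoin ℚ {ζ}) :=
    IntermediateField.adjoin.finiteDimensional hζint
  set K0 : IntermediateField ℚ Qb := F ⊔ IntermediateField.adjoin ℚ {ζ} with hK0
  haveI : FiniteDimensional ℚ K0 := IntermediateField.finiteDimensional_sup F _
  set E : IntermediateField ℚ Qb := IntermediateField.normalClosure ℚ K0 Qb with hE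
  have hK0E : K0 ≤ E := IntermediateField.le_normalClosure K0
  have hFE : F ≤ E := le_sup_left.trans hK0E
  have hζE : ζ ∈ E :=
    hK0E (le_sup_right (a := F) (IntermediateField.mem_adjoin_simple_self ℚ ζ))
  haveI : FiniteDimensional ℚ E := normalClosure.is_finiteDimensional ℚ K0 Qb
  haveI : Normal ℚ E := normalClosure.normal ℚ K0 Qb
  haveI : NumberField E := { to_charZero := inferInstance, to_finiteDimensional := inferInstance }
  haveI : IsGalois ℚ E := ⟨⟩
  obtain ⟨r, hr, hrT, ⟨P, hP, hrP⟩, hall⟩ := exists_prime_decomp_eq_bot E (insert p T)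
  have hrp : r ≠ p := fun h => hrT (h ▸ Finset.mem_insert_self _ _)
  have hrT' : r ∉ T := fun h => hrT (Finset.mem_insert_of_mem h)
  refine ⟨r, hr, hrT', hrp, ?_, ?_⟩
  · -- the congruence, from the Frobenius `1` at `P` acting on `ζ`
    haveI := hP
    obtain ⟨-, hfrob⟩ := hall P hP hrP
    let ζE : E := ⟨ζ, hζE⟩
    have hζEint : IsIntegral ℤ ζE := by
      have h1 : ζE ^ (p ^ k) = 1 := by
        apply Subtype.ext
        simpa using hζ.pow_eq_one
      exact IsIntegral.of_pow hpk ⟨Polynomial.X - 1, Polynomial.monic_X_sub_C 1, by simp [h1]⟩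
    let ζO : 𝓞 E := ⟨ζE, hζEint⟩
    have hζO : ζO ^ (p ^ k) = 1 := by
      apply RingOfIntegers.ext
      apply Subtype.ext
      have h0 : (((ζO : 𝓞 E) : E) : Qb) = ζ := rfl
      push_cast
      rw [h0]
      exact hζ.pow_eq_one
    have hnot : ((p ^ k : ℕ) : 𝓞 E) ∉ P := by
      intro hmem
      have hpP : (p : 𝓞 E) ∈ P := by
        have : ((p : 𝓞 E)) ^ k ∈ P := by simpa using hmem
        exact hP.mem_of_pow_mem k this
      have h1 : (p : ℤ) ∈ P.under ℤ := by
        rw [Ideal.under_def, Ideal.mem_comap]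
        simpa using hpP
      rw [under_eq_span E hr hP hrP, Ideal.mem_span_singleton] at h1
      have h2 : r ∣ p := by exact_mod_cast h1
      exact hrp ((Nat.prime_dvd_prime_iff_eq hr hp).1 h2)
    have h := AlgHom.IsArithFrobAt.apply_of_pow_eq_one hfrob hζO hnot
    rw [card_quot_under E hr hP hrP] at h
    have h' : ζO = ζO ^ r := by simpa using h
    have h'' : ζ = ζ ^ r := by
      have h0 : (((ζO : 𝓞 E) : E) : Qb) = ζ := rfl
      have := congrArg (fun x : 𝓞 E => (((x : E)) : Qb)) h'
      push_cast at this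
      rw [h0] at this
      exact this
    have hζ0 : ζ ≠ 0 := hζ.ne_zero hpk.ne'
    have hr1 : 1 ≤ r := hr.one_lt.le
    have h3 : ζ ^ (r - 1) = 1 := by
      have h4 : ζ ^ r = ζ ^ (r - 1) * ζ := by
        rw [← pow_succ, Nat.sub_add_cancel hr1]
      rw [h4] at h''
      have h5 : ζ ^ (r - 1) * ζ = 1 * ζ := by rw [one_mul]; exact h''.symm
      exact mul_right_cancel₀ hζ0 h5
    have hdvd : p ^ k ∣ r - 1 := hζ.dvd_of_pow_eq_one _ h3
    exact ((Nat.modEq_iff_dvd' hr1).2 hdvd).symm
  · -- the decomposition groups act trivially on `E ⊇ F`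
    intro A hA σ hσ
    have hQ := primeBelowE_isPrime E A
    obtain ⟨hD, -⟩ := hall (primeBelowE E A) hQ (natCast_mem_primeBelowE E hA)
    have hmem : σ.restrictNormal E ∈ Spec.decomp E (primeBelowE E A) :=
      restrictNormal_mem_stabilizer E hσ
    rw [hD, Subgroup.mem_bot] at hmem
    rw [IntermediateField.mem_fixingSubgroup_iff]
    intro x hx
    have h1 := AlgEquiv.restrictNormal_commutes σ E ⟨x, hFE hx⟩
    rw [hmem] at h1
    simpa using h1.symm

end Main

end Fermat.Agent.S55.G.Rec.H897
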