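import Fermat.Agent.S55.G.Rec.Spec2
import Fermat.Agent.S55.Bridge.Krasner

/-!
# S55 / layer G / block REC : openness helpers (helper415)

* `index_ne_zero_of_isOpenQ` : an open subgroup of `G_ℚ` has finite index;
* `isOpenL_locSub` : the local group `locSub q g U` of an open `U` is open;
* `isOpenQ_of_le`, `isOpenQ_inf_fixingSubgroup` : bigger subgroups are open, intersections with
  finite levels are open;
* `relIndex_locSub_ker` : the local degree `[V_v : V'_w]` for `V' = locSub q g (ker χ)` is the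
  cardinality of the image of `χ ∘ locHom`.
-/

set_option autoImplicit false

noncomputable section

namespace Fermat.Agent.S55.G.Rec.H415

open Fermat.Agent.S55.G.Rec groupCohomology

local notation "Qb" => AlgebraicClosure ℚ
local notation "GQ" => (AlgebraicClosure ℚ ≃ₐ[ℚ] AlgebraicClosure ℚ)

/-- An open subgroup of `G_ℚ` has finite index. -/
theorem index_ne_zero_of_isOpenQ {U : Subgroup GQ} (hU : IsOpenQ U) : U.index ≠ 0 := by
  obtain ⟨F, hF, hFU⟩ := hU
  haveI := hF
  haveI : IsAlgClosure ℚ Qb := ⟨inferInstance, AlgebraicClosure.isAlgebraic ℚ⟩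
  haveI : Normal ℚ Qb := IsAlgClosure.normal ℚ Qb
  haveI : IsGalois ℚ Qb := isGalois_iff.mpr ⟨inferInstance, inferInstance⟩
  have h1 : F.fixingSubgroup.index ≠ 0 := by
    rw [← IntermediateField.finrank_eq_fixingSubgroup_index]
    exact (Module.finrank_pos (R := ℚ) (M := F)).ne'
  haveI : F.fixingSubgroup.FiniteIndex := ⟨h1⟩
  exact (Subgroup.finiteIndex_of_le hFU).index_ne_zero

/-- A subgroup containing an open subgroup is open. -/
theorem isOpenQ_of_le {U U' : Subgroup GQ} (hU : IsOpenQ U) (h : U ≤ U') : IsOpenQ U' := by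
  obtain ⟨F, hF, hFU⟩ := hU
  exact ⟨F, hF, hFU.trans h⟩

/-- The subgroup of an open subgroup `U` cut out by a finite level is open. -/
theorem isOpenQ_of_level {U U' : Subgroup GQ} (hU : IsOpenQ U)
    (F' : IntermediateField ℚ Qb) [FiniteDimensional ℚ F']
    (h : ∀ σ ∈ U, σ ∈ F'.fixingSubgroup → σ ∈ U') : IsOpenQ U' := by
  obtain ⟨F, hF, hFU⟩ := hU
  haveI := hF
  refine ⟨F ⊔ F', inferInstance, fun σ hσ => ?_⟩
  exact h σ (hFU (IntermediateField.fixingSubgroup_antitone le_sup_left hσ))
    (IntermediateField.fixingSubgroup_antitone le_sup_right hσ)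

/-- The local group of an open subgroup is open. -/
theorem isOpenL_locSub {U : Subgroup GQ} (hU : IsOpenQ U) (q : ℕ) [Fact q.Prime] (g : GQ) :
    IsOpenL q (locSub q g U) := by
  obtain ⟨F, hF, hFU⟩ := hU
  haveI := hF
  haveI := finiteDimensional_map_inv F g
  obtain ⟨E, hE, hEF⟩ :=
    Fermat.Agent.S55.Bridge.exists_local_level_of_global q (F.map (g⁻¹ : GQ).toAlgHom)
  refine ⟨E, hE, fun τ hτ => ?_⟩
  rw [mem_locSub]
  exact hFU ((mem_fixingSubgroup_map_inv F g _).1 (hEF τ hτ))

/-- The local degree `[V_v : V'_w]`, `V' = locSub q g (ker χ)`, is the cardinality of the image of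
the local character `χ ∘ locHom`. -/
theorem relIndex_locSub_ker (q : ℕ) [Fact q.Prime] (g : GQ) (U : Subgroup GQ) {B : Type*}
    [Group B] (χ : ↥U →* B) :
    (locSub q g (χ.ker.map U.subtype)).relIndex (locSub q g U) =
      Nat.card (χ.comp (locHom q g U)).range := by
  rw [← Subgroup.index_ker, Subgroup.relIndex]
  congr 1
  ext τ
  rw [Subgroup.mem_subgroupOf, mem_locSub, MonoidHom.mem_ker, Subgroup.mem_map]
  constructor
  · rintro ⟨u, hu, hu'⟩
    have : u = locHom q g U τ := Subtype.ext hu'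
    rw [MonoidHom.comp_apply, ← this]
    exact hu
  · intro h
    exact ⟨locHom q g U τ, h, rfl⟩

end Fermat.Agent.S55.G.Rec.H415
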