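import Fermat.Agent.S55.G.Rec.WAH900.Places

/-!
# S55 / G / REC : leaf G3 (`WeakApproxSpec`)   (helper900)

`weakApprox : WeakApproxSpec` — weak approximation in `K = ℚ̄^U`: prescribed valuations at the
places above `p` (double cosets `U \ G_ℚ / D_p`) and closeness to `1` at all places above `r ≠ p`.

Proof: global uniformizers `ϖ_g ∈ K` (`WAH900.exists_global_isUniformizer`: density of `ι(g⁻¹K)` in
its completion), the dictionary places ↔ double cosets
(`WAH900.exists_double_coset_of_same_place`), finiteness of the set of places above `r`, and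
Mathlib's weak approximation theorem for pairwise inequivalent absolute values
(`WAH900.exists_approx`).
-/

set_option autoImplicit false
set_option linter.style.haveILetI false

noncomputable section

namespace Fermat.Agent.S55.G.Rec.WAH900

open Fermat.Agent.S55.G.Rec

local notation "Qb" => AlgebraicClosure ℚ
local notation "GQ" => (AlgebraicClosure ℚ ≃ₐ[ℚ] AlgebraicClosure ℚ)

/-- **G3** (`WeakApproxSpec`). -/
theorem weakApprox : WeakApproxSpec := by
  intro U hU p r hpF hrF hpr Rp hRp j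
  classical
  have hp : p.Prime := hpF.out
  have hr : r.Prime := hrF.out
  haveI hfd : FiniteDimensional ℚ (fixedK U) := finiteDimensional_fixedK hU
  -- global uniformizers
  have hunif : ∀ g : GQ, ∃ ϖ : fixedK U,
      IsUniformizer p (locSub p g U) (padicEmbedding p ((g⁻¹ : GQ) (ϖ : Qb))) := by
    intro g
    obtain ⟨ϖ, hϖ, h⟩ := exists_global_isUniformizer p g hU
    exact ⟨⟨ϖ, hϖ⟩, h⟩
  choose ϖ hϖ using hunif
  have hϖ0 : ∀ g, ϖ g ≠ 0 := by
    intro g h0
    apply (hϖ g).2.1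
    rw [h0]
    simp
  -- the targets at the places above `p`
  let Z : GQ → fixedK U := fun g => ϖ g ^ (j g)
  have hZ0 : ∀ g, Z g ≠ 0 := fun g => zpow_ne_zero _ (hϖ0 g)
  -- the finite set of places
  let 𝒲 : Set (AbsoluteValue (fixedK U) ℝ) :=
    (absAt p (fixedK U) '' (Rp : Set GQ)) ∪ Set.range (absAt r (fixedK U))
  have h𝒲fin : 𝒲.Finite := (Rp.finite_toSet.image _).union (finite_range_absAt r (fixedK U))
  haveI : Finite 𝒲 := h𝒲fin.to_subtype
  have habove : ∀ w : 𝒲, IsAbove p w.1 ∨ IsAbove r w.1 := by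
    rintro ⟨w, hw | hw⟩
    · obtain ⟨g, -, rfl⟩ := hw
      exact Or.inl (isAbove_absAt p _ g)
    · obtain ⟨g, rfl⟩ := hw
      exact Or.inr (isAbove_absAt r _ g)
  have hnontriv : ∀ w : 𝒲, w.1.IsNontrivial := by
    intro w
    rcases habove w with h | h
    · exact h.isNontrivial hp
    · exact h.isNontrivial hr
  have hpair : Pairwise fun w w' : 𝒲 => ¬ w.1.IsEquiv w'.1 := by
    intro w w' hne heq
    rcases habove w with h | h <;> rcases habove w' with h' | h'
    · exact hne (Subtype.ext (h.eq_of_isEquiv hp h' heq))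
    · exact h.not_isEquiv hp hpr h' heq
    · exact h.not_isEquiv hr hpr.symm h' heq
    · exact hne (Subtype.ext (h.eq_of_isEquiv hr h' heq))
  let isP : 𝒲 → Prop := fun w => ∃ g ∈ Rp, absAt p (fixedK U) g = w.1
  let z : 𝒲 → fixedK U := fun w => if h : isP w then Z h.choose else 1
  let ε : 𝒲 → ℝ := fun w => if isP w then w.1 (z w) else 1
  have hz0 : ∀ w, z w ≠ 0 := by
    intro w
    by_cases h : isP w
    · simp only [z, dif_pos h]
      exact hZ0 _
    · simp only [z, dif_neg h]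
      exact one_ne_zero
  have hε : ∀ w, 0 < ε w := by
    intro w
    by_cases h : isP w
    · simp only [ε, if_pos h]
      exact w.1.pos (hz0 w)
    · simp only [ε, if_neg h]
      exact one_pos
  obtain ⟨a, ha⟩ := exists_approx (fun w : 𝒲 => w.1) hnontriv hpair z ε hε
  -- places above `r`
  have hnotP : ∀ g : GQ, ∀ hw : absAt r (fixedK U) g ∈ 𝒲, ¬ isP ⟨absAt r (fixedK U) g, hw⟩ := by
    rintro g hw ⟨g₀, -, h0⟩
    have h1 : absAt p (fixedK U) g₀ (p : fixedK U) = absAt r (fixedK U) g (p : fixedK U) := by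
      rw [h0]
    rw [absAt_natCast_self, absAt_natCast_of_ne r _ g hp hpr] at h1
    have hp1 : (1 : ℝ) < p := by exact_mod_cast hp.one_lt
    exact (inv_lt_one_of_one_lt₀ hp1).ne h1
  have hr_part : ∀ g : GQ, absAt r (fixedK U) g (a - 1) < 1 := by
    intro g
    have hw : absAt r (fixedK U) g ∈ 𝒲 := Or.inr ⟨g, rfl⟩
    have h1 := ha ⟨_, hw⟩
    have hn := hnotP g hw
    simp only [z, ε, dif_neg hn, if_neg hn] at h1
    exact h1
  have ha0 : (a : Qb) ≠ 0 := by
    intro h0
    have h1 : a = 0 := by exact_mod_cast h0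
    have h2 := hr_part 1
    rw [h1, zero_sub, AbsoluteValue.map_neg, AbsoluteValue.map_one] at h2
    exact lt_irrefl _ h2
  -- places above `p`
  have hchoose : ∀ (g : GQ) (hg : g ∈ Rp)
      (h : isP ⟨absAt p (fixedK U) g, Or.inl ⟨g, hg, rfl⟩⟩), h.choose = g := by
    intro g hg h
    obtain ⟨hg₀, hg₀eq⟩ := h.choose_spec
    set g₀ := h.choose with hg₀def
    have hsame : ∀ x ∈ fixedK U, ‖padicEmbedding p ((g₀⁻¹ : GQ) x)‖ ≤ 1 ↔
        ‖padicEmbedding p ((g⁻¹ : GQ) x)‖ ≤ 1 := by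
      intro x hx
      have := congrArg (fun v : AbsoluteValue (fixedK U) ℝ => v ⟨x, hx⟩) hg₀eq
      simp only [absAt_apply] at this
      rw [this]
    obtain ⟨u, hu, d, hd, hgud⟩ := exists_double_coset_of_same_place p hU g₀ g hsame
    exact (hRp g).unique ⟨hg₀, u, hu, d, hd, hgud⟩
      ⟨hg, 1, U.one_mem, 1, Subgroup.one_mem _, by rw [one_mul, mul_one]⟩
  have hp_part : ∀ g ∈ Rp, absAt p (fixedK U) g (a - Z g) < absAt p (fixedK U) g (Z g) := by
    intro g hg
    have hw : absAt p (fixedK U) g ∈ 𝒲 := Or.inl ⟨g, hg, rfl⟩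
    have hisP : isP ⟨_, hw⟩ := ⟨g, hg, rfl⟩
    have h1 := ha ⟨_, hw⟩
    have hzw : z ⟨_, hw⟩ = Z g := by
      simp only [z, dif_pos hisP]
      exact congrArg Z (hchoose g hg hisP)
    simp only [ε, if_pos hisP] at h1
    rw [hzw] at h1
    exact h1
  refine ⟨Units.mk0 (a : Qb) ha0, gFixed_iff.2 a.2, fun g hg => ?_, fun g => ?_⟩
  · -- the place `g` above `p`
    have hP0 : padicEmbedding p ((g⁻¹ : GQ) (ϖ g : Qb)) ≠ 0 := (hϖ g).2.1
    set P : PadicAlgCl p := padicEmbedding p ((g⁻¹ : GQ) (ϖ g : Qb)) with hPdef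
    set A : PadicAlgCl p := padicEmbedding p ((g⁻¹ : GQ) (a : Qb)) with hAdef
    have hZ : padicEmbedding p ((g⁻¹ : GQ) ((Z g : fixedK U) : Qb)) = P ^ (j g) := by
      simp only [Z]
      have hcoe : ((ϖ g ^ j g : fixedK U) : Qb) = (ϖ g : Qb) ^ j g := rfl
      rw [hcoe, map_zpow₀, map_zpow₀]
    have h1 := hp_part g hg
    rw [absAt_apply, absAt_apply, hZ] at h1
    have h2 : ((a - Z g : fixedK U) : Qb) = (a : Qb) - ((Z g : fixedK U) : Qb) := by
      push_cast
      rfl
    rw [h2, map_sub, map_sub, hZ, norm_sub_rev] at h1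
    have hA : ‖A‖ = ‖P ^ (j g)‖ := norm_eq_of_norm_sub_lt p h1
    refine ⟨Units.mk0 P hP0, (Units.mk0 P hP0) ^ (-(j g)) * locPushMul p g (Units.mk0 (a : Qb) ha0),
      hϖ g, ?_, ?_⟩
    · rw [Units.val_mul, Units.val_zpow_eq_zpow_val, locPushMul_coe, norm_mul]
      show ‖P ^ (-(j g))‖ * ‖A‖ = 1
      rw [hA, ← norm_mul, ← zpow_add₀ hP0, neg_add_cancel, zpow_zero, norm_one]
    · rw [zpow_neg, mul_inv_cancel_left]
  · -- the places above `r`
    have h1 := hr_part g
    rw [absAt_apply] at h1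
    have h2 : ((a - 1 : fixedK U) : Qb) = (a : Qb) - 1 := by
      push_cast
      rfl
    rw [h2, map_sub, map_sub, map_one, map_one] at h1
    rw [locPushMul_coe]
    exact h1

end Fermat.Agent.S55.G.Rec.WAH900

end
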