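import Fermat.Agent.S55.G.Rec.Final
import Fermat.Agent.S55.G.Rec.StepAH511
import Fermat.Agent.S55.G.Rec.StepBH415
import Fermat.Agent.S55.G.Rec.KillAbovePH174
import Fermat.Agent.S55.G.Rec.Glob.CyclicSplit
import Fermat.Agent.S55.G.Rec.L2H931
import Fermat.Agent.S55.G.Rec.WeakApproxH900
import Fermat.Agent.S55.G.Rec.LocalNormH844
import Fermat.Agent.S55.G.Rec.L5H413
import Fermat.Agent.S55.G.Rec.H124.ProductFormula
import Fermat.Agent.S55.G.Rec.VdegH707
import Fermat.Agent.S55.G.Rec.OrbitNormH934
import Fermat.Agent.S55.G.Rec.SupportFiniteH181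
import Fermat.Agent.S55.G.Rec.LocResH496

/-!
# S55 / G / REC : the reciprocity law from the Hasse principle (assembly, helper174)

All leaves of the norm route (K1, K2, K4, K5, L1–L6, G1, G1', G3, G4, G5) and the steps A, B, C
are on main; this file assembles them:

* `cycloSum I : CycloSumSpec I`                                   (STEP A, unconditional);
* `killAboveP I p : KillAbovePSpec I p`  for `p` odd               (STEP C, unconditional);
* `trivAboveP I p : HassePrincipleSpec p → TrivAbovePSpec I p`     (STEP B);
* `reciprocity_of_hasse I p : HassePrincipleSpec p → ReciprocitySpec I p`  for `p` odd.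
-/

set_option autoImplicit false

namespace Fermat.Agent.S55.G.Rec.H174

open Fermat.Agent.S55.G.Rec

/-- (L3) the unramified formula, unconditional. -/
theorem unramCup (I : LocalInvSystem) : UnramCupSpec I :=
  H900.unramCup_of H931.localStructure H496.cupAdd I

/-- (G1') the product formula, unconditional. -/
theorem productFormula : ProductFormulaSpec :=
  H124.productFormula_of H934.orbitNorm VdegH707.vdegSpec

/-- **STEP A**, unconditional. -/
theorem cycloSum (I : LocalInvSystem) : CycloSumSpec I :=
  H511.cycloSum_of H496.cupLoc H844.localNorm H931.localStructure H854.cycloFrob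
    H413.localCycloNorm H934.orbitNorm productFormula H181.supportFinite I (unramCup I)

/-- **STEP C**, unconditional (for odd `p`). -/
theorem killAboveP (I : LocalInvSystem) (p : ℕ) [Fact p.Prime] (hp2 : p ≠ 2) :
    KillAbovePSpec I p :=
  killAboveP_of I p hp2 H931.localStructure WAH900.weakApprox (cycloSum I)

/-- **STEP B**, from the Hasse principle (for odd `p`). -/
theorem trivAboveP (I : LocalInvSystem) (p : ℕ) [Fact p.Prime] (hp2 : p ≠ 2)
    (hHP : HassePrincipleSpec p) : TrivAbovePSpec I p :=
  H415.trivAboveP_of I p hp2 hHP Glob.cyclicSplit H181.supportFinite H496.locRes (cycloSum I)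

/-- **The reciprocity law** `∑_v inv_v (x_v) = 0` on `Br(K)(p)`, `p` odd, for every local
invariant system, from the Hasse principle. -/
theorem reciprocity_of_hasse (I : LocalInvSystem) (p : ℕ) [Fact p.Prime] (hp2 : p ≠ 2)
    (hHP : HassePrincipleSpec p) : ReciprocitySpec I p :=
  reciprocity_of I p (trivAboveP I p hp2 hHP) (killAboveP I p hp2) H181.supportFinite

end Fermat.Agent.S55.G.Rec.H174
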