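import Fermat.Agent.S55.G.Rec.StepACycH511

/-!
# S55 / layer G / block REC / STEP A : the two local computations (helper511)

* `H511.exists_inv_eq` : at a place above `q ∤ m` the invariant of the cup class `a ∪ δχ`
  (`χ` cyclotomic mod `m`) is `k · χ(σ) / n` where `σ ∈ U` acts on `μ_m` by `q ^ f` and
  `vdeg a = f · k`.
* `H511.exists_norm_approx` : at a place above `ℓ` where the cup class is trivial, the local norm
  of `a` to `ℚ_ℓ` is `± ℓ^k · t` mod `ℓ^(k+e)`, `t` the cyclotomic value of some `κ ∈ ker χ`.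
-/

set_option autoImplicit false
set_option linter.style.haveILetI false

noncomputable section

namespace Fermat.Agent.S55.G.Rec.H511

open Fermat.Agent.S55.G.Rec groupCohomology

local notation "Qb" => AlgebraicClosure ℚ
local notation "GQ" => (AlgebraicClosure ℚ ≃ₐ[ℚ] AlgebraicClosure ℚ)

theorem exists_inv_eq (hK1 : CupLocSpec) (hL2 : LocalStructureSpec) (hL4 : CycloFrobSpec)
    (I : LocalInvSystem) (hL3 : UnramCupSpec I)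
    (U : Subgroup GQ) (hU : IsOpenQ U) (m : ℕ) [NeZero m] (n : ℕ) [NeZero n]
    (χ : ↥U →* Multiplicative (ZMod n)) (hχ : IsLevelConstant₁ U.subtype χ)
    (hcyc : IsCycloChar U m χ) (a : Qbˣ) (ha : GFixed U a)
    (q : ℕ) [Fact q.Prime] (hqm : Nat.Coprime q m) (r : GQ) :
    ∃ (σ : ↥U) (k : ℤ) (f : ℕ),
      I.inv q (locSub q r U) (locBr q r U (gcc U n χ a)) =
        ((((k : ℚ) * ((chiAdd χ σ).val : ℚ) / (n : ℚ) : ℚ)) : AddCircle (1 : ℚ)) ∧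
      cyc m (σ : GQ) = (ZMod.unitOfCoprime q hqm) ^ f ∧
      vdeg q (locSub q r U) (locPushMul q r a) = f * k := by
  have hq : q.Prime := Fact.out
  have hqm' : ¬ q ∣ m := (Nat.Prime.coprime_iff_not_dvd hq).mp hqm
  obtain ⟨⟨hχr, har⟩, hloc⟩ := hK1 q r U n χ a (NeZero.ne n) hχ ha
  have hV : IsOpenL q (locSub q r U) := isOpenL_locSub q r U hU
  obtain ⟨f, φ, π, hf, hφV, hφ, -, -, hall⟩ := hL2 q (locSub q r U) hV
  obtain ⟨k, u, -, -, -, hvdeg⟩ := hall (locPushMul q r a) har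
  have hunr : ∀ τ : ↥(locSub q r U),
      IsInertial q (τ : PadicAlgCl q ≃ₐ[ℚ_[q]] PadicAlgCl q) →
      (χ.comp (locHom q r U)) τ = 1 := by
    intro τ hτ
    apply hcyc
    intro ζ hζ
    apply fixes_of_cyc_eq_one m _ _ hζ
    rw [locHom_coe, cyc_conj]
    exact cyc_loc_eq_one q m _ ((hL4 q m hqm').1 _ hτ)
  have h3 := hL3 q (locSub q r U) hV n (χ.comp (locHom q r U)) hχr hunr f hf ⟨φ, hφV⟩ hφ
    (locPushMul q r a) har k hvdeg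
  refine ⟨locHom q r U ⟨φ, hφV⟩, k, f, ?_, ?_, hvdeg⟩
  · rw [hloc]
    exact h3
  · apply Units.ext
    rw [locHom_coe, cyc_conj, cyc_loc_coe q m (q ^ f) φ ((hL4 q m hqm').2 φ f hφ),
      Units.val_pow_eq_pow_val, ZMod.coe_unitOfCoprime, Nat.cast_pow]

lemma finite_quotient_subgroupOf {G : Type*} [Group G] {H' H : Subgroup G} (hle : H' ≤ H)
    [Finite (G ⧸ H')] : Finite (↥H ⧸ H'.subgroupOf H) := by
  let e := Subgroup.quotientEquivProdOfLE hle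
  haveI : Finite ((G ⧸ H) × ↥H ⧸ H'.subgroupOf H) := Finite.of_equiv _ e
  haveI : Nonempty (G ⧸ H) := ⟨((1 : G) : G ⧸ H)⟩
  exact Finite.prod_right (G ⧸ H)

theorem exists_norm_approx (hK1 : CupLocSpec) (hK5 : LocalNormSpec) (hL5 : LocalCycloNormSpec)
    (U : Subgroup GQ) (hU : IsOpenQ U) (ℓ : ℕ) [Fact ℓ.Prime] (hℓ2 : ℓ ≠ 2) (e : ℕ) (he : 0 < e)
    [NeZero (ℓ ^ e)]
    (n : ℕ) [NeZero n] (χ : ↥U →* Multiplicative (ZMod n)) (hχ : IsLevelConstant₁ U.subtype χ)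
    (a : Qbˣ) (ha : GFixed U a) (r : GQ)
    (hloc : locBr ℓ r U (gcc U n χ a) = 0) :
    ∃ (k : ℤ) (s : ℤˣ) (t : ℕ) (κ : ↥U), χ κ = 1 ∧
      ((cyc (ℓ ^ e) (κ : GQ) : (ZMod (ℓ ^ e))ˣ) : ZMod (ℓ ^ e)) = (t : ZMod (ℓ ^ e)) ∧
      ‖((relNorm (locSub ℓ r U) (locPushMul ℓ r a) : (PadicAlgCl ℓ)ˣ) : PadicAlgCl ℓ) -
          ((s : ℤ) : PadicAlgCl ℓ) * (ℓ : PadicAlgCl ℓ) ^ k * (t : PadicAlgCl ℓ)‖
        ≤ ‖(ℓ : PadicAlgCl ℓ)‖ ^ (k + e) := by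
  classical
  obtain ⟨⟨hχr, har⟩, hK1eq⟩ := hK1 ℓ r U n χ a (NeZero.ne n) hχ ha
  rw [hK1eq] at hloc
  have hV : IsOpenL ℓ (locSub ℓ r U) := isOpenL_locSub ℓ r U hU
  obtain ⟨b, hb, hab⟩ := hK5 ℓ (locSub ℓ r U) hV n (χ.comp (locHom ℓ r U)) hχr
    (locPushMul ℓ r a) har hloc
  set V := locSub ℓ r U with hVdef
  set χr := χ.comp (locHom ℓ r U) with hχrdef
  set H' : Subgroup (PadicAlgCl ℓ ≃ₐ[ℚ_[ℓ]] PadicAlgCl ℓ) := χr.ker.map V.subtype with hH'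
  set Cker : Subgroup (ZMod (ℓ ^ e))ˣ := χ.ker.map ((cyc (ℓ ^ e)).comp U.subtype) with hCker
  set W : Subgroup (PadicAlgCl ℓ ≃ₐ[ℚ_[ℓ]] PadicAlgCl ℓ) :=
    Cker.comap ((cyc (ℓ ^ e)).comp (localGaloisToGlobal ℓ)) with hW
  have hH'V : H' ≤ V := Subgroup.map_subtype_le _
  have hH'W : H' ≤ W := by
    rintro τ' ⟨τ, hτ, rfl⟩
    show cyc (ℓ ^ e) (localGaloisToGlobal ℓ (τ : PadicAlgCl ℓ ≃ₐ[ℚ_[ℓ]] PadicAlgCl ℓ)) ∈ Cker
    refine ⟨locHom ℓ r U τ, hτ, ?_⟩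
    show cyc (ℓ ^ e) ((locHom ℓ r U τ : ↥U) : GQ) = _
    rw [locHom_coe, cyc_conj]
  -- finiteness
  haveI hfinV : Finite ((PadicAlgCl ℓ ≃ₐ[ℚ_[ℓ]] PadicAlgCl ℓ) ⧸ V) :=
    finite_quotient_of_isOpenL ℓ V hV
  have hidx : H'.index ≠ 0 := by
    rw [hH', Subgroup.index_map_subtype]
    refine mul_ne_zero ?_ (index_ne_zero_of_isOpenL ℓ V hV)
    rw [Subgroup.index_ker]
    exact Nat.card_pos.ne'
  haveI : H'.FiniteIndex := ⟨hidx⟩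
  haveI hfinH' : Finite ((PadicAlgCl ℓ ≃ₐ[ℚ_[ℓ]] PadicAlgCl ℓ) ⧸ H') :=
    Subgroup.finite_quotient_of_finiteIndex
  have hb' : ∀ h ∈ H', h • b = b := hb
  -- norm from `L_w` to `ℚ_ℓ` through `K_v`
  have hsub : H'.subgroupOf V = χr.ker :=
    Subgroup.comap_map_eq_self_of_injective (Subgroup.subtype_injective V) χr.ker
  have h1 : relNorm V (locPushMul ℓ r a) = relNorm H' b := by
    rw [hab, ← hsub]
    exact relNorm_trans hH'V hb'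
  -- norm from `L_w` to `ℚ_ℓ` through `E`
  set b' : (PadicAlgCl ℓ)ˣ := relNorm (G := ↥W) (H'.subgroupOf W) b with hb'def
  have h2 : relNorm W b' = relNorm H' b := relNorm_trans hH'W hb'
  haveI : Finite (↥W ⧸ H'.subgroupOf W) := finite_quotient_subgroupOf hH'W
  have hfix : LFixed ℓ W b' := by
    intro τ hτ
    have hbW : ∀ h ∈ H'.subgroupOf W, h • b = b := fun h hh => hb' (h : _) hh
    exact smul_relNorm (G := ↥W) (M := (PadicAlgCl ℓ)ˣ) (H'.subgroupOf W) hbW ⟨τ, hτ⟩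
  have hZW : ∀ τ : PadicAlgCl ℓ ≃ₐ[ℚ_[ℓ]] PadicAlgCl ℓ,
      (∀ ζ : PadicAlgCl ℓ, ζ ^ (ℓ ^ e) = 1 → τ ζ = ζ) → τ ∈ W := by
    intro τ hτ
    show cyc (ℓ ^ e) (localGaloisToGlobal ℓ τ) ∈ Cker
    rw [cyc_loc_eq_one ℓ (ℓ ^ e) τ hτ]
    exact one_mem _
  obtain ⟨k, s, t, τ, hτW, hτt, hest⟩ := hL5 ℓ hℓ2 e he W hZW b' hfix
  obtain ⟨κ, hκ, hκτ⟩ := hτW
  refine ⟨k, s, t, κ, hκ, ?_, ?_⟩
  · have h3 : cyc (ℓ ^ e) (κ : GQ) = cyc (ℓ ^ e) (localGaloisToGlobal ℓ τ) := hκτ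
    rw [h3]
    exact cyc_loc_coe ℓ (ℓ ^ e) t τ hτt
  · rw [h1, ← h2]
    exact hest

end Fermat.Agent.S55.G.Rec.H511
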