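import Fermat.Agent.S55.G.Rec.RelNormH707
import Fermat.Agent.S55.G.Rec.VdegH707

/-!
# S55 / layer G / block REC : uniformizers of the fixed fields  (helper707)

Part (a) of leaf (L2) `LocalStructureSpec`, from `vdeg` alone (no ring of integers, no
completeness): for `V ≤ G_{ℚ_q}` of finite index (e.g. open)

* `norm_pow_index`     : `‖a‖ ^ [G : V] = q ^ (- vdeg a)` for `a` fixed by `V`;
* `vdeg_pos_iff`, `vdeg_eq_zero_iff`, `vdeg_le_iff` : `vdeg` versus the norm;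
* `vdeg_one/inv/zpow`, `vdegHom`;
* `exists_uniformizer` : there is a uniformizer `π` (in the sense of `Rec.IsUniformizer`), with
  `0 < vdeg π`, such that every `a` fixed by `V` is `π ^ k * u` with `u` fixed by `V`, `‖u‖ = 1`
  and `vdeg a = vdeg π * k`;
* `vdeg_eq_of_isUniformizer` : all uniformizers have the same `vdeg`;
* `localStructure_of` : (L2) from the two remaining inputs
  (residue degree + Frobenius; `vdeg π = f`, i.e. `e f = n`).
-/

set_option autoImplicit false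
set_option linter.style.haveILetI false

noncomputable section

namespace Fermat.Agent.S55.G.Rec.UnifH707

open Fermat.Agent.S55.G.Rec Fermat.Agent.S55.G.Rec.RelNormH707

variable (q : ℕ) [Fact q.Prime]

local notation "Gq" => (PadicAlgCl q ≃ₐ[ℚ_[q]] PadicAlgCl q)

/-! ### `vdeg` and the norm -/

theorem norm_pow_index {V : Subgroup Gq} {a : (PadicAlgCl q)ˣ} (ha : LFixed q V a) :
    ‖(a : PadicAlgCl q)‖ ^ V.index = (q : ℝ) ^ (- vdeg q V a) := by
  obtain ⟨k, hk⟩ := VdegH707.exists_zpow q V a ha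
  have hq : 1 < q := (Fact.out : q.Prime).one_lt
  unfold vdeg
  rw [neg_neg, hk, Int.log_zpow hq]

lemma one_lt_q : (1 : ℝ) < (q : ℝ) := by exact_mod_cast (Fact.out : q.Prime).one_lt

theorem vdeg_pos_iff {V : Subgroup Gq} [V.FiniteIndex] {a : (PadicAlgCl q)ˣ}
    (ha : LFixed q V a) : 0 < vdeg q V a ↔ ‖(a : PadicAlgCl q)‖ < 1 := by
  rw [← pow_lt_one_iff_of_nonneg (norm_nonneg _) (Subgroup.FiniteIndex.index_ne_zero (H := V)),
    norm_pow_index q ha, zpow_lt_one_iff_right₀ (one_lt_q q)]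
  omega

theorem vdeg_eq_zero_iff {V : Subgroup Gq} [V.FiniteIndex] {a : (PadicAlgCl q)ˣ}
    (ha : LFixed q V a) : vdeg q V a = 0 ↔ ‖(a : PadicAlgCl q)‖ = 1 := by
  rw [← pow_eq_one_iff_of_nonneg (norm_nonneg _) (Subgroup.FiniteIndex.index_ne_zero (H := V)),
    norm_pow_index q ha]
  constructor
  · intro h
    rw [h, neg_zero, zpow_zero]
  · intro h
    have h1 : (q : ℝ) ^ (- vdeg q V a) = (q : ℝ) ^ (0 : ℤ) := by rw [h, zpow_zero]
    have h2 := zpow_right_injective₀ (by linarith [one_lt_q q]) (one_lt_q q).ne' h1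
    omega

theorem vdeg_le_iff {V : Subgroup Gq} [V.FiniteIndex] {a b : (PadicAlgCl q)ˣ}
    (ha : LFixed q V a) (hb : LFixed q V b) :
    vdeg q V a ≤ vdeg q V b ↔ ‖(b : PadicAlgCl q)‖ ≤ ‖(a : PadicAlgCl q)‖ := by
  rw [← pow_le_pow_iff_left₀ (norm_nonneg _) (norm_nonneg _)
    (Subgroup.FiniteIndex.index_ne_zero (H := V)),
    norm_pow_index q ha, norm_pow_index q hb, zpow_le_zpow_iff_right₀ (one_lt_q q)]
  omega

/-! ### The group of fixed units -/

/-- the units of the fixed field of `V` -/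
def fixedUnits (V : Subgroup Gq) : Subgroup (PadicAlgCl q)ˣ where
  carrier := {a | LFixed q V a}
  one_mem' := fun τ _ => smul_one τ
  mul_mem' := by
    intro a b ha hb τ hτ
    rw [smul_mul', ha τ hτ, hb τ hτ]
  inv_mem' := by
    intro a ha τ hτ
    rw [smul_inv', ha τ hτ]

lemma mem_fixedUnits {V : Subgroup Gq} {a : (PadicAlgCl q)ˣ} :
    a ∈ fixedUnits q V ↔ LFixed q V a := Iff.rfl

theorem lFixed_one (V : Subgroup Gq) : LFixed q V 1 := (fixedUnits q V).one_mem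
theorem lFixed_mul {V : Subgroup Gq} {a b : (PadicAlgCl q)ˣ} (ha : LFixed q V a)
    (hb : LFixed q V b) : LFixed q V (a * b) := (fixedUnits q V).mul_mem ha hb
theorem lFixed_inv {V : Subgroup Gq} {a : (PadicAlgCl q)ˣ} (ha : LFixed q V a) :
    LFixed q V a⁻¹ := (fixedUnits q V).inv_mem ha
theorem lFixed_zpow {V : Subgroup Gq} {a : (PadicAlgCl q)ˣ} (ha : LFixed q V a) (k : ℤ) :
    LFixed q V (a ^ k) := (fixedUnits q V).zpow_mem ha k

theorem vdeg_one (V : Subgroup Gq) : vdeg q V 1 = 0 := by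
  unfold vdeg
  simp

/-- `vdeg` as a homomorphism on the fixed units -/
def vdegHom (V : Subgroup Gq) [V.FiniteIndex] : ↥(fixedUnits q V) →* Multiplicative ℤ where
  toFun a := Multiplicative.ofAdd (vdeg q V (a : (PadicAlgCl q)ˣ))
  map_one' := by
    show Multiplicative.ofAdd (vdeg q V 1) = 1
    rw [vdeg_one]
    rfl
  map_mul' a b := by
    show Multiplicative.ofAdd (vdeg q V ((a : (PadicAlgCl q)ˣ) * (b : (PadicAlgCl q)ˣ))) = _
    rw [vdeg_mul q a.2 b.2]
    rfl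

theorem vdeg_inv {V : Subgroup Gq} [V.FiniteIndex] {a : (PadicAlgCl q)ˣ} (ha : LFixed q V a) :
    vdeg q V a⁻¹ = - vdeg q V a := by
  have h := vdeg_mul q ha (lFixed_inv q ha)
  rw [mul_inv_cancel, vdeg_one] at h
  omega

theorem vdeg_zpow {V : Subgroup Gq} [V.FiniteIndex] {a : (PadicAlgCl q)ˣ} (ha : LFixed q V a)
    (k : ℤ) : vdeg q V (a ^ k) = k * vdeg q V a := by
  have h := map_zpow (vdegHom q V) (⟨a, ha⟩ : ↥(fixedUnits q V)) k
  have h1 : vdegHom q V ((⟨a, ha⟩ : ↥(fixedUnits q V)) ^ k) =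
      Multiplicative.ofAdd (vdeg q V (a ^ k)) := rfl
  have h2 : vdegHom q V (⟨a, ha⟩ : ↥(fixedUnits q V)) = Multiplicative.ofAdd (vdeg q V a) := rfl
  rw [h1, h2, ← ofAdd_zsmul] at h
  have h3 := Multiplicative.ofAdd.injective h
  rw [h3, smul_eq_mul]

/-! ### The prime `q` -/

/-- `q` as a unit of `ℚ̄_q` -/
def qUnit : (PadicAlgCl q)ˣ :=
  Units.mk0 (algebraMap ℚ_[q] (PadicAlgCl q) (q : ℚ_[q])) (by
    rw [ne_eq, map_eq_zero]
    exact_mod_cast (Fact.out : q.Prime).ne_zero)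

lemma qUnit_coe : ((qUnit q : (PadicAlgCl q)ˣ) : PadicAlgCl q) =
    algebraMap ℚ_[q] (PadicAlgCl q) (q : ℚ_[q]) := rfl

theorem lFixed_qUnit (V : Subgroup Gq) : LFixed q V (qUnit q) := by
  intro τ _
  apply Units.ext
  show τ (algebraMap ℚ_[q] (PadicAlgCl q) (q : ℚ_[q])) = _
  rw [AlgEquiv.commutes]
  rfl

theorem norm_qUnit : ‖((qUnit q : (PadicAlgCl q)ˣ) : PadicAlgCl q)‖ = (q : ℝ)⁻¹ := by
  rw [qUnit_coe, PadicAlgCl.norm_extends, Padic.norm_p]

theorem norm_qUnit_lt_one : ‖((qUnit q : (PadicAlgCl q)ˣ) : PadicAlgCl q)‖ < 1 := by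
  rw [norm_qUnit]
  exact inv_lt_one_of_one_lt₀ (one_lt_q q)

/-! ### Uniformizers -/

/-- `IsFixedBy` for the underlying element of a unit is `LFixed`. -/
lemma isFixedBy_coe_iff {V : Subgroup Gq} {a : (PadicAlgCl q)ˣ} :
    IsFixedBy q V (a : PadicAlgCl q) ↔ LFixed q V a := by
  constructor
  · intro h τ hτ
    apply Units.ext
    exact h τ hτ
  · intro h τ hτ
    exact congrArg (fun u : (PadicAlgCl q)ˣ => (u : PadicAlgCl q)) (h τ hτ)

/-- **Existence of uniformizers and the decomposition `a = π ^ k u`.** -/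
theorem exists_uniformizer (V : Subgroup Gq) [V.FiniteIndex] :
    ∃ π : (PadicAlgCl q)ˣ, LFixed q V π ∧ IsUniformizer q V (π : PadicAlgCl q) ∧
      0 < vdeg q V π ∧
      ∀ a : (PadicAlgCl q)ˣ, LFixed q V a →
        ∃ (k : ℤ) (u : (PadicAlgCl q)ˣ), LFixed q V u ∧ ‖(u : PadicAlgCl q)‖ = 1 ∧
          a = π ^ k * u ∧ vdeg q V a = vdeg q V π * k := by
  classical
  -- the set of positive degrees
  let P : ℕ → Prop := fun d => 0 < d ∧ ∃ a : (PadicAlgCl q)ˣ, LFixed q V a ∧ vdeg q V a = d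
  have hP : ∃ d, P d := by
    have h0 : 0 < vdeg q V (qUnit q) :=
      (vdeg_pos_iff q (lFixed_qUnit q V)).2 (norm_qUnit_lt_one q)
    refine ⟨(vdeg q V (qUnit q)).toNat, by omega, qUnit q, lFixed_qUnit q V, ?_⟩
    omega
  obtain ⟨hd0, π, hπ, hπd⟩ := Nat.find_spec hP
  have hmin : ∀ a : (PadicAlgCl q)ˣ, LFixed q V a → 0 < vdeg q V a →
      vdeg q V π ≤ vdeg q V a := by
    intro a ha hpos
    have h1 : P (vdeg q V a).toNat := ⟨by omega, a, ha, by omega⟩
    have h2 := Nat.find_min' hP h1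
    omega
  have hπpos : 0 < vdeg q V π := by omega
  refine ⟨π, hπ, ⟨(isFixedBy_coe_iff q).2 hπ, π.ne_zero, (vdeg_pos_iff q hπ).1 hπpos, ?_⟩,
    hπpos, ?_⟩
  · intro x hx hx1
    by_cases hx0 : x = 0
    · rw [hx0, norm_zero]
      exact norm_nonneg _
    · have hxu : LFixed q V (Units.mk0 x hx0) := (isFixedBy_coe_iff q).1 hx
      have hpos : 0 < vdeg q V (Units.mk0 x hx0) := (vdeg_pos_iff q hxu).2 hx1
      exact (vdeg_le_iff q hπ hxu).1 (hmin _ hxu hpos)
  · intro a ha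
    set d := vdeg q V π with hd
    set k : ℤ := vdeg q V a / d with hk
    set u : (PadicAlgCl q)ˣ := (π ^ k)⁻¹ * a with hu
    have hufix : LFixed q V u := lFixed_mul q (lFixed_inv q (lFixed_zpow q hπ k)) ha
    have hvu : vdeg q V u = vdeg q V a - k * d := by
      rw [hu, vdeg_mul q (lFixed_inv q (lFixed_zpow q hπ k)) ha,
        vdeg_inv q (lFixed_zpow q hπ k), vdeg_zpow q hπ k]
      ring
    have hmod : vdeg q V u = vdeg q V a % d := by
      rw [hvu, hk, Int.emod_def]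
      ring
    have hlt : vdeg q V u < d := by
      rw [hmod]
      exact Int.emod_lt_of_pos _ hπpos
    have hge : 0 ≤ vdeg q V u := by
      rw [hmod]
      exact Int.emod_nonneg _ hπpos.ne'
    have hu0 : vdeg q V u = 0 := by
      by_contra hne
      have hpos : 0 < vdeg q V u := lt_of_le_of_ne hge (Ne.symm hne)
      have := hmin u hufix hpos
      omega
    refine ⟨k, u, hufix, (vdeg_eq_zero_iff q hufix).1 hu0, ?_, ?_⟩
    · rw [hu, mul_inv_cancel_left]
    · have : vdeg q V a = k * d := by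
        rw [hvu] at hu0
        omega
      rw [this, mul_comm]

/-- all uniformizers have the same norm, hence the same `vdeg` -/
theorem vdeg_eq_of_isUniformizer {V : Subgroup Gq} [V.FiniteIndex] {π π' : (PadicAlgCl q)ˣ}
    (hπ : IsUniformizer q V (π : PadicAlgCl q)) (hπ' : IsUniformizer q V (π' : PadicAlgCl q)) :
    vdeg q V π = vdeg q V π' := by
  have h1 : LFixed q V π := (isFixedBy_coe_iff q).1 hπ.1
  have h2 : LFixed q V π' := (isFixedBy_coe_iff q).1 hπ'.1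
  have h3 : ‖(π' : PadicAlgCl q)‖ ≤ ‖(π : PadicAlgCl q)‖ := hπ.2.2.2 _ hπ'.1 hπ'.2.2.1
  have h4 : ‖(π : PadicAlgCl q)‖ ≤ ‖(π' : PadicAlgCl q)‖ := hπ'.2.2.2 _ hπ.1 hπ.2.2.1
  exact le_antisymm ((vdeg_le_iff q h1 h2).2 h3) ((vdeg_le_iff q h2 h1).2 h4)

/-- **(L2) from its two arithmetic inputs**: a residue degree `f` with a Frobenius element in
`V`, and `vdeg π = f` for ONE uniformizer `π` (the fundamental identity `e f = n`). -/
theorem localStructure_of
    (hfrob : ∀ (q : ℕ) [Fact q.Prime] (V : Subgroup (PadicAlgCl q ≃ₐ[ℚ_[q]] PadicAlgCl q)),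
      IsOpenL q V → ∃ (f : ℕ) (φ : PadicAlgCl q ≃ₐ[ℚ_[q]] PadicAlgCl q),
        IsResidueDegree q V f ∧ φ ∈ V ∧
        (∀ x : PadicAlgCl q, ‖x‖ ≤ 1 → ‖φ x - x ^ (q ^ f)‖ < 1) ∧
        ∃ π : (PadicAlgCl q)ˣ, IsUniformizer q V (π : PadicAlgCl q) ∧ vdeg q V π = f) :
    LocalStructureSpec := by
  intro q _ V hV
  haveI := finiteIndex_of_isOpenL q hV
  obtain ⟨f, φ, hf, hφV, hφ, π₀, hπ₀, hπ₀f⟩ := hfrob q V hV
  obtain ⟨π, hπfix, hπ, -, hdec⟩ := exists_uniformizer q V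
  have hπf : vdeg q V π = f := by
    rw [vdeg_eq_of_isUniformizer q hπ hπ₀, hπ₀f]
  refine ⟨f, φ, π, hf, hφV, hφ, hπ, hπf, fun a ha => ?_⟩
  obtain ⟨k, u, hu, hu1, hau, hva⟩ := hdec a ha
  exact ⟨k, u, hu, hu1, hau, by rw [hva, hπf]⟩

end Fermat.Agent.S55.G.Rec.UnifH707
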