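import Fermat.Agent.S55.G.Rec.WeakApproxPlaceH904

/-!
# S55 / layer G / block REC, leaf G3 (weak approximation), part 2 : absolute values

* `exists_approx` : weak approximation (Mathlib `AbsoluteValue.denseRange_algebraMap_pi`) in
  `ε`-form with one `ε` per absolute value.
* `embAbs ℓ e` : the absolute value `x ↦ ‖ι_ℓ (e x)‖` of a field `K` attached to an embedding
  `e : K →ₐ[ℚ] ℚ̄`; nontriviality, inequivalence for different primes, ultrametric inequality.
-/

set_option autoImplicit false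
set_option linter.style.haveILetI false

noncomputable section

open scoped Pointwise

namespace Fermat.Agent.S55.G.Rec.H904

local notation "Qb" => AlgebraicClosure ℚ
local notation "GQ" => (AlgebraicClosure ℚ ≃ₐ[ℚ] AlgebraicClosure ℚ)

/-- Weak approximation, uniform `ε`. -/
theorem exists_approx_uniform {F : Type*} [Field F] {ι : Type*} [Finite ι]
    (v : ι → AbsoluteValue F ℝ)
    (h : ∀ i, (v i).IsNontrivial) (hv : Pairwise fun i j ↦ ¬(v i).IsEquiv (v j))
    (t : ι → F) (ε : ℝ) (hε : 0 < ε) : ∃ a : F, ∀ i, v i (a - t i) < ε := by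
  classical
  haveI := Fintype.ofFinite ι
  have hd := AbsoluteValue.denseRange_algebraMap_pi h hv
  rw [Metric.denseRange_iff] at hd
  obtain ⟨a, ha⟩ := hd (fun i => WithAbs.toAbs (v i) (t i)) ε hε
  refine ⟨a, fun i => ?_⟩
  rw [dist_pi_lt_iff hε] at ha
  have := ha i
  rw [dist_comm, dist_eq_norm] at this
  exact this

/-- Weak approximation, one `ε` per absolute value. -/
theorem exists_approx {F : Type*} [Field F] {ι : Type*} [Finite ι]
    (v : ι → AbsoluteValue F ℝ)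
    (h : ∀ i, (v i).IsNontrivial) (hv : Pairwise fun i j ↦ ¬(v i).IsEquiv (v j))
    (t : ι → F) (ε : ι → ℝ) (hε : ∀ i, 0 < ε i) : ∃ a : F, ∀ i, v i (a - t i) < ε i := by
  classical
  haveI := Fintype.ofFinite ι
  rcases isEmpty_or_nonempty ι with hι | hι
  · exact ⟨0, fun i => (hι.false i).elim⟩
  · have hne : (Finset.univ : Finset ι).Nonempty := Finset.univ_nonempty
    have h0 : 0 < Finset.univ.inf' hne ε := by
      rw [Finset.lt_inf'_iff]
      exact fun i _ => hε i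
    obtain ⟨a, ha⟩ := exists_approx_uniform v h hv t _ h0
    exact ⟨a, fun i => lt_of_lt_of_le (ha i) (Finset.inf'_le ε (Finset.mem_univ i))⟩

section EmbAbs

variable (ℓ : ℕ) [Fact ℓ.Prime] {K : Type*} [Field K] [Algebra ℚ K]

/-- The absolute value `x ↦ ‖ι_ℓ (e x)‖` on `K` attached to `e : K →ₐ[ℚ] ℚ̄`. -/
def embAbs (e : K →ₐ[ℚ] Qb) : AbsoluteValue K ℝ :=
  (NormedField.toAbsoluteValue (PadicAlgCl ℓ)).comp
    (f := (((padicEmbedding ℓ).comp e : K →ₐ[ℚ] PadicAlgCl ℓ) : K →+* PadicAlgCl ℓ))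
    (RingHom.injective _)

theorem embAbs_apply (e : K →ₐ[ℚ] Qb) (x : K) : embAbs ℓ e x = ‖padicEmbedding ℓ (e x)‖ := rfl

theorem embAbs_natCast_self (e : K →ₐ[ℚ] Qb) : embAbs ℓ e (ℓ : K) = (ℓ : ℝ)⁻¹ := by
  rw [embAbs_apply, map_natCast]
  exact Fermat.Agent.S55.H175.norm_padicEmbedding_natCast_self ℓ

theorem embAbs_natCast_of_not_dvd (e : K →ₐ[ℚ] Qb) (n : ℕ) (hn : ¬ ℓ ∣ n) :
    embAbs ℓ e (n : K) = 1 := by
  rw [embAbs_apply, map_natCast, map_natCast]
  have h1 : ((n : ℚ_[ℓ]) : PadicAlgCl ℓ) = (n : PadicAlgCl ℓ) := map_natCast _ n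
  rw [← h1, PadicAlgCl.norm_extends, Padic.norm_natCast_eq_one_iff]
  exact (Nat.Prime.coprime_iff_not_dvd (Fact.out : ℓ.Prime)).2 hn

theorem embAbs_isNontrivial (e : K →ₐ[ℚ] Qb) : (embAbs ℓ e).IsNontrivial := by
  have h1 : (1 : ℝ) < ℓ := by exact_mod_cast (Fact.out : ℓ.Prime).one_lt
  refine ⟨(ℓ : K), ?_, ?_⟩
  · intro h0
    have := embAbs_natCast_self ℓ e
    rw [h0, map_zero] at this
    have : (ℓ : ℝ)⁻¹ ≠ 0 := inv_ne_zero (by linarith)
    exact this (by linarith)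
  · rw [embAbs_natCast_self]
    intro h
    have h2 : (ℓ : ℝ)⁻¹ < 1 := inv_lt_one_of_one_lt₀ h1
    linarith

/-- Ultrametric inequality in the form used below. -/
theorem embAbs_eq_of_sub_lt (e : K →ₐ[ℚ] Qb) {a t : K} (h : embAbs ℓ e (a - t) < embAbs ℓ e t) :
    embAbs ℓ e a = embAbs ℓ e t := by
  simp only [embAbs_apply, map_sub] at h ⊢
  have h1 : padicEmbedding ℓ (e a) =
      padicEmbedding ℓ (e t) + (padicEmbedding ℓ (e a) - padicEmbedding ℓ (e t)) := by ring
  rw [h1]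
  exact IsUltrametricDist.norm_add_eq_max_of_norm_ne_norm (ne_of_gt h) ▸ max_eq_left h.le

end EmbAbs

/-- Absolute values attached to different primes are inequivalent. -/
theorem not_isEquiv_embAbs_of_ne {p r : ℕ} [Fact p.Prime] [Fact r.Prime] (hpr : p ≠ r)
    {K : Type*} [Field K] [Algebra ℚ K] (e e' : K →ₐ[ℚ] Qb) :
    ¬ (embAbs p e).IsEquiv (embAbs r e') := by
  intro h
  have h1 : embAbs p e (p : K) < 1 := by
    rw [embAbs_natCast_self]
    exact inv_lt_one_of_one_lt₀ (by exact_mod_cast (Fact.out : p.Prime).one_lt)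
  have h2 := h.lt_one_iff.mp h1
  rw [embAbs_natCast_of_not_dvd r e' p] at h2
  · exact lt_irrefl _ h2
  · intro hdvd
    exact hpr ((Nat.prime_dvd_prime_iff_eq (Fact.out : r.Prime) (Fact.out : p.Prime)).mp hdvd).symm

end Fermat.Agent.S55.G.Rec.H904
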