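import Fermat.Agent.S55.G.Rec.WeakApproxLocalH904

/-!
# S55 / layer G / block REC : leaf (G3) `WeakApproxSpec`  (helper904)

Weak approximation in `K = ℚ̄^U`: prescribed valuations at the places above `p` and closeness to
`1` at all places above another prime `r`.

Proof.  The places of `K` above `p` are the absolute values `x ↦ ‖ι_p (g⁻¹ x)‖`, `g ∈ Rp`; they are
pairwise inequivalent because equivalent places have the same prime of `𝓞_K`, hence (transitivity
of the profinite group `U` on the primes of `ℤ̄` above a prime of `𝓞_K`, and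
`D_p = range (localGaloisToGlobal p)`) lie in the same double coset `U g D_p`.  The places above `r`
form a finite set (finitely many embeddings `K → ℚ̄`).  Mathlib's weak approximation theorem
(`AbsoluteValue.denseRange_algebraMap_pi`) gives `a ∈ K` close to `x_g ^ j(g)` at `g ∈ Rp` and close
to `1` above `r`, where `x_g ∈ K` has the norm of a uniformizer of `K_g` (`K` is dense in `K_g`).
-/

set_option autoImplicit false
set_option linter.style.haveILetI false

noncomputable section

open scoped Pointwise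

namespace Fermat.Agent.S55.G.Rec.H904

local notation "Qb" => AlgebraicClosure ℚ
local notation "GQ" => (AlgebraicClosure ℚ ≃ₐ[ℚ] AlgebraicClosure ℚ)

/-- The embedding `x ↦ g⁻¹ x` of the fixed field of `U` into `ℚ̄`. -/
def gEmb (U : Subgroup GQ) (g : GQ) : IntermediateField.fixedField U →ₐ[ℚ] Qb :=
  ((g⁻¹ : GQ) : Qb →ₐ[ℚ] Qb).comp (IntermediateField.fixedField U).val

theorem gEmb_apply (U : Subgroup GQ) (g : GQ) (x : IntermediateField.fixedField U) :
    gEmb U g x = g⁻¹ (x : Qb) := rfl

/-- Distinct double coset representatives give inequivalent places. -/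
theorem eq_of_isEquiv_of_reps {U : Subgroup GQ} (hU : IsOpenQ U) (p : ℕ) [Fact p.Prime]
    {Rp : Finset GQ} (hRp : IsDoubleCosetReps U (localGaloisToGlobal p).range Rp) {g g' : GQ}
    (hg : g ∈ Rp) (hg' : g' ∈ Rp)
    (h : (embAbs p (gEmb U g)).IsEquiv (embAbs p (gEmb U g'))) : g = g' := by
  obtain ⟨u, hu, d, hd, hgg⟩ := exists_mem_doubleCoset p hU g g' (fun x _ hxfix => by
    have hx : x ∈ IntermediateField.fixedField U := by
      rw [IntermediateField.mem_fixedField_iff]
      exact hxfix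
    exact h.lt_one_iff (x := ⟨x, hx⟩))
  obtain ⟨r0, -, huniq⟩ := hRp g'
  have e1 : g' = r0 := huniq g' ⟨hg', 1, one_mem _, 1, one_mem _, by simp⟩
  have e2 : g = r0 := huniq g ⟨hg, u, hu, d, hd, hgg⟩
  rw [e1, e2]

/-- **Leaf (G3)**: weak approximation. -/
theorem weakApprox : WeakApproxSpec := by
  intro U hU p r _ _ hpr Rp hRp j
  classical
  haveI := finiteDimensional_fixedField_of_isOpenQ hU
  -- the places above `r`: classes of embeddings
  let s : Setoid (IntermediateField.fixedField U →ₐ[ℚ] Qb) :=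
    Setoid.comap (embAbs r) inferInstance
  have hs : ∀ e e' : IntermediateField.fixedField U →ₐ[ℚ] Qb,
      s.r e e' ↔ (embAbs r e).IsEquiv (embAbs r e') := fun _ _ => Iff.rfl
  haveI : Finite (IntermediateField.fixedField U →ₐ[ℚ] Qb) := inferInstance
  haveI : Finite (Quotient s) := inferInstance
  let v : {g // g ∈ Rp} ⊕ Quotient s → AbsoluteValue (IntermediateField.fixedField U) ℝ :=
    Sum.elim (fun g => embAbs p (gEmb U g.1)) (fun c => embAbs r c.out)
  have hnt : ∀ i, (v i).IsNontrivial := by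
    rintro (g | c)
    · exact embAbs_isNontrivial p _
    · exact embAbs_isNontrivial r _
  have hpw : Pairwise fun i j => ¬ (v i).IsEquiv (v j) := by
    rintro (g | c) (g' | c') hne heq
    · apply hne
      congr 1
      exact Subtype.ext (eq_of_isEquiv_of_reps hU p hRp g.2 g'.2 heq)
    · exact not_isEquiv_embAbs_of_ne hpr _ _ heq
    · exact not_isEquiv_embAbs_of_ne (Ne.symm hpr) _ _ heq
    · apply hne
      congr 1
      rw [← Quotient.out_eq c, ← Quotient.out_eq c']
      exact Quotient.sound ((hs _ _).2 heq)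
  -- local data at the places above `p`
  have hloc : ∀ g : {g // g ∈ Rp}, ∃ (π : PadicAlgCl p) (x : IntermediateField.fixedField U),
      IsUniformizer p (locSub p g.1 U) π ∧ ‖padicEmbedding p (g.1⁻¹ (x : Qb))‖ = ‖π‖ := by
    intro g
    have hopen := H124.isOpenL_locSub124 p hU g.1
    have hfin := H124.finiteIndex_of_isOpenL124 p hopen
    obtain ⟨π, hπ⟩ := exists_isUniformizer p _ hfin.index_ne_zero
    obtain ⟨x, hx⟩ := exists_global_norm_eq p hU g.1 π hπ.1 hπ.2.1
    exact ⟨π, x, hπ, hx⟩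
  choose π x hπ hx using hloc
  have hπ0 : ∀ g, π g ≠ 0 := fun g => (hπ g).2.1
  have hπpos : ∀ g, 0 < ‖π g‖ := fun g => norm_pos_iff.mpr (hπ0 g)
  -- the targets
  obtain ⟨a, ha⟩ := exists_approx v hnt hpw
    (Sum.elim (fun g => (x g) ^ (j g.1)) (fun _ => 1))
    (Sum.elim (fun g => ‖π g‖ ^ (j g.1)) (fun _ => 1))
    (by
      rintro (g | c)
      · exact zpow_pos (hπpos g) _
      · exact one_pos)
  -- the value of `a` at the places above `p`
  have hval : ∀ g : {g // g ∈ Rp}, embAbs p (gEmb U g.1) (x g ^ j g.1) = ‖π g‖ ^ (j g.1) := by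
    intro g
    rw [embAbs_apply, map_zpow₀, map_zpow₀, norm_zpow, gEmb_apply, hx]
  have hap : ∀ g : {g // g ∈ Rp}, ‖padicEmbedding p (g.1⁻¹ (a : Qb))‖ = ‖π g‖ ^ (j g.1) := by
    intro g
    have h1 : embAbs p (gEmb U g.1) (a - x g ^ j g.1) < ‖π g‖ ^ (j g.1) := ha (Sum.inl g)
    rw [← hval g] at h1
    have h2 := embAbs_eq_of_sub_lt p (gEmb U g.1) h1
    rw [hval g] at h2
    exact h2
  -- the value of `a - 1` at the places above `r`
  have har : ∀ h : GQ, ‖padicEmbedding r (h⁻¹ (a : Qb)) - 1‖ < 1 := by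
    intro h
    have h1 : embAbs r (Quotient.out (Quotient.mk s (gEmb U h))) (a - 1) < 1 :=
      ha (Sum.inr (Quotient.mk s (gEmb U h)))
    have h2 : (embAbs r (Quotient.out (Quotient.mk s (gEmb U h)))).IsEquiv
        (embAbs r (gEmb U h)) := (hs _ _).1 (Quotient.mk_out (s := s) (gEmb U h))
    have h3 := h2.lt_one_iff.mp h1
    rw [embAbs_apply, map_sub, map_sub, map_one, map_one] at h3
    exact h3
  have ha0 : (a : Qb) ≠ 0 := by
    intro h0
    have h1 := har 1
    rw [h0, map_zero, map_zero, zero_sub, norm_neg, norm_one] at h1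
    exact lt_irrefl _ h1
  refine ⟨Units.mk0 (a : Qb) ha0, ?_, ?_, ?_⟩
  · intro u hu
    apply Units.ext
    exact (IntermediateField.mem_fixedField_iff _ _).1 a.2 u hu
  · intro g hg
    refine ⟨Units.mk0 (π ⟨g, hg⟩) (hπ0 _),
      (Units.mk0 (π ⟨g, hg⟩) (hπ0 _) ^ (j g))⁻¹ * locPushMul p g (Units.mk0 (a : Qb) ha0),
      hπ ⟨g, hg⟩, ?_, ?_⟩
    · rw [Units.val_mul, Units.val_inv_eq_inv_val, Units.val_zpow_eq_zpow_val, norm_mul, norm_inv,
        norm_zpow]
      have h1 : ‖((locPushMul p g (Units.mk0 (a : Qb) ha0) : (PadicAlgCl p)ˣ) : PadicAlgCl p)‖ =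
          ‖π ⟨g, hg⟩‖ ^ (j g) := hap ⟨g, hg⟩
      rw [h1]
      exact inv_mul_cancel₀ (zpow_ne_zero _ (ne_of_gt (hπpos _)))
    · rw [mul_inv_cancel_left]
  · intro h
    exact har h

end Fermat.Agent.S55.G.Rec.H904
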