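import Mathlib

/-!
# REC auxiliary lemma (helper897): a prime `ℓ ≠ p` modulo which `p` has exact order `p ^ n`

For a prime `p` and `n ≥ 1`, every prime factor `ℓ` of `Φ_{p^n}(p)` is different from `p`
and `p` has multiplicative order exactly `p ^ n` modulo `ℓ`.  In particular `ℓ ≡ 1 mod p ^ n`.
This is the auxiliary tame prime used in step 1 of the elementary proof of the sum formula
(`coord/S55-G-recip.md`).
-/

set_option autoImplicit false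

namespace Fermat.Agent.S55.G.Rec.H897

open Polynomial Nat

/-- `Φ_{p^(m+1)}(p) ≡ 1 mod p`. -/
lemma cyclotomic_prime_pow_eval_self_modEq_one (p : ℕ) (hp : p.Prime) (m : ℕ) :
    (eval (p : ℤ) (cyclotomic (p ^ (m + 1)) ℤ)) ≡ 1 [ZMOD (p : ℤ)] := by
  rw [cyclotomic_prime_pow_eq_geom_sum hp]
  simp only [eval_finsetSum, eval_pow, eval_X]
  have hp0 : 0 < p := hp.pos
  obtain ⟨k, rfl⟩ : ∃ k, p = k + 1 := ⟨p - 1, by omega⟩
  rw [Finset.sum_range_succ']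
  simp only [pow_zero]
  have : ∀ i ∈ Finset.range k,
      (((((k + 1 : ℕ) : ℤ)) ^ (k + 1) ^ m) ^ (i + 1)) ≡ 0 [ZMOD ((k + 1 : ℕ) : ℤ)] := by
    intro i _
    rw [Int.modEq_zero_iff_dvd, ← pow_mul]
    exact dvd_pow_self _ (Nat.mul_ne_zero (pow_ne_zero _ (Nat.succ_ne_zero k)) (Nat.succ_ne_zero i))
  have hsum : (∑ i ∈ Finset.range k, ((((k + 1 : ℕ) : ℤ)) ^ (k + 1) ^ m) ^ (i + 1))
      ≡ 0 [ZMOD ((k + 1 : ℕ) : ℤ)] := by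
    rw [Int.modEq_zero_iff_dvd]
    exact Finset.dvd_sum fun i hi => (Int.modEq_zero_iff_dvd.1 (this i hi))
  simpa using hsum.add_right 1

/-- **Zsigmondy-lite.** For a prime `p` and `n ≥ 1` there is a prime `ℓ ≠ p` such that the
multiplicative order of `p` modulo `ℓ` is exactly `p ^ n`. -/
theorem exists_prime_orderOf_eq_prime_pow (p : ℕ) (hp : p.Prime) (n : ℕ) (hn : 1 ≤ n) :
    ∃ ℓ : ℕ, ℓ.Prime ∧ ℓ ≠ p ∧ orderOf ((p : ZMod ℓ)) = p ^ n := by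
  obtain ⟨m, rfl⟩ : ∃ m, n = m + 1 := ⟨n - 1, by omega⟩
  have hk1 : 1 < p ^ (m + 1) := Nat.one_lt_pow (Nat.succ_ne_zero m) hp.one_lt
  have hgt : 1 < (eval (p : ℤ) (cyclotomic (p ^ (m + 1)) ℤ)).natAbs := by
    calc
      1 ≤ p - 1 := le_tsub_of_add_le_left hp.two_le
      _ < (eval (p : ℤ) (cyclotomic (p ^ (m + 1)) ℤ)).natAbs :=
        sub_one_lt_natAbs_cyclotomic_eval hk1 hp.one_lt.ne'
  set ℓ := minFac (eval (p : ℤ) (cyclotomic (p ^ (m + 1)) ℤ)).natAbs with hℓ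
  have hprime : Fact ℓ.Prime := ⟨minFac_prime hgt.ne'⟩
  have hdvd : (ℓ : ℤ) ∣ eval (p : ℤ) (cyclotomic (p ^ (m + 1)) ℤ) := by
    apply Int.dvd_natAbs.1
    exact mod_cast minFac_dvd (eval (p : ℤ) (cyclotomic (p ^ (m + 1)) ℤ)).natAbs
  have hne : ℓ ≠ p := by
    intro h
    have h1 := cyclotomic_prime_pow_eval_self_modEq_one p hp m
    rw [h] at hdvd
    have h0 : eval (p : ℤ) (cyclotomic (p ^ (m + 1)) ℤ) ≡ 0 [ZMOD (p : ℤ)] :=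
      Int.modEq_zero_iff_dvd.2 hdvd
    have h10 : (1 : ℤ) ≡ 0 [ZMOD (p : ℤ)] := h1.symm.trans h0
    have : (p : ℤ) ∣ 1 := Int.modEq_zero_iff_dvd.1 h10
    have hp1 : p ∣ 1 := by exact_mod_cast this
    exact hp.one_lt.ne' (Nat.dvd_one.1 hp1)
  have hroot : IsRoot (cyclotomic (p ^ (m + 1)) (ZMod ℓ)) ((p : ℕ) : ZMod ℓ) := by
    have : (((p : ℕ) : ℤ) : ZMod ℓ) = ↑(Int.castRingHom (ZMod ℓ) (p : ℤ)) := by simp
    rw [IsRoot.def, ← map_cyclotomic_int (p ^ (m + 1)) (ZMod ℓ), eval_map,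
      ← Int.cast_natCast, this, eval₂_hom, Int.coe_castRingHom,
      ZMod.intCast_zmod_eq_zero_iff_dvd]
    exact hdvd
  have hnz : NeZero ((p ^ (m + 1) : ℕ) : ZMod ℓ) := by
    refine NeZero.of_not_dvd (ZMod ℓ) fun hdiv => hne ?_
    exact (Nat.prime_dvd_prime_iff_eq hprime.1 hp).1 (hprime.1.dvd_of_dvd_pow hdiv)
  refine ⟨ℓ, hprime.1, hne, ?_⟩
  exact ((isRoot_cyclotomic_iff.mp hroot).eq_orderOf).symm

/-- Consequence: such an `ℓ` satisfies `ℓ ≡ 1 mod p ^ n`. -/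
theorem exists_prime_orderOf_eq_prime_pow' (p : ℕ) (hp : p.Prime) (n : ℕ) (hn : 1 ≤ n) :
    ∃ ℓ : ℕ, ℓ.Prime ∧ ℓ ≠ p ∧ orderOf ((p : ZMod ℓ)) = p ^ n ∧ p ^ n ∣ ℓ - 1 := by
  obtain ⟨ℓ, hℓ, hne, hord⟩ := exists_prime_orderOf_eq_prime_pow p hp n hn
  have : Fact ℓ.Prime := ⟨hℓ⟩
  refine ⟨ℓ, hℓ, hne, hord, ?_⟩
  have hpl : ¬ ℓ ∣ p := fun h => hne ((Nat.prime_dvd_prime_iff_eq hℓ hp).1 h)
  have hdiv : orderOf ((p : ZMod ℓ)) ∣ ℓ - 1 :=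
    ZMod.orderOf_dvd_card_sub_one (mt (CharP.cast_eq_zero_iff _ _ _).1 hpl)
  rwa [hord] at hdiv

/-- There are infinitely many such primes as `n` varies: for every bound `B` there are `n` and
a prime `ℓ > B`, `ℓ ≠ p`, with `orderOf (p : ZMod ℓ) = p ^ n` and `n ≥ n₀`. -/
theorem exists_prime_gt_orderOf_eq_prime_pow (p : ℕ) (hp : p.Prime) (n₀ B : ℕ) :
    ∃ n ℓ : ℕ, n₀ ≤ n ∧ ℓ.Prime ∧ ℓ ≠ p ∧ B < ℓ ∧ orderOf ((p : ZMod ℓ)) = p ^ n := by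
  -- `ℓ ≡ 1 mod p ^ n` forces `ℓ > p ^ n ≥ 2 ^ n > n`
  obtain ⟨ℓ, hℓ, hne, hord, hdvd⟩ :=
    exists_prime_orderOf_eq_prime_pow' p hp (max n₀ B + 1) (by omega)
  refine ⟨max n₀ B + 1, ℓ, by omega, hℓ, hne, ?_, hord⟩
  have h1 : p ^ (max n₀ B + 1) ≤ ℓ - 1 :=
    Nat.le_of_dvd (by have := hℓ.two_le; omega) hdvd
  have h2 : max n₀ B + 1 < p ^ (max n₀ B + 1) := Nat.lt_pow_self hp.one_lt
  omega

end Fermat.Agent.S55.G.Rec.H897
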